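import Fermat.Agent.FiniteFlat.OfFunctions
import Mathlib.RingTheory.HopfAlgebra.Convolution
import Mathlib.RingTheory.Localization.Integer
import Mathlib.LinearAlgebra.Basis.VectorSpace
import Mathlib.Algebra.Polynomial.Roots

/-!
# Closure properties of models by algebras of functions

`HasFunctionModel R k L M` says that some algebra of functions satisfies the hypotheses of
`exists_hopfAlgebra_of_functions` for the finite Galois module `M`. It is equivalent to the
existence of a finite flat cocommutative Hopf algebra with points `M`, and it passes to stable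
subgroups, quotients and finite products.
-/

set_option autoImplicit false

noncomputable section

open scoped TensorProduct
open Module (Basis)

namespace Fermat.Agent.FiniteFlat

/-- The finite Galois module `M` has a model by an algebra of functions over `R`. -/
def HasFunctionModel (R k L : Type) [CommRing R] [Field k] [Field L] [Algebra R k] [Algebra k L]
    [Algebra R L] (M : Type) [AddCommGroup M] [DistribMulAction (L ≃ₐ[k] L) M] : Prop :=
  ∃ H : Subalgebra R (M → L), Module.Finite R H ∧
    (∀ f ∈ H, ∀ (σ : L ≃ₐ[k] L) (m : M), f (σ • m) = σ (f m)) ∧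
    (∀ m m' : M, m ≠ m' → ∃ f ∈ H, f m ≠ f m') ∧
    (∀ f ∈ H, funPullback R (fun q : M × M => q.1 + q.2) f ∈
      H.map (funPullback R Prod.fst) ⊔ H.map (funPullback R Prod.snd)) ∧
    ∀ f ∈ H, funPullback R (fun m : M => -m) f ∈ H

/-- The algebra of functions `H` is a model of `M`. -/
def IsFunctionModel (k : Type) {R L : Type} [CommRing R] [Field k] [Field L] [Algebra R k]
    [Algebra k L] [Algebra R L] {M : Type} [AddCommGroup M] [DistribMulAction (L ≃ₐ[k] L) M]
    (H : Subalgebra R (M → L)) : Prop :=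
  Module.Finite R H ∧
    (∀ f ∈ H, ∀ (σ : L ≃ₐ[k] L) (m : M), f (σ • m) = σ (f m)) ∧
    (∀ m m' : M, m ≠ m' → ∃ f ∈ H, f m ≠ f m') ∧
    (∀ f ∈ H, funPullback R (fun q : M × M => q.1 + q.2) f ∈
      H.map (funPullback R Prod.fst) ⊔ H.map (funPullback R Prod.snd)) ∧
    ∀ f ∈ H, funPullback R (fun m : M => -m) f ∈ H

variable {R k L : Type} [CommRing R] [Field k] [Field L]
  [Algebra R k] [Algebra k L] [Algebra R L] [IsScalarTower R k L]

section Basic

omit [Field k] [Algebra R k] [Algebra k L] [IsScalarTower R k L] in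
theorem range_tensorEval_eq_sup {X Y : Type} (H₁ : Subalgebra R (X → L))
    (H₂ : Subalgebra R (Y → L)) :
    (tensorEval H₁.val H₂.val).range =
      H₁.map (funPullback R (Prod.fst : X × Y → X)) ⊔ H₂.map (funPullback R (Prod.snd : X × Y → Y)) := by
  refine le_antisymm ?_ (sup_le ?_ ?_)
  · rintro _ ⟨z, rfl⟩
    induction z using TensorProduct.induction_on with
    | zero => exact map_zero (tensorEval H₁.val H₂.val) ▸ zero_mem _
    | tmul u v =>
      have h : (tensorEval H₁.val H₂.val).toRingHom (u ⊗ₜ v) =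
          funPullback R (Prod.fst : X × Y → X) (u : X → L) *
            funPullback R (Prod.snd : X × Y → Y) (v : Y → L) := by
        funext q
        simp
      rw [h]
      exact mul_mem ((le_sup_left : _ ≤ H₁.map (funPullback R (Prod.fst : X × Y → X)) ⊔
          H₂.map (funPullback R (Prod.snd : X × Y → Y))) ⟨_, u.2, rfl⟩)
        ((le_sup_right : _ ≤ H₁.map (funPullback R (Prod.fst : X × Y → X)) ⊔
          H₂.map (funPullback R (Prod.snd : X × Y → Y))) ⟨_, v.2, rfl⟩)
    | add u v hu hv => exact map_add (tensorEval H₁.val H₂.val) u v ▸ add_mem hu hv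
  · rintro _ ⟨g, hg, rfl⟩
    exact ⟨⟨g, hg⟩ ⊗ₜ 1, by funext q; simp⟩
  · rintro _ ⟨g, hg, rfl⟩
    exact ⟨1 ⊗ₜ ⟨g, hg⟩, by funext q; simp⟩

variable {M : Type} [AddCommGroup M] [DistribMulAction (L ≃ₐ[k] L) M]

omit [IsScalarTower R k L] in
/-- The restrictions to a stable subgroup of the functions of a model are a model. -/
theorem IsFunctionModel.map_pullback {P : Type} [AddCommGroup P]
    [DistribMulAction (L ≃ₐ[k] L) P] {H : Subalgebra R (M → L)} (hH : IsFunctionModel k H)
    (u : P →+ M) (hu : Function.Injective u)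
    (hσ : ∀ (σ : L ≃ₐ[k] L) (x : P), u (σ • x) = σ • u x) :
    IsFunctionModel k (H.map (funPullback R u)) := by
  obtain ⟨hfin, hequiv, hsep, hadd, hneg⟩ := hH
  refine ⟨?_, ?_, ?_, ?_, ?_⟩
  · exact Module.Finite.of_surjective
      (((funPullback R u).comp H.val).codRestrict (H.map (funPullback R u))
        fun f => ⟨_, f.2, rfl⟩).toLinearMap
      fun y => by
        obtain ⟨_, f, hf, rfl⟩ := y
        exact ⟨⟨f, hf⟩, rfl⟩
  · rintro _ ⟨f, hf, rfl⟩ σ x
    simp only [RingHom.coe_coe, funPullback_apply, hσ, hequiv f hf]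
  · intro x x' hne
    obtain ⟨f, hf, hne'⟩ := hsep (u x) (u x') (hu.ne hne)
    exact ⟨_, ⟨f, hf, rfl⟩, hne'⟩
  · rintro _ ⟨f, hf, rfl⟩
    have h1 : funPullback R (Prod.map u u) (funPullback R (fun q : M × M => q.1 + q.2) f) ∈
        (H.map (funPullback R Prod.fst) ⊔ H.map (funPullback R Prod.snd)).map
          (funPullback R (Prod.map u u)) := ⟨_, hadd f hf, rfl⟩
    rw [Algebra.map_sup, Subalgebra.map_map, Subalgebra.map_map] at h1
    rw [Subalgebra.map_map, Subalgebra.map_map]
    have h2 : funPullback R (Prod.map u u) (funPullback R (fun q : M × M => q.1 + q.2) f) =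
        funPullback R (fun q : P × P => q.1 + q.2) (funPullback R u f) := by
      funext q
      simp [map_add]
    exact h2 ▸ h1
  · rintro _ ⟨f, hf, rfl⟩
    exact ⟨_, hneg f hf, funext fun x => by simp⟩

omit [IsScalarTower R k L] in
/-- Transport to a stable subgroup. -/
theorem HasFunctionModel.of_injective {P : Type} [AddCommGroup P]
    [DistribMulAction (L ≃ₐ[k] L) P] (hM : HasFunctionModel R k L M) (u : P →+ M)
    (hu : Function.Injective u) (hσ : ∀ (σ : L ≃ₐ[k] L) (x : P), u (σ • x) = σ • u x) :
    HasFunctionModel R k L P :=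
  let ⟨_, hH⟩ := hM
  ⟨_, IsFunctionModel.map_pullback hH u hu hσ⟩

omit [IsScalarTower R k L] in
theorem HasFunctionModel.of_equiv {P : Type} [AddCommGroup P] [DistribMulAction (L ≃ₐ[k] L) P]
    (hM : HasFunctionModel R k L M) (u : P ≃+ M)
    (hσ : ∀ (σ : L ≃ₐ[k] L) (x : P), u (σ • x) = σ • u x) : HasFunctionModel R k L P :=
  hM.of_injective u.toAddMonoidHom u.injective hσ

theorem hasFunctionModel_of_subsingleton [Subsingleton M] : HasFunctionModel R k L M := by
  refine ⟨⊥, ?_, ?_, fun m m' h => absurd (Subsingleton.elim m m') h, ?_, ?_⟩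
  · exact Module.Finite.of_surjective (Algebra.ofId R (⊥ : Subalgebra R (M → L))).toLinearMap
      fun x => by
        obtain ⟨r, hr⟩ := Algebra.mem_bot.mp x.2
        exact ⟨r, Subtype.ext hr⟩
  · intro f hf σ m
    obtain ⟨r, rfl⟩ := Algebra.mem_bot.mp hf
    show algebraMap R L r = σ (algebraMap R L r)
    rw [IsScalarTower.algebraMap_apply R k L, AlgEquiv.commutes]
  · intro f hf
    obtain ⟨r, rfl⟩ := Algebra.mem_bot.mp hf
    rw [AlgHom.commutes]
    exact Subalgebra.algebraMap_mem _ r
  · intro f hf
    obtain ⟨r, rfl⟩ := Algebra.mem_bot.mp hf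
    rw [AlgHom.commutes]
    exact Subalgebra.algebraMap_mem _ r

omit [IsScalarTower R k L] in
theorem HasFunctionModel.prod {M₂ : Type} [AddCommGroup M₂] [DistribMulAction (L ≃ₐ[k] L) M₂]
    (h₁ : HasFunctionModel R k L M) (h₂ : HasFunctionModel R k L M₂) :
    HasFunctionModel R k L (M × M₂) := by
  obtain ⟨H₁, hfin₁, hequiv₁, hsep₁, hadd₁, hneg₁⟩ := h₁
  obtain ⟨H₂, hfin₂, hequiv₂, hsep₂, hadd₂, hneg₂⟩ := h₂
  set Φ₁ := H₁.map (funPullback R (Prod.fst : M × M₂ → M)) with hΦ₁
  set Φ₂ := H₂.map (funPullback R (Prod.snd : M × M₂ → M₂)) with hΦ₂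
  refine ⟨Φ₁ ⊔ Φ₂, ?_, ?_, ?_, ?_, ?_⟩
  · rw [hΦ₁, hΦ₂, ← range_tensorEval_eq_sup]
    exact Module.Finite.of_surjective (tensorEval H₁.val H₂.val).rangeRestrict.toLinearMap
      (tensorEval H₁.val H₂.val).rangeRestrict_surjective
  · intro f hf σ m
    rw [hΦ₁, hΦ₂, ← range_tensorEval_eq_sup] at hf
    obtain ⟨z, rfl⟩ := hf
    induction z using TensorProduct.induction_on with
    | zero => simp
    | tmul u v =>
      simp [hequiv₁ _ u.2, hequiv₂ _ v.2]
    | add u v hu hv =>
      simp only [RingHom.coe_coe, AlgHom.toRingHom_eq_coe] at hu hv ⊢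
      simp [map_add, hu, hv]
  · rintro ⟨a, b⟩ ⟨a', b'⟩ hne
    by_cases ha : a = a'
    · subst ha
      obtain ⟨f, hf, hne'⟩ := hsep₂ b b' (fun h => hne (by rw [h]))
      exact ⟨_, (le_sup_right : Φ₂ ≤ Φ₁ ⊔ Φ₂) ⟨f, hf, rfl⟩, hne'⟩
    · obtain ⟨f, hf, hne'⟩ := hsep₁ a a' ha
      exact ⟨_, (le_sup_left : Φ₁ ≤ Φ₁ ⊔ Φ₂) ⟨f, hf, rfl⟩, hne'⟩
  · suffices h : (Φ₁ ⊔ Φ₂).map (funPullback R fun q : (M × M₂) × (M × M₂) => q.1 + q.2) ≤
        (Φ₁ ⊔ Φ₂).map (funPullback R Prod.fst) ⊔ (Φ₁ ⊔ Φ₂).map (funPullback R Prod.snd) from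
      fun f hf => h ⟨f, hf, rfl⟩
    rw [Algebra.map_sup]
    refine sup_le ?_ ?_
    · rintro _ ⟨_, ⟨f, hf, rfl⟩, rfl⟩
      have h1 : funPullback R (Prod.map (Prod.fst : M × M₂ → M) (Prod.fst : M × M₂ → M))
          (funPullback R (fun q : M × M => q.1 + q.2) f) ∈
          (H₁.map (funPullback R Prod.fst) ⊔ H₁.map (funPullback R Prod.snd)).map
            (funPullback R (Prod.map (Prod.fst : M × M₂ → M) (Prod.fst : M × M₂ → M))) :=
        ⟨_, hadd₁ f hf, rfl⟩
      rw [Algebra.map_sup] at h1
      refine (sup_le ?_ ?_ : _ ≤ (Φ₁ ⊔ Φ₂).map (funPullback R Prod.fst) ⊔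
        (Φ₁ ⊔ Φ₂).map (funPullback R Prod.snd)) h1
      · rintro _ ⟨_, ⟨g, hg, rfl⟩, rfl⟩
        exact (le_sup_left : _ ≤ (Φ₁ ⊔ Φ₂).map (funPullback R Prod.fst) ⊔
          (Φ₁ ⊔ Φ₂).map (funPullback R Prod.snd))
          ⟨_, (le_sup_left : Φ₁ ≤ Φ₁ ⊔ Φ₂) ⟨g, hg, rfl⟩, rfl⟩
      · rintro _ ⟨_, ⟨g, hg, rfl⟩, rfl⟩
        exact (le_sup_right : _ ≤ (Φ₁ ⊔ Φ₂).map (funPullback R Prod.fst) ⊔
          (Φ₁ ⊔ Φ₂).map (funPullback R Prod.snd))
          ⟨_, (le_sup_left : Φ₁ ≤ Φ₁ ⊔ Φ₂) ⟨g, hg, rfl⟩, rfl⟩
    · rintro _ ⟨_, ⟨f, hf, rfl⟩, rfl⟩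
      have h1 : funPullback R (Prod.map (Prod.snd : M × M₂ → M₂) (Prod.snd : M × M₂ → M₂))
          (funPullback R (fun q : M₂ × M₂ => q.1 + q.2) f) ∈
          (H₂.map (funPullback R Prod.fst) ⊔ H₂.map (funPullback R Prod.snd)).map
            (funPullback R (Prod.map (Prod.snd : M × M₂ → M₂) (Prod.snd : M × M₂ → M₂))) :=
        ⟨_, hadd₂ f hf, rfl⟩
      rw [Algebra.map_sup] at h1
      refine (sup_le ?_ ?_ : _ ≤ (Φ₁ ⊔ Φ₂).map (funPullback R Prod.fst) ⊔
        (Φ₁ ⊔ Φ₂).map (funPullback R Prod.snd)) h1
      · rintro _ ⟨_, ⟨g, hg, rfl⟩, rfl⟩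
        exact (le_sup_left : _ ≤ (Φ₁ ⊔ Φ₂).map (funPullback R Prod.fst) ⊔
          (Φ₁ ⊔ Φ₂).map (funPullback R Prod.snd))
          ⟨_, (le_sup_right : Φ₂ ≤ Φ₁ ⊔ Φ₂) ⟨g, hg, rfl⟩, rfl⟩
      · rintro _ ⟨_, ⟨g, hg, rfl⟩, rfl⟩
        exact (le_sup_right : _ ≤ (Φ₁ ⊔ Φ₂).map (funPullback R Prod.fst) ⊔
          (Φ₁ ⊔ Φ₂).map (funPullback R Prod.snd))
          ⟨_, (le_sup_right : Φ₂ ≤ Φ₁ ⊔ Φ₂) ⟨g, hg, rfl⟩, rfl⟩
  · suffices h : (Φ₁ ⊔ Φ₂).map (funPullback R fun m : M × M₂ => -m) ≤ Φ₁ ⊔ Φ₂ from
      fun f hf => h ⟨f, hf, rfl⟩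
    rw [Algebra.map_sup]
    refine sup_le_sup ?_ ?_
    · rintro _ ⟨_, ⟨f, hf, rfl⟩, rfl⟩
      exact ⟨_, hneg₁ f hf, rfl⟩
    · rintro _ ⟨_, ⟨f, hf, rfl⟩, rfl⟩
      exact ⟨_, hneg₂ f hf, rfl⟩

theorem HasFunctionModel.pi (hM : HasFunctionModel R k L M) :
    ∀ m : ℕ, HasFunctionModel R k L (Fin m → M)
  | 0 => hasFunctionModel_of_subsingleton
  | m + 1 =>
    (hM.prod (hM.pi m)).of_equiv
      { toFun := fun v => (v 0, fun i => v i.succ)
        invFun := fun v => Fin.cons v.1 v.2
        left_inv := fun v => funext fun i => by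
          refine Fin.cases ?_ (fun j => ?_) i <;> simp
        right_inv := fun v => by simp
        map_add' := fun v w => rfl }
      fun σ v => rfl

end Basic

section Quotient

variable {M : Type} [AddCommGroup M] [Finite M] [DistribMulAction (L ≃ₐ[k] L) M]
  {Q : Type} [AddCommGroup Q] [DistribMulAction (L ≃ₐ[k] L) Q]

/-- The functions on a quotient whose pullbacks lie in a model are a model. -/
theorem IsFunctionModel.comap_pullback [IsDomain R] [IsPrincipalIdealRing R]
    [IsFractionRing R k] [IsGalois k L] [CharZero k] {H : Subalgebra R (M → L)}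
    (hH : IsFunctionModel k H) (q : M →+ Q) (hq : Function.Surjective q)
    (hσ : ∀ (σ : L ≃ₐ[k] L) (x : M), q (σ • x) = σ • q x) :
    IsFunctionModel k (H.comap (funPullback R q)) := by
  classical
  obtain ⟨hfin, hequiv, hsep, hadd, hneg⟩ := hH
  have := hfin
  have := Fintype.ofFinite M
  have : Finite Q := Finite.of_surjective q hq
  have hinjR : Function.Injective (algebraMap R L) := by
    rw [IsScalarTower.algebraMap_eq R k L]
    exact (algebraMap k L).injective.comp (IsFractionRing.injective R k)
  have : Module.IsTorsionFree R L := Module.isTorsionFree_iff_algebraMap_injective.2 hinjR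
  have : Module.IsTorsionFree R H :=
    Function.Injective.moduleIsTorsionFree (Subtype.val : H → (M → L)) Subtype.val_injective
      fun _ _ => rfl
  have : Module.Free R H := Module.free_of_finite_type_torsion_free'
  let b := Module.Free.chooseBasis R H
  have := Fintype.ofFinite (Module.Free.ChooseBasisIndex R H)
  have hindk : LinearIndependent k fun i => (b i : M → L) :=
    (LinearIndependent.iff_fractionRing R k).1
      (b.linearIndependent.map' H.val.toLinearMap (LinearMap.ker_eq_bot.2 Subtype.val_injective))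
  have hind : LinearIndependent L fun i => (b i : M → L) :=
    linearIndependent_of_equivariant (k := k) hindk fun i σ m => hequiv _ (b i).2 σ m
  let B : Basis _ L (M → L) := Basis.mk hind (ge_of_eq (span_eq_top b hsep))
  have hB : ∀ i, B i = (b i : M → L) := fun i => Basis.mk_apply _ _ i
  -- equivariant functions on `M` have multiples in `H`
  have hk : ∀ f : M → L, (∀ (σ : L ≃ₐ[k] L) (m : M), f (σ • m) = σ (f m)) →
      ∃ r : R, r ≠ 0 ∧ algebraMap R L r • f ∈ H := by
    intro f hf
    have hexp : ∑ i, B.repr f i • (b i : M → L) = f := by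
      simpa only [hB] using B.sum_repr f
    have hfix : ∀ i, ∃ c : k, algebraMap k L c = B.repr f i := by
      intro i
      refine (InfiniteGalois.mem_range_algebraMap_iff_fixed _).2 fun σ => ?_
      have h : ∑ j, σ (B.repr f j) • B j = f := by
        funext m
        have h2 := congrArg σ (congrFun hexp (σ⁻¹ • m))
        rw [← hf, smul_inv_smul] at h2
        simpa [hB, Finset.sum_apply, ← hequiv _ (b _).2] using h2
      have h3 := congrArg (fun g => B.repr g i) h
      simp only [B.repr_sum_self] at h3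
      exact h3
    choose c hc using hfix
    obtain ⟨⟨r, hr⟩, hint⟩ := IsLocalization.exist_integer_multiples_of_finite (nonZeroDivisors R) c
    choose a ha using hint
    refine ⟨r, nonZeroDivisors.ne_zero hr, ?_⟩
    have : algebraMap R L r • f = ∑ i, a i • (b i : M → L) := by
      rw [← hexp, Finset.smul_sum]
      refine Finset.sum_congr rfl fun i _ => ?_
      rw [smul_smul, ← hc, IsScalarTower.algebraMap_apply R k L r, ← map_mul,
        ← algebraMap_smul L (a i), IsScalarTower.algebraMap_apply R k L (a i), ha i,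
        Algebra.smul_def r (c i)]
    rw [this]
    exact Subalgebra.sum_mem _ fun i _ => H.smul_mem (b i).2 (a i)
  -- an injective equivariant function on `M`
  obtain ⟨f₀, hf₀, hf₀inj⟩ : ∃ f₀ : M → L,
      (∀ (σ : L ≃ₐ[k] L) (m : M), f₀ (σ • m) = σ (f₀ m)) ∧ Function.Injective f₀ := by
    let n : Module.Free.ChooseBasisIndex R H → ℕ := fun i =>
      (Fintype.equivFin (Module.Free.ChooseBasisIndex R H) i : ℕ)
    have hn : Function.Injective n := fun i j h =>
      (Fintype.equivFin _).injective (Fin.ext h)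
    let P : M × M → Polynomial L := fun x =>
      ∑ i, Polynomial.C ((b i : M → L) x.1 - (b i : M → L) x.2) * Polynomial.X ^ n i
    let bad : Finset L := (Finset.univ.filter fun x : M × M => P x ≠ 0).biUnion
      fun x => (P x).roots.toFinset
    have : Infinite k := Infinite.of_injective (fun n : ℕ => (n : k)) Nat.cast_injective
    obtain ⟨t, ht⟩ := Infinite.exists_notMem_finset
      (bad.preimage (algebraMap k L) (algebraMap k L).injective.injOn)
    rw [Finset.mem_preimage] at ht
    refine ⟨∑ i, algebraMap k L t ^ n i • (b i : M → L), fun σ m => ?_, fun x y hxy => ?_⟩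
    · simp [Finset.sum_apply, hequiv _ (b _).2]
    · by_contra hne
      have hP : P (x, y) ≠ 0 := by
        intro h0
        obtain ⟨g, hg, hg'⟩ := hsep x y hne
        refine hg' ?_
        have hcoef : ∀ i, (b i : M → L) x = (b i : M → L) y := fun i => by
          have h1 := congrArg (fun P : Polynomial L => P.coeff (n i)) h0
          simp only [P, Polynomial.finsetSum_coeff, Polynomial.coeff_C_mul_X_pow,
            Polynomial.coeff_zero] at h1
          rw [Finset.sum_eq_single i (fun j _ hj => if_neg (fun h => hj (hn h.symm)))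
            (fun h => absurd (Finset.mem_univ i) h), if_pos rfl, sub_eq_zero] at h1
          exact h1
        have hgb : (⟨g, hg⟩ : H) = ∑ i, b.repr ⟨g, hg⟩ i • b i := (b.sum_repr _).symm
        have hgb' := congrArg (fun z : H => (z : M → L)) hgb
        simp only [AddSubmonoidClass.coe_finsetSum, SetLike.val_smul] at hgb'
        rw [hgb', Finset.sum_apply, Finset.sum_apply]
        exact Finset.sum_congr rfl fun i _ => by rw [Pi.smul_apply, Pi.smul_apply, hcoef i]
      refine ht (Finset.mem_biUnion.mpr ⟨(x, y), by simp [hP], ?_⟩)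
      rw [Multiset.mem_toFinset, Polynomial.mem_roots hP, Polynomial.IsRoot]
      simp only [P, Polynomial.eval_finsetSum, Polynomial.eval_mul, Polynomial.eval_C,
        Polynomial.eval_pow, Polynomial.eval_X, sub_mul, Finset.sum_sub_distrib]
      simp only [Finset.sum_apply, Pi.smul_apply, smul_eq_mul] at hxy
      rw [sub_eq_zero]
      simpa [mul_comm] using hxy
  set H' : Subalgebra R (Q → L) := H.comap (funPullback R q) with hH'
  have hmem : ∀ f : Q → L, f ∈ H' ↔ f ∘ q ∈ H := fun f => Iff.rfl
  have hequiv' : ∀ f ∈ H', ∀ (σ : L ≃ₐ[k] L) (y : Q), f (σ • y) = σ (f y) := by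
    intro f hf σ y
    obtain ⟨x, rfl⟩ := hq y
    rw [← hσ]
    exact hequiv _ hf σ x
  have hfin' : Module.Finite R H' := by
    let i : H' →ₗ[R] H :=
      { toFun := fun f => ⟨(f : Q → L) ∘ q, f.2⟩
        map_add' := fun _ _ => rfl
        map_smul' := fun _ _ => rfl }
    refine Module.Finite.of_injective i fun f g h => Subtype.ext (funext fun y => ?_)
    obtain ⟨x, rfl⟩ := hq y
    exact congrFun (congrArg Subtype.val h) x
  have hsep' : ∀ y y' : Q, y ≠ y' → ∃ f ∈ H', f y ≠ f y' := by
    intro y y' hne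
    let fib : Q → Finset M := fun z => Finset.univ.filter fun x => q x = z
    let P : Q → Polynomial L := fun z => ∏ x ∈ fib z, (Polynomial.X - Polynomial.C (f₀ x))
    have hP : P y ≠ P y' := by
      intro hP
      obtain ⟨x, hx⟩ := hq y
      have h1 : (P y).eval (f₀ x) = 0 := by
        rw [Polynomial.eval_prod]
        exact Finset.prod_eq_zero (i := x) (by simp [fib, hx]) (by simp)
      rw [hP, Polynomial.eval_prod, Finset.prod_eq_zero_iff] at h1
      obtain ⟨x', hx', h2⟩ := h1
      simp only [Polynomial.eval_sub, Polynomial.eval_X, Polynomial.eval_C, sub_eq_zero] at h2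
      obtain rfl := hf₀inj h2
      exact hne (hx.symm.trans (by simpa [fib] using hx'))
    obtain ⟨t, ht⟩ : ∃ t : k, (P y).eval (algebraMap k L t) ≠ (P y').eval (algebraMap k L t) := by
      by_contra hall
      push Not at hall
      have : Infinite k := Infinite.of_injective (fun n : ℕ => (n : k)) Nat.cast_injective
      refine hP (Polynomial.eq_of_infinite_eval_eq _ _
        ((Set.infinite_range_of_injective (algebraMap k L).injective).mono ?_))
      rintro _ ⟨t, rfl⟩
      exact hall t
    let g : Q → L := fun z => (P z).eval (algebraMap k L t)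
    have hg : ∀ (σ : L ≃ₐ[k] L) (z : Q), g (σ • z) = σ (g z) := by
      intro σ z
      simp only [g, P, Polynomial.eval_prod, map_prod]
      refine Finset.prod_bij (fun x _ => σ⁻¹ • x) (fun x hx => ?_) (fun x _ x' _ h => ?_)
        (fun x hx => ⟨σ • x, ?_, inv_smul_smul σ x⟩) fun x hx => ?_
      · simp only [fib, Finset.mem_filter, Finset.mem_univ, true_and] at hx ⊢
        rw [hσ, hx, inv_smul_smul]
      · exact smul_left_cancel _ h
      · simp only [fib, Finset.mem_filter, Finset.mem_univ, true_and] at hx ⊢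
        rw [hσ, hx]
      · simp only [Polynomial.eval_sub, Polynomial.eval_X, Polynomial.eval_C, map_sub,
          AlgEquiv.commutes, ← hf₀, smul_inv_smul]
    obtain ⟨r, hr, hrg⟩ := hk (g ∘ q) fun σ x => by
      rw [Function.comp_apply, Function.comp_apply, hσ, hg]
    refine ⟨algebraMap R L r • g, hrg, fun h => ht ?_⟩
    exact mul_left_cancel₀ ((map_ne_zero_iff _ hinjR).mpr hr) h
  refine ⟨hfin', hequiv', hsep', ?_, fun f hf => ?_⟩
  · -- comultiplication: project `H ⊗ H` to `H' ⊗ H'`
    let i : H' →ₗ[R] H :=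
      { toFun := fun f => ⟨(f : Q → L) ∘ q, f.2⟩
        map_add' := fun _ _ => rfl
        map_smul' := fun _ _ => rfl }
    let inv : Submodule R H := LinearMap.range i
    have : Module.IsTorsionFree R (H ⧸ inv) := by
      refine .of_smul_eq_zero fun r z hz => ?_
      induction z using Submodule.Quotient.induction_on with
      | _ z =>
        rw [← Submodule.Quotient.mk_smul, Submodule.Quotient.mk_eq_zero] at hz
        by_cases hr : r = 0
        · exact Or.inl hr
        refine Or.inr ((Submodule.Quotient.mk_eq_zero _).mpr ?_)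
        obtain ⟨w, hw⟩ := hz
        have hfac : ∀ x x', q x = q x' → (z : M → L) x = (z : M → L) x' := fun x x' hxx' => by
          have e1 := congrFun (congrArg Subtype.val hw) x
          have e2 := congrFun (congrArg Subtype.val hw) x'
          simp only [Algebra.smul_def] at e1 e2
          refine mul_left_cancel₀ ((map_ne_zero_iff _ hinjR).mpr hr) (e1.symm.trans (Eq.trans ?_ e2))
          exact congrArg (w : Q → L) hxx'
        have hzf : (fun y => (z : M → L) (Function.surjInv hq y)) ∘ q = (z : M → L) :=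
          funext fun x => hfac _ _ (Function.surjInv_eq hq (q x))
        exact ⟨⟨fun y => (z : M → L) (Function.surjInv hq y), (hmem _).mpr (hzf.symm ▸ z.2)⟩,
          Subtype.ext hzf⟩
    have : Module.Free R (H ⧸ inv) := Module.free_of_finite_type_torsion_free'
    obtain ⟨s, hs⟩ := Module.projective_lifting_property (Submodule.mkQ inv)
      (LinearMap.id : (H ⧸ inv) →ₗ[R] H ⧸ inv) (Submodule.mkQ_surjective inv)
    have hmk : ∀ z : H, z - s (Submodule.mkQ inv z) ∈ inv := fun z => by
      rw [← Submodule.Quotient.mk_eq_zero, Submodule.Quotient.mk_sub]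
      exact sub_eq_zero.mpr (LinearMap.congr_fun hs (Submodule.mkQ inv z)).symm
    choose π hπ using hmk
    have hπi : ∀ w : H', π (i w) = w := fun w => by
      have h0 : Submodule.mkQ inv (i w) = 0 :=
        (Submodule.Quotient.mk_eq_zero _).mpr ⟨w, rfl⟩
      have h1 := hπ (i w)
      rw [h0, map_zero, sub_zero] at h1
      refine Subtype.ext (funext fun y => ?_)
      obtain ⟨x, rfl⟩ := hq y
      exact congrFun (congrArg Subtype.val h1) x
    let πL : (M → L) →ₗ[L] (M → L) := B.constr L fun j => (π (b j) : Q → L) ∘ q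
    have hπL : ∀ z : H, πL (z : M → L) = (π z : Q → L) ∘ q := by
      have h1 : ∀ z : H, (i (π z) : M → L) =
          (z : M → L) - (s (Submodule.mkQ inv z) : M → L) := fun z => congrArg Subtype.val (hπ z)
      have h2 : (πL.restrictScalars R).comp H.val.toLinearMap =
          H.val.toLinearMap.comp (LinearMap.id - s.comp (Submodule.mkQ inv)) := by
        refine b.ext fun j => ?_
        simp only [LinearMap.comp_apply, LinearMap.sub_apply, LinearMap.id_apply,
          AlgHom.toLinearMap_apply, Subalgebra.val_apply, LinearMap.restrictScalars_apply,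
          AddSubgroupClass.coe_sub]
        rw [← hB, Basis.constr_basis, hB]
        exact h1 (b j)
      intro z
      exact (LinearMap.congr_fun h2 z).trans (h1 z).symm
    have hsepspan : Submodule.span L (Set.range fun w : H' => (w : Q → L)) = ⊤ := by
      have : Module.IsTorsionFree R H' :=
        Function.Injective.moduleIsTorsionFree (Subtype.val : H' → (Q → L)) Subtype.val_injective
          fun _ _ => rfl
      have : Module.Free R H' := Module.free_of_finite_type_torsion_free'
      refine top_le_iff.mp ((span_eq_top (Module.Free.chooseBasis R H') hsep').ge.trans ?_)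
      exact Submodule.span_mono (by rintro _ ⟨j, rfl⟩; exact ⟨_, rfl⟩)
    have hfix : ∀ g : Q → L, πL (g ∘ q) = g ∘ q := by
      intro g
      have hg : g ∈ Submodule.span L (Set.range fun w : H' => (w : Q → L)) :=
        hsepspan ▸ Submodule.mem_top
      induction hg using Submodule.span_induction with
      | mem g hg =>
        obtain ⟨w, rfl⟩ := hg
        have h1 := hπL (i w)
        rw [hπi] at h1
        exact h1
      | zero => exact map_zero πL
      | add u v _ _ hu hv =>
        rw [show (u + v) ∘ q = u ∘ q + v ∘ q from rfl, map_add, hu, hv]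
      | smul c u _ hu => rw [show (c • u) ∘ q = c • (u ∘ q) from rfl, map_smul, hu]
    intro f hf
    rw [← range_tensorEval_eq_sup]
    have h := hadd (f ∘ q) hf
    rw [← range_tensorEval_eq_sup] at h
    obtain ⟨z, hz⟩ := h
    change tensorEval H.val H.val z = funPullback R (fun x : M × M => x.1 + x.2) (f ∘ q) at hz
    let πlin : H →ₗ[R] H' :=
      { toFun := π
        map_add' := fun u v => by
          refine Subtype.ext (funext fun y => ?_)
          obtain ⟨x, rfl⟩ := hq y
          exact congrFun (((hπL (u + v)).symm.trans (map_add πL _ _)).trans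
            (congrArg₂ (· + ·) (hπL u) (hπL v))) x
        map_smul' := fun r u => by
          refine Subtype.ext (funext fun y => ?_)
          obtain ⟨x, rfl⟩ := hq y
          exact congrFun (((hπL (r • u)).symm.trans
            (LinearMap.map_smul_of_tower πL r (u : M → L))).trans
            (congrArg (r • ·) (hπL u))) x }
    refine ⟨TensorProduct.map πlin πlin z, funext fun y => ?_⟩
    obtain ⟨y₁, y₂⟩ := y
    obtain ⟨a, rfl⟩ := hq y₁
    obtain ⟨c, rfl⟩ := hq y₂
    have h1 : ∀ w : H ⊗[R] H, tensorEval H'.val H'.val (TensorProduct.map πlin πlin w) (q a, q c) =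
        πL (fun u => πL (fun v => tensorEval H.val H.val w (u, v)) c) a := by
      intro w
      induction w using TensorProduct.induction_on with
      | zero =>
        have : (fun v : M => (0 : L)) = 0 := rfl
        simp only [map_zero, Pi.zero_apply, this]
      | tmul u v =>
        have e1 : ∀ x : M, (fun y => tensorEval H.val H.val (u ⊗ₜ v) (x, y)) =
            (u : M → L) x • (v : M → L) := fun x => funext fun y => by simp
        have e2 : (fun x : M => ((u : M → L) x • πL (v : M → L)) c) =
            πL (v : M → L) c • (u : M → L) := funext fun x => by simp [mul_comm]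
        simp only [e1, map_smul, e2]
        simp [hπL, mul_comm, πlin]
      | add u v hu hv =>
        simp only [map_add, Pi.add_apply, hu, hv]
        rw [← Pi.add_apply, ← map_add]
        refine congrFun (congrArg πL (funext fun x => ?_)) a
        rw [Pi.add_apply, ← Pi.add_apply, ← map_add]
        rfl
    change tensorEval H'.val H'.val (TensorProduct.map πlin πlin z) (q a, q c) = f (q a + q c)
    rw [h1, hz]
    have h2 : ∀ u, πL (fun v => funPullback R (fun x : M × M => x.1 + x.2) (f ∘ q) (u, v)) =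
        (fun y => f (q u + y)) ∘ q := fun u => by
      refine (congrArg πL ?_).trans (hfix _)
      funext v
      simp
    simp only [h2, Function.comp_apply]
    exact congrFun (hfix fun y => f (y + q c)) a
  · show (funPullback R (fun y : Q => -y) f) ∘ q ∈ H
    convert hneg _ hf using 1
    funext x
    simp

/-- Passage to a quotient. -/
theorem HasFunctionModel.of_surjective [IsDomain R] [IsPrincipalIdealRing R]
    [IsFractionRing R k] [IsGalois k L] [CharZero k] (hM : HasFunctionModel R k L M)
    (q : M →+ Q) (hq : Function.Surjective q)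
    (hσ : ∀ (σ : L ≃ₐ[k] L) (x : M), q (σ • x) = σ • q x) :
    HasFunctionModel R k L Q :=
  let ⟨_, hH⟩ := hM
  ⟨_, IsFunctionModel.comap_pullback hH q hq hσ⟩

end Quotient

section Hopf

/-- The points of a finite Hopf algebra give a model by functions. -/
theorem hasFunctionModel_of_hopfAlgebra {M : Type} [AddCommGroup M]
    [DistribMulAction (L ≃ₐ[k] L) M] (H : Type) [CommRing H] [HopfAlgebra R H] [Module.Finite R H]
    (e : WithConv (H →ₐ[R] L) ≃ M) (hmul : ∀ f g, e (f * g) = e f + e g)
    (hgal : ∀ (σ : L ≃ₐ[k] L) (f g : WithConv (H →ₐ[R] L)),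
      (∀ h : H, g h = σ (f h)) → e g = σ • e f) :
    HasFunctionModel R k L M := by
  let Φ : H →ₐ[R] (M → L) :=
    { toFun := fun h m => (e.symm m).ofConv h
      map_one' := funext fun m => map_one _
      map_mul' := fun _ _ => funext fun m => map_mul _ _ _
      map_zero' := funext fun m => map_zero _
      map_add' := fun _ _ => funext fun m => map_add _ _ _
      commutes' := fun r => funext fun m => AlgHom.commutes _ r }
  have hΦ : ∀ h f, Φ h (e f) = f h := fun h f => by
    show (e.symm (e f)).ofConv h = f h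
    rw [Equiv.symm_apply_apply]
  have hone : e 1 = 0 := by
    have h := hmul 1 1
    rw [one_mul] at h
    simpa using h
  refine ⟨Φ.range, Module.Finite.of_surjective Φ.rangeRestrict.toLinearMap
    Φ.rangeRestrict_surjective, ?_, ?_, ?_, ?_⟩
  · rintro _ ⟨h, rfl⟩ σ m
    obtain ⟨f, rfl⟩ := e.surjective m
    let g : WithConv (H →ₐ[R] L) :=
      WithConv.toConv (((σ : L →ₐ[k] L).restrictScalars R).comp f.ofConv)
    rw [← hgal σ f g fun _ => rfl]
    simp only [RingHom.coe_coe, AlgHom.toRingHom_eq_coe, hΦ]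
    rfl
  · intro m m' hne
    by_contra hall
    simp only [not_exists, not_and, not_not] at hall
    refine hne (e.symm.injective (WithConv.ext (AlgHom.ext fun h => ?_)))
    exact hall _ ⟨h, rfl⟩
  · rintro _ ⟨h, rfl⟩
    rw [← range_tensorEval_eq_sup]
    refine ⟨Algebra.TensorProduct.map Φ.rangeRestrict Φ.rangeRestrict
      (Bialgebra.comulAlgHom R H h), funext fun ⟨m, m'⟩ => ?_⟩
    obtain ⟨f, rfl⟩ := e.surjective m
    obtain ⟨g, rfl⟩ := e.surjective m'
    have h1 : ∀ z : H ⊗[R] H, tensorEval Φ.range.val Φ.range.val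
        (Algebra.TensorProduct.map Φ.rangeRestrict Φ.rangeRestrict z) (e f, e g) =
        Algebra.TensorProduct.lift f.ofConv g.ofConv (fun _ _ => Commute.all _ _) z := fun z => by
      induction z using TensorProduct.induction_on with
      | zero => simp
      | tmul u v => simp [hΦ]
      | add u v hu hv => simp [map_add, hu, hv]
    change tensorEval Φ.range.val Φ.range.val _ (e f, e g) = Φ h (e f + e g)
    rw [h1, ← hmul, hΦ, AlgHom.convMul_apply]
    rfl
  · rintro _ ⟨h, rfl⟩
    refine ⟨HopfAlgebra.antipodeAlgHom R H h, funext fun m => ?_⟩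
    obtain ⟨f, rfl⟩ := e.surjective m
    let g : WithConv (H →ₐ[R] L) :=
      WithConv.toConv (f.ofConv.comp (HopfAlgebra.antipodeAlgHom R H))
    have hfg : g * f = 1 := by
      refine WithConv.ext (AlgHom.ext fun x => ?_)
      rw [AlgHom.convMul_apply, AlgHom.convOne_apply]
      have h2 : ∀ z : H ⊗[R] H, Algebra.TensorProduct.lift g.ofConv f.ofConv
          (fun _ _ => Commute.all _ _) z =
          f.ofConv (LinearMap.mul' R H ((HopfAlgebra.antipode R).rTensor H z)) := fun z => by
        induction z using TensorProduct.induction_on with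
        | zero => simp
        | tmul u v => simp [g]
        | add u v hu hv => simp [map_add, hu, hv]
      rw [h2, HopfAlgebra.mul_antipode_rTensor_comul_apply, AlgHom.commutes]
    have hneg : e g = -(e f) := by
      refine eq_neg_of_add_eq_zero_left ?_
      rw [← hmul, hfg, hone]
    change Φ _ (e f) = Φ h (-(e f))
    rw [← hneg, hΦ, hΦ]
    rfl

end Hopf

end Fermat.Agent.FiniteFlat
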