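import Fermat.Agent.FiniteFlat.LocalMem
import Mathlib.RingTheory.LocalRing.ResidueField.Basic

/-!
# The local ring of an algebra of functions at a place and a point
-/

set_option autoImplicit false

open IsLocalRing

namespace Fermat.Agent.FiniteFlat

variable {R L X : Type} [CommRing R] [Field L] [Algebra R L]
variable (T : Subalgebra R (X → L)) (A : ValuationSubring L) (x₀ : X)

/-- Functions in the localisation of `T` at `(A, x₀)` whose value there is integral. -/
def locRing : Subring (X → L) where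
  carrier := {f | LocMem T A x₀ f ∧ f x₀ ∈ A}
  mul_mem' ha hb := ⟨ha.1.mul hb.1, mul_mem ha.2 hb.2⟩
  one_mem' := ⟨.of_mem T.one_mem, A.one_mem⟩
  add_mem' ha hb := ⟨ha.1.add hb.1, add_mem ha.2 hb.2⟩
  zero_mem' := ⟨.of_mem T.zero_mem, A.zero_mem⟩
  neg_mem' ha := ⟨ha.1.neg, neg_mem ha.2⟩

/-- The value at the point, in the residue field. -/
noncomputable def locRes : locRing T A x₀ →+* ResidueField A where
  toFun f := residue A ⟨(f : X → L) x₀, f.2.2⟩
  map_one' := map_one (residue A)
  map_mul' f g := map_mul (residue A) ⟨(f : X → L) x₀, f.2.2⟩ ⟨(g : X → L) x₀, g.2.2⟩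
  map_zero' := map_zero (residue A)
  map_add' f g := map_add (residue A) ⟨(f : X → L) x₀, f.2.2⟩ ⟨(g : X → L) x₀, g.2.2⟩

variable {T A x₀}

theorem locRes_apply (f : locRing T A x₀) :
    locRes T A x₀ f = residue A ⟨(f : X → L) x₀, f.2.2⟩ := rfl

theorem locRes_eq_zero_iff (f : locRing T A x₀) :
    locRes T A x₀ f = 0 ↔ A.valuation ((f : X → L) x₀) < 1 := by
  rw [locRes_apply, residue_eq_zero_iff, ← A.mem_nonunits_iff, A.coe_mem_nonunits_iff (a := ⟨_, f.2.2⟩)]

theorem valuation_eq_one_of_locRes_ne_zero {f : locRing T A x₀} (h : locRes T A x₀ f ≠ 0) :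
    A.valuation ((f : X → L) x₀) = 1 := by
  refine le_antisymm ((A.valuation_le_one_iff _).2 f.2.2) (not_lt.1 ?_)
  exact fun hlt => h ((locRes_eq_zero_iff f).2 hlt)

/-- The inverse of a function which is a unit at the point. -/
noncomputable def locInv (f : locRing T A x₀) (h : locRes T A x₀ f ≠ 0) : locRing T A x₀ :=
  ⟨(f : X → L)⁻¹, f.2.1.inv (valuation_eq_one_of_locRes_ne_zero h), by
    rw [Pi.inv_apply, ← A.valuation_le_one_iff, map_inv₀,
      valuation_eq_one_of_locRes_ne_zero h, inv_one]⟩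

@[simp]
theorem coe_locInv (f : locRing T A x₀) (h : locRes T A x₀ f ≠ 0) :
    ((locInv f h : locRing T A x₀) : X → L) = (f : X → L)⁻¹ := rfl

@[simp]
theorem locRes_locInv (f : locRing T A x₀) (h : locRes T A x₀ f ≠ 0) :
    locRes T A x₀ (locInv f h) = (locRes T A x₀ f)⁻¹ := by
  refine eq_inv_of_mul_eq_one_left ?_
  rw [← map_mul]
  have h1 : (f : X → L) x₀ ≠ 0 := fun h0 => h ((locRes_eq_zero_iff f).2 (by simp [h0]))
  rw [locRes_apply]
  refine (congrArg (residue A) (Subtype.ext ?_)).trans (map_one (residue A))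
  simp [h1]

theorem nearby_ne_zero_of_locRes {f : locRing T A x₀} (h : locRes T A x₀ f ≠ 0) :
    Nearby T A x₀ fun x => (f : X → L) x ≠ 0 :=
  f.2.1.nearby_ne_zero (valuation_eq_one_of_locRes_ne_zero h)

theorem Nearby.self {P : X → Prop} (h : Nearby T A x₀ P) : P x₀ := by
  obtain ⟨t, -, ht1, hP⟩ := h
  exact hP x₀ fun h0 => by simp [h0] at ht1

@[simp]
theorem coe_intCast_apply (n : ℤ) (x : X) : ((n : locRing T A x₀) : X → L) x = (n : L) := by
  simp

end Fermat.Agent.FiniteFlat
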