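import Mathlib.RingTheory.Valuation.LocalSubring
import Mathlib.RingTheory.IntegralClosure.IsIntegral.Basic
import Mathlib.Algebra.Algebra.Pi

/-!
# Local membership in an algebra of functions

For an algebra `T` of functions `X → L` on a finite set, a function belongs to `T` as soon as it
does so after multiplying by an element of `T` which is a unit at each given (place, point).
-/

set_option autoImplicit false

open Polynomial

namespace Fermat.Agent.FiniteFlat

variable {R L X Y : Type} [CommRing R] [Field L] [Algebra R L]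

/-- `f` is in the localisation of `T` at the place `A` and the point `x₀`. -/
def LocMem (T : Subalgebra R (X → L)) (A : ValuationSubring L) (x₀ : X) (f : X → L) : Prop :=
  ∃ t ∈ T, A.valuation (t x₀) = 1 ∧ t * f ∈ T

/-- `P` holds on a neighbourhood of `(A, x₀)`. -/
def Nearby (T : Subalgebra R (X → L)) (A : ValuationSubring L) (x₀ : X) (P : X → Prop) : Prop :=
  ∃ t ∈ T, A.valuation (t x₀) = 1 ∧ ∀ x, t x ≠ 0 → P x

variable {T : Subalgebra R (X → L)} {A : ValuationSubring L} {x₀ : X}

theorem LocMem.of_mem {f : X → L} (hf : f ∈ T) : LocMem T A x₀ f :=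
  ⟨1, T.one_mem, by simp, by simpa using hf⟩

theorem LocMem.algMap (r : R) : LocMem T A x₀ (algebraMap R (X → L) r) :=
  .of_mem (T.algebraMap_mem r)

theorem LocMem.intCast (n : ℤ) : LocMem T A x₀ (fun _ => (n : L)) :=
  .of_mem (intCast_mem T n)

theorem LocMem.natCast (n : ℕ) : LocMem T A x₀ (fun _ => (n : L)) :=
  .of_mem (natCast_mem T n)

theorem LocMem.add {f g : X → L} (hf : LocMem T A x₀ f) (hg : LocMem T A x₀ g) :
    LocMem T A x₀ (f + g) := by
  obtain ⟨t, ht, ht1, htf⟩ := hf
  obtain ⟨s, hs, hs1, hsg⟩ := hg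
  refine ⟨t * s, T.mul_mem ht hs, by simp [ht1, hs1], ?_⟩
  rw [show t * s * (f + g) = s * (t * f) + t * (s * g) by ring]
  exact T.add_mem (T.mul_mem hs htf) (T.mul_mem ht hsg)

theorem LocMem.mul {f g : X → L} (hf : LocMem T A x₀ f) (hg : LocMem T A x₀ g) :
    LocMem T A x₀ (f * g) := by
  obtain ⟨t, ht, ht1, htf⟩ := hf
  obtain ⟨s, hs, hs1, hsg⟩ := hg
  refine ⟨t * s, T.mul_mem ht hs, by simp [ht1, hs1], ?_⟩
  rw [show t * s * (f * g) = t * f * (s * g) by ring]
  exact T.mul_mem htf hsg

theorem LocMem.neg {f : X → L} (hf : LocMem T A x₀ f) : LocMem T A x₀ (-f) := by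
  obtain ⟨t, ht, ht1, htf⟩ := hf
  exact ⟨t, ht, ht1, by rw [mul_neg]; exact T.neg_mem htf⟩

theorem LocMem.sub {f g : X → L} (hf : LocMem T A x₀ f) (hg : LocMem T A x₀ g) :
    LocMem T A x₀ (f - g) := by
  rw [sub_eq_add_neg]
  exact hf.add hg.neg

theorem LocMem.pow {f : X → L} (hf : LocMem T A x₀ f) (n : ℕ) : LocMem T A x₀ (f ^ n) := by
  induction n with
  | zero => rw [pow_zero]; exact .of_mem T.one_mem
  | succ n ih => rw [pow_succ]; exact ih.mul hf

theorem LocMem.sum {ι : Type*} (s : Finset ι) {f : ι → X → L}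
    (hf : ∀ i ∈ s, LocMem T A x₀ (f i)) : LocMem T A x₀ (∑ i ∈ s, f i) := by
  classical
  induction s using Finset.induction_on with
  | empty => simpa using LocMem.of_mem (A := A) (x₀ := x₀) T.zero_mem
  | @insert a s has ih =>
    rw [Finset.sum_insert has]
    exact (hf a (Finset.mem_insert_self a s)).add
      (ih fun i hi => hf i (Finset.mem_insert_of_mem hi))

theorem LocMem.polynomial_eval {f : X → L} (hf : LocMem T A x₀ f) (p : ℤ[X]) :
    LocMem T A x₀ (fun x => Polynomial.aeval (f x) p) := by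
  have h : (fun x => Polynomial.aeval (f x) p) =
      ∑ i ∈ Finset.range (p.natDegree + 1), (fun _ => (p.coeff i : L)) * f ^ i := by
    funext x
    simp [Polynomial.aeval_eq_sum_range, zsmul_eq_mul]
  rw [h]
  exact .sum _ fun i _ => (LocMem.intCast _).mul (hf.pow i)

/-- Inverses of functions which are units at the point. -/
theorem LocMem.inv {f : X → L} (hf : LocMem T A x₀ f) (h1 : A.valuation (f x₀) = 1) :
    LocMem T A x₀ f⁻¹ := by
  obtain ⟨t, ht, ht1, htf⟩ := hf
  refine ⟨t * f * (t * f), T.mul_mem htf htf, by simp [ht1, h1], ?_⟩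
  have : t * f * (t * f) * f⁻¹ = t * f * t := by
    funext x
    by_cases hx : f x = 0
    · simp [hx]
    · simp only [Pi.mul_apply, Pi.inv_apply]
      field_simp
  rw [this]
  exact T.mul_mem htf ht

theorem LocMem.div {f g : X → L} (hf : LocMem T A x₀ f) (hg : LocMem T A x₀ g)
    (h1 : A.valuation (g x₀) = 1) : LocMem T A x₀ (f / g) := by
  rw [div_eq_mul_inv]
  exact hf.mul (hg.inv h1)

theorem LocMem.congr {f g : X → L} (hf : LocMem T A x₀ f)
    (h : Nearby T A x₀ fun x => f x = g x) : LocMem T A x₀ g := by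
  obtain ⟨t, ht, ht1, htf⟩ := hf
  obtain ⟨s, hs, hs1, hfg⟩ := h
  refine ⟨t * s, T.mul_mem ht hs, by simp [ht1, hs1], ?_⟩
  have : t * s * g = s * (t * f) := by
    funext x
    by_cases hx : s x = 0
    · simp [hx]
    · simp only [Pi.mul_apply, hfg x hx]
      ring
  rw [this]
  exact T.mul_mem hs htf

theorem Nearby.of_forall {P : X → Prop} (h : ∀ x, P x) : Nearby T A x₀ P :=
  ⟨1, T.one_mem, by simp, fun x _ => h x⟩

theorem Nearby.mono {P Q : X → Prop} (h : Nearby T A x₀ P) (hPQ : ∀ x, P x → Q x) :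
    Nearby T A x₀ Q := by
  obtain ⟨t, ht, ht1, hP⟩ := h
  exact ⟨t, ht, ht1, fun x hx => hPQ x (hP x hx)⟩

theorem Nearby.and {P Q : X → Prop} (hP : Nearby T A x₀ P) (hQ : Nearby T A x₀ Q) :
    Nearby T A x₀ fun x => P x ∧ Q x := by
  obtain ⟨t, ht, ht1, hP⟩ := hP
  obtain ⟨s, hs, hs1, hQ⟩ := hQ
  refine ⟨t * s, T.mul_mem ht hs, by simp [ht1, hs1], fun x hx => ?_⟩
  simp only [Pi.mul_apply, ne_eq, mul_eq_zero, not_or] at hx
  exact ⟨hP x hx.1, hQ x hx.2⟩

theorem LocMem.nearby_ne_zero {f : X → L} (hf : LocMem T A x₀ f) (h1 : A.valuation (f x₀) = 1) :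
    Nearby T A x₀ fun x => f x ≠ 0 := by
  obtain ⟨t, ht, ht1, htf⟩ := hf
  exact ⟨t * f, htf, by simp [ht1, h1], fun x hx h0 => hx (by simp [h0])⟩

/-- Pulling back along a map of sets. -/
theorem LocMem.comp {S : Subalgebra R (Y → L)} (u : X → Y) (hu : ∀ f ∈ S, f ∘ u ∈ T)
    {f : Y → L} (hf : LocMem S A (u x₀) f) : LocMem T A x₀ (f ∘ u) := by
  obtain ⟨t, ht, ht1, htf⟩ := hf
  exact ⟨t ∘ u, hu t ht, ht1, hu _ htf⟩

theorem Nearby.comp {S : Subalgebra R (Y → L)} (u : X → Y) (hu : ∀ f ∈ S, f ∘ u ∈ T)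
    {P : Y → Prop} (hP : Nearby S A (u x₀) P) : Nearby T A x₀ fun x => P (u x) := by
  obtain ⟨t, ht, ht1, hP⟩ := hP
  exact ⟨t ∘ u, hu t ht, ht1, fun x hx => hP (u x) hx⟩

/-- A function which is locally in `T` at every place and point is in `T`. -/
theorem mem_of_forall_locMem [Finite X] (T : Subalgebra R (X → L)) (f : X → L)
    (h : ∀ A : ValuationSubring L, (∀ r : R, algebraMap R L r ∈ A) →
      ∀ x₀ : X, LocMem T A x₀ f) : f ∈ T := by
  classical
  have := Fintype.ofFinite X
  let I : Ideal T :=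
    { carrier := {t | (t : X → L) * f ∈ T}
      add_mem' := fun {a b} ha hb => by
        show ((a + b : T) : X → L) * f ∈ T
        rw [Subalgebra.coe_add, add_mul]
        exact T.add_mem ha hb
      zero_mem' := by
        show ((0 : T) : X → L) * f ∈ T
        simp
      smul_mem' := fun c a ha => by
        show ((c * a : T) : X → L) * f ∈ T
        rw [Subalgebra.coe_mul, mul_assoc]
        exact T.mul_mem c.2 ha }
  by_cases hI : I = ⊤
  · have h1 : (1 : T) ∈ I := by simp [hI]
    have h2 : ((1 : T) : X → L) * f ∈ T := h1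
    rwa [Subalgebra.coe_one, one_mul] at h2
  exfalso
  obtain ⟨x₀, hx₀⟩ : ∃ x₀ : X, ∀ m ∈ I, (m : X → L) x₀ ≠ 1 := by
    by_contra hall
    push Not at hall
    choose m hm hm1 using hall
    refine hI ((Ideal.eq_top_iff_one _).2 ?_)
    have hprod : ∀ s : Finset X, (1 : T) - ∏ x ∈ s, (1 - m x) ∈ I := by
      intro s
      induction s using Finset.induction_on with
      | empty => simp
      | @insert a s has ih =>
        rw [Finset.prod_insert has, show (1 : T) - (1 - m a) * ∏ x ∈ s, (1 - m x) =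
          (1 - ∏ x ∈ s, (1 - m x)) + (∏ x ∈ s, (1 - m x)) * m a by ring]
        exact I.add_mem ih (I.mul_mem_left _ (hm a))
    have h0 : (∏ x, (1 - m x) : T) = 0 := by
      apply Subtype.ext
      funext x
      push_cast
      rw [Finset.prod_apply]
      exact Finset.prod_eq_zero (Finset.mem_univ x) (by simp [hm1])
    simpa [h0] using hprod Finset.univ
  let ev : T →+* L := ((Pi.evalAlgHom R (fun _ : X => L) x₀).comp T.val).toRingHom
  have hJ : I.map ev.rangeRestrict ≠ ⊤ := by
    intro htop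
    have h1 : (1 : ev.range) ∈ I.map ev.rangeRestrict := by simp [htop]
    obtain ⟨m, hm, hm1⟩ :=
      (Ideal.mem_map_iff_of_surjective _ ev.rangeRestrict_surjective).1 h1
    exact hx₀ m hm (congrArg Subtype.val hm1)
  obtain ⟨B, hB, hB'⟩ := Ideal.image_subset_nonunits_valuationSubring _ hJ
  obtain ⟨t, ht, ht1, htf⟩ := h B (fun r => hB ⟨algebraMap R T r, rfl⟩) x₀
  have hlt : B.valuation (t x₀) < 1 :=
    B.mem_nonunits_iff.1 (hB' ⟨ev.rangeRestrict ⟨t, ht⟩,
      Ideal.mem_map_of_mem _ (show (⟨t, ht⟩ : T) ∈ I from htf), rfl⟩)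
  exact absurd ht1 hlt.ne

/-- An element lying in every valuation subring containing `R` is integral over `R`. -/
theorem isIntegral_of_forall_mem_valuationSubring (x : L)
    (h : ∀ A : ValuationSubring L, (∀ r : R, algebraMap R L r ∈ A) → x ∈ A) :
    IsIntegral R x := by
  have hmem : x ∈ (⨅ V : {V : ValuationSubring L //
      Set.range (algebraMap R L) ⊆ V.toSubring}, V.1.toSubring) := by
    simp only [Subring.mem_iInf]
    exact fun V => h V.1 fun r => V.2 ⟨r, rfl⟩
  rw [iInf_valuationSubring_superset] at hmem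
  obtain ⟨p, hp, hpx⟩ := hmem
  have hle : Subring.closure (Set.range (algebraMap R L)) ≤
      (algebraMap R L).range := Subring.closure_le.2 fun _ h => h
  have hmap : p.map (Subring.subtype _) ∈
      Polynomial.lifts (algebraMap R L) := by
    rw [Polynomial.lifts_iff_coeff_lifts]
    intro n
    rw [Polynomial.coeff_map]
    exact hle (p.coeff n).2
  obtain ⟨q, hq, -, hqm⟩ := Polynomial.lifts_and_degree_eq_and_monic hmap (hp.map _)
  refine ⟨q, hqm, ?_⟩
  rw [← Polynomial.eval_map, hq, Polynomial.eval_map]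
  exact hpx

/-- A function on a finite set with integral values is integral. -/
theorem isIntegral_pi_of_forall [Finite X] (f : X → L) (h : ∀ x, IsIntegral R (f x)) :
    IsIntegral R f := by
  classical
  have := Fintype.ofFinite X
  choose p hp hpx using h
  refine ⟨∏ x, p x, monic_prod_of_monic _ _ fun x _ => hp x, ?_⟩
  funext x
  have hev : (Pi.evalRingHom (fun _ : X => L) x) ((∏ y, p y).eval₂ (algebraMap R
      (X → L)) f) = (∏ y, p y).eval₂ (algebraMap R L) (f x) := by
    rw [Polynomial.hom_eval₂]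
    rfl
  refine hev.trans ?_
  rw [Polynomial.eval₂_finsetProd]
  exact Finset.prod_eq_zero (Finset.mem_univ x) (hpx x)

end Fermat.Agent.FiniteFlat
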