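import Mathlib.RingTheory.HopfAlgebra.Basic
import Mathlib.RingTheory.Bialgebra.Convolution
import Mathlib.RingTheory.Flat.Basic
import Mathlib.RingTheory.Flat.Stability
import Mathlib.FieldTheory.Galois.Infinite
import Mathlib.RingTheory.IntegralClosure.IntegrallyClosed
import Mathlib.LinearAlgebra.FreeModule.PID
import Mathlib.RingTheory.PrincipalIdealDomain
import Mathlib.RingTheory.UniqueFactorizationDomain.GCDMonoid
import Mathlib.RingTheory.Polynomial.RationalRoot
import Mathlib.RingTheory.TensorProduct.Free

/-!
# Finite flat Hopf algebras from algebras of functions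

A module-finite subalgebra of the equivariant functions on a finite Galois module which
separates points and is closed under comultiplication and inversion is a Hopf algebra whose
points are the given module.
-/

set_option autoImplicit false

open scoped TensorProduct
open Module (Basis)

namespace Fermat.Agent.FiniteFlat

variable {R k L : Type} [CommRing R] [Field k] [Field L]
  [Algebra R k] [Algebra k L] [Algebra R L] [IsScalarTower R k L]

/-- Pullback of functions along a map, as an algebra hom. -/
def funPullback (R : Type) {L X Y : Type} [CommRing R] [CommRing L] [Algebra R L] (u : X → Y) :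
    (Y → L) →ₐ[R] (X → L) where
  toFun f := f ∘ u
  map_one' := rfl
  map_mul' _ _ := rfl
  map_zero' := rfl
  map_add' _ _ := rfl
  commutes' _ := rfl

@[simp]
theorem funPullback_apply {X Y : Type} (u : X → Y) (f : Y → L) (x : X) :
    funPullback R u f x = f (u x) := rfl

/-- Evaluation on `A ⊗ B` as functions on `X × Y`. -/
noncomputable def tensorEval {A B X Y : Type} [CommRing A] [Algebra R A] [CommRing B] [Algebra R B]
    (f : A →ₐ[R] (X → L)) (g : B →ₐ[R] (Y → L)) : A ⊗[R] B →ₐ[R] (X × Y → L) :=
  Algebra.TensorProduct.lift ((funPullback R Prod.fst).comp f) ((funPullback R Prod.snd).comp g)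
    fun _ _ => Commute.all _ _

@[simp]
theorem tensorEval_tmul {A B X Y : Type} [CommRing A] [Algebra R A] [CommRing B] [Algebra R B]
    (f : A →ₐ[R] (X → L)) (g : B →ₐ[R] (Y → L)) (a : A) (b : B) (q : X × Y) :
    tensorEval f g (a ⊗ₜ b) q = f a q.1 * g b q.2 := by
  simp [tensorEval]

theorem tensorEval_injective {A B X Y ι : Type} [CommRing A] [Algebra R A] [CommRing B]
    [Algebra R B] (f : A →ₐ[R] (X → L)) (g : B →ₐ[R] (Y → L)) (b : Basis ι R A)
    (hind : LinearIndependent L fun i => f (b i)) (hg : Function.Injective g) :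
    Function.Injective (tensorEval f g) := by
  classical
  rw [injective_iff_map_eq_zero]
  intro z hz
  obtain ⟨c, rfl⟩ := (TensorProduct.equivFinsuppOfBasisLeft (N := B) b).symm.surjective z
  rw [TensorProduct.equivFinsuppOfBasisLeft_symm_apply] at hz ⊢
  suffices c = 0 by simp [this]
  ext i
  apply hg
  rw [Finsupp.zero_apply, map_zero]
  funext y
  have h : ∑ j ∈ c.support, g (c j) y • f (b j) = 0 := by
    funext x
    have := congrFun hz (x, y)
    simp only [Finsupp.sum, map_sum, Finset.sum_apply, tensorEval_tmul, Pi.zero_apply] at this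
    simpa [Finset.sum_apply, mul_comm] using this
  by_cases hi : i ∈ c.support
  · exact linearIndependent_iff'.1 hind c.support (fun j => g (c j) y) h i hi
  · simp [Finsupp.notMem_support_iff.1 hi]

section Equivariant

variable {M : Type} [MulAction (L ≃ₐ[k] L) M] [IsGalois k L]

/-- Galois descent: equivariant functions independent over `k` are independent over `L`. -/
theorem linearIndependent_of_equivariant {ι : Type} {v : ι → (M → L)}
    (hv : LinearIndependent k v)
    (hequiv : ∀ (i : ι) (σ : L ≃ₐ[k] L) (m : M), v i (σ • m) = σ (v i m)) :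
    LinearIndependent L v := by
  classical
  rw [linearIndependent_iff']
  intro s
  induction s using Finset.induction_on with
  | empty => simp
  | @insert a s has ih =>
    intro c hc
    have h0 : c a = 0 := by
      by_contra hne
      set d : ι → L := fun i => (c a)⁻¹ * c i with hd
      have hda : d a = 1 := inv_mul_cancel₀ hne
      have hd0 : ∀ m, ∑ i ∈ insert a s, d i * v i m = 0 := fun m => by
        have := congrFun hc m
        simp only [Finset.sum_apply, Pi.smul_apply, smul_eq_mul, Pi.zero_apply] at this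
        simp only [hd, mul_assoc, ← Finset.mul_sum, this, mul_zero]
      have hfix : ∀ i ∈ insert a s, ∃ r : k, algebraMap k L r = d i := by
        intro i hi
        refine (InfiniteGalois.mem_range_algebraMap_iff_fixed (d i)).2 fun σ => ?_
        rcases Finset.mem_insert.1 hi with rfl | hi
        · simp [hda]
        have hσ : ∀ m, ∑ j ∈ insert a s, σ (d j) * v j m = 0 := fun m => by
          have := congrArg σ (hd0 (σ⁻¹ • m))
          simpa [map_sum, ← hequiv] using this
        refine sub_eq_zero.1 (ih (fun j => σ (d j) - d j) ?_ i hi)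
        funext m
        have h1 := hσ m
        have h2 := hd0 m
        rw [Finset.sum_insert has] at h1 h2
        simp only [hda, map_one] at h1 h2
        simp only [Finset.sum_apply, Pi.smul_apply, smul_eq_mul, sub_mul, Finset.sum_sub_distrib,
          Pi.zero_apply]
        linear_combination h1 - h2
      choose! r hr using hfix
      have hlin : ∑ i ∈ insert a s, r i • v i = 0 := by
        funext m
        simp only [Finset.sum_apply, Pi.smul_apply, Pi.zero_apply]
        rw [← hd0 m]
        exact Finset.sum_congr rfl fun i hi => by rw [Algebra.smul_def, hr i hi]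
      have ha0 := linearIndependent_iff'.1 hv _ r hlin a (Finset.mem_insert_self a s)
      have := hr a (Finset.mem_insert_self a s)
      rw [ha0, map_zero, hda] at this
      exact zero_ne_one this
    intro i hi
    rcases Finset.mem_insert.1 hi with rfl | hi
    · exact h0
    · refine ih c ?_ i hi
      rwa [Finset.sum_insert has, h0, zero_smul, zero_add] at hc

end Equivariant

section Functions

variable {M : Type} [AddCommGroup M]
variable (H : Subalgebra R (M → L))

/-- Functions in two variables coming from `H ⊗ H`. -/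
noncomputable abbrev evalTwo : H ⊗[R] H →ₐ[R] (M × M → L) := tensorEval H.val H.val

/-- Functions in three variables coming from `H ⊗ H ⊗ H`. -/
noncomputable abbrev evalThree : H ⊗[R] (H ⊗[R] H) →ₐ[R] (M × (M × M) → L) :=
  tensorEval (B := H ⊗[R] H) H.val (evalTwo H)

omit [IsScalarTower R k L] [Algebra R k] [Field k] [Algebra k L] in
theorem add_mem_range_evalTwo
    (hadd : ∀ f ∈ H, funPullback R (fun q : M × M => q.1 + q.2) f ∈
      H.map (funPullback R Prod.fst) ⊔ H.map (funPullback R Prod.snd)) (f : H) :
    funPullback R (fun q : M × M => q.1 + q.2) (f : M → L) ∈ (evalTwo H).range := by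
  refine (sup_le ?_ ?_ :
    H.map (funPullback R Prod.fst) ⊔ H.map (funPullback R Prod.snd) ≤ (evalTwo H).range) (hadd _ f.2)
  · rintro _ ⟨g, hg, rfl⟩
    exact ⟨⟨g, hg⟩ ⊗ₜ 1, by funext q; simp⟩
  · rintro _ ⟨g, hg, rfl⟩
    exact ⟨1 ⊗ₜ ⟨g, hg⟩, by funext q; simp⟩

omit [IsScalarTower R k L] [Algebra R k] [Field k] [Algebra k L] in
theorem exists_comul (hμ : Function.Injective (evalTwo H))
    (hadd : ∀ f ∈ H, funPullback R (fun q : M × M => q.1 + q.2) f ∈
      H.map (funPullback R Prod.fst) ⊔ H.map (funPullback R Prod.snd)) :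
    ∃ Δ : H →ₐ[R] H ⊗[R] H, ∀ (f : H) (q : M × M),
      evalTwo H (Δ f) q = (f : M → L) (q.1 + q.2) := by
  choose g hg using fun f : H => add_mem_range_evalTwo H hadd f
  have hg' : ∀ f q, evalTwo H (g f) q = (f : M → L) (q.1 + q.2) := fun f q => congrFun (hg f) q
  refine ⟨{ toFun := g, map_one' := ?_, map_mul' := ?_, map_zero' := ?_, map_add' := ?_,
            commutes' := ?_ }, hg'⟩
  · exact hμ (funext fun q => by simp [hg'])
  · intro a b
    refine hμ (funext fun q => ?_)
    rw [map_mul, Pi.mul_apply, hg', hg', hg']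
    rfl
  · exact hμ (funext fun q => by simp [hg'])
  · intro a b
    refine hμ (funext fun q => ?_)
    rw [map_add, Pi.add_apply, hg', hg', hg']
    rfl
  · intro r
    refine hμ (funext fun q => ?_)
    rw [hg', AlgHom.commutes]
    rfl

theorem exists_counit [DistribMulAction (L ≃ₐ[k] L) M] [IsGalois k L] [IsDomain R]
    [IsPrincipalIdealRing R] [IsFractionRing R k] [Module.Finite R H]
    (hequiv : ∀ f ∈ H, ∀ (σ : L ≃ₐ[k] L) (m : M), f (σ • m) = σ (f m)) :
    ∃ ε : H →ₐ[R] R, ∀ f : H, algebraMap R L (ε f) = (f : M → L) 0 := by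
  have hinj : Function.Injective (algebraMap R L) := by
    rw [IsScalarTower.algebraMap_eq R k L]
    exact (algebraMap k L).injective.comp (IsFractionRing.injective R k)
  have hex : ∀ f : H, ∃ r : R, algebraMap R L r = (f : M → L) 0 := fun f => by
    obtain ⟨r, hr⟩ : ∃ r : k, algebraMap k L r = (f : M → L) 0 :=
      (InfiniteGalois.mem_range_algebraMap_iff_fixed _).2 fun σ => by
        rw [← hequiv _ f.2 σ 0, smul_zero]
    have hint : IsIntegral R ((f : M → L) 0) :=
      (Algebra.IsIntegral.isIntegral f).map
        ((Pi.evalAlgHom R (fun _ : M => L) 0).comp H.val)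
    rw [← hr, isIntegral_algebraMap_iff (algebraMap k L).injective] at hint
    obtain ⟨r', hr'⟩ := IsIntegrallyClosed.isIntegral_iff.1 hint
    exact ⟨r', by rw [← hr, ← hr']; exact IsScalarTower.algebraMap_apply R k L r'⟩
  choose g hg using hex
  refine ⟨{ toFun := g, map_one' := ?_, map_mul' := ?_, map_zero' := ?_, map_add' := ?_,
            commutes' := ?_ }, hg⟩
  · exact hinj (by simp [hg])
  · exact fun a b => hinj (by simp [hg])
  · exact hinj (by simp [hg])
  · exact fun a b => hinj (by simp [hg])
  · exact fun r => hinj (by rw [hg]; simp)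

variable {H}

omit [IsScalarTower R k L] [Algebra R k] [Field k] [Algebra k L] [AddCommGroup M] in
theorem evalThree_assoc (z : H ⊗[R] H) (y : H) (a₁ a₂ a₃ : M) :
    evalThree H (Algebra.TensorProduct.assoc R R R H H H (z ⊗ₜ y)) (a₁, a₂, a₃)
      = evalTwo H z (a₁, a₂) * (y : M → L) a₃ := by
  induction z using TensorProduct.induction_on with
  | zero => simp
  | tmul u v => simp [mul_assoc]
  | add u v hu hv => simp [TensorProduct.add_tmul, hu, hv, add_mul]

omit [IsScalarTower R k L] [Algebra R k] [Field k] [Algebra k L] in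
theorem coassoc_of_eval (hμ₃ : Function.Injective (evalThree H)) {Δ : H →ₐ[R] H ⊗[R] H}
    (hΔ : ∀ (f : H) (q : M × M), evalTwo H (Δ f) q = (f : M → L) (q.1 + q.2)) :
    (Algebra.TensorProduct.assoc R R R H H H).toAlgHom.comp
      ((Algebra.TensorProduct.map Δ (.id R H)).comp Δ)
      = (Algebra.TensorProduct.map (.id R H) Δ).comp Δ := by
  refine AlgHom.ext fun f => hμ₃ (funext fun ⟨a₁, a₂, a₃⟩ => ?_)
  have l : ∀ z : H ⊗[R] H,
      evalThree H (Algebra.TensorProduct.assoc R R R H H H
        (Algebra.TensorProduct.map Δ (.id R H) z)) (a₁, a₂, a₃)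
        = evalTwo H z (a₁ + a₂, a₃) := fun z => by
    induction z using TensorProduct.induction_on with
    | zero => simp
    | tmul u v =>
      rw [Algebra.TensorProduct.map_tmul, evalThree_assoc, hΔ]
      simp
    | add u v hu hv => simp [map_add, hu, hv]
  have r : ∀ z : H ⊗[R] H,
      evalThree H (Algebra.TensorProduct.map (.id R H) Δ z) (a₁, a₂, a₃)
        = evalTwo H z (a₁, a₂ + a₃) := fun z => by
    induction z using TensorProduct.induction_on with
    | zero => simp
    | tmul u v => simp [hΔ]
    | add u v hu hv => simp [map_add, hu, hv]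
  change evalThree H (Algebra.TensorProduct.assoc R R R H H H
    (Algebra.TensorProduct.map Δ (.id R H) (Δ f))) _ = _
  rw [l, hΔ]
  simp only [AlgHom.comp_apply]
  rw [r, hΔ, add_assoc]

omit [IsScalarTower R k L] [Algebra R k] [Field k] [Algebra k L] in
theorem rTensor_of_eval {Δ : H →ₐ[R] H ⊗[R] H}
    (hΔ : ∀ (f : H) (q : M × M), evalTwo H (Δ f) q = (f : M → L) (q.1 + q.2)) {ε : H →ₐ[R] R}
    (hε : ∀ f : H, algebraMap R L (ε f) = (f : M → L) 0) :
    (Algebra.TensorProduct.map ε (.id R H)).comp Δ
      = (Algebra.TensorProduct.lid R H).symm := by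
  refine AlgHom.ext fun f => (Algebra.TensorProduct.lid R H).injective
    (Subtype.ext (funext fun m => ?_))
  have l : ∀ z : H ⊗[R] H,
      (Algebra.TensorProduct.lid R H (Algebra.TensorProduct.map ε (.id R H) z) : M → L) m
        = evalTwo H z (0, m) := fun z => by
    induction z using TensorProduct.induction_on with
    | zero => simp
    | tmul u v => simp [Algebra.smul_def, hε]
    | add u v hu hv => simp [map_add, hu, hv]
  simp only [AlgHom.comp_apply]
  rw [l, hΔ, zero_add]
  simp

omit [IsScalarTower R k L] [Algebra R k] [Field k] [Algebra k L] in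
theorem lTensor_of_eval {Δ : H →ₐ[R] H ⊗[R] H}
    (hΔ : ∀ (f : H) (q : M × M), evalTwo H (Δ f) q = (f : M → L) (q.1 + q.2)) {ε : H →ₐ[R] R}
    (hε : ∀ f : H, algebraMap R L (ε f) = (f : M → L) 0) :
    (Algebra.TensorProduct.map (.id R H) ε).comp Δ
      = (Algebra.TensorProduct.rid R R H).symm := by
  refine AlgHom.ext fun f => (Algebra.TensorProduct.rid R R H).injective
    (Subtype.ext (funext fun m => ?_))
  have l : ∀ z : H ⊗[R] H,
      (Algebra.TensorProduct.rid R R H (Algebra.TensorProduct.map (.id R H) ε z) : M → L) m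
        = evalTwo H z (m, 0) := fun z => by
    induction z using TensorProduct.induction_on with
    | zero => simp
    | tmul u v => simp [Algebra.smul_def, hε, mul_comm]
    | add u v hu hv => simp [map_add, hu, hv]
  simp only [AlgHom.comp_apply]
  rw [l, hΔ, add_zero]
  simp

omit [IsScalarTower R k L] [Algebra R k] [Field k] [Algebra k L] [AddCommGroup M] in
/-- The evaluation of `φ ⊗ ψ` on a tensor whose factors are evaluations at points. -/
theorem lift_eval {B : Type} [CommRing B] [Algebra R B] (φ ψ : H →ₐ[R] B) (u : B →ₐ[R] L)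
    (a a' : M) (hφ : ∀ f : H, u (φ f) = (f : M → L) a)
    (hψ : ∀ f : H, u (ψ f) = (f : M → L) a') (z : H ⊗[R] H) :
    u ((Algebra.TensorProduct.lift φ ψ fun _ _ => Commute.all _ _) z) = evalTwo H z (a, a') := by
  induction z using TensorProduct.induction_on with
  | zero => simp
  | tmul u v => simp [hφ, hψ]
  | add u v hu hv => simp [map_add, hu, hv]

omit [IsScalarTower R k L] [Algebra R k] [Field k] [Algebra k L] in
theorem comm_of_eval (hμ : Function.Injective (evalTwo H)) {Δ : H →ₐ[R] H ⊗[R] H}
    (hΔ : ∀ (f : H) (q : M × M), evalTwo H (Δ f) q = (f : M → L) (q.1 + q.2)) :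
    (TensorProduct.comm R H H).toLinearMap.comp Δ.toLinearMap = Δ.toLinearMap := by
  refine LinearMap.ext fun f => hμ (funext fun q => ?_)
  have l : ∀ z : H ⊗[R] H,
      evalTwo H (TensorProduct.comm R H H z) q = evalTwo H z (q.2, q.1) := fun z => by
    induction z using TensorProduct.induction_on with
    | zero => simp
    | tmul u v => simp [mul_comm]
    | add u v hu hv => simp [map_add, hu, hv]
  change evalTwo H (TensorProduct.comm R H H (Δ f)) q = evalTwo H (Δ f) q
  rw [l, hΔ, hΔ, add_comm]

omit [IsScalarTower R k L] [Algebra R k] [Field k] [Algebra k L] [AddCommGroup M] in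
/-- A separating family of functions closed under products spans all functions. -/
theorem span_eq_top [Finite M] {ι : Type} (b : Basis ι R H)
    (hsep : ∀ m m' : M, m ≠ m' → ∃ f ∈ H, f m ≠ f m') :
    Submodule.span L (Set.range fun i => (b i : M → L)) = ⊤ := by
  classical
  have := Fintype.ofFinite M
  set S := Submodule.span L (Set.range fun i => (b i : M → L)) with hS
  have hHS : ∀ f ∈ H, f ∈ S := fun f hf => by
    have : (⟨f, hf⟩ : H) ∈ Submodule.span R (Set.range b) := by simp [b.span_eq]
    have h2 := Submodule.apply_mem_span_image_of_mem_span H.val.toLinearMap this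
    rw [← Set.range_comp] at h2
    exact Submodule.span_le_restrictScalars R L _ h2
  have hmul : ∀ f ∈ S, ∀ g ∈ S, f * g ∈ S := fun f hf g hg => by
    have := Submodule.mul_mem_mul hf hg
    rw [hS, Submodule.span_mul_span] at this
    refine Submodule.span_le.2 ?_ this
    rintro _ ⟨_, ⟨i, rfl⟩, _, ⟨j, rfl⟩, rfl⟩
    exact hHS _ (H.mul_mem (b i).2 (b j).2)
  have h1 : (1 : M → L) ∈ S := hHS 1 H.one_mem
  rw [eq_top_iff]
  intro f _
  rw [← Finset.univ_sum_single f]
  refine S.sum_mem fun m _ => ?_
  have key : ∀ t : Finset M, m ∉ t → ∃ g ∈ S, g m = 1 ∧ ∀ m' ∈ t, g m' = 0 := by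
    intro t
    induction t using Finset.induction_on with
    | empty => exact fun _ => ⟨1, h1, rfl, by simp⟩
    | @insert a t hat ih =>
      intro hm
      simp only [Finset.mem_insert, not_or] at hm
      obtain ⟨g₁, hg₁, hg₁m, hg₁t⟩ := ih hm.2
      obtain ⟨g, hg, hgne⟩ := hsep m a hm.1
      refine ⟨g₁ * ((g m - g a)⁻¹ • (g - g a • 1)), hmul _ hg₁ _ (S.smul_mem _
        (S.sub_mem (hHS g hg) (S.smul_mem _ h1))), ?_, ?_⟩
      · simp [hg₁m, sub_ne_zero.2 hgne]
      · intro m' hm'
        rcases Finset.mem_insert.1 hm' with rfl | hm'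
        · simp
        · simp [hg₁t m' hm']
  obtain ⟨g, hg, hgm, hgt⟩ := key (Finset.univ.erase m) (by simp)
  convert S.smul_mem (f m) hg using 1
  funext m'
  rcases eq_or_ne m' m with rfl | hne
  · simp [hgm]
  · simp [hne, hgt m' (by simp [hne])]

omit [IsScalarTower R k L] [Algebra R k] [Field k] [Algebra k L] [AddCommGroup M] in
/-- Every algebra map to `L` is evaluation at a unique point. -/
theorem existsUnique_point [Finite M] {ι : Type} (b : Basis ι R H)
    (hind : LinearIndependent L fun i => (b i : M → L))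
    (hsep : ∀ m m' : M, m ≠ m' → ∃ f ∈ H, f m ≠ f m') (φ : H →ₐ[R] L) :
    ∃! m : M, ∀ f : H, φ f = (f : M → L) m := by
  classical
  have := Fintype.ofFinite M
  let B : Basis ι L (M → L) := Basis.mk hind (ge_of_eq (span_eq_top b hsep))
  let Φ : (M → L) →ₗ[L] L := B.constr L fun i => φ (b i)
  have hB : ∀ i, B i = (b i : M → L) := fun i => Basis.mk_apply _ _ i
  have hΦ : ∀ f : H, Φ f = φ f := by
    have : (Φ.restrictScalars R).comp H.val.toLinearMap = φ.toLinearMap :=
      b.ext fun i => by
        change Φ (b i : M → L) = φ (b i)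
        rw [← hB, Basis.constr_basis]
    exact fun f => LinearMap.congr_fun this f
  have hΦmul : ∀ f g : M → L, Φ (f * g) = Φ f * Φ g := by
    have h2 : (LinearMap.mul L (M → L)).compr₂ Φ = (LinearMap.mul L L).compl₁₂ Φ Φ := by
      refine B.ext fun i => B.ext fun j => ?_
      simp only [LinearMap.compr₂_apply, LinearMap.mul_apply', LinearMap.compl₁₂_apply, hB]
      rw [← Subalgebra.coe_mul, hΦ, hΦ, hΦ, map_mul]
    exact fun f g => LinearMap.congr_fun₂ h2 f g
  have hΦone : Φ 1 = 1 := by rw [← H.coe_one, hΦ, map_one]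
  obtain ⟨m, hm⟩ : ∃ m, Φ (Pi.single m 1) ≠ 0 := by
    by_contra hall
    simp only [not_exists, not_not] at hall
    have := hΦone
    rw [← Finset.univ_sum_single (1 : M → L), map_sum] at this
    simp [hall] at this
  have hval : ∀ f : M → L, Φ f = f m := fun f => by
    have h1 := hΦmul f (Pi.single m 1)
    have h2 : f * Pi.single m (1 : L) = f m • Pi.single m (1 : L) := by
      funext m'
      rcases eq_or_ne m' m with rfl | hne
      · simp
      · simp [hne]
    rw [h2, map_smul, smul_eq_mul] at h1
    exact (mul_right_cancel₀ hm h1).symm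
  refine ⟨m, fun f => by rw [← hΦ, hval], fun m' hm' => ?_⟩
  by_contra hne
  obtain ⟨g, hg, hgne⟩ := hsep m' m hne
  exact hgne ((hm' ⟨g, hg⟩).symm.trans (by rw [← hΦ, hval]))

end Functions

/-- A subalgebra of equivariant functions on a finite Galois module which is module-finite,
separates points and is closed under comultiplication and inversion yields a finite flat
cocommutative Hopf algebra with that module as its group of points. -/
theorem exists_hopfAlgebra_of_functions {M : Type} [AddCommGroup M] [Finite M]
    [DistribMulAction (L ≃ₐ[k] L) M] [IsDomain R] [IsPrincipalIdealRing R] [IsFractionRing R k]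
    [IsGalois k L] (H : Subalgebra R (M → L)) [Module.Finite R H]
    (hequiv : ∀ f ∈ H, ∀ (σ : L ≃ₐ[k] L) (m : M), f (σ • m) = σ (f m))
    (hsep : ∀ m m' : M, m ≠ m' → ∃ f ∈ H, f m ≠ f m')
    (hadd : ∀ f ∈ H, funPullback R (fun q : M × M => q.1 + q.2) f ∈
      H.map (funPullback R Prod.fst) ⊔ H.map (funPullback R Prod.snd))
    (hneg : ∀ f ∈ H, funPullback R (fun m : M => -m) f ∈ H) :
    ∃ (H' : Type) (_ : CommRing H') (_ : HopfAlgebra R H'),
      Module.Finite R H' ∧ Module.Flat R H' ∧ Coalgebra.IsCocomm R H' ∧
      ∃ e : WithConv (H' →ₐ[R] L) ≃ M,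
        (∀ f g : WithConv (H' →ₐ[R] L), e (f * g) = e f + e g) ∧
        ∀ (σ : L ≃ₐ[k] L) (f g : WithConv (H' →ₐ[R] L)),
          (∀ h : H', g h = σ (f h)) → e g = σ • e f := by
  classical
  have hinjR : Function.Injective (algebraMap R L) := by
    rw [IsScalarTower.algebraMap_eq R k L]
    exact (algebraMap k L).injective.comp (IsFractionRing.injective R k)
  have : Module.IsTorsionFree R L := Module.isTorsionFree_iff_algebraMap_injective.2 hinjR
  have : Module.IsTorsionFree R H :=
    Function.Injective.moduleIsTorsionFree (Subtype.val : H → (M → L)) Subtype.val_injective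
      fun _ _ => rfl
  have : Module.Free R H := Module.free_of_finite_type_torsion_free'
  have b := Module.Free.chooseBasis R H
  have hindk : LinearIndependent k fun i => (b i : M → L) :=
    (LinearIndependent.iff_fractionRing R k).1
      (b.linearIndependent.map' H.val.toLinearMap (LinearMap.ker_eq_bot.2 Subtype.val_injective))
  have hind : LinearIndependent L fun i => (b i : M → L) :=
    linearIndependent_of_equivariant (k := k) hindk fun i σ m => hequiv _ (b i).2 σ m
  have hμ : Function.Injective (evalTwo H) :=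
    tensorEval_injective _ _ b hind Subtype.val_injective
  have hμ₃ : Function.Injective (evalThree H) :=
    tensorEval_injective (B := H ⊗[R] H) _ _ b hind hμ
  obtain ⟨Δ, hΔ⟩ := exists_comul H hμ hadd
  obtain ⟨ε, hε⟩ := exists_counit (k := k) H hequiv
  let _ : Bialgebra R H := Bialgebra.ofAlgHom Δ ε (coassoc_of_eval hμ₃ hΔ)
    (rTensor_of_eval hΔ hε) (lTensor_of_eval hΔ hε)
  let negH : H →ₐ[R] H :=
    ((funPullback R fun m : M => -m).comp H.val).codRestrict H fun f => hneg _ f.2
  have hl : (Algebra.TensorProduct.lift negH (.id R H) fun _ => Commute.all _).comp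
      (Bialgebra.comulAlgHom R H) = (Algebra.ofId R H).comp (Bialgebra.counitAlgHom R H) :=
    AlgHom.ext fun f => Subtype.ext (funext fun m => (lift_eval negH (.id R H)
      ((Pi.evalAlgHom R (fun _ : M => L) m).comp H.val) (-m) m (fun _ => rfl) (fun _ => rfl)
      (Δ f)).trans (by rw [hΔ, neg_add_cancel]; exact (hε f).symm))
  have hr : (Algebra.TensorProduct.lift (.id R H) negH fun _ _ => Commute.all _ _).comp
      (Bialgebra.comulAlgHom R H) = (Algebra.ofId R H).comp (Bialgebra.counitAlgHom R H) :=
    AlgHom.ext fun f => Subtype.ext (funext fun m => (lift_eval (.id R H) negH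
      ((Pi.evalAlgHom R (fun _ : M => L) m).comp H.val) m (-m) (fun _ => rfl) (fun _ => rfl)
      (Δ f)).trans (by rw [hΔ, add_neg_cancel]; exact (hε f).symm))
  let _ : HopfAlgebra R H := HopfAlgebra.ofAlgHom negH hl hr
  refine ⟨H, inferInstance, inferInstance, inferInstance, inferInstance,
    ⟨comm_of_eval hμ hΔ⟩, ?_⟩
  choose pt hpt hpt_uniq using existsUnique_point b hind hsep
  let e : WithConv (H →ₐ[R] L) ≃ M :=
    { toFun := fun φ => pt φ.ofConv
      invFun := fun m => WithConv.toConv ((Pi.evalAlgHom R (fun _ : M => L) m).comp H.val)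
      left_inv := fun φ => WithConv.ext (AlgHom.ext fun f => (hpt φ.ofConv f).symm)
      right_inv := fun m => (hpt_uniq _ m fun _ => rfl).symm }
  refine ⟨e, fun φ ψ => (hpt_uniq _ _ fun f => ?_).symm, fun σ φ ψ h => ?_⟩
  · change (φ * ψ) f = (f : M → L) (pt φ.ofConv + pt ψ.ofConv)
    rw [AlgHom.convMul_apply]
    exact ((lift_eval φ.ofConv ψ.ofConv (AlgHom.id R L) (pt φ.ofConv) (pt ψ.ofConv)
      (hpt φ.ofConv) (hpt ψ.ofConv) (Δ f))).trans (hΔ f _)
  · refine (hpt_uniq _ _ fun f => ?_).symm
    change ψ f = (f : M → L) (σ • pt φ.ofConv)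
    rw [hequiv _ f.2, h f, ← hpt φ.ofConv f]

end Fermat.Agent.FiniteFlat
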