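import Fermat.Prelude.Def_CuspForm_HeckeGaloisRepDatum
import Fermat.Agent.Hecke.GoodSemisimple
import Fermat.Agent.HeckeFinite.Finite
import Fermat.Agent.EichlerShimura.FiniteDVR
import Mathlib.RingTheory.Flat.TorsionFree
import Mathlib.RingTheory.Ideal.GoingUp
import Mathlib.RingTheory.SimpleModule.Basic
import Mathlib.RingTheory.Unramified.Field

/-!
# The points of a Hecke–Galois datum

* `isReduced_of_datum`: the coefficient ring `T` is reduced.
* `exists_eigensystem_extension`: a system of eigenvalues away from `S` extends to a full one,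
  over a finite extension.
* `exists_points`: `T` embeds in a finite product of complete discrete valuation rings whose
  systems of eigenvalues extend to the full Hecke algebra.
-/

set_option autoImplicit false

noncomputable section

namespace Fermat.Agent.FiniteFlat

open IsLocalRing TensorProduct

theorem isReduced_rat_tensor_int (R : Type) [CommRing R] [IsAddTorsionFree R] [IsReduced R] :
    IsReduced (ℚ ⊗[ℤ] R) := by
  refine ⟨fun x hx => ?_⟩
  obtain ⟨m, hm0, y, hy⟩ :
      ∃ m : ℤ, m ≠ 0 ∧ ∃ y : R, (m : ℚ) • x = (1 : ℚ) ⊗ₜ[ℤ] y := by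
    clear hx
    induction x using TensorProduct.induction_on with
    | zero => exact ⟨1, one_ne_zero, 0, by simp⟩
    | tmul r y =>
      refine ⟨(r.den : ℤ), by exact_mod_cast r.den_ne_zero, r.num • y, ?_⟩
      rw [TensorProduct.smul_tmul', ← TensorProduct.smul_tmul r.num (1 : ℚ) y]
      congr 1
      simp only [smul_eq_mul, zsmul_eq_mul, mul_one, Int.cast_natCast]
      rw [mul_comm]
      exact_mod_cast Rat.mul_den_eq_num r
    | add u v hu hv =>
      obtain ⟨m₁, h₁, y₁, e₁⟩ := hu
      obtain ⟨m₂, h₂, y₂, e₂⟩ := hv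
      refine ⟨m₁ * m₂, mul_ne_zero h₁ h₂, m₂ • y₁ + m₁ • y₂, ?_⟩
      rw [TensorProduct.tmul_add, TensorProduct.tmul_smul, TensorProduct.tmul_smul,
        ← e₁, ← e₂, ← Int.cast_smul_eq_zsmul ℚ, ← Int.cast_smul_eq_zsmul ℚ m₁]
      push_cast
      module
  have hy0 : IsNilpotent (Algebra.TensorProduct.includeRight y : ℚ ⊗[ℤ] R) :=
    (hy ▸ hx.smul (m : ℚ) : IsNilpotent ((1 : ℚ) ⊗ₜ[ℤ] y))
  have hinj : Function.Injective (Algebra.TensorProduct.includeRight : R →ₐ[ℤ] ℚ ⊗[ℤ] R) :=
    Algebra.TensorProduct.includeRight_injective (fun a b h => by simpa using h)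
  rw [((IsNilpotent.map_iff hinj).mp hy0).eq_zero, TensorProduct.tmul_zero, smul_eq_zero] at hy
  exact hy.resolve_left (Int.cast_ne_zero.mpr hm0)

/-- An algebra over a characteristic zero field generated by the image of a reduced finite
`ℤ`-algebra is reduced. -/
theorem isReduced_of_adjoin_range_eq_top_field (K : Type) [Field K] [CharZero K] [Algebra ℚ K]
    (R : Type) [CommRing R] [IsAddTorsionFree R] [Module.Finite ℤ R] [IsReduced R]
    (L : Type) [CommRing L] [Algebra K L] (π : R →+* L)
    (hgen : Algebra.adjoin K (Set.range π) = ⊤) : IsReduced L := by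
  have := isReduced_rat_tensor_int R
  let A := ℚ ⊗[ℤ] R
  have : IsArtinianRing A := IsArtinianRing.of_finite ℚ _
  have : Algebra.FormallyEtale ℚ A := by
    let := fun I : MaximalSpectrum A => Ideal.Quotient.field I.asIdeal
    exact (Algebra.FormallyEtale.iff_exists_algEquiv_prod ℚ A).mpr
      ⟨MaximalSpectrum A, inferInstance, fun I => A ⧸ I.asIdeal,
        inferInstance, inferInstance, (IsArtinianRing.equivPi _).restrictScalars ℚ,
        fun I => Algebra.IsSeparable.of_integral _ _⟩
  have : IsReduced (K ⊗[ℚ] A) := Algebra.FormallyUnramified.isReduced_of_field K (K ⊗[ℚ] A)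
  have : IsArtinianRing (K ⊗[ℚ] A) := by exact IsArtinianRing.of_finite K (K ⊗[ℚ] A)
  have : IsSemisimpleRing (K ⊗[ℚ] A) := by
    exact IsArtinianRing.isSemisimpleRing_of_isReduced (K ⊗[ℚ] A)
  let : Algebra ℚ L := ((algebraMap K L).comp (algebraMap ℚ K)).toAlgebra
  have : IsScalarTower ℚ K L := IsScalarTower.of_algebraMap_eq fun _ => rfl
  let φA : A →ₐ[ℚ] L :=
    Algebra.TensorProduct.lift (Algebra.ofId ℚ L) π.toIntAlgHom fun _ _ => Commute.all _ _
  let φ : K ⊗[ℚ] A →ₐ[K] L :=
    Algebra.TensorProduct.lift (Algebra.ofId K L) φA fun _ _ => Commute.all _ _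
  have htop : φ.range = ⊤ := by
    rw [eq_top_iff, ← hgen, Algebra.adjoin_le_iff]
    rintro _ ⟨r, rfl⟩
    exact ⟨(1 : K) ⊗ₜ[ℚ] ((1 : ℚ) ⊗ₜ[ℤ] r), by
      simp [φ, φA]
      exact (Algebra.TensorProduct.lift_tmul _ _ _ _ _).trans (by simp)⟩
  have hsurj : Function.Surjective φ := AlgHom.range_eq_top φ |>.mp htop
  have : IsSemisimpleRing L := by
    exact @RingHom.isSemisimpleRing_of_surjective _ _ _ _ φ.toRingHom hsurj (by assumption)
  infer_instance

/-- A torsion-free algebra over a characteristic zero domain generated by the image of a reduced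
finite `ℤ`-algebra is reduced. -/
theorem isReduced_of_adjoin_range_eq_top (O : Type) [CommRing O] [IsDomain O] [CharZero O]
    (R : Type) [CommRing R] [IsAddTorsionFree R] [Module.Finite ℤ R] [IsReduced R]
    (T : Type) [CommRing T] [Algebra O T] [Module.Flat O T] (π : R →+* T)
    (hgen : Algebra.adjoin O (Set.range π) = ⊤) : IsReduced T := by
  have : CharZero (FractionRing O) :=
    charZero_of_injective_algebraMap (IsFractionRing.injective O (FractionRing O))
  have : IsReduced (FractionRing O ⊗[O] T) := by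
    refine isReduced_of_adjoin_range_eq_top_field (FractionRing O) R _
      ((Algebra.TensorProduct.includeRight : T →ₐ[O] FractionRing O ⊗[O] T).toRingHom.comp π) ?_
    rw [eq_top_iff]
    rintro z -
    have h1 : ∀ x : T, (1 : FractionRing O) ⊗ₜ[O] x ∈ Algebra.adjoin (FractionRing O)
        (Set.range ((Algebra.TensorProduct.includeRight :
          T →ₐ[O] FractionRing O ⊗[O] T).toRingHom.comp π)) := by
      intro x
      have hx : x ∈ Algebra.adjoin O (Set.range π) := hgen ▸ Algebra.mem_top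
      induction hx using Algebra.adjoin_induction with
      | mem x hx => obtain ⟨r, rfl⟩ := hx; exact Algebra.subset_adjoin ⟨r, rfl⟩
      | algebraMap c =>
        rw [Algebra.algebraMap_eq_smul_one, tmul_smul, ← algebraMap_smul (FractionRing O),
          ← Algebra.TensorProduct.one_def]
        exact Subalgebra.smul_mem _ (one_mem _) _
      | add x y _ _ hx hy => rw [tmul_add]; exact add_mem hx hy
      | mul x y _ _ hx hy =>
        rw [← one_mul (1 : FractionRing O), ← Algebra.TensorProduct.tmul_mul_tmul]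
        exact mul_mem hx hy
    induction z using TensorProduct.induction_on with
    | zero => exact zero_mem _
    | tmul c x =>
      have := Subalgebra.smul_mem _ (h1 x) c
      rwa [smul_tmul', smul_eq_mul, mul_one] at this
    | add x y hx hy => exact add_mem hx hy
  exact isReduced_of_injective (Algebra.TensorProduct.includeRight : T →ₐ[O] FractionRing O ⊗[O] T)
    (Algebra.TensorProduct.includeRight_injective (IsFractionRing.injective O (FractionRing O)))

section Extension

/-- A point of a subring extends to a point of a finite `ℤ`-algebra over a finite extension. -/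
theorem exists_point_extension {A A' : Type} [CommRing A] [CommRing A'] [Module.Finite ℤ A']
    (ι₀ : A →+* A') (hι : Function.Injective ι₀) (O : Type) [CommRing O] [IsDomain O]
    [IsDiscreteValuationRing O] [IsAdicComplete (maximalIdeal O) O] [Finite (ResidueField O)]
    [CharZero O] (χ : A →+* O) :
    ∃ (O' : Type) (_ : CommRing O') (_ : IsDomain O') (_ : IsDiscreteValuationRing O')
      (_ : IsAdicComplete (maximalIdeal O') O') (_ : Finite (ResidueField O')) (_ : CharZero O')
      (_ : Algebra O O') (_ : Module.Finite O O') (_ : IsLocalHom (algebraMap O O')),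
      Function.Injective (algebraMap O O') ∧
      ∃ χ' : A' →+* O', ∀ t : A, χ' (ι₀ t) = algebraMap O O' (χ t) := by
  let ι : A →ₐ[ℤ] A' := ι₀.toIntAlgHom
  let i : O ⊗[ℤ] A →ₐ[O] O ⊗[ℤ] A' := Algebra.TensorProduct.map (AlgHom.id O O) ι
  have hi : Function.Injective i :=
    Module.Flat.lTensor_preserves_injective_linearMap ι.toLinearMap
      hι
  let c : O ⊗[ℤ] A →ₐ[O] O :=
    Algebra.TensorProduct.lift (AlgHom.id O O) χ.toIntAlgHom fun _ _ => Commute.all _ _
  let : Algebra (O ⊗[ℤ] A) (O ⊗[ℤ] A') := i.toRingHom.toAlgebra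
  have : IsScalarTower O (O ⊗[ℤ] A) (O ⊗[ℤ] A') :=
    IsScalarTower.of_algebraMap_eq fun a => (i.commutes a).symm
  have : Algebra.IsIntegral (O ⊗[ℤ] A) (O ⊗[ℤ] A') := Algebra.IsIntegral.tower_top (R := O)
  have hc : (RingHom.ker c).IsPrime := RingHom.ker_isPrime c
  obtain ⟨P, -, hP, hPc⟩ := Ideal.exists_ideal_over_prime_of_isIntegral (RingHom.ker c)
    (⊥ : Ideal (O ⊗[ℤ] A')) (by
      rw [← RingHom.ker_eq_comap_bot,
        (RingHom.injective_iff_ker_eq_bot (algebraMap (O ⊗[ℤ] A) (O ⊗[ℤ] A'))).mp hi]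
      exact bot_le)
  have hP0 : ∀ a : O, algebraMap O (O ⊗[ℤ] A') a ∈ P → a = 0 := by
    intro a ha
    rw [IsScalarTower.algebraMap_apply O (O ⊗[ℤ] A) (O ⊗[ℤ] A'), ← Ideal.mem_comap, hPc,
      RingHom.mem_ker, AlgHom.commutes] at ha
    exact ha
  obtain ⟨O', _, _, _, _, _, _, _, _, hloc, hinj, f, hf⟩ :=
    EichlerShimura.exists_finiteDVR_extension O (O ⊗[ℤ] A') P hP0
  refine ⟨O', inferInstance, inferInstance, inferInstance, inferInstance, inferInstance,
    inferInstance, inferInstance, inferInstance, hloc, hinj,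
    f.toRingHom.comp Algebra.TensorProduct.includeRight.toRingHom, fun t => ?_⟩
  have hker : (1 : O) ⊗ₜ[ℤ] t - χ t ⊗ₜ[ℤ] (1 : A) ∈ RingHom.ker c := by
    rw [RingHom.mem_ker, map_sub, Algebra.TensorProduct.lift_tmul,
      Algebra.TensorProduct.lift_tmul, map_one, map_one, one_mul, mul_one]
    exact sub_self _
  rw [← hPc, Ideal.mem_comap, ← hf, RingHom.mem_ker, map_sub, map_sub, sub_eq_zero] at hker
  have h1 : algebraMap (O ⊗[ℤ] A) (O ⊗[ℤ] A') ((1 : O) ⊗ₜ[ℤ] t) = (1 : O) ⊗ₜ[ℤ] ι t :=
    Algebra.TensorProduct.map_tmul _ _ _ _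
  have h2 : algebraMap (O ⊗[ℤ] A) (O ⊗[ℤ] A') (χ t ⊗ₜ[ℤ] (1 : A)) =
      algebraMap O (O ⊗[ℤ] A') (χ t) := by
    rw [IsScalarTower.algebraMap_apply O (O ⊗[ℤ] A) (O ⊗[ℤ] A'),
      Algebra.TensorProduct.algebraMap_apply, Algebra.algebraMap_self_apply]
  rw [h1, h2, AlgHom.commutes] at hker
  exact hker

variable {N : ℕ} [NeZero N] {S : Set ℕ}

/-- A system of eigenvalues away from `S` extends to a full one over a finite extension. -/
theorem exists_eigensystem_extension (O : Type) [CommRing O] [IsDomain O]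
    [IsDiscreteValuationRing O] [IsAdicComplete (maximalIdeal O) O] [Finite (ResidueField O)]
    [CharZero O] (χ : CuspForm.heckeAlgebra N 2 S →+* O) :
    ∃ (O' : Type) (_ : CommRing O') (_ : IsDomain O') (_ : IsDiscreteValuationRing O')
      (_ : IsAdicComplete (maximalIdeal O') O') (_ : Finite (ResidueField O')) (_ : CharZero O')
      (_ : Algebra O O') (_ : Module.Finite O O') (_ : IsLocalHom (algebraMap O O')),
      Function.Injective (algebraMap O O') ∧
      ∃ χ' : CuspForm.heckeAlgebra N 2 (∅ : Set ℕ) →+* O',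
        ∀ t : CuspForm.heckeAlgebra N 2 S,
          χ' (Subalgebra.inclusion (CuspForm.heckeAlgebra_mono (Set.empty_subset S)) t) =
            algebraMap O O' (χ t) :=
  have := HeckeFinite.moduleFinite_heckeAlgebra N 2 (∅ : Set ℕ)
  exists_point_extension
    (Subalgebra.inclusion (CuspForm.heckeAlgebra_mono (Set.empty_subset S))).toRingHom
    (Subalgebra.inclusion_injective (CuspForm.heckeAlgebra_mono (Set.empty_subset S))) O χ

end Extension

section Points

variable {p : ℕ} {N : ℕ} [NeZero N] {S : Set ℕ}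
  {𝒪 : Type} [CommRing 𝒪] [IsDomain 𝒪] [IsDiscreteValuationRing 𝒪]
  [IsAdicComplete (maximalIdeal 𝒪) 𝒪]
  {θ : CuspForm.heckeAlgebra N 2 S →+* ResidueField 𝒪}
  {T : Type} [CommRing T] [IsLocalRing T] [IsNoetherianRing T]
  [IsAdicComplete (maximalIdeal T) T] [Algebra 𝒪 T] [IsLocalHom (algebraMap 𝒪 T)]
  [Module.Finite 𝒪 T] [Module.Free 𝒪 T]

/-- A point of `T` in a finite extension ring, with a full system of eigenvalues above it. -/
structure DatumPoint (H : CuspForm.HeckeGaloisRepDatum N S 𝒪 θ T) : Type 1 where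
  R : Type
  [instCommRing : CommRing R]
  [instDomain : IsDomain R]
  [instDVR : IsDiscreteValuationRing R]
  [instComplete : IsAdicComplete (maximalIdeal R) R]
  [instFinite : Finite (ResidueField R)]
  [instCharZero : CharZero R]
  [instAlgebra : Algebra 𝒪 R]
  [instModuleFinite : Module.Finite 𝒪 R]
  ψ : T →ₐ[𝒪] R
  ψ_local : IsLocalHom (ψ : T →+* R)
  χ : CuspForm.heckeAlgebra N 2 (∅ : Set ℕ) →+* R
  χ_eq : ∀ t : CuspForm.heckeAlgebra N 2 S,
    χ (Subalgebra.inclusion (CuspForm.heckeAlgebra_mono (Set.empty_subset S)) t) = ψ (H.π t)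

attribute [instance] DatumPoint.instCommRing DatumPoint.instDomain DatumPoint.instDVR
  DatumPoint.instComplete DatumPoint.instFinite DatumPoint.instCharZero DatumPoint.instAlgebra
  DatumPoint.instModuleFinite

/-- The coefficient ring of a Hecke–Galois datum is reduced. -/
theorem isReduced_of_datum [CharZero 𝒪] (hS : ∀ q : ℕ, q.Prime → q ∣ N → q ∈ S)
    (H : CuspForm.HeckeGaloisRepDatum N S 𝒪 θ T) : IsReduced T :=
  have := Hecke.isReduced_heckeAlgebra N 2 S hS
  have := HeckeFinite.moduleFinite_heckeAlgebra N 2 S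
  isReduced_of_adjoin_range_eq_top 𝒪 (CuspForm.heckeAlgebra N 2 S) T H.π H.adjoin_range_π

/-- `T` is separated by finitely many points. -/
theorem exists_points [CharZero 𝒪] [Finite (ResidueField 𝒪)]
    (hS : ∀ q : ℕ, q.Prime → q ∣ N → q ∈ S) (H : CuspForm.HeckeGaloisRepDatum N S 𝒪 θ T) :
    ∃ (J : Type) (_ : Finite J) (P : J → DatumPoint H),
      ∀ x : T, (∀ j, (P j).ψ x = 0) → x = 0 := by
  classical
  have := isReduced_of_datum hS H
  have hfin : Finite ↥(minimalPrimes T) :=
    (minimalPrimes.finite_of_isNoetherianRing T).to_subtype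
  have key : ∀ P : ↥(minimalPrimes T), ∃ pt : DatumPoint H,
      ∀ x, pt.ψ x = 0 → x ∈ (P : Ideal T) := by
    rintro ⟨P, hP⟩
    have : P.IsPrime := Ideal.IsMinimalPrime.isPrime hP
    have hP0 : ∀ a : 𝒪, algebraMap 𝒪 T a ∈ P → a = 0 := by
      intro a ha
      by_contra h0
      refine Set.disjoint_left.mp (Ideal.disjoint_nonZeroDivisors_of_mem_minimalPrimes hP) ha ?_
      rw [SetLike.mem_coe, mem_nonZeroDivisors_iff_right]
      intro x hx
      rw [mul_comm, ← Algebra.smul_def] at hx
      exact (smul_eq_zero.mp hx).resolve_left h0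
    obtain ⟨O₁, _, _, _, _, _, _, _, _, hloc₁, hinj₁, f, hf⟩ :=
      EichlerShimura.exists_finiteDVR_extension 𝒪 T P hP0
    obtain ⟨O₂, _, _, _, _, _, _, _, _, hloc₂, hinj₂, χ, hχ⟩ :=
      exists_eigensystem_extension O₁ ((f : T →+* O₁).comp H.π)
    let : Algebra 𝒪 O₂ := ((algebraMap O₁ O₂).comp (algebraMap 𝒪 O₁)).toAlgebra
    have : IsScalarTower 𝒪 O₁ O₂ := IsScalarTower.of_algebraMap_eq fun _ => rfl
    have : Module.Finite 𝒪 O₂ := Module.Finite.trans O₁ O₂
    let ψ : T →ₐ[𝒪] O₂ := (IsScalarTower.toAlgHom 𝒪 O₁ O₂).comp f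
    have hψ : IsLocalHom (ψ : T →+* O₂) := by
      have hker : RingHom.ker f ≤ maximalIdeal T :=
        le_maximalIdeal (RingHom.ker_ne_top (f : T →+* O₁))
      have hf' : IsLocalHom (f : T →+* O₁) := by
        refine ⟨fun x hx => ?_⟩
        let g : (T ⧸ RingHom.ker f) →ₐ[𝒪] O₁ := Ideal.kerLiftAlg f
        let : Algebra (T ⧸ RingHom.ker f) O₁ := g.toRingHom.toAlgebra
        have : IsScalarTower 𝒪 (T ⧸ RingHom.ker f) O₁ :=
          IsScalarTower.of_algebraMap_eq fun a => (g.commutes a).symm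
        have : Algebra.IsIntegral (T ⧸ RingHom.ker f) O₁ :=
          Algebra.IsIntegral.tower_top (R := 𝒪)
        have : FaithfulSMul (T ⧸ RingHom.ker f) O₁ :=
          (faithfulSMul_iff_algebraMap_injective _ _).mpr (Ideal.kerLiftAlg_injective f)
        have := Algebra.IsIntegral.isLocalHom (T ⧸ RingHom.ker f) O₁
        have hu : IsUnit (Ideal.Quotient.mk (RingHom.ker f) x) :=
          isUnit_of_map_unit (algebraMap (T ⧸ RingHom.ker f) O₁) _ hx
        obtain ⟨y, hy⟩ := hu.exists_right_inv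
        obtain ⟨y, rfl⟩ := Ideal.Quotient.mk_surjective y
        rw [← map_mul, ← map_one (Ideal.Quotient.mk (RingHom.ker f)), Ideal.Quotient.eq] at hy
        by_contra hxu
        have h1 : x * y ∈ maximalIdeal T := Ideal.mul_mem_right _ _ hxu
        have := sub_mem h1 (hker hy)
        rw [sub_sub_cancel] at this
        exact (maximalIdeal T).ne_top_iff_one.mp (maximalIdeal.isMaximal T).ne_top this
      exact RingHom.isLocalHom_comp (algebraMap O₁ O₂) (f : T →+* O₁)
    refine ⟨{ R := O₂, ψ := ψ, ψ_local := hψ, χ := χ, χ_eq := hχ }, fun x hx => ?_⟩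
    show x ∈ P
    rw [← hf, RingHom.mem_ker]
    exact hinj₂ (hx.trans (map_zero _).symm)
  choose pt hpt using key
  refine ⟨↥(minimalPrimes T), hfin, pt, fun x hx => ?_⟩
  have hmem : x ∈ sInf (minimalPrimes T) := Submodule.mem_sInf.mpr fun P hP => hpt ⟨P, hP⟩ x (hx _)
  have h0 : sInf (minimalPrimes T) = (⊥ : Ideal T) := by
    have h1 : sInf (minimalPrimes T) = (⊥ : Ideal T).radical := Ideal.sInf_minimalPrimes
    rw [h1]
    exact nilradical_eq_zero T
  rwa [h0, Ideal.mem_bot] at hmem

end Points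

end Fermat.Agent.FiniteFlat
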