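import Fermat.Prelude.Def_ModularCurve_HeckeModule
import Fermat.Agent.Curve.Functorial
import Fermat.Agent.EichlerShimura.GaloisHecke

/-!
# Pullback and pushforward on `Pic⁰` along a map of function fields

Both are equivariant for intertwined semilinear automorphisms, and pushing forward a pullback
multiplies by the degree.
-/

set_option autoImplicit false

noncomputable section

namespace Fermat.Agent.FiniteFlat

open AlgebraicCurve Fermat.Agent.Curve

variable {K F F' : Type*} [Field K] [Field F] [Field F'] [Algebra K F] [Algebra K F']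
  [IsFunctionField1 K F] [IsFunctionField1 K F'] (φ : F →ₐ[K] F')
  (hφ : φ.toRingHom.IsIntegral)

/-- Pullback on divisors of degree zero. -/
def pullDegZero : Divisor.degZero (K := K) (F := F) →+ Divisor.degZero (K := K) (F := F') :=
  ((Divisor.pullbackAlong φ hφ).domRestrict (Divisor.degZero (K := K) (F := F))).codRestrict _
    fun D => Divisor.pullbackAlong_mem_degZero φ hφ (fundamentalIdentityAlong φ hφ) D.2

/-- Pullback on classes of degree zero. -/
def pullPic : Pic0 K F →+ Pic0 K F' :=
  QuotientAddGroup.map _ _ (pullDegZero φ hφ) (by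
    rintro ⟨D, hD0⟩ hD
    simp only [AddSubgroup.mem_addSubgroupOf] at hD ⊢
    exact Divisor.isPrincipal_pullbackAlong φ hφ hD)

theorem pullPic_mk (D : Divisor.degZero (K := K) (F := F)) :
    pullPic φ hφ (Pic0.mk D) = Pic0.mk (pullDegZero φ hφ D) := rfl

/-- Pushforward on divisors of degree zero. -/
def pushDegZero : Divisor.degZero (K := K) (F := F') →+ Divisor.degZero (K := K) (F := F) :=
  ((Divisor.pushforwardAlong φ hφ).domRestrict (Divisor.degZero (K := K) (F := F'))).codRestrict _
    fun D => Divisor.pushforwardAlong_mem_degZero φ hφ D.2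

/-- Pushforward on classes of degree zero. -/
def pushPic : Pic0 K F' →+ Pic0 K F :=
  QuotientAddGroup.map _ _ (pushDegZero φ hφ) (by
    rintro ⟨D, hD0⟩ hD
    simp only [AddSubgroup.mem_addSubgroupOf] at hD ⊢
    exact Divisor.isPrincipal_pushforwardAlong φ hφ (finiteAlong φ)
      (normFormulaAlong φ (finiteAlong φ)) hD)

theorem pushPic_mk (D : Divisor.degZero (K := K) (F := F')) :
    pushPic φ hφ (Pic0.mk D) = Pic0.mk (pushDegZero φ hφ D) := rfl

theorem pushPic_pullPic (x : Pic0 K F) :
    pushPic φ hφ (pullPic φ hφ x) = finrankAlong K φ • x := by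
  obtain ⟨D, rfl⟩ := Pic0.mk_surjective x
  rw [pullPic_mk, pushPic_mk]
  refine (congrArg Pic0.mk ?_).trans (map_nsmul (QuotientAddGroup.mk' _) _ D)
  refine Subtype.ext ?_
  change Divisor.pushforwardAlong φ hφ (Divisor.pullbackAlong φ hφ (D : Divisor K F)) = _
  rw [pushforwardAlong_pullbackAlong φ hφ, natCast_zsmul]
  rfl

variable {g : SemilinearAut K F} {g' : SemilinearAut K F'}

theorem pullPic_semilinear_smul (h : SemilinearAut.IntertwinesAlong φ.toRingHom g g')
    (x : Pic0 K F) : pullPic φ hφ (g • x) = g' • pullPic φ hφ x := by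
  obtain ⟨D, rfl⟩ := Pic0.mk_surjective x
  rw [SemilinearAut.pic0_smul_mk, pullPic_mk, pullPic_mk, SemilinearAut.pic0_smul_mk]
  exact congrArg Pic0.mk (Subtype.ext
    (EichlerShimura.pullbackAlong_semilinear_smul h hφ (D : Divisor K F)))

theorem pushPic_semilinear_smul (h : SemilinearAut.IntertwinesAlong φ.toRingHom g g')
    (x : Pic0 K F') : pushPic φ hφ (g' • x) = g • pushPic φ hφ x := by
  obtain ⟨D, rfl⟩ := Pic0.mk_surjective x
  rw [SemilinearAut.pic0_smul_mk, pushPic_mk, pushPic_mk, SemilinearAut.pic0_smul_mk]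
  exact congrArg Pic0.mk (Subtype.ext
    (EichlerShimura.pushforwardAlong_semilinear_smul h hφ (D : Divisor K F')))

end Fermat.Agent.FiniteFlat
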