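import Fermat.Agent.Igusa.LocalRat
import Mathlib.FieldTheory.Galois.Infinite

/-!
# Galois-equivariant functions with values in `ℚ̄`

Equivariant functions which are independent over `ℚ` are independent over `ℚ̄`, and an equivariant
combination with coefficients in a subring meeting `ℚ` in `ℤ_(ℓ)` has coefficients in `ℤ_(ℓ)`.
-/

set_option autoImplicit false

noncomputable section

namespace Fermat.Agent.FiniteFlat

local notation "ℚ̄" => AlgebraicClosure ℚ
local notation "Γℚ" => (AlgebraicClosure ℚ ≃ₐ[ℚ] AlgebraicClosure ℚ)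

section

variable {S : Type*} [MulAction Γℚ S]

/-- A function commuting with the Galois actions. -/
def IsEquivariant (h : S → ℚ̄) : Prop := ∀ (σ : Γℚ) (s : S), h (σ • s) = σ (h s)

theorem IsEquivariant.comp {S' : Type*} [MulAction Γℚ S'] {h : S → ℚ̄} (hh : IsEquivariant h)
    {f : S' → S} (hf : ∀ (σ : Γℚ) (s : S'), f (σ • s) = σ • f s) : IsEquivariant (h ∘ f) :=
  fun σ s => by rw [Function.comp_apply, hf, hh, Function.comp_apply]

theorem isAlgClosure_qbar : IsAlgClosure ℚ ℚ̄ :=
  ⟨inferInstance, AlgebraicClosure.isAlgebraic ℚ⟩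

instance isGalois_qbar : IsGalois ℚ ℚ̄ :=
  haveI := isAlgClosure_qbar
  IsAlgClosure.isGalois ℚ ℚ̄

theorem mem_range_of_fixed {x : ℚ̄} (h : ∀ σ : Γℚ, σ x = x) :
    ∃ q : ℚ, algebraMap ℚ ℚ̄ q = x :=
  IntermediateField.mem_bot.mp ((InfiniteGalois.mem_bot_iff_fixed x).mpr h)

theorem linearIndependent_of_isEquivariant {ι : Type*} {v : ι → S → ℚ̄}
    (hv : ∀ i, IsEquivariant (v i)) (hli : LinearIndependent ℚ v) :
    LinearIndependent ℚ̄ v := by
  classical
  rw [linearIndependent_iff']
  intro s
  induction s using Finset.induction with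
  | empty => simp
  | @insert a s ha ih =>
    intro g hg
    suffices hga : g a = 0 by
      rw [Finset.sum_insert ha, hga, zero_smul, zero_add] at hg
      intro i hi
      rcases Finset.mem_insert.mp hi with rfl | hi'
      · exact hga
      · exact ih g hg i hi'
    by_contra hga
    set c : ι → ℚ̄ := fun i => (g a)⁻¹ * g i with hc
    have hca : c a = 1 := inv_mul_cancel₀ hga
    have hrel : ∀ x, ∑ i ∈ insert a s, c i * v i x = 0 := by
      intro x
      have := congrFun hg x
      simp only [Finset.sum_apply, Pi.smul_apply, smul_eq_mul, Pi.zero_apply] at this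
      simp only [hc, mul_assoc, ← Finset.mul_sum, this, mul_zero]
    have hσ : ∀ (σ : Γℚ) (i : ι), i ∈ insert a s → σ (c i) = c i := by
      intro σ
      have h0 : ∑ i ∈ s, (σ (c i) - c i) • v i = 0 := by
        funext x
        have h1 := congrArg σ (hrel (σ⁻¹ • x))
        rw [map_sum, map_zero] at h1
        simp only [map_mul, ← hv _ σ (σ⁻¹ • x), smul_inv_smul, Finset.sum_insert ha] at h1
        have h2 := hrel x
        rw [Finset.sum_insert ha] at h2
        simp only [hca, map_one] at h1 h2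
        simp only [Finset.sum_apply, Pi.smul_apply, smul_eq_mul, sub_mul, Finset.sum_sub_distrib,
          Pi.zero_apply]
        linear_combination h1 - h2
      intro i hi
      rcases Finset.mem_insert.mp hi with rfl | hi'
      · simp [hca]
      · exact sub_eq_zero.mp (ih _ h0 i hi')
    choose! q hq using fun i (hi : i ∈ insert a s) => mem_range_of_fixed (fun σ => hσ σ i hi)
    have hQ : ∑ i ∈ insert a s, q i • v i = 0 := by
      funext x
      rw [Pi.zero_apply, Finset.sum_apply, ← hrel x]
      refine Finset.sum_congr rfl fun i hi => ?_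
      rw [Pi.smul_apply, Algebra.smul_def, hq i hi]
    have := linearIndependent_iff'.mp hli _ q hQ a (Finset.mem_insert_self a s)
    have h1 := hq a (Finset.mem_insert_self a s)
    rw [this, map_zero, hca] at h1
    exact zero_ne_one h1

variable {ℓ : ℕ}

set_option quotPrecheck false in
local notation "Zℓ" => ↥(GaloisRep.ratLocalizedAt ℓ)

omit [MulAction Γℚ S] in
theorem algebraMap_ratLocalizedAt_injective : Function.Injective (algebraMap Zℓ ℚ̄) :=
  fun a b h => Subtype.ext ((algebraMap ℚ ℚ̄).injective h)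

theorem linearIndependent_qbar_of_ratLocalizedAt [Fact ℓ.Prime] {ι : Type*} {v : ι → S → ℚ̄}
    (hv : ∀ i, IsEquivariant (v i)) (hli : LinearIndependent Zℓ v) :
    LinearIndependent ℚ̄ v :=
  linearIndependent_of_isEquivariant hv ((LinearIndependent.iff_fractionRing Zℓ ℚ).mp hli)

/-- Descent: an equivariant combination with coefficients in a subring `A` with `A ∩ ℚ ⊆ ℤ_(ℓ)` is
a `ℤ_(ℓ)`-combination. -/
theorem mem_span_of_isEquivariant {A : Subring ℚ̄}
    (hA : ∀ q : ℚ, algebraMap ℚ ℚ̄ q ∈ A → q ∈ GaloisRep.ratLocalizedAt ℓ)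
    {ι : Type*} [Finite ι] {v : ι → S → ℚ̄}
    (hv : ∀ i, IsEquivariant (v i)) (hli : LinearIndependent ℚ̄ v)
    {h : S → ℚ̄} (hh : IsEquivariant h) (hspan : h ∈ Submodule.span A (Set.range v)) :
    h ∈ Submodule.span Zℓ (Set.range v) := by
  cases nonempty_fintype ι
  obtain ⟨a, ha⟩ := (Submodule.mem_span_range_iff_exists_fun A).mp hspan
  have ha' : ∀ x, ∑ i, (a i : ℚ̄) * v i x = h x := fun x => by
    rw [← ha]; simp [Finset.sum_apply, Subring.smul_def]
  have hfix : ∀ (σ : Γℚ) i, σ (a i : ℚ̄) = (a i : ℚ̄) := by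
    intro σ
    have h0 : ∑ i, (σ (a i : ℚ̄) - (a i : ℚ̄)) • v i = 0 := by
      funext x
      have h1 := congrArg σ (ha' (σ⁻¹ • x))
      rw [map_sum, ← hh, smul_inv_smul] at h1
      simp only [map_mul, ← hv _ σ (σ⁻¹ • x), smul_inv_smul] at h1
      simp only [Finset.sum_apply, Pi.smul_apply, smul_eq_mul, sub_mul, Finset.sum_sub_distrib,
        Pi.zero_apply, ha' x, h1, sub_self]
    exact fun i => sub_eq_zero.mp (linearIndependent_iff'.mp hli _ _ h0 i (Finset.mem_univ i))
  choose q hq using fun i => mem_range_of_fixed (fun σ => hfix σ i)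
  refine (Submodule.mem_span_range_iff_exists_fun Zℓ).mpr
    ⟨fun i => ⟨q i, hA _ (by rw [hq i]; exact (a i).2)⟩, ?_⟩
  funext x
  rw [← ha' x]
  simp only [Finset.sum_apply]
  exact Finset.sum_congr rfl fun i _ => by
    rw [Pi.smul_apply, Algebra.smul_def]
    exact congrArg (· * v i x) (hq i)

end

instance faithfulSMul_qbar (ℓ : ℕ) :
    FaithfulSMul (GaloisRep.ratLocalizedAt ℓ) ℚ̄ :=
  (faithfulSMul_iff_algebraMap_injective _ _).mpr
    fun _ _ h => Subtype.ext ((algebraMap ℚ ℚ̄).injective h)

end Fermat.Agent.FiniteFlat
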