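import Fermat.Prelude.Def_GaloisRep_Flat
import Fermat.Prelude.Def_ModularCurve_ArithmeticGalois
import Fermat.Agent.FiniteFlat.HeckePoints
import Fermat.Agent.FiniteFlat.Closure
import Fermat.Agent.FiniteFlat.Galois
import Fermat.Agent.EichlerShimura.Eigensystem
import Fermat.Agent.EichlerShimura.Separation
import Fermat.Agent.Density.CharpolyDetermines
import Fermat.Agent.RT.CarayolDescentGalois

/-!
# Flatness at `p` of the representation of a Hecke–Galois datum (S32, given S19)

Every finite level quotient of the representation is a subquotient of a power of `J₀(N)[p^k]`: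
the coefficient ring is separated by points, along each of which the representation is the one
realised on a lattice of the Tate module.
-/

set_option autoImplicit false

noncomputable section

open Polynomial IsLocalRing
open scoped TensorProduct

namespace Fermat.Agent.FiniteFlat

local notation "ℚ̄" => AlgebraicClosure ℚ
local notation "Γℚ" => (AlgebraicClosure ℚ ≃ₐ[ℚ] AlgebraicClosure ℚ)

open ModularCurve

/-- The conclusion of S19 for every exponent. -/
def HasTorsionModels (N p : ℕ) : Prop :=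
  ∀ k : ℕ, ∃ (H : Type) (_ : CommRing H) (_ : HopfAlgebra (GaloisRep.ratLocalizedAt p) H),
      Module.Finite (GaloisRep.ratLocalizedAt p) H ∧ Module.Flat (GaloisRep.ratLocalizedAt p) H ∧
      Coalgebra.IsCocomm (GaloisRep.ratLocalizedAt p) H ∧
      ∃ e : WithConv (H →ₐ[GaloisRep.ratLocalizedAt p] ℚ̄) ≃
          ↥(Submodule.torsionBy ℤ (JZero N) ((p : ℤ) ^ k)),
        (∀ f g, e (f * g) = e f + e g) ∧
        ∀ (σ : Γℚ) (f g : WithConv (H →ₐ[GaloisRep.ratLocalizedAt p] ℚ̄)),
          (∀ h : H, g h = σ (f h)) → ((e g : JZero N)) = σ • (e f : JZero N)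

theorem galois_smul_mem_torsionBy {N : ℕ} {n : ℤ} (σ : Γℚ) {x : JZero N}
    (hx : x ∈ Submodule.torsionBy ℤ (JZero N) n) : σ • x ∈ Submodule.torsionBy ℤ (JZero N) n := by
  rw [Submodule.mem_torsionBy_iff] at hx ⊢
  have h := map_zsmul (DistribSMul.toAddMonoidHom (JZero N) σ) n x
  simp only [DistribSMul.toAddMonoidHom_apply] at h
  rw [← h, hx, smul_zero]

/-- The Galois action on a torsion subgroup of `J₀(N)`. -/
abbrev torsionByAction (N : ℕ) (n : ℤ) :
    DistribMulAction Γℚ (Submodule.torsionBy ℤ (JZero N) n) where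
  smul σ x := ⟨σ • (x : JZero N), galois_smul_mem_torsionBy σ x.2⟩
  one_smul x := Subtype.ext (one_smul Γℚ (x : JZero N))
  mul_smul σ τ x := Subtype.ext (mul_smul σ τ (x : JZero N))
  smul_zero σ := Subtype.ext (smul_zero σ)
  smul_add σ x y := Subtype.ext (smul_add σ (x : JZero N) (y : JZero N))

/-- A finite algebra has finitely many maps to a domain. -/
theorem finite_algHom_of_module_finite (R H L : Type) [CommRing R] [CommRing H] [CommRing L]
    [IsDomain L] [Algebra R H] [Algebra R L] [Module.Finite R H] : Finite (H →ₐ[R] L) := by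
  classical
  obtain ⟨s, hs⟩ := (inferInstance : Module.Finite R H).fg_top
  choose P hP hPx using fun x : H => Algebra.IsIntegral.isIntegral (R := R) x
  have hroot : ∀ (φ : H →ₐ[R] L) (x : H), φ x ∈ ((P x).map (algebraMap R L)).roots.toFinset := by
    intro φ x
    rw [Multiset.mem_toFinset, Polynomial.mem_roots ((hP x).map (algebraMap R L)).ne_zero,
      Polynomial.IsRoot, Polynomial.eval_map, ← Polynomial.aeval_def, Polynomial.aeval_algHom_apply,
      Polynomial.aeval_def, hPx x, map_zero]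
  refine Finite.of_injective (fun (φ : H →ₐ[R] L) (x : ↥s) =>
    (⟨φ x, hroot φ x⟩ : ↥((P (x : H)).map (algebraMap R L)).roots.toFinset)) fun φ ψ h => ?_
  refine AlgHom.toLinearMap_injective (LinearMap.ext_on hs fun x hx => ?_)
  exact congrArg Subtype.val (congrFun h ⟨x, hx⟩)

variable {p : ℕ} {N : ℕ} [NeZero N] {S : Finset ℕ}
  {𝒪 : Type} [CommRing 𝒪] [IsDomain 𝒪] [IsDiscreteValuationRing 𝒪]
  [IsAdicComplete (maximalIdeal 𝒪) 𝒪]
  {θ : CuspForm.heckeAlgebra N 2 (↑S : Set ℕ) →+* ResidueField 𝒪}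
  {T : Type} [CommRing T] [IsLocalRing T] [IsNoetherianRing T]
  [IsAdicComplete (maximalIdeal T) T] [Algebra 𝒪 T] [IsLocalHom (algebraMap 𝒪 T)]
  [Module.Finite 𝒪 T] [Module.Free 𝒪 T]

/-- Along a point, the datum's representation reduces into powers of `J₀(N)`. -/
theorem exists_reduction_at_point [Fact p.Prime]
    (hK : EichlerShimura.HasKummerIso N) (hF : EichlerShimura.FrobeniusOnTorsion N p)
    (hL : EichlerShimura.GaloisFiniteLevel N) (hp𝒪 : (p : 𝒪) ∈ maximalIdeal 𝒪) (hpS : p ∈ S)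
    (H : CuspForm.HeckeGaloisRepDatum N (↑S : Set ℕ) 𝒪 θ T) (P : DatumPoint H)
    (b : Module.Basis (Fin 2) T H.ρ.V) (n : ℕ) :
    ∃ (m : ℕ) (f : H.ρ.V →+ (Fin m → JZero N)),
      (∀ v, f v = 0 → ∀ i, ∃ w : P.R, P.ψ (b.repr v i) = (p : P.R) ^ n * w) ∧
      (∀ v i, p ^ n • f v i = 0) ∧ ∀ σ v i, f (H.ρ.ρ σ v) i = σ • f v i := by
  have := P.ψ_local
  have hpO : (p : P.R) ∈ maximalIdeal P.R := by
    rw [← map_natCast (P.ψ : T →+* P.R) p, ← map_natCast (algebraMap 𝒪 T) p]
    exact map_nonunit (P.ψ : T →+* P.R) _ (map_nonunit (algebraMap 𝒪 T) _ hp𝒪)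
  obtain ⟨r, hr, -, htate⟩ :=
    EichlerShimura.exists_galoisRepAdic_of_eigensystem_tate N p hK hF hL P.R hpO P.χ
  obtain ⟨m, f, hf0, hfp, hfσ⟩ := htate n
  let : Algebra T P.R := (P.ψ : T →+* P.R).toAlgebra
  have hψ : ∀ x, algebraMap T P.R x = P.ψ x := fun _ => rfl
  let r' := H.ρ.baseChangeAlong (P.ψ : T →+* P.R) P.ψ_local
  let b' : Module.Basis (Fin 2) P.R r'.V := Algebra.TensorProduct.basis P.R b
  have hmat : ∀ g, LinearMap.toMatrixAlgEquiv b' (r'.ρ g) =
      (LinearMap.toMatrixAlgEquiv b (H.ρ.ρ g)).map (algebraMap T P.R) :=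
    fun g => LinearMap.toMatrix_baseChange P.R (H.ρ.ρ g) b b
  have hchar : ∀ g, LinearMap.charpoly (r'.ρ g) = LinearMap.charpoly (r.ρ g) := by
    refine fun g => Density.adic_charpoly_eq_of_frobenius r' r (S ∪ N.primeFactors) ?_ g
    intro ℓ hℓ hℓS A hA σ hσ
    rw [Finset.mem_union, not_or, Nat.mem_primeFactors] at hℓS
    have hℓN : ¬ ℓ ∣ N := fun h => hℓS.2 ⟨hℓ, h, NeZero.ne N⟩
    have hℓS' : ℓ ∉ (↑S : Set ℕ) := Finset.mem_coe.not.mpr hℓS.1
    change LinearMap.charpoly ((H.ρ.ρ σ).baseChange P.R) = _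
    rw [LinearMap.charpoly_baseChange, H.charpoly_frob ℓ hℓ hℓN hℓS' A hA σ hσ,
      hr ℓ hℓ hℓN (fun h => hℓS.1 (h ▸ hpS)) A hA σ hσ]
    simp only [Polynomial.map_add, Polynomial.map_sub, Polynomial.map_pow, Polynomial.map_mul,
      Polynomial.map_X, Polynomial.map_C, map_natCast, Polynomial.map_natCast]
    congr 4
    exact (P.χ_eq _).symm
  have hspan : Submodule.span (ResidueField P.R) (Set.range fun g =>
      (LinearMap.toMatrixAlgEquiv b' (r'.ρ g)).map (residue P.R)) = ⊤ := by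
    rw [← RT.span_map_eq_top (ResidueField.map (P.ψ : T →+* P.R))
      (fun g => (LinearMap.toMatrixAlgEquiv b (H.ρ.ρ g)).map (residue T))
      (Density.adic_span_map_residue_eq_top H.ρ H.residual_absIrr b)]
    congr 2
    funext g
    rw [hmat]
    rfl
  let bR := Module.finBasisOfFinrankEq P.R r.V r.finrank_eq
  obtain ⟨e, he⟩ := Density.exists_linearEquiv_of_trace_eq (residue P.R) b' bR r'.ρ r.ρ hspan
    fun g => ((Density.charpoly_eq_iff_toMatrix b' bR _ _).mp (hchar g)).1
  let ι : H.ρ.V →+ r'.V := AddMonoidHom.mk' (fun v => (1 : P.R) ⊗ₜ[T] v)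
    (fun v w => TensorProduct.tmul_add _ _ _)
  refine ⟨m, f.comp (e.toLinearMap.toAddMonoidHom.comp ι), fun v hv i => ?_, fun v i => hfp _ i,
    fun σ v i => ?_⟩
  · obtain ⟨w, hw⟩ := (hf0 _).mp hv
    refine ⟨b'.repr (e.symm w) i, ?_⟩
    have h1 : ι v = (p : P.R) ^ n • e.symm w := by
      rw [← map_smul, ← hw]
      exact (e.symm_apply_apply _).symm
    have h2 := congrArg (fun x => b'.repr x i) h1
    simp only [map_smul, Finsupp.smul_apply, smul_eq_mul] at h2
    rw [← h2]
    show P.ψ (b.repr v i) = (Algebra.TensorProduct.basis P.R b).repr ((1 : P.R) ⊗ₜ[T] v) i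
    rw [Algebra.TensorProduct.basis_repr_tmul]
    simp [hψ]
  · have h1 : r'.ρ σ (ι v) = ι (H.ρ.ρ σ v) := LinearMap.baseChange_tmul _ _ _
    show f (e (ι (H.ρ.ρ σ v))) i = σ • f (e (ι v)) i
    rw [← h1, he, hfσ]

/-- Flatness at `p`, from S19 and the Eichler–Shimura inputs. -/
theorem isFlatAt_of [Fact p.Prime] [CharZero 𝒪] [Finite (ResidueField 𝒪)]
    (hK : EichlerShimura.HasKummerIso N) (hF : EichlerShimura.FrobeniusOnTorsion N p)
    (hL : EichlerShimura.GaloisFiniteLevel N) (hmod : HasTorsionModels N p)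
    (hp𝒪 : (p : 𝒪) ∈ maximalIdeal 𝒪) (hpS : p ∈ S)
    (hNS : ∀ q : ℕ, q.Prime → q ∣ N → q ∈ S)
    (H : CuspForm.HeckeGaloisRepDatum N (↑S : Set ℕ) 𝒪 θ T) :
    H.ρ.IsFlatAt p := by
  classical
  have hfinres : Finite (ResidueField T) :=
    Finite.of_surjective (fun x : ResidueField 𝒪 => ResidueField.map (algebraMap 𝒪 T) x)
      fun y => by
        obtain ⟨c, hc⟩ := H.residue_surjective y
        exact ⟨residue 𝒪 c, hc⟩
  refine ⟨hfinres, fun I hI => ?_⟩
  have hpT : (p : T) ∈ maximalIdeal T := by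
    rw [← map_natCast (algebraMap 𝒪 T) p]
    exact map_nonunit (algebraMap 𝒪 T) _ hp𝒪
  obtain ⟨n, hn⟩ := IsLocalRing.finite_quotient_iff.mp hI
  have hpI : (p : T) ^ n ∈ I := hn (Ideal.pow_mem_pow hpT n)
  obtain ⟨J, hJ, P, hP⟩ := exists_points (fun q hq hqN => Finset.mem_coe.mpr (hNS q hq hqN)) H
  have := Fintype.ofFinite J
  -- Artin–Rees
  let Φ : T →ₗ[𝒪] ((j : J) → (P j).R) := LinearMap.pi fun j => (P j).ψ.toLinearMap
  have hΦ : Function.Injective Φ :=
    (injective_iff_map_eq_zero Φ).mpr fun x hx => hP x fun j => congrFun hx j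
  obtain ⟨k, hk⟩ := EichlerShimura.exists_pow_divisible_of_injective Φ hΦ (p : 𝒪) n
  let b := Module.finBasisOfFinrankEq T H.ρ.V H.ρ.finrank_eq
  choose m f hker hkill hgal using fun j =>
    exists_reduction_at_point hK hF hL hp𝒪 hpS H (P j) b k
  let en := Fintype.equivFin (Σ j, Fin (m j))
  let d := Fintype.card (Σ j, Fin (m j))
  let 𝕋 := ↥(Submodule.torsionBy ℤ (JZero N) ((p : ℤ) ^ k))
  let : DistribMulAction Γℚ 𝕋 := torsionByAction N ((p : ℤ) ^ k)
  obtain ⟨H₀, _, _, hH₀, -, -, e₀, he₀add, he₀gal⟩ := hmod k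
  have : Finite (H₀ →ₐ[GaloisRep.ratLocalizedAt p] ℚ̄) := finite_algHom_of_module_finite _ _ _
  have : Finite (WithConv (H₀ →ₐ[GaloisRep.ratLocalizedAt p] ℚ̄)) :=
    Finite.of_injective WithConv.ofConv fun _ _ h => WithConv.ext h
  have : Finite 𝕋 := Finite.of_equiv _ e₀
  have hmodel : HasFunctionModel (GaloisRep.ratLocalizedAt p) ℚ ℚ̄ 𝕋 :=
    hasFunctionModel_of_hopfAlgebra H₀ e₀ he₀add fun σ f g h => Subtype.ext (he₀gal σ f g h)
  have hin : ∀ (v : H.ρ.V) (i : Fin d), f (en.symm i).1 v (en.symm i).2 ∈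
      Submodule.torsionBy ℤ (JZero N) ((p : ℤ) ^ k) := by
    intro v i
    rw [Submodule.mem_torsionBy_iff, ← Nat.cast_pow, natCast_zsmul]
    exact hkill _ v _
  let G : H.ρ.V →+ (Fin d → 𝕋) := AddMonoidHom.mk' (fun v i => ⟨_, hin v i⟩)
    fun v w => funext fun i => Subtype.ext (by simp [map_add])
  have hGσ : ∀ (σ : Γℚ) v, G (H.ρ.ρ σ v) = σ • G v := fun σ v =>
    funext fun i => Subtype.ext (hgal _ σ v _)
  have hGker : ∀ v, G v = 0 → v ∈ I • (⊤ : Submodule T H.ρ.V) := by
    intro v hv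
    have h0 : ∀ j, f j v = 0 := by
      intro j
      funext i
      have h := congrArg Subtype.val (congrFun hv (en ⟨j, i⟩))
      have h' : f (en.symm (en ⟨j, i⟩)).1 v (en.symm (en ⟨j, i⟩)).2 = 0 := h
      rw [Equiv.symm_apply_apply] at h'
      exact h'
    rw [← b.sum_repr v]
    refine Submodule.sum_mem _ fun i _ => Submodule.smul_mem_smul ?_ Submodule.mem_top
    choose w hw using fun j => hker j v (h0 j) i
    obtain ⟨y, hy⟩ := hk (b.repr v i) ⟨w, funext fun j => by
      rw [Pi.smul_apply, Algebra.smul_def, map_pow, map_natCast]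
      exact hw j⟩
    rw [hy, Algebra.smul_def, map_pow, map_natCast]
    exact I.mul_mem_right _ hpI
  -- the Galois action on `V ⧸ I V`
  let Q := H.ρ.V ⧸ (I • (⊤ : Submodule T H.ρ.V))
  let : DistribMulAction Γℚ Q :=
    { smul := fun σ x => H.ρ.levelAction I σ x
      one_smul := fun x => by
        induction x using Submodule.Quotient.induction_on with
        | _ v => exact congrArg Submodule.Quotient.mk (by rw [map_one]; rfl)
      mul_smul := fun σ τ x => by
        induction x using Submodule.Quotient.induction_on with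
        | _ v => exact congrArg Submodule.Quotient.mk (by rw [map_mul]; rfl)
      smul_zero := fun σ => map_zero (H.ρ.levelAction I σ)
      smul_add := fun σ x y => map_add (H.ρ.levelAction I σ) x y }
  let R := ↥G.range
  let : DistribMulAction Γℚ R :=
    { smul := fun σ x => ⟨σ • (x : Fin d → 𝕋), by
        obtain ⟨v, hv⟩ := x.2
        exact ⟨H.ρ.ρ σ v, by rw [hGσ, hv]⟩⟩
      one_smul := fun x => Subtype.ext (one_smul Γℚ (x : Fin d → 𝕋))
      mul_smul := fun σ τ x => Subtype.ext (mul_smul σ τ (x : Fin d → 𝕋))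
      smul_zero := fun σ => Subtype.ext (smul_zero σ)
      smul_add := fun σ x y => Subtype.ext (smul_add σ (x : Fin d → 𝕋) (y : Fin d → 𝕋)) }
  have : Finite R := Finite.of_injective (fun x : R => (x : Fin d → 𝕋)) Subtype.val_injective
  have hR : HasFunctionModel (GaloisRep.ratLocalizedAt p) ℚ ℚ̄ R :=
    (hmodel.pi d).of_injective G.range.subtype Subtype.val_injective fun _ _ => rfl
  let sec : R → H.ρ.V := fun x => Function.surjInv G.rangeRestrict_surjective x
  have hsec : ∀ x : R, G.rangeRestrict (sec x) = x :=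
    Function.surjInv_eq G.rangeRestrict_surjective
  have hwd : ∀ u v, G.rangeRestrict u = G.rangeRestrict v →
      (Submodule.Quotient.mk u : Q) = Submodule.Quotient.mk v := fun u v h => by
    rw [Submodule.Quotient.eq]
    refine hGker _ ?_
    rw [map_sub, sub_eq_zero]
    exact congrArg Subtype.val h
  let q : R →+ Q := AddMonoidHom.mk' (fun x => Submodule.Quotient.mk (sec x)) fun x y => by
    rw [← Submodule.Quotient.mk_add]
    exact hwd _ _ (by rw [map_add, hsec, hsec, hsec])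
  have hqG : ∀ v, q (G.rangeRestrict v) = Submodule.Quotient.mk v := fun v => hwd _ _ (hsec _)
  have hq : Function.Surjective q := fun x => by
    induction x using Submodule.Quotient.induction_on with
    | _ v => exact ⟨_, hqG v⟩
  have hqσ : ∀ (σ : Γℚ) (x : R), q (σ • x) = σ • q x := by
    intro σ x
    obtain ⟨v, rfl⟩ := G.rangeRestrict_surjective x
    have h1 : σ • G.rangeRestrict v = G.rangeRestrict (H.ρ.ρ σ v) := Subtype.ext (hGσ σ v).symm
    rw [h1, hqG, hqG]
    rfl
  have : Finite Q := Finite.of_surjective q hq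
  obtain ⟨H', hfin, hequiv, hsep, hadd, hneg⟩ := hR.of_surjective q hq hqσ
  obtain ⟨H'', i1, i2, h1, h2, h3, e, he1, he2⟩ :=
    exists_hopfAlgebra_of_functions H' hequiv hsep hadd hneg
  exact ⟨H'', i1, i2, h1, h2, h3, e, he1, he2⟩

end Fermat.Agent.FiniteFlat
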