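import Mathlib.RingTheory.MvPolynomial.Homogeneous
import Mathlib.Algebra.CharP.Basic

/-!
# Forms with integer coefficients without zeros in a finite field

`X ^ q - X Y ^ (q - 1) + Y ^ q` takes the value `b` at `(a, b)` with `b ≠ 0` and `a` at `(a, 0)` for
`a, b` fixed by the `q`-th power map; iterating gives a form without nontrivial zero.
-/

set_option autoImplicit false

noncomputable section

open MvPolynomial

namespace Fermat.Agent.FiniteFlat

variable {k : Type*} [Field k]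

theorem exists_form_aux (ι : Type*) [DecidableEq ι] {q : ℕ} (hq : 2 ≤ q) (s : Finset ι) :
    ∃ δ : ℕ, 0 < δ ∧ ∃ Φ : MvPolynomial ι ℤ, Φ.IsHomogeneous δ ∧
      ∀ x : ι → k, (∀ i, x i ^ q = x i) →
        (aeval x Φ) ^ q = aeval x Φ ∧ ((∃ i ∈ s, x i ≠ 0) → aeval x Φ ≠ 0) := by
  induction s using Finset.induction with
  | empty =>
    refine ⟨1, one_pos, 0, isHomogeneous_zero ι ℤ 1, fun x _ => ⟨?_, by simp⟩⟩
    rw [map_zero, zero_pow (by omega)]
  | @insert a s _ ih =>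
    obtain ⟨δ, hδ, Φ, hΦ, hval⟩ := ih
    refine ⟨δ * q, Nat.mul_pos hδ (by omega),
      Φ ^ q - Φ * (X a ^ δ) ^ (q - 1) + (X a ^ δ) ^ q, ?_, ?_⟩
    · have h1 : (Φ * (X a ^ δ) ^ (q - 1)).IsHomogeneous (δ * q) := by
        have := hΦ.mul (((isHomogeneous_X ℤ a).pow δ).pow (q - 1))
        have hdeg : δ + 1 * δ * (q - 1) = δ * q := by
          obtain ⟨r, rfl⟩ : ∃ r, q = r + 1 := ⟨q - 1, by omega⟩
          simp [mul_add, add_comm]
        rwa [hdeg] at this
      have h2 : ((X a ^ δ) ^ q : MvPolynomial ι ℤ).IsHomogeneous (δ * q) := by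
        have := ((isHomogeneous_X ℤ a).pow δ).pow q
        rwa [one_mul] at this
      exact ((hΦ.pow q).sub h1).add h2
    · intro x hx
      obtain ⟨hfix, hne⟩ := hval x hx
      set u := aeval x Φ with hu
      set v : k := x a ^ δ with hv
      have hvq : v ^ q = v := by rw [hv, ← pow_mul, mul_comm, pow_mul, hx a]
      have heval : aeval x (Φ ^ q - Φ * (X a ^ δ) ^ (q - 1) + (X a ^ δ) ^ q) =
          u - u * v ^ (q - 1) + v := by
        simp only [map_add, map_sub, map_mul, map_pow, aeval_X, ← hu, ← hv, hfix, hvq]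
      rw [heval]
      rcases eq_or_ne v 0 with hv0 | hv0
      · rw [hv0, zero_pow (by omega), mul_zero, sub_zero, add_zero]
        refine ⟨hfix, ?_⟩
        rintro ⟨i, hi, hxi⟩
        rcases Finset.mem_insert.mp hi with rfl | hi
        · exact absurd hv0 (pow_ne_zero _ hxi)
        · exact hne ⟨i, hi, hxi⟩
      · have h1 : v ^ (q - 1) = 1 := by
          apply mul_right_cancel₀ hv0
          rw [one_mul, ← pow_succ, Nat.sub_add_cancel (by omega : 1 ≤ q), hvq]
        rw [h1, mul_one, sub_self, zero_add]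
        exact ⟨hvq, fun _ => hv0⟩

/-- Finitely many nonzero vectors with entries algebraic over `𝔽_ℓ` avoid some integral form. -/
theorem exists_form_ne_zero {ι : Type*} [Fintype ι] {ℓ : ℕ} (hℓ : 1 < ℓ)
    (halg : ∀ a : k, ∃ f, 0 < f ∧ a ^ ℓ ^ f = a) {τ : Type*} [Fintype τ] (x : τ → ι → k)
    (hx : ∀ t, ∃ i, x t i ≠ 0) :
    ∃ δ : ℕ, 0 < δ ∧ ∃ Φ : MvPolynomial ι ℤ, Φ.IsHomogeneous δ ∧ ∀ t, aeval (x t) Φ ≠ 0 := by
  classical
  choose f hf hfa using halg
  set e : ℕ := ∏ p : τ × ι, f (x p.1 p.2) with he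
  have hep : 0 < e := Finset.prod_pos fun p _ => hf _
  have hq : 2 ≤ ℓ ^ e := le_trans hℓ (Nat.le_self_pow hep.ne' ℓ)
  have hfix : ∀ t i, x t i ^ ℓ ^ e = x t i := by
    intro t i
    obtain ⟨r, hr⟩ : f (x t i) ∣ e := Finset.dvd_prod_of_mem _ (Finset.mem_univ (t, i))
    rw [hr]
    clear hr
    induction r with
    | zero => simp
    | succ r ih => rw [Nat.mul_succ, pow_add, pow_mul, ih, hfa]
  obtain ⟨δ, hδ, Φ, hΦ, hval⟩ := exists_form_aux (k := k) ι hq (Finset.univ : Finset ι)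
  refine ⟨δ, hδ, Φ, hΦ, fun t => (hval (x t) (hfix t)).2 ?_⟩
  obtain ⟨i, hi⟩ := hx t
  exact ⟨i, Finset.mem_univ i, hi⟩

end Fermat.Agent.FiniteFlat
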