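import Mathlib.LinearAlgebra.Matrix.SchurComplement
import Mathlib.Algebra.MvPolynomial.Rename
import Mathlib.RingTheory.MvPolynomial.Homogeneous

/-!
# The block determinant invariant of a matrix of vectors

For `M : Fin n → Fin n → Fin m → R` (an `n × n` matrix of vectors) and four functionals, take the
determinant of `[[φ₀ M, φ₁ M], [φ₂ M, φ₃ M]]`. As a polynomial in the functionals it is unchanged up
to the factor `(det g * det h)²` under `M ↦ g M h`, and suitable values recover `M` up to such a
transformation.
-/

set_option autoImplicit false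
set_option linter.unusedSectionVars false

noncomputable section

open Matrix MvPolynomial

namespace Fermat.Agent.FiniteFlat

/-- An `n × n` matrix of vectors of length `m`. -/
abbrev VMat (n m : ℕ) (R : Type*) : Type _ := Fin n → Fin n → Fin m → R

variable {n m : ℕ} {R R' : Type*} [CommRing R] [CommRing R']

/-- Slice of a matrix of vectors. -/
def slice (M : VMat n m R) (s : Fin m) : Matrix (Fin n) (Fin n) R := Matrix.of fun i j => M i j s

/-- Apply a functional. -/
def evMat (M : VMat n m R) (φ : Fin m → R) : Matrix (Fin n) (Fin n) R := ∑ s, φ s • slice M s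

/-- Apply a ring map entrywise. -/
def mapV (f : R → R') (M : VMat n m R) : VMat n m R' := fun i j s => f (M i j s)

/-- `g M h`. -/
def twist (g h : Matrix (Fin n) (Fin n) R) (M : VMat n m R) : VMat n m R :=
  fun i j s => (g * slice M s * h) i j

/-- Transpose. -/
def transV (M : VMat n m R) : VMat n m R := fun i j => M j i

@[simp] theorem slice_apply (M : VMat n m R) (s : Fin m) (i j : Fin n) :
    slice M s i j = M i j s := rfl

theorem slice_twist (g h : Matrix (Fin n) (Fin n) R) (M : VMat n m R) (s : Fin m) :
    slice (twist g h M) s = g * slice M s * h := rfl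

theorem twist_twist (g g' h h' : Matrix (Fin n) (Fin n) R) (M : VMat n m R) :
    twist g h (twist g' h' M) = twist (g * g') (h' * h) M := by
  funext i j s
  simp only [twist, slice_twist, Matrix.mul_assoc]

theorem evMat_twist (g h : Matrix (Fin n) (Fin n) R) (M : VMat n m R) (φ : Fin m → R) :
    evMat (twist g h M) φ = g * evMat M φ * h := by
  simp only [evMat, slice_twist, Matrix.mul_sum, Matrix.sum_mul, mul_smul_comm, smul_mul_assoc]

theorem evMat_mapV (f : R →+* R') (M : VMat n m R) (φ : Fin m → R) :
    evMat (mapV f M) (fun s => f (φ s)) = (evMat M φ).map f := by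
  ext i j
  simp [evMat, Matrix.sum_apply, mapV]

theorem evMat_single (M : VMat n m R) (s : Fin m) : evMat M (Pi.single s 1) = slice M s := by
  rw [evMat, Finset.sum_eq_single s (fun t _ ht => by simp [ht]) (by simp)]
  simp

theorem evMat_transV (M : VMat n m R) (φ : Fin m → R) : evMat (transV M) φ = (evMat M φ)ᵀ := by
  ext i j
  simp [evMat, Matrix.sum_apply, transV]

/-- The block determinant. -/
def segreDet (M : VMat n m R) (φ : Fin 4 → Fin m → R) : R :=
  (Matrix.fromBlocks (evMat M (φ 0)) (evMat M (φ 1)) (evMat M (φ 2)) (evMat M (φ 3))).det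

theorem segreDet_mapV (f : R →+* R') (M : VMat n m R) (φ : Fin 4 → Fin m → R) :
    segreDet (mapV f M) (fun i s => f (φ i s)) = f (segreDet M φ) := by
  rw [segreDet, segreDet, RingHom.map_det]
  simp only [evMat_mapV, RingHom.mapMatrix_apply, Matrix.fromBlocks_map]

theorem segreDet_twist (g h : Matrix (Fin n) (Fin n) R) (M : VMat n m R)
    (φ : Fin 4 → Fin m → R) :
    segreDet (twist g h M) φ = (g.det * h.det) ^ 2 * segreDet M φ := by
  have : Matrix.fromBlocks (g * evMat M (φ 0) * h) (g * evMat M (φ 1) * h)
      (g * evMat M (φ 2) * h) (g * evMat M (φ 3) * h) =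
      Matrix.fromBlocks g 0 0 g *
        Matrix.fromBlocks (evMat M (φ 0)) (evMat M (φ 1)) (evMat M (φ 2)) (evMat M (φ 3)) *
        Matrix.fromBlocks h 0 0 h := by
    simp [Matrix.fromBlocks_multiply]
  simp only [segreDet, evMat_twist, this, Matrix.det_mul, Matrix.det_fromBlocks_zero₂₁]
  ring

theorem segreDet_transV (M : VMat n m R) (φ : Fin 4 → Fin m → R) :
    segreDet (transV M) φ = segreDet M (φ ∘ Equiv.swap 1 2) := by
  rw [segreDet, segreDet, ← Matrix.det_transpose, Matrix.fromBlocks_transpose]
  simp [evMat_transV, Equiv.swap_apply_def]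

/-- The block determinant as a polynomial in the functionals. -/
def segrePoly (M : VMat n m R) : MvPolynomial (Fin 4 × Fin m) R :=
  segreDet (mapV C M) fun i s => X (i, s)

theorem eval_segrePoly (M : VMat n m R) (v : Fin 4 × Fin m → R) :
    eval v (segrePoly M) = segreDet M fun i s => v (i, s) := by
  rw [segrePoly, ← segreDet_mapV]
  congr 1
  · funext i j s; simp [mapV]
  · funext i s; simp

theorem map_segrePoly (f : R →+* R') (M : VMat n m R) :
    MvPolynomial.map f (segrePoly M) = segrePoly (mapV f M) := by
  rw [segrePoly, segrePoly, ← segreDet_mapV]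
  congr 1
  · funext i j s; simp [mapV]
  · funext i s; simp

theorem segrePoly_twist (g h : Matrix (Fin n) (Fin n) R) (M : VMat n m R) :
    segrePoly (twist g h M) = C ((g.det * h.det) ^ 2) * segrePoly M := by
  have : mapV C (twist g h M) = twist (g.map C) (h.map C)
      (mapV (C : R →+* MvPolynomial (Fin 4 × Fin m) R) M) := by
    funext i j s
    simp [mapV, twist, Matrix.mul_apply, Finset.sum_mul]
  simp only [segrePoly, this, segreDet_twist, map_pow, map_mul, RingHom.map_det]
  rfl

theorem segrePoly_transV (M : VMat n m R) :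
    segrePoly (transV M) = rename (Prod.map (Equiv.swap 1 2) id) (segrePoly M) := by
  conv_rhs => rw [segrePoly]
  rw [segrePoly, show mapV C (transV M) = transV (mapV
    (C : R →+* MvPolynomial (Fin 4 × Fin m) R) M) from rfl, segreDet_transV,
    ← AlgHom.coe_toRingHom, ← segreDet_mapV]
  congr 1
  · funext i j s; simp [mapV]
  · funext i s; simp

/-- The diagonal idempotent missing one index. -/
def missing (k : Fin n) : Matrix (Fin n) (Fin n) R :=
  Matrix.diagonal fun i => if i = k then 0 else 1

theorem det_missing_updateRow (k : Fin n) (v : Fin n → R) :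
    ((missing k).updateRow k v).det = v k := by
  classical
  rw [Matrix.det_apply, Finset.sum_eq_single (1 : Equiv.Perm (Fin n))]
  · rw [Finset.prod_eq_single k] <;> simp +contextual [Matrix.updateRow_apply, missing]
  · intro σ _ hσ
    obtain ⟨i, hik, hii⟩ : ∃ i, σ i ≠ k ∧ σ i ≠ i := by
      by_contra hc
      push Not at hc
      have hk : σ k = k := by
        by_contra h
        exact h (hc k h)
      apply hσ
      refine Equiv.ext fun i => ?_
      by_cases h : σ i = k
      · have := σ.injective (h.trans hk.symm)
        subst this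
        simpa using h
      · simpa using hc i h
    rw [Finset.prod_eq_zero (Finset.mem_univ i), smul_zero]
    rw [Matrix.updateRow_ne hik, missing, Matrix.diagonal_apply_ne _ hii]
  · simp

/-- The key determinant. -/
theorem det_fromBlocks_missing (k l : Fin n) (X : Matrix (Fin n) (Fin n) R) (y z : Fin n → R) :
    (Matrix.fromBlocks (missing k) X (Matrix.vecMulVec y z) (missing l)).det =
      -(X k l * y l * z k) := by
  classical
  set Z : Matrix (Fin n ⊕ Fin n) (Fin n ⊕ Fin n) R :=
    Matrix.fromBlocks (missing k) X (Matrix.vecMulVec y z) (missing l) with hZ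
  set e : Equiv.Perm (Fin n ⊕ Fin n) := Equiv.swap (Sum.inl k) (Sum.inr l) with he
  have hdet : (Z.submatrix e id).det = -Z.det := by
    rw [Matrix.det_permute, he, Equiv.Perm.sign_swap (by simp)]
    simp
  suffices h : (Z.submatrix e id).det = X k l * y l * z k by
    rw [hdet, neg_eq_iff_eq_neg] at h
    exact h
  set A : Matrix (Fin n) (Fin n) R := (missing k).updateRow k (y l • z) with hA
  set D : Matrix (Fin n) (Fin n) R := (missing l).updateRow l (X k) with hD
  set B : Matrix (Fin n) (Fin n) R := X.updateRow k 0 with hB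
  set C' : Matrix (Fin n) (Fin n) R := (Matrix.vecMulVec y z).updateRow l 0 with hC
  have hsub : Z.submatrix e id = Matrix.fromBlocks A B C' D := by
    ext i j
    simp only [Matrix.submatrix_apply, id, he, hZ, hA, hB, hD, hC]
    rcases i with i | i <;> rcases j with j | j <;>
      [(rcases eq_or_ne i k with rfl | h); (rcases eq_or_ne i k with rfl | h);
       (rcases eq_or_ne i l with rfl | h); (rcases eq_or_ne i l with rfl | h)] <;>
      simp [Equiv.swap_apply_def, *, Matrix.vecMulVec_apply, missing, Matrix.diagonal]
  set A' : Matrix (Fin n) (Fin n) R := (missing k).updateRow k z with hA'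
  set E : Matrix (Fin n) (Fin n) R :=
    Matrix.vecMulVec (fun i => if i = l then 0 else y i) (Pi.single k 1) with hE
  have hEA : E * A' = C' := by
    rw [hE, Matrix.vecMulVec_mul, Matrix.single_vecMul, one_smul]
    ext i j
    rcases eq_or_ne i l with rfl | h <;> simp [hA', hC, Matrix.vecMulVec_apply, *]
  have hEB : E * B = 0 := by
    rw [hE, Matrix.vecMulVec_mul, Matrix.single_vecMul, one_smul]
    ext i j
    simp [hB, Matrix.vecMulVec_apply]
  have hfac : Matrix.fromBlocks A' B C' D =
      Matrix.fromBlocks 1 0 E 1 * Matrix.fromBlocks A' B 0 D := by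
    simp [Matrix.fromBlocks_multiply, hEA, hEB]
  have hscale : Matrix.fromBlocks A B C' D = (Matrix.fromBlocks A' B C' D).updateRow (Sum.inl k)
      (y l • Matrix.fromBlocks A' B C' D (Sum.inl k)) := by
    ext i j
    rcases i with i | i <;> rcases j with j | j <;>
      simp [Matrix.updateRow_apply, hA, hA', hB] <;> (try split_ifs with h) <;> simp_all
  rw [hsub, hscale, Matrix.det_updateRow_smul, Matrix.updateRow_eq_self, hfac, Matrix.det_mul,
    Matrix.det_fromBlocks_zero₁₂, Matrix.det_fromBlocks_zero₂₁, Matrix.det_one, hA', hD]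
  rw [det_missing_updateRow, det_missing_updateRow]
  ring

/-- Values of the block determinant in a frame: `M = U X Vᵀ` slicewise. -/
theorem segreDet_frame (M : VMat n m R) (U V : Matrix (Fin n) (Fin n) R)
    (Xs : Fin m → Matrix (Fin n) (Fin n) R) (hX : ∀ s, slice M s = U * Xs s * Vᵀ) (k l : Fin n)
    (s : Fin m) (y z : Fin n → R) (a c d : Fin m → R)
    (ha : evMat M a = U * missing k * Vᵀ) (hc : evMat M c = U * Matrix.vecMulVec y z * Vᵀ)
    (hd : evMat M d = U * missing l * Vᵀ) :
    segreDet M ![a, Pi.single s 1, c, d] = -((U.det * V.det) ^ 2 * (Xs s k l * y l * z k)) := by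
  have : Matrix.fromBlocks (U * missing k * Vᵀ) (U * Xs s * Vᵀ) (U * Matrix.vecMulVec y z * Vᵀ)
      (U * missing l * Vᵀ) =
      Matrix.fromBlocks U 0 0 U *
        Matrix.fromBlocks (missing k) (Xs s) (Matrix.vecMulVec y z) (missing l) *
        Matrix.fromBlocks Vᵀ 0 0 Vᵀ := by
    simp [Matrix.fromBlocks_multiply]
  simp only [segreDet, Matrix.cons_val_zero, Matrix.cons_val_one, Matrix.cons_val, evMat_single,
    ha, hc, hd, hX, this, Matrix.det_mul, Matrix.det_fromBlocks_zero₂₁, Matrix.det_transpose,
    det_fromBlocks_missing]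
  ring

/-- The block determinant on two diagonal blocks. -/
theorem segreDet_diagonal (M : VMat n m R) (a : Fin m → R) :
    segreDet M ![a, 0, 0, a] = (evMat M a).det ^ 2 := by
  have h0 : evMat M (0 : Fin m → R) = 0 := by simp [evMat]
  simp only [segreDet, Matrix.cons_val_zero, Matrix.cons_val_one, Matrix.cons_val, h0,
    Matrix.det_fromBlocks_zero₂₁]
  ring

end Fermat.Agent.FiniteFlat
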