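import Fermat.Agent.FiniteFlat.BlockDet
import Mathlib.LinearAlgebra.Matrix.NonsingularInverse

/-!
# The chart attached to a frame

Given functionals `φ j` with `φ j M = u_j v_jᵀ` and one more `φ₀ M = u₀ v₀ᵀ`, values of the block
determinant reconstruct `M` up to `M ↦ g M h`.
-/

set_option autoImplicit false
set_option linter.unusedSectionVars false

noncomputable section

open Matrix

namespace Fermat.Agent.FiniteFlat

variable {n m : ℕ} {K : Type*} [Field K]

/-- The four functionals computing the `(k, l, s)` entry of the chart. -/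
def chartArg (φ : Fin n → Fin m → K) (φ₀ : Fin m → K) (k l : Fin n) (s : Fin m) :
    Fin 4 → Fin m → K :=
  ![∑ j ∈ Finset.univ.erase k, φ j, Pi.single s 1, φ₀, ∑ j ∈ Finset.univ.erase l, φ j]

/-- The chart. -/
def chart (φ : Fin n → Fin m → K) (φ₀ : Fin m → K) (M : VMat n m K) : VMat n m K :=
  fun k l s => segreDet M (chartArg φ φ₀ k l s)

/-- The functionals testing that a frame is valid. -/
def testArg (φ : Fin n → Fin m → K) : Fin 4 → Fin m → K := ![∑ j, φ j, 0, 0, ∑ j, φ j]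

theorem evMat_add (M : VMat n m K) {ι : Type*} (t : Finset ι) (φ : ι → Fin m → K) :
    evMat M (∑ j ∈ t, φ j) = ∑ j ∈ t, evMat M (φ j) := by
  simp only [evMat, Finset.sum_apply, Finset.sum_smul]
  exact Finset.sum_comm

theorem sum_vecMulVec (U V : Matrix (Fin n) (Fin n) K) (t : Finset (Fin n)) :
    ∑ j ∈ t, vecMulVec (fun i => U i j) (fun i => V i j) =
      U * Matrix.diagonal (fun i => if i ∈ t then 1 else 0) * Vᵀ := by
  ext a b
  rw [Matrix.mul_apply]
  simp only [Matrix.sum_apply, vecMulVec_apply, Matrix.mul_diagonal, Matrix.transpose_apply,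
    mul_ite, mul_one, mul_zero, ite_mul, zero_mul]
  rw [← Finset.sum_filter]
  simp

variable (M : VMat n m K) (φ : Fin n → Fin m → K) (U V : Matrix (Fin n) (Fin n) K)
  (hφ : ∀ j, evMat M (φ j) = vecMulVec (fun i => U i j) (fun i => V i j))

include hφ

theorem segreDet_testArg : segreDet M (testArg φ) = (U.det * V.det) ^ 2 := by
  rw [testArg, segreDet_diagonal, evMat_add, Finset.sum_congr rfl fun j _ => hφ j, sum_vecMulVec]
  simp [Matrix.det_mul, Matrix.det_transpose]

/-- Where the frame is valid the chart is a transform of `M`, invertible iff the frame point is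
off the divisors of the dual sections. -/
theorem chart_eq_twist (φ₀ : Fin m → K) (u₀ v₀ : Fin n → K)
    (hφ₀ : evMat M φ₀ = vecMulVec u₀ v₀) (hU : U.det ≠ 0) (hV : V.det ≠ 0) :
    ∃ g h : Matrix (Fin n) (Fin n) K, chart φ φ₀ M = twist g h M ∧
      ((∀ i, (U⁻¹ *ᵥ u₀) i ≠ 0) → (∀ i, (V⁻¹ *ᵥ v₀) i ≠ 0) → g.det ≠ 0 ∧ h.det ≠ 0) := by
  set y := U⁻¹ *ᵥ u₀ with hy
  set z := V⁻¹ *ᵥ v₀ with hz
  set c : K := -(U.det * V.det) ^ 2 with hc
  have hUu : IsUnit U.det := Ne.isUnit hU
  have hVu : IsUnit Vᵀ.det := by rw [Matrix.det_transpose]; exact Ne.isUnit hV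
  have hc0 : c ≠ 0 := neg_ne_zero.mpr (pow_ne_zero _ (mul_ne_zero hU hV))
  refine ⟨Matrix.diagonal (fun k => c * z k) * U⁻¹, Vᵀ⁻¹ * Matrix.diagonal y, ?_, ?_⟩
  · funext k l s
    have hX : ∀ t, slice M t = U * (U⁻¹ * slice M t * Vᵀ⁻¹) * Vᵀ := fun t => by
      simp only [Matrix.mul_assoc, Matrix.nonsing_inv_mul _ hVu, Matrix.mul_one,
        Matrix.mul_nonsing_inv_cancel_left _ _ hUu]
    have hu : U *ᵥ y = u₀ := by
      rw [hy, Matrix.mulVec_mulVec, Matrix.mul_nonsing_inv _ hUu, Matrix.one_mulVec]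
    have hv : V *ᵥ z = v₀ := by
      rw [hz, Matrix.mulVec_mulVec, Matrix.mul_nonsing_inv _ (Ne.isUnit hV), Matrix.one_mulVec]
    have hmiss : ∀ k : Fin n, evMat M (∑ j ∈ Finset.univ.erase k, φ j) =
        U * missing k * Vᵀ := fun k => by
      rw [evMat_add, Finset.sum_congr rfl fun j _ => hφ j, sum_vecMulVec]
      congr 3
      funext i
      by_cases h : i = k <;> simp [h]
    rw [chart, chartArg, segreDet_frame M U V _ hX k l s y z _ _ _ (hmiss k) ?_ (hmiss l)]
    · rw [twist, show Matrix.diagonal (fun k => c * z k) * U⁻¹ * slice M s *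
          (Vᵀ⁻¹ * Matrix.diagonal y) = Matrix.diagonal (fun k => c * z k) *
          (U⁻¹ * slice M s * Vᵀ⁻¹) * Matrix.diagonal y by simp only [Matrix.mul_assoc],
        Matrix.mul_diagonal, Matrix.diagonal_mul, hc]
      ring
    · rw [hφ₀, ← hu, ← hv, Matrix.mul_vecMulVec, Matrix.vecMulVec_mul, Matrix.vecMul_transpose]
  · intro hy0 hz0
    simp only [Matrix.det_mul, Matrix.det_diagonal, Matrix.det_nonsing_inv, Ring.inverse_eq_inv',
      Matrix.det_transpose]
    exact ⟨mul_ne_zero (Finset.prod_ne_zero_iff.mpr fun i _ => mul_ne_zero hc0 (hz0 i))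
      (inv_ne_zero hU), mul_ne_zero (inv_ne_zero hV) (Finset.prod_ne_zero_iff.mpr fun i _ => hy0 i)⟩

end Fermat.Agent.FiniteFlat
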