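import Fermat.Agent.FiniteFlat.Kernel
import Fermat.Agent.FiniteFlat.BlockDet
import Fermat.Agent.FiniteFlat.Chart
import Mathlib.RingTheory.MvPolynomial.Homogeneous

/-!
# Affine coordinates of projective points given by polynomials

For a finite set `Idx` of monomials and a form `Φ` of degree `δ` in the coefficients indexed by
`Idx`, the functions `P ↦ P_I P_J ^ (δ - 1) / Φ(P)` depend only on `P` up to a scalar. Also:
regularity and residues of block determinants.
-/

set_option autoImplicit false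
set_option linter.unusedSectionVars false

noncomputable section

open MvPolynomial

namespace Fermat.Agent.FiniteFlat

section Gen

variable {K : Type*} [Field K] {σ : Type*} (Idx : Finset (σ →₀ ℕ))

/-- The coefficients indexed by `Idx`. -/
def coordVec (P : MvPolynomial σ K) : Idx → K := fun I => P.coeff I

/-- The denominator. -/
def denom (Φ : MvPolynomial Idx ℤ) (P : MvPolynomial σ K) : K := aeval (coordVec Idx P) Φ

/-- The affine coordinate functions. -/
def genVal (Φ : MvPolynomial Idx ℤ) (δ : ℕ) (I J : Idx) (P : MvPolynomial σ K) : K :=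
  coordVec Idx P I * coordVec Idx P J ^ (δ - 1) / denom Idx Φ P

variable {Idx} {Φ : MvPolynomial Idx ℤ} {δ : ℕ}

theorem aeval_mul_of_isHomogeneous {R : Type*} [CommRing R] {τ : Type*} {Ψ : MvPolynomial τ ℤ}
    (h : Ψ.IsHomogeneous δ) (c : R) (x : τ → R) :
    aeval (fun i => c * x i) Ψ = c ^ δ * aeval x Ψ := by
  rw [MvPolynomial.aeval_def, MvPolynomial.aeval_def, eval₂_eq, eval₂_eq, Finset.mul_sum]
  refine Finset.sum_congr rfl fun d hd => ?_
  rw [Finset.prod_congr rfl fun i _ => mul_pow c (x i) (d i), Finset.prod_mul_distrib,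
    Finset.prod_pow_eq_pow_sum]
  have hdeg : ∑ i ∈ d.support, d i = δ := by
    have := h (MvPolynomial.mem_support_iff.mp hd)
    rw [Finsupp.weight_apply] at this
    simpa [Finsupp.sum] using this
  rw [hdeg]; ring

theorem denom_smul (hΦ : Φ.IsHomogeneous δ) (c : K) (P : MvPolynomial σ K) :
    denom Idx Φ (C c * P) = c ^ δ * denom Idx Φ P := by
  rw [denom, denom, ← aeval_mul_of_isHomogeneous hΦ c]
  congr 2
  funext I
  simp [coordVec, coeff_C_mul]

theorem genVal_smul (hΦ : Φ.IsHomogeneous δ) (hδ : 0 < δ) {c : K} (hc : c ≠ 0)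
    (I J : Idx) (P : MvPolynomial σ K) :
    genVal Idx Φ δ I J (C c * P) = genVal Idx Φ δ I J P := by
  obtain ⟨e, rfl⟩ : ∃ e, δ = e + 1 := ⟨δ - 1, by omega⟩
  simp only [genVal, denom_smul hΦ, coordVec, coeff_C_mul, add_tsub_cancel_right]
  rw [show c * coeff (I : σ →₀ ℕ) P * (c * coeff (J : σ →₀ ℕ) P) ^ e =
    c ^ (e + 1) * (coeff (I : σ →₀ ℕ) P * coeff (J : σ →₀ ℕ) P ^ e) by ring,
    mul_div_mul_left _ _ (pow_ne_zero _ hc)]

theorem genVal_map {L : Type*} [Field L] (f : K →+* L) (I J : Idx) (P : MvPolynomial σ K) :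
    genVal Idx Φ δ I J (MvPolynomial.map f P) = f (genVal Idx Φ δ I J P) := by
  have h : coordVec Idx (MvPolynomial.map f P) = fun I => f (coordVec Idx P I) := by
    funext I; simp [coordVec, coeff_map]
  simp only [genVal, denom, h, map_div₀, map_mul, map_pow]
  congr 1
  rw [MvPolynomial.aeval_def, MvPolynomial.aeval_def, eval₂_eq, eval₂_eq, map_sum]
  simp

/-- Ratios of coefficients from the coordinate functions. -/
theorem genVal_div (hδ : 0 < δ) (I J : Idx) (P : MvPolynomial σ K) (hden : denom Idx Φ P ≠ 0) :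
    genVal Idx Φ δ I J P * (genVal Idx Φ δ J J P)⁻¹ = coordVec Idx P I / coordVec Idx P J := by
  obtain ⟨e, rfl⟩ : ∃ e, δ = e + 1 := ⟨δ - 1, by omega⟩
  simp only [genVal, add_tsub_cancel_right]
  rcases eq_or_ne (coordVec Idx P J) 0 with h | h
  · simp [h]
  · field_simp

variable {A : ValuationSubring K} {k : Type*} [Field k] {π : A →+* k}

theorem res_aeval {τ : Type*} {x : τ → K} (hx : ∀ i, x i ∈ A) (Ψ : MvPolynomial τ ℤ) :
    aeval x Ψ ∈ A ∧ res π (aeval x Ψ) = aeval (fun i => res π (x i)) Ψ := by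
  set y : τ → A := fun i => ⟨x i, hx i⟩ with hy
  have h : aeval x Ψ = ((aeval y Ψ : A) : K) := by
    have := map_aeval y A.subtype Ψ
    rw [MvPolynomial.aeval_def]
    exact ((congrArg (fun φ => eval₂Hom φ x Ψ) (Subsingleton.elim _ _)).trans this.symm)
  rw [h]
  refine ⟨SetLike.coe_mem _, ?_⟩
  rw [res_coe, map_aeval, MvPolynomial.aeval_def]
  have e1 : (fun i => π (y i)) = fun i => res π (x i) := funext fun i => (res_eq (hx i)).symm
  rw [e1]
  exact congrArg (fun φ => eval₂Hom φ (fun i => res π (x i)) Ψ) (Subsingleton.elim _ _)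

theorem genVal_mem (hπ : IsResidueMap π) (I J : Idx) {P : MvPolynomial σ K}
    (hP : ∀ d, P.coeff d ∈ A) (hden : aeval (fun I => res π (coordVec Idx P I)) Φ ≠ 0) :
    A.valuation (denom Idx Φ P) = 1 ∧ genVal Idx Φ δ I J P ∈ A := by
  obtain ⟨hm, hr⟩ := res_aeval (π := π) (fun I => hP _ : ∀ I : Idx, coordVec Idx P I ∈ A) Φ
  have h1 : A.valuation (denom Idx Φ P) = 1 := hπ.valuation_eq_one hm (by
    intro h0; exact hden (hr.symm.trans h0))
  refine ⟨h1, ?_⟩
  rw [← A.valuation_le_one_iff, genVal, map_div₀, h1, div_one, A.valuation_le_one_iff]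
  exact mul_mem (hP _) (pow_mem (hP _) _)

end Gen

section Segre

variable {K : Type*} [Field K] {A : ValuationSubring K} {k : Type*} [Field k] {π : A →+* k}
  {n m : ℕ}

theorem res_segreDet {L : VMat n m K} (hL : ∀ i j s, L i j s ∈ A) {φ : Fin 4 → Fin m → K}
    (hφ : ∀ i s, φ i s ∈ A) :
    segreDet L φ ∈ A ∧
      res π (segreDet L φ) = segreDet (mapV (res π) L) (fun i s => res π (φ i s)) := by
  set L' : VMat n m A := fun i j s => ⟨L i j s, hL i j s⟩ with hL'
  set φ' : Fin 4 → Fin m → A := fun i s => ⟨φ i s, hφ i s⟩ with hφ'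
  have h : segreDet L φ = ((segreDet L' φ' : A) : K) := segreDet_mapV A.subtype L' φ'
  rw [h]
  refine ⟨SetLike.coe_mem _, ?_⟩
  rw [res_coe, ← segreDet_mapV π L' φ']
  congr 1
  · funext i j s; exact (res_eq (hL i j s)).symm
  · funext i s; exact (res_eq (hφ i s)).symm

theorem res_coeff_segrePoly {L : VMat n m K} (hL : ∀ i j s, L i j s ∈ A)
    (d : Fin 4 × Fin m →₀ ℕ) :
    (segrePoly L).coeff d ∈ A ∧
      res π ((segrePoly L).coeff d) = (segrePoly (mapV (res π) L)).coeff d := by
  set L' : VMat n m A := fun i j s => ⟨L i j s, hL i j s⟩ with hL'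
  have h : segrePoly L = MvPolynomial.map A.subtype (segrePoly L') := (map_segrePoly A.subtype L').symm
  have h' : segrePoly (mapV (res π) L) = MvPolynomial.map π (segrePoly L') := by
    rw [map_segrePoly]
    congr 1
    funext i j s
    exact res_eq (hL i j s)
  rw [h, h', coeff_map, coeff_map]
  exact ⟨SetLike.coe_mem _, res_coe _⟩

theorem res_chart {L : VMat n m K} (hL : ∀ i j s, L i j s ∈ A) {φ : Fin n → Fin m → K}
    {φ₀ : Fin m → K} (hφ : ∀ j s, φ j s ∈ A) (hφ₀ : ∀ s, φ₀ s ∈ A) (i j : Fin n) (s : Fin m) :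
    (∀ a t, chartArg φ φ₀ i j s a t ∈ A) ∧ chart φ φ₀ L i j s ∈ A ∧
      res π (chart φ φ₀ L i j s) =
        chart (fun j t => res π (φ j t)) (fun t => res π (φ₀ t)) (mapV (res π) L) i j s := by
  have harg : ∀ a t, chartArg φ φ₀ i j s a t ∈ A := by
    intro a t
    fin_cases a
    · show (∑ l ∈ Finset.univ.erase i, φ l) t ∈ A
      rw [Finset.sum_apply]
      exact sum_mem fun l _ => hφ l t
    · rcases eq_or_ne t s with rfl | h
      · simp [chartArg]
      · simp [chartArg, h]
    · exact hφ₀ t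
    · show (∑ l ∈ Finset.univ.erase j, φ l) t ∈ A
      rw [Finset.sum_apply]
      exact sum_mem fun l _ => hφ l t
  obtain ⟨h1, h2⟩ := res_segreDet (π := π) hL harg
  refine ⟨harg, h1, h2.trans ?_⟩
  congr 1
  funext a t
  fin_cases a
  · show res π ((∑ l ∈ Finset.univ.erase i, φ l) t) =
      (∑ l ∈ Finset.univ.erase i, fun t => res π (φ l t)) t
    rw [Finset.sum_apply, Finset.sum_apply]
    exact res_sum _ fun l _ => hφ l t
  · rcases eq_or_ne t s with rfl | h
    · simp [chartArg, res_one]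
    · simp [chartArg, h, res_zero]
  · rfl
  · show res π ((∑ l ∈ Finset.univ.erase j, φ l) t) =
      (∑ l ∈ Finset.univ.erase j, fun t => res π (φ l t)) t
    rw [Finset.sum_apply, Finset.sum_apply]
    exact res_sum _ fun l _ => hφ l t

variable {S : Type*} {B : Subalgebra A (S → K)} {s₀ : S}

theorem RegAt.segreDet {L : S → VMat n m K} (hL : ∀ i j s, RegAt B s₀ fun x => L x i j s)
    {φ : Fin 4 → Fin m → S → K} (hφ : ∀ i s, RegAt B s₀ (φ i s)) :
    RegAt B s₀ fun x => FiniteFlat.segreDet (L x) fun i s => φ i s x := by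
  set L' : VMat n m ↥(regRing B s₀) := fun i j s => ⟨fun x => L x i j s, hL i j s⟩
  set φ' : Fin 4 → Fin m → ↥(regRing B s₀) := fun i s => ⟨φ i s, hφ i s⟩
  have h : (fun x => FiniteFlat.segreDet (L x) fun i s => φ i s x) =
      ((FiniteFlat.segreDet L' φ' : regRing B s₀) : S → K) := funext fun x =>
    segreDet_mapV ((Pi.evalRingHom (fun _ : S => K) x).comp (regRing B s₀).val.toRingHom) L' φ'
  rw [h]
  exact mem_regRing.mp (SetLike.coe_mem _)

theorem RegAt.coeff_segrePoly {L : S → VMat n m K}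
    (hL : ∀ i j s, RegAt B s₀ fun x => L x i j s) (d : Fin 4 × Fin m →₀ ℕ) :
    RegAt B s₀ fun x => (segrePoly (L x)).coeff d := by
  set L' : VMat n m ↥(regRing B s₀) := fun i j s => ⟨fun x => L x i j s, hL i j s⟩
  have h : (fun x => (segrePoly (L x)).coeff d) =
      (((segrePoly L').coeff d : regRing B s₀) : S → K) := funext fun x => by
    have := congrArg (fun P => MvPolynomial.coeff d P) (map_segrePoly
      ((Pi.evalRingHom (fun _ : S => K) x).comp (regRing B s₀).val.toRingHom) L')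
    simp only [coeff_map] at this
    exact this.symm
  rw [h]
  exact mem_regRing.mp (SetLike.coe_mem _)

theorem RegAt.aeval {τ : Type*} {f : τ → S → K} (hf : ∀ i, RegAt B s₀ (f i))
    (Ψ : MvPolynomial τ ℤ) : RegAt B s₀ fun x => MvPolynomial.aeval (fun i => f i x) Ψ := by
  set f' : τ → ↥(regRing B s₀) := fun i => ⟨f i, hf i⟩
  have h : (fun x => MvPolynomial.aeval (fun i => f i x) Ψ) =
      ((MvPolynomial.aeval f' Ψ : regRing B s₀) : S → K) := funext fun x => by
    have := map_aeval f' ((Pi.evalRingHom (fun _ : S => K) x).comp (regRing B s₀).val.toRingHom) Ψ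
    refine Eq.trans ?_ this.symm
    rw [MvPolynomial.aeval_def]
    exact congrArg (fun φ => eval₂Hom φ (fun i => f i x) Ψ) (Subsingleton.elim _ _)
  rw [h]
  exact mem_regRing.mp (SetLike.coe_mem _)

end Segre

end Fermat.Agent.FiniteFlat
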