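import Fermat.Agent.FiniteFlat.Semilinear
import Fermat.Agent.FiniteFlat.Coords
import Fermat.Agent.FiniteFlat.Anisotropic
import Fermat.Prelude.Def_GaloisRep_Flat

/-!
# The setting: a curve over `ℚ̄` with Galois action and good reduction at one place

Choice of multiplication matrices for the points of a finite Galois-stable subgroup, existence of
frames and of the denominator form.
-/

set_option autoImplicit false
set_option linter.unusedSectionVars false
set_option linter.style.haveILetI false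

noncomputable section

open Matrix

namespace Fermat.Agent.FiniteFlat

open AlgebraicCurve Fermat.Agent.Reduction.Torsion

local notation "ℚ̄" => AlgebraicClosure ℚ
local notation "Γℚ" => (AlgebraicClosure ℚ ≃ₐ[ℚ] AlgebraicClosure ℚ)

variable {k : Type} [Field k] {F : Type} [Field F] [Algebra ℚ̄ F] {Fb : Type} [Field Fb]
  [Algebra k Fb] {A : ValuationSubring ℚ̄} {π : A →+* k} {r : Place ℚ̄ F → Place k Fb}
  {G₀ : GaussReduction π r}

/-- Inputs of the construction. -/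
structure CurveInput (G₀ : GaussReduction π r) (ℓ : ℕ) (n m : ℕ) (G : Divisor ℚ̄ F) (b : Fin m → F) (bb : Fin m → Fb)
    (c : ℕ) (χ : ℤ) (act : Γℚ →* SemilinearAut ℚ̄ F) : Prop where
  good : GoodReduction G₀ c χ
  baseAut_act : ∀ σ, SemilinearAut.baseAut (act σ) = σ.toRingEquiv
  le_deg : 2 * (c : ℤ) + 2 ≤ Divisor.degree G
  n_eq : (n : ℤ) = Divisor.degree G + χ
  n_pos : 0 < n
  nonneg : 0 ≤ G
  smul_G : ∀ σ, act σ • G = G
  smul_b : ∀ σ s, act σ • b s = b s
  b_graph : ∀ s, (b s, bb s) ∈ G₀.graph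
  bb_li : LinearIndependent k bb
  b_span : Submodule.span ℚ̄ (Set.range b) = riemannRochSpace (G + G)
  alg : ∀ a : k, ∃ f, 0 < f ∧ a ^ ℓ ^ f = a
  rat_mem : ∀ q : ℚ, algebraMap ℚ ℚ̄ q ∈ A ↔ q ∈ GaloisRep.ratLocalizedAt ℓ
  range_infinite : (Set.range r).Infinite
  one_lt : 1 < ℓ

variable {ℓ n m : ℕ} {G : Divisor ℚ̄ F} {b : Fin m → F} {bb : Fin m → Fb} {c : ℕ} {χ : ℤ}
  {act : Γℚ →* SemilinearAut ℚ̄ F}

/-- `M` is an integral multiplication matrix for the class `x`, `D` the divisor used. -/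
structure ClassRep (G₀ : GaussReduction π r) (G : Divisor ℚ̄ F) (b : Fin m → F) (bb : Fin m → Fb) (x : Pic0 ℚ̄ F)
    (D : Divisor ℚ̄ F) (M : VMat n m ℚ̄) : Prop where
  cls : ∃ D₀ : Divisor.degZero (K := ℚ̄) (F := F), Pic0.mk D₀ = x ∧ D = (D₀ : Divisor ℚ̄ F) + G
  integral : ∀ i j s, M i j s ∈ A
  gen : IsRep b G D M
  spec : IsRep bb (Finsupp.mapDomain r G) (Finsupp.mapDomain r D) (mapV (res π) M)

theorem ClassRep.degree {x : Pic0 ℚ̄ F} {D : Divisor ℚ̄ F} {M : VMat n m ℚ̄}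
    (h : ClassRep G₀ G b bb x D M) : Divisor.degree D = Divisor.degree G := by
  obtain ⟨D₀, -, rfl⟩ := h.cls
  rw [map_add, Divisor.mem_degZero.mp D₀.2, zero_add]

namespace CurveInput

variable (h : CurveInput G₀ ℓ n m G b bb c χ act)

include h

theorem c_le : (c : ℤ) ≤ Divisor.degree G := by
  have := h.le_deg; omega

theorem li_b : LinearIndependent ℚ̄ b := linearIndependent_of_reduced G₀ h.b_graph h.bb_li

theorem degree_mapG : Divisor.degree (Finsupp.mapDomain r G) = Divisor.degree G :=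
  h.good.degree_map G

theorem nonneg_mapG : 0 ≤ Finsupp.mapDomain r G := fun Q => by
  simp only [Finsupp.mapDomain, Finsupp.sum, Finsupp.finsetSum_apply]
  exact Finset.sum_nonneg fun P _ => Finsupp.single_nonneg.mpr (h.nonneg P) Q

theorem exists_classRep (x : Pic0 ℚ̄ F) :
    ∃ (D : Divisor ℚ̄ F) (M : VMat n m ℚ̄), ClassRep G₀ G b bb x D M := by
  obtain ⟨D₀, rfl⟩ := Pic0.mk_surjective x
  have hdeg : Divisor.degree ((D₀ : Divisor ℚ̄ F) + G) = Divisor.degree G := by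
    rw [map_add, Divisor.mem_degZero.mp D₀.2, zero_add]
  obtain ⟨M, hM, hg, hs⟩ := h.good.exists_integral_rep h.b_graph h.bb_li h.b_span _ hdeg h.c_le h.n_eq
  exact ⟨_, M, ⟨D₀, rfl, rfl⟩, hM, hg, hs⟩

theorem bb_mem : ∀ s, bb s ∈ riemannRochSpace (Finsupp.mapDomain r G + Finsupp.mapDomain r G) := by
  intro s
  haveI := h.good.gen.principal
  rw [← Finsupp.mapDomain_add]
  exact G₀.mem_rr (h.b_graph s) (mem_of_span_eq h.b_span s)

/-- A frame for one class, valid at its reduction. -/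
theorem exists_frame_data {x : Pic0 ℚ̄ F} {D : Divisor ℚ̄ F} {M : VMat n m ℚ̄}
    (hx : ClassRep G₀ G b bb x D M) (bad : Finset (Place ℚ̄ F)) :
    ∃ (P : Fin n → Place ℚ̄ F) (P₀ : Place ℚ̄ F),
      (∀ j, P j ∉ bad) ∧ P₀ ∉ bad ∧ (∀ j s, valFun b (P j) s ∈ A) ∧ (∀ s, valFun b P₀ s ∈ A) ∧
      segreDet (mapV (res π) M) (testArg fun j t => res π (valFun b (P j) t)) ≠ 0 ∧
      ∃ g g' : Matrix (Fin n) (Fin n) k, g.det ≠ 0 ∧ g'.det ≠ 0 ∧
        chart (fun j t => res π (valFun b (P j) t)) (fun t => res π (valFun b P₀ t))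
          (mapV (res π) M) = twist g g' (mapV (res π) M) := by
  classical
  haveI := h.good.gen.principal
  haveI := h.good.spec.principal
  obtain ⟨u, v, hu, hv, huv⟩ := hx.spec
  set Db := Finsupp.mapDomain r D
  set Gb := Finsupp.mapDomain r G
  set badk : Finset (Place k Fb) :=
    bad.image r ∪ Db.support ∪ Gb.support with hbadk
  set Q : Set (Place k Fb) := Set.range r \ ↑badk with hQdef
  have hQinf : Q.Infinite := h.range_infinite.sdiff badk.finite_toSet
  have hQ : ∀ R ∈ Q, Db R = 0 ∧ Gb R = 0 := by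
    rintro R ⟨-, hR⟩
    simp only [hbadk, Finset.coe_union, Set.mem_union, Finset.mem_coe, Finsupp.mem_support_iff,
      not_or, not_not] at hR
    exact ⟨hR.1.2, hR.2⟩
  have hQ' : ∀ R ∈ Q, Db R = 0 ∧ (Gb + Gb - Db) R = 0 := fun R hR =>
    ⟨(hQ R hR).1, by simp [(hQ R hR).1, (hQ R hR).2]⟩
  have hGG : ∀ R ∈ Q, (Gb + Gb) R = 0 := fun R hR => by simp [(hQ R hR).2]
  obtain ⟨R, hRQ, hU, hV⟩ := exists_frame h.good.spec.deg_eq hu.1 (mem_of_span_eq hu.2) hv.1
    (mem_of_span_eq hv.2) hQinf hQ'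
  set U : Matrix (Fin n) (Fin n) k := Matrix.of fun i j => val (R j) (u i) with hUdef
  set V : Matrix (Fin n) (Fin n) k := Matrix.of fun i j => val (R j) (v i) with hVdef
  -- the dual sections
  set y : Fin n → Fb := fun i => ∑ a, U⁻¹ i a • u a with hy
  set z : Fin n → Fb := fun i => ∑ a, V⁻¹ i a • v a with hz
  have hy1 := li_span_twist hu.1 hu.2 U⁻¹ (by
    rw [Matrix.det_nonsing_inv, Ring.inverse_eq_inv']; exact inv_ne_zero hU)
  have hz1 := li_span_twist hv.1 hv.2 V⁻¹ (by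
    rw [Matrix.det_nonsing_inv, Ring.inverse_eq_inv']; exact inv_ne_zero hV)
  obtain ⟨R₀, hR₀Q, hR₀⟩ := exists_point h.good.spec.deg_eq
    (ι := Fin n ⊕ Fin n) (D := Sum.elim (fun _ => Db) fun _ => Gb + Gb - Db) (f := Sum.elim y z)
    (by rintro (i | i) <;> [exact mem_of_span_eq hy1.2 i; exact mem_of_span_eq hz1.2 i])
    (by rintro (i | i) <;> [exact hy1.1.ne_zero i; exact hz1.1.ne_zero i])
    hQinf (by rintro (i | i) R hR <;> [exact (hQ' R hR).1; exact (hQ' R hR).2])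
  choose P hP using fun j => (hRQ j).1
  obtain ⟨P₀, hP₀⟩ := hR₀Q.1
  have hnot : ∀ (P : Place ℚ̄ F), r P ∈ Q → P ∉ bad := fun P hP hb =>
    hP.2 (Finset.mem_coe.mpr (Finset.mem_union_left _
      (Finset.mem_union_left _ (Finset.mem_image_of_mem r hb))))
  have hval : ∀ (P : Place ℚ̄ F), r P ∈ Q → ∀ s, valFun b P s ∈ A ∧
      res π (valFun b P s) = valFun bb (r P) s := fun P hP s =>
    val_mem G₀ (add_nonneg h.nonneg h.nonneg) (h.good.gen.deg_eq P) (h.good.spec.deg_eq _)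
      (by rw [Finsupp.mapDomain_add]; exact hGG _ hP) (mem_of_span_eq h.b_span s) (h.b_graph s)
  have hPQ : ∀ j, r (P j) ∈ Q := fun j => (hP j).symm ▸ hRQ j
  have hP₀Q : r P₀ ∈ Q := hP₀.symm ▸ hR₀Q
  have hev : ∀ S ∈ Q, evMat (mapV (res π) M) (valFun bb S) =
      vecMulVec (fun i => val S (u i)) (fun j => val S (v j)) := fun S hS =>
    evMat_valFun (h.good.spec.deg_eq S) (hGG S hS) (hQ S hS).1 h.bb_mem (mem_of_span_eq hu.2)
      (mem_of_span_eq hv.2) huv
  have hφ : (fun j t => res π (valFun b (P j) t)) = fun j => valFun bb (R j) := by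
    funext j t
    rw [((hval _ (hPQ j)) t).2, hP j]
  have hφ₀ : (fun t => res π (valFun b P₀ t)) = valFun bb R₀ := by
    funext t
    rw [((hval _ hP₀Q) t).2, hP₀]
  refine ⟨P, P₀, fun j => hnot _ (hPQ j), hnot _ hP₀Q, fun j s => ((hval _ (hPQ j)) s).1,
    fun s => ((hval _ hP₀Q) s).1, ?_, ?_⟩
  · rw [hφ, segreDet_testArg _ _ U V fun j => hev (R j) (hRQ j)]
    exact pow_ne_zero _ (mul_ne_zero hU hV)
  · obtain ⟨g, g', he, hdet⟩ := chart_eq_twist (mapV (res π) M) (fun j => valFun bb (R j)) U V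
      (fun j => hev (R j) (hRQ j)) (valFun bb R₀) (fun i => val R₀ (u i)) (fun i => val R₀ (v i))
      (hev R₀ hR₀Q) hU hV
    have key : ∀ (W : Matrix (Fin n) (Fin n) k) (E : Divisor k Fb) (x : Fin n → Fb),
        (∀ a, x a ∈ riemannRochSpace E) → E R₀ = 0 → ∀ i,
        val R₀ (∑ a, W i a • x a) = (W *ᵥ fun a => val R₀ (x a)) i := fun W E x hx hE i =>
      (val_sum_smul fun a => hasValue_val (h.good.spec.deg_eq R₀) hE (hx a)).val_eq
    obtain ⟨h1, h2⟩ := hdet
      (fun i => key U⁻¹ Db u (mem_of_span_eq hu.2) (hQ' _ hR₀Q).1 i ▸ hR₀ (Sum.inl i))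
      (fun i => key V⁻¹ _ v (mem_of_span_eq hv.2) (hQ' _ hR₀Q).2 i ▸ hR₀ (Sum.inr i))
    exact ⟨g, g', h1, h2, by rw [hφ, hφ₀]; exact he⟩

/-- The reduced invariant is nonzero. -/
theorem exists_coeff_ne_zero {x : Pic0 ℚ̄ F} {D : Divisor ℚ̄ F} {M : VMat n m ℚ̄}
    (hx : ClassRep G₀ G b bb x D M) :
    ∃ d, res π ((segrePoly M).coeff d) ≠ 0 := by
  obtain ⟨P, -, -, -, -, -, htest, -⟩ := h.exists_frame_data hx ∅
  by_contra hc
  push Not at hc
  have h0 : segrePoly (mapV (res π) M) = 0 := MvPolynomial.ext _ _ fun d => by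
    rw [← (res_coeff_segrePoly (π := π) hx.integral d).2, hc, MvPolynomial.coeff_zero]
  apply htest
  have := eval_segrePoly (mapV (res π) M)
    (fun q => testArg (fun j t => res π (valFun b (P j) t)) q.1 q.2)
  rw [h0, map_zero] at this
  exact this.symm

end CurveInput

/-- The monomials occurring in a finite family. -/
def monomials {τ : Type*} [Fintype τ] (M : τ → VMat n m ℚ̄) : Finset (Fin 4 × Fin m →₀ ℕ) :=
  Finset.univ.biUnion fun t => (segrePoly (M t)).support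

theorem coeff_eq_zero_of_notMem {τ : Type*} [Fintype τ] {M : τ → VMat n m ℚ̄}
    {d : Fin 4 × Fin m →₀ ℕ} (hd : d ∉ monomials M) (t : τ) : (segrePoly (M t)).coeff d = 0 := by
  by_contra hne
  exact hd (Finset.mem_biUnion.mpr ⟨t, Finset.mem_univ t, MvPolynomial.mem_support_iff.mpr hne⟩)

theorem CurveInput.exists_denom_form (h : CurveInput G₀ ℓ n m G b bb c χ act) {τ : Type} [Fintype τ]
    {x : τ → Pic0 ℚ̄ F} {D : τ → Divisor ℚ̄ F} {M : τ → VMat n m ℚ̄}
    (hx : ∀ t, ClassRep G₀ G b bb (x t) (D t) (M t)) :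
    ∃ δ : ℕ, 0 < δ ∧ ∃ Φ : MvPolynomial (monomials M) ℤ, Φ.IsHomogeneous δ ∧
      ∀ t, MvPolynomial.aeval (fun I => res π (coordVec (monomials M) (segrePoly (M t)) I)) Φ ≠ 0 := by
  refine exists_form_ne_zero h.one_lt h.alg _ fun t => ?_
  obtain ⟨d, hd⟩ := h.exists_coeff_ne_zero (hx t)
  have hmem : d ∈ monomials M := by
    by_contra hn
    rw [coeff_eq_zero_of_notMem hn t, res_zero] at hd
    exact hd rfl
  exact ⟨⟨d, hmem⟩, hd⟩

end Fermat.Agent.FiniteFlat
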