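import Fermat.Agent.FiniteFlat.RatSaturation
import Fermat.Agent.FiniteFlat.Setting
import Fermat.Agent.Galois.Frobenius

/-!
# The inputs of the finite flat construction for `X₀(N)` at `ℓ ∤ N`

The curve is `X₀(N)` with its Gauss reduction of `q`-expansions, the divisor a large multiple of
the cusp `∞`, and the functions a saturated rational basis of its Riemann–Roch space.
-/

set_option autoImplicit false
set_option linter.unusedSectionVars false
set_option linter.style.haveILetI false

noncomputable section

namespace Fermat.Agent.FiniteFlat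

open AlgebraicCurve ModularCurve
open Fermat.Agent.Reduction Fermat.Agent.Reduction.Torsion Fermat.Agent.Curve
open Fermat.Agent.EichlerShimura

local notation "ℚ̄" => AlgebraicClosure ℚ
local notation "Γℚ" => (AlgebraicClosure ℚ ≃ₐ[ℚ] AlgebraicClosure ℚ)

/-- Riemann–Roch in large degree over an algebraically closed field of constants. -/
theorem minp_exists_largeRR (K F : Type*) [Field K] [IsAlgClosed K] [Field F] [Algebra K F]
    [IsFunctionField1 K F] :
    ∃ c₀ : ℕ, ∀ c : ℕ, c₀ ≤ c → LargeRR K F c (1 - (genusFF K F : ℤ)) := by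
  obtain ⟨d, hd⟩ := exists_specialIndex_eq_zero (K := K) (F := F)
  refine ⟨d.toNat, fun c hc =>
    { deg_eq := fun P => deg_eq_one P
      finite := fun D => finite_riemannRochSpace D
      ell_eq := fun D hD => ?_
      principal := inferInstance
      infinite := inferInstance }⟩
  have h := ell_sub_specialIndex D
  rw [hd D (by omega), ell_zero] at h
  change (ell D : ℤ) = _
  omega

/-- A compatible map of places has infinitely many values. -/
theorem minp_range_infinite {A : ValuationSubring ℚ̄} {k : Type*} [Field k] [IsAlgClosed k]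
    {π : A →+* k} {F : Type*} [Field F] [Algebra ℚ̄ F] [IsFunctionField1 ℚ̄ F]
    {Fb : Type*} [Field Fb] [Algebra k Fb] [IsFunctionField1 k Fb] (G : GaussData π F Fb)
    {r : Place ℚ̄ F → Place k Fb} (hr : G.PlaceCompat r) {g : Fb} (hg : Transcendental k g) :
    (Set.range r).Infinite := by
  classical
  have hsub : ∀ c : k, Transcendental k (g - algebraMap k Fb c) := fun c hc =>
    hg (by simpa using IsAlgebraic.add hc (isAlgebraic_algebraMap (A := Fb) c))
  choose Q hQ using fun c : k => exists_place_ord_pos (K := k) (hsub c)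
  have hne : ∀ c : k, g - algebraMap k Fb c ≠ 0 := fun c h0 =>
    hsub c (h0 ▸ isAlgebraic_zero)
  have hmem : ∀ c, Q c ∈ Set.range r := by
    intro c
    obtain ⟨f, hf⟩ := G.exists_lift (g - algebraMap k Fb c)
    by_contra hn
    have h := hr f _ hf (hne c) (divisorOf f) (fun P => divisorOf_apply f P) (Q c)
    rw [Finsupp.mapDomain_notin_range _ _ hn] at h
    have := hQ c
    omega
  refine Set.Infinite.mono (Set.range_subset_iff.mpr hmem) (Set.infinite_range_of_injective ?_)
  intro c c' he
  by_contra hcc
  have h1 := hQ c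
  have h2 := hQ c'
  rw [← he] at h2
  have hd : c' - c ≠ 0 := sub_ne_zero.mpr (Ne.symm hcc)
  have h3 : OrdGE (Q c) 1 (algebraMap k Fb (c' - c)) := by
    have h := (ordGE_of_le_ord (v := Q c) (n := 1) (f := g - algebraMap k Fb c) (by omega)).sub
      (ordGE_of_le_ord (v := Q c) (n := 1) (f := g - algebraMap k Fb c') (by omega))
    rwa [sub_sub_sub_cancel_left, ← map_sub] at h
  have h4 := h3.le_ord ((map_ne_zero _).mpr hd)
  rw [Curve.ord_algebraMap] at h4
  omega

/-- **The inputs of the finite flat construction** for `X₀(N)` at `ℓ ∤ N`. -/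
theorem exists_curveInput (N : ℕ) [NeZero N] {ℓ : ℕ} [Fact ℓ.Prime] (hℓN : ¬ ℓ ∣ N)
    (hN : (ℓ = 2 → 3 ∣ N) ∧ (ℓ = 3 → 2 ∣ N)) :
    ∃ (A : ValuationSubring ℚ̄) (k : Type) (_ : Field k) (π : A →+* k) (Fb : Type) (_ : Field Fb)
      (_ : Algebra k Fb) (r : Place ℚ̄ (modularFunctionFieldBar N) → Place k Fb)
      (G₀ : GaussReduction π r) (n m : ℕ) (G : Divisor ℚ̄ (modularFunctionFieldBar N))
      (b : Fin m → modularFunctionFieldBar N) (bb : Fin m → Fb) (c : ℕ) (χ : ℤ),
      CurveInput G₀ ℓ n m G b bb c χ (arithmeticGalois (modularFunctionFieldFull N)) := by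
  have hp : ℓ.Prime := Fact.out
  obtain ⟨A, hA⟩ := Galois.exists_valuationSubring_liesOverPrime (L := ℚ̄) hp
  haveI := EC.isAlgClosed_residueField A
  haveI := EC.charP_residueField A hp hA
  set k := IsLocalRing.ResidueField A
  have hle := genusFF_le_modL N hℓN A hA hN
  set Gd := gaussDataX0 N hℓN A hA with hGd
  have hge := Gd.genusFF_le
  obtain ⟨r, hdeg, hr⟩ := Gd.exists_placeCompat hle
  set G₀ := Gd.toGaussReduction hr with hG₀
  set γ := genusFF ℚ̄ (modularFunctionFieldBar N) with hγ
  have hgen : genusFF k (modularFunctionFieldFullC k N) = γ := le_antisymm hge hle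
  obtain ⟨c₁, hc₁⟩ := minp_exists_largeRR ℚ̄ (modularFunctionFieldBar N)
  obtain ⟨c₂, hc₂⟩ := minp_exists_largeRR k (modularFunctionFieldFullC k N)
  set c := max c₁ c₂ with hc
  have hgood : GoodReduction G₀ c (1 - (γ : ℤ)) :=
    { gen := hc₁ c (le_max_left _ _)
      spec := hgen ▸ hc₂ c (le_max_right _ _)
      finrank_red := fun W hW => Gd.finrank_redSpace W hW }
  set e := 2 * c + 2 + γ with he
  set P := cuspPlace ℚ̄ (modularFunctionFieldFull N) with hP
  set G : Divisor ℚ̄ (modularFunctionFieldBar N) := Finsupp.single P (e : ℤ) with hG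
  have hdegG : Divisor.degree G = e := by
    rw [hG, Divisor.degree_single, hP, (deg_cuspPlace _).1, Nat.cast_one, mul_one]
  have hfixG : ∀ σ : Γℚ, arithmeticGalois (modularFunctionFieldFull N) σ • G = G := fun σ => by
    rw [hG, SemilinearAut.smul_single, hP, smul_cuspPlace]
  set V := riemannRochSpace (G + G) with hV
  haveI : FiniteDimensional ℚ̄ V := finite_riemannRochSpace _
  obtain ⟨b, bb, hbV, hbfix, hbg, hbli⟩ := satz_exists_saturated hℓN hA hr V
    (fun σ f hf => MordellWeil.smul_mem_riemannRochSpace (by rw [smul_add, hfixG]) hf)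
    (Module.finrank ℚ̄ V) le_rfl
  have hspan : Submodule.span ℚ̄ (Set.range b) = V := by
    refine Submodule.eq_of_le_of_finrank_eq
      (Submodule.span_le.mpr (Set.range_subset_iff.mpr hbV)) ?_
    rw [finrank_span_eq_card (linearIndependent_of_reduced G₀ hbg hbli), Fintype.card_fin]
  refine ⟨A, k, inferInstance, IsLocalRing.residue A, modularFunctionFieldFullC k N, inferInstance,
    inferInstance, r, G₀, ((e : ℤ) + (1 - γ)).toNat, Module.finrank ℚ̄ V, G, b, bb, c,
    1 - (γ : ℤ), ?_⟩
  exact
    { good := hgood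
      baseAut_act := baseAut_arithmeticGalois _
      le_deg := by rw [hdegG]; omega
      n_eq := by rw [hdegG]; omega
      n_pos := by omega
      nonneg := Finsupp.single_nonneg.mpr (by omega)
      smul_G := hfixG
      smul_b := fun σ s => hbfix s σ
      b_graph := hbg
      bb_li := hbli
      b_span := hspan
      alg := EC.exists_pow_q_pow_eq_self A hp hA
      rat_mem := satz_rat_mem hA
      range_infinite := minp_range_infinite Gd hr (transcendental_jRes N k)
      one_lt := hp.one_lt }

end Fermat.Agent.FiniteFlat
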