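import Fermat.Agent.FiniteFlat.Rep

/-!
# Adding divisor classes through multiplication matrices

With `D₃ = D₁ + D₂ - G`, sections of `L(D₃)` are the combinations `∑ c (i,k) • u¹ᵢ u²ₖ` with `c` in
the kernel of a matrix built from the two multiplication matrices, and the products of two such give
a multiplication matrix of `D₃`.
-/

set_option autoImplicit false
set_option linter.unusedSectionVars false

noncomputable section

open Matrix

namespace Fermat.Agent.FiniteFlat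

open AlgebraicCurve Fermat.Agent.Reduction.Torsion

variable {K F : Type*} [Field K] [Field F] [Algebra K F] {n m m' m'' : ℕ}

/-- Index of the adapted basis of `L(4G)`: `L(2G)`, then `L(3G)`, then the rest. -/
abbrev AddIdx (m m' m'' : ℕ) : Type := Fin m ⊕ Fin m' ⊕ Fin m''

/-- A basis `w` of `L(4G)` adapted to `L(2G) ⊆ L(3G) ⊆ L(4G)` with structure constants. -/
structure AddBasis (G : Divisor K F) (b : Fin m → F) (w : AddIdx m m' m'' → F)
    (μ : Fin m → Fin m → AddIdx m m' m'' → K) : Prop where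
  low : ∀ s, w (Sum.inl s) = b s
  li : LinearIndependent K w
  span2 : Submodule.span K (Set.range b) = riemannRochSpace (G + G)
  span3 : Submodule.span K (Set.range fun q : Fin m ⊕ Fin m' => w (Sum.map id Sum.inl q)) =
    riemannRochSpace (G + G + G)
  span4 : Submodule.span K (Set.range w) = riemannRochSpace (G + G + G + G)
  mul_eq : ∀ s t, b s * b t = ∑ q, μ s t q • w q

/-- Coordinates of `u¹ᵢ v¹ⱼ u²ₖ v²ₗ`. -/
def prodCoord {R : Type*} [CommSemiring R] {Q : Type*} (μ : Fin m → Fin m → Q → R)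
    (M₁ M₂ : Fin n → Fin n → Fin m → R) (q : Q) (ik jl : Fin n × Fin n) : R :=
  ∑ a, ∑ c, M₁ ik.1 jl.1 a * M₂ ik.2 jl.2 c * μ a c q

/-- The matrix whose kernel gives sections of `D₁ + D₂ - G`. -/
def lam (μ : Fin m → Fin m → AddIdx m m' m'' → K) (M₁ M₂ : VMat n m K) :
    Matrix ((Fin n × Fin n) × Fin m'') (Fin n × Fin n) K :=
  Matrix.of fun r ik => prodCoord μ M₁ M₂ (Sum.inr (Sum.inr r.2)) ik r.1

/-- The multiplication matrix of `D₁ + D₂ - G` from kernel vectors. -/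
def addRep {R : Type*} [CommSemiring R] (μ : Fin m → Fin m → AddIdx m m' m'' → R)
    (M₁ M₂ : Fin n → Fin n → Fin m → R) (c e : Fin n → Fin n × Fin n → R) :
    Fin n → Fin n → Fin m → R :=
  fun α β s => ∑ ik, ∑ jl, c α ik * e β jl * prodCoord μ M₁ M₂ (Sum.inl s) ik jl

variable {G D₁ D₂ : Divisor K F} {b : Fin m → F} {w : AddIdx m m' m'' → F}
  {μ : Fin m → Fin m → AddIdx m m' m'' → K} {M₁ M₂ : VMat n m K}

theorem AddBasis.li_low (hw : AddBasis G b w μ) : LinearIndependent K b := by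
  have h : b = w ∘ Sum.inl := funext fun s => (hw.low s).symm
  exact h ▸ hw.li.comp _ Sum.inl_injective

theorem AddBasis.coord_eq_zero_of_mem3 (hw : AddBasis G b w μ) {x : AddIdx m m' m'' → K} :
    (∑ q, x q • w q ∈ riemannRochSpace (G + G + G)) ↔ ∀ t, x (Sum.inr (Sum.inr t)) = 0 := by
  constructor
  · intro hmem t
    rw [← hw.span3, Submodule.mem_span_range_iff_exists_fun] at hmem
    obtain ⟨y, hy⟩ := hmem
    have h : ∑ q, (Sum.elim (fun a => y (Sum.inl a))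
        (Sum.elim (fun a => y (Sum.inr a)) fun _ => 0) : AddIdx m m' m'' → K) q • w q =
        ∑ q, x q • w q := by
      rw [← hy]
      simp [Fintype.sum_sum_type]
    exact (congrFun (eq_of_sum_smul_eq hw.li h) (Sum.inr (Sum.inr t))).symm
  · intro h
    rw [← hw.span3, Submodule.mem_span_range_iff_exists_fun]
    exact ⟨fun q => x (Sum.map id Sum.inl q), by simp [Fintype.sum_sum_type, h, add_assoc]⟩

theorem AddBasis.prod_eq (hw : AddBasis G b w μ) {u₁ v₁ u₂ v₂ : Fin n → F}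
    (h₁ : ∀ i j, u₁ i * v₁ j = ∑ s, M₁ i j s • b s) (h₂ : ∀ i j, u₂ i * v₂ j = ∑ s, M₂ i j s • b s)
    (ik jl : Fin n × Fin n) :
    u₁ ik.1 * u₂ ik.2 * (v₁ jl.1 * v₂ jl.2) = ∑ q, prodCoord μ M₁ M₂ q ik jl • w q := by
  rw [mul_mul_mul_comm, h₁, h₂, Finset.sum_mul_sum]
  simp only [smul_mul_smul_comm, hw.mul_eq, Finset.smul_sum, smul_smul, prodCoord, Finset.sum_smul]
  calc _ = ∑ a, ∑ q, ∑ c, (M₁ ik.1 jl.1 a * M₂ ik.2 jl.2 c * μ a c q) • w q :=
        Finset.sum_congr rfl fun a _ => Finset.sum_comm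
    _ = _ := Finset.sum_comm

variable {c : ℕ} {χ : ℤ} (hRR : LargeRR K F c χ) (hdeg₁ : Divisor.degree D₁ = Divisor.degree G)
  (hdeg₂ : Divisor.degree D₂ = Divisor.degree G) (hd : 2 * (c : ℤ) + 2 ≤ Divisor.degree G)
  (hG : 0 ≤ G) (hw : AddBasis G b w μ)

include hRR hd hdeg₁ hdeg₂ hw

omit hRR hd hdeg₁ hdeg₂ hw in
theorem lam_mulVec (x : Fin n × Fin n → K) (r : (Fin n × Fin n) × Fin m'') :
    (lam μ M₁ M₂ *ᵥ x) r = ∑ ik, x ik * prodCoord μ M₁ M₂ (Sum.inr (Sum.inr r.2)) ik r.1 := by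
  simp only [Matrix.mulVec, dotProduct, lam, Matrix.of_apply]
  exact Finset.sum_congr rfl fun _ _ => mul_comm _ _

theorem lam_mulVec_eq_zero {u₁ v₁ u₂ v₂ : Fin n → F}
    (hv₁ : Submodule.span K (Set.range v₁) = riemannRochSpace (G + G - D₁))
    (hv₂ : Submodule.span K (Set.range v₂) = riemannRochSpace (G + G - D₂))
    (h₁ : ∀ i j, u₁ i * v₁ j = ∑ s, M₁ i j s • b s) (h₂ : ∀ i j, u₂ i * v₂ j = ∑ s, M₂ i j s • b s)
    (x : Fin n × Fin n → K) :
    lam μ M₁ M₂ *ᵥ x = 0 ↔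
      ∑ ik, x ik • (u₁ ik.1 * u₂ ik.2) ∈ riemannRochSpace (D₁ + D₂ - G) := by
  set y := ∑ ik, x ik • (u₁ ik.1 * u₂ ik.2) with hy
  have hexp : ∀ jl : Fin n × Fin n, y * (v₁ jl.1 * v₂ jl.2) =
      ∑ q, (∑ ik, x ik * prodCoord μ M₁ M₂ q ik jl) • w q := fun jl => by
    rw [hy, Finset.sum_mul]
    simp only [smul_mul_assoc, hw.prod_eq h₁ h₂, Finset.smul_sum, smul_smul, Finset.sum_smul]
    exact Finset.sum_comm
  have hspan : riemannRochSpace (G + G - D₁ + (G + G - D₂)) =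
      Submodule.span K (Set.range fun jl : Fin n × Fin n => v₁ jl.1 * v₂ jl.2) := by
    rw [← hRR.mul_eq _ _ (by rw [map_sub, map_add]; omega) (by rw [map_sub, map_add]; omega),
      ← hv₁, ← hv₂, Submodule.span_mul_span]
    congr 1
    ext z
    simp [Set.mem_mul]
  constructor
  · intro hx
    have hmem : ∀ jl : Fin n × Fin n, y * (v₁ jl.1 * v₂ jl.2) ∈ riemannRochSpace (G + G + G) :=
      fun jl => by
        rw [hexp, hw.coord_eq_zero_of_mem3]
        exact fun t => (lam_mulVec x (jl, t)).symm.trans (congrFun hx (jl, t))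
    have := hRR.mem_of_mul_mem (G + G - D₁ + (G + G - D₂)) (G + G + G)
      (by simp only [map_add, map_sub]; omega) y (fun v hv => by
        rw [hspan] at hv
        induction hv using Submodule.span_induction with
        | mem z hz => obtain ⟨jl, rfl⟩ := hz; exact hmem jl
        | zero => simp
        | add a b _ _ ha hb => rw [mul_add]; exact add_mem ha hb
        | smul r a _ ha => rw [mul_smul_comm]; exact Submodule.smul_mem _ r ha)
    rwa [show G + G + G - (G + G - D₁ + (G + G - D₂)) = D₁ + D₂ - G by abel] at this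
  · intro hy'
    refine funext fun r => (lam_mulVec x r).trans ?_
    have h := rr_mul hy' (rr_mul (mem_of_span_eq hv₁ r.1.1) (mem_of_span_eq hv₂ r.1.2))
    rw [show D₁ + D₂ - G + (G + G - D₁ + (G + G - D₂)) = G + G + G by abel, hexp,
      hw.coord_eq_zero_of_mem3] at h
    exact h r.2

omit hw in
theorem span_prod_eq {u₁ u₂ : Fin n → F}
    (hu₁ : Submodule.span K (Set.range u₁) = riemannRochSpace D₁)
    (hu₂ : Submodule.span K (Set.range u₂) = riemannRochSpace D₂) :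
    LinearMap.range (Fintype.linearCombination K
      (fun ik : Fin n × Fin n => u₁ ik.1 * u₂ ik.2)) = riemannRochSpace (D₁ + D₂) := by
  rw [Fintype.range_linearCombination, ← hRR.mul_eq _ _ (by omega) (by omega), ← hu₁, ← hu₂,
    Submodule.span_mul_span]
  congr 1
  ext z
  simp [Set.mem_mul]

include hG

/-- The kernel has constant dimension. -/
theorem finrank_ker_lam (h₁ : IsRep b G D₁ M₁) (h₂ : IsRep b G D₂ M₂) :
    (Module.finrank K (LinearMap.ker (lam μ M₁ M₂).mulVecLin) : ℤ) =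
      n * n - Divisor.degree G := by
  obtain ⟨u₁, v₁, hu₁, hv₁, e₁⟩ := h₁
  obtain ⟨u₂, v₂, hu₂, hv₂, e₂⟩ := h₂
  set Ψ := Fintype.linearCombination K (fun ik : Fin n × Fin n => u₁ ik.1 * u₂ ik.2) with hΨ
  have hker : LinearMap.ker (lam μ M₁ M₂).mulVecLin =
      (riemannRochSpace (D₁ + D₂ - G)).comap Ψ := by
    ext x
    rw [LinearMap.mem_ker, Submodule.mem_comap, Matrix.mulVecLin_apply,
      lam_mulVec_eq_zero hRR hdeg₁ hdeg₂ hd hw hv₁.2 hv₂.2 e₁ e₂, hΨ,
      Fintype.linearCombination_apply]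
  have hrange := span_prod_eq hRR hdeg₁ hdeg₂ hd hu₁.2 hu₂.2
  have hle : riemannRochSpace (D₁ + D₂ - G) ≤ riemannRochSpace (D₁ + D₂) := fun f hf =>
    rr_mono (sub_le_self _ hG) hf
  set P := (riemannRochSpace (D₁ + D₂ - G)).comap Ψ with hP
  have hmap : LinearMap.range (Ψ.domRestrict P) = riemannRochSpace (D₁ + D₂ - G) := by
    rw [LinearMap.range_domRestrict, hP, Submodule.map_comap_eq, hΨ, hrange, inf_eq_right.mpr hle]
  have h1 := LinearMap.finrank_range_add_finrank_ker (Ψ.domRestrict P)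
  have h2 := LinearMap.finrank_range_add_finrank_ker Ψ
  rw [hmap] at h1
  rw [hrange, Module.finrank_pi, Fintype.card_prod, Fintype.card_fin] at h2
  have h3 : Module.finrank K (LinearMap.ker (Ψ.domRestrict P)) =
      Module.finrank K (LinearMap.ker Ψ) := by
    have hsub : LinearMap.ker Ψ ≤ P := fun x hx => by
      rw [hP, Submodule.mem_comap, LinearMap.mem_ker.mp hx]; exact zero_mem _
    rw [LinearMap.ker_domRestrict]
    exact (Submodule.comapSubtypeEquivOfLe hsub).finrank_eq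
  have r1 := hRR.ell_eq (D₁ + D₂ - G) (by rw [map_sub, map_add]; omega)
  have r2 := hRR.ell_eq (D₁ + D₂) (by rw [map_add]; omega)
  rw [map_sub, map_add] at r1
  rw [map_add] at r2
  rw [hker]
  omega

/-- Kernel vectors give a multiplication matrix of `D₁ + D₂ - G`, up to `g M h`. -/
theorem addRep_eq_twist (h₁ : IsRep b G D₁ M₁) (h₂ : IsRep b G D₂ M₂) {M : VMat n m K}
    (hM : IsRep b G (D₁ + D₂ - G) M) {x e : Fin n → Fin n × Fin n → K}
    (hx : ∀ α, lam μ M₁ M₂ *ᵥ x α = 0) (he : ∀ β, lam μ (transV M₁) (transV M₂) *ᵥ e β = 0) :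
    ∃ g h : Matrix (Fin n) (Fin n) K, addRep μ M₁ M₂ x e = twist g h M := by
  obtain ⟨u₁, v₁, hu₁, hv₁, e₁⟩ := h₁
  obtain ⟨u₂, v₂, hu₂, hv₂, e₂⟩ := h₂
  set u' : Fin n → F := fun α => ∑ ik, x α ik • (u₁ ik.1 * u₂ ik.2) with hu'
  set v' : Fin n → F := fun β => ∑ jl, e β jl • (v₁ jl.1 * v₂ jl.2) with hv'
  have hu'm : ∀ α, u' α ∈ riemannRochSpace (D₁ + D₂ - G) := fun α =>
    (lam_mulVec_eq_zero hRR hdeg₁ hdeg₂ hd hw hv₁.2 hv₂.2 e₁ e₂ (x α)).mp (hx α)
  have hv'm : ∀ β, v' β ∈ riemannRochSpace (G + G - (D₁ + D₂ - G)) := fun β => by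
    have := (lam_mulVec_eq_zero (D₁ := G + G - D₁) (D₂ := G + G - D₂) (M₁ := transV M₁)
      (M₂ := transV M₂) (u₁ := v₁) (v₁ := u₁) (u₂ := v₂) (v₂ := u₂) hRR
      (by rw [map_sub, map_add]; omega) (by rw [map_sub, map_add]; omega) hd hw
      (by rw [hu₁.2, sub_sub_cancel]) (by rw [hu₂.2, sub_sub_cancel])
      (fun i j => by rw [mul_comm, e₁]; rfl) (fun i j => by rw [mul_comm, e₂]; rfl) (e β)).mp (he β)
    rwa [show G + G - D₁ + (G + G - D₂) - G = G + G - (D₁ + D₂ - G) by abel] at this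
  have hprod : ∀ α β, u' α * v' β =
      ∑ q, (∑ ik, ∑ jl, x α ik * e β jl * prodCoord μ M₁ M₂ q ik jl) • w q := fun α β => by
    simp only [hu', hv', Finset.sum_mul_sum, smul_mul_smul_comm, hw.prod_eq e₁ e₂, Finset.smul_sum,
      smul_smul, Finset.sum_smul]
    calc _ = ∑ ik, ∑ q, ∑ jl, (x α ik * e β jl * prodCoord μ M₁ M₂ q ik jl) • w q :=
          Finset.sum_congr rfl fun ik _ => Finset.sum_comm
      _ = _ := Finset.sum_comm
  have hlow : ∀ α β, u' α * v' β = ∑ s, addRep μ M₁ M₂ x e α β s • b s := fun α β => by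
    have hm := rr_mul (hu'm α) (hv'm β)
    rw [add_sub_cancel, ← hw.span2, Submodule.mem_span_range_iff_exists_fun] at hm
    obtain ⟨y, hy⟩ := hm
    have h : ∑ q, (Sum.elim y (fun _ => 0) : AddIdx m m' m'' → K) q • w q =
        ∑ q, (∑ ik, ∑ jl, x α ik * e β jl * prodCoord μ M₁ M₂ q ik jl) • w q := by
      rw [← hprod, ← hy]
      simp [Fintype.sum_sum_type, hw.low]
    rw [← hy]
    refine Finset.sum_congr rfl fun s _ => ?_
    rw [addRep, ← congrFun (eq_of_sum_smul_eq hw.li h) (Sum.inl s)]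
    rfl
  obtain ⟨g, h, hgh, -, -⟩ := hM.exists_twist_of_mem hw.li_low hu'm hv'm hlow
  exact ⟨g, h, hgh⟩

/-- Suitable kernel vectors give a multiplication matrix. -/
theorem exists_addRep (h₁ : IsRep b G D₁ M₁) (h₂ : IsRep b G D₂ M₂) {M : VMat n m K}
    (hM : IsRep b G (D₁ + D₂ - G) M) :
    ∃ x e : Fin n → Fin n × Fin n → K, (∀ α, lam μ M₁ M₂ *ᵥ x α = 0) ∧
      (∀ β, lam μ (transV M₁) (transV M₂) *ᵥ e β = 0) ∧ addRep μ M₁ M₂ x e = M := by
  obtain ⟨u₁, v₁, hu₁, hv₁, e₁⟩ := h₁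
  obtain ⟨u₂, v₂, hu₂, hv₂, e₂⟩ := h₂
  obtain ⟨u, v, hu, hv, e₀⟩ := hM
  have hcoef : ∀ (p q : Fin n → F) (E₁ E₂ : Divisor K F), Divisor.degree E₁ = Divisor.degree G →
      Divisor.degree E₂ = Divisor.degree G →
      Submodule.span K (Set.range p) = riemannRochSpace E₁ →
      Submodule.span K (Set.range q) = riemannRochSpace E₂ → ∀ z ∈ riemannRochSpace (E₁ + E₂),
      ∃ a : Fin n × Fin n → K, ∑ ik, a ik • (p ik.1 * q ik.2) = z := by
    intro p q E₁ E₂ h1 h2 hp hq z hz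
    rw [← span_prod_eq hRR h1 h2 hd hp hq, LinearMap.mem_range] at hz
    obtain ⟨a, ha⟩ := hz
    exact ⟨a, by rw [← ha, Fintype.linearCombination_apply]⟩
  choose x hx using fun α => hcoef u₁ u₂ D₁ D₂ hdeg₁ hdeg₂ hu₁.2 hu₂.2 (u α)
    (rr_mono (sub_le_self _ hG) (mem_of_span_eq hu.2 α))
  choose e he using fun β => hcoef v₁ v₂ (G + G - D₁) (G + G - D₂) (by rw [map_sub, map_add]; omega)
    (by rw [map_sub, map_add]; omega) hv₁.2 hv₂.2 (v β) (by
      refine rr_mono ?_ (mem_of_span_eq hv.2 β)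
      rw [show G + G - D₁ + (G + G - D₂) = G + G - (D₁ + D₂ - G) + G by abel]
      exact le_add_of_nonneg_right hG)
  have hx0 : ∀ α, lam μ M₁ M₂ *ᵥ x α = 0 := fun α =>
    (lam_mulVec_eq_zero hRR hdeg₁ hdeg₂ hd hw hv₁.2 hv₂.2 e₁ e₂ (x α)).mpr
      (by rw [hx]; exact mem_of_span_eq hu.2 α)
  have he0 : ∀ β, lam μ (transV M₁) (transV M₂) *ᵥ e β = 0 := fun β =>
    (lam_mulVec_eq_zero (D₁ := G + G - D₁) (D₂ := G + G - D₂) (M₁ := transV M₁)
      (M₂ := transV M₂) (u₁ := v₁) (v₁ := u₁) (u₂ := v₂) (v₂ := u₂) hRR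
      (by rw [map_sub, map_add]; omega) (by rw [map_sub, map_add]; omega) hd hw
      (by rw [hu₁.2, sub_sub_cancel]) (by rw [hu₂.2, sub_sub_cancel])
      (fun i j => by rw [mul_comm, e₁]; rfl) (fun i j => by rw [mul_comm, e₂]; rfl) (e β)).mpr
      (by rw [he, show G + G - D₁ + (G + G - D₂) - G = G + G - (D₁ + D₂ - G) by abel]
          exact mem_of_span_eq hv.2 β)
  refine ⟨x, e, hx0, he0, ?_⟩
  funext α β
  have h : ∑ q, (∑ ik, ∑ jl, x α ik * e β jl * prodCoord μ M₁ M₂ q ik jl) • w q =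
      ∑ q, (Sum.elim (M α β) (fun _ => 0) : AddIdx m m' m'' → K) q • w q := by
    have h1 : ∑ q, (Sum.elim (M α β) (fun _ => 0) : AddIdx m m' m'' → K) q • w q = u α * v β := by
      simp [e₀, Fintype.sum_sum_type, hw.low]
    rw [h1, ← hx, ← he]
    simp only [Finset.sum_mul_sum, smul_mul_smul_comm, hw.prod_eq e₁ e₂, Finset.smul_sum,
      smul_smul, Finset.sum_smul]
    rw [Finset.sum_comm]
    exact Finset.sum_congr rfl fun ik _ => Finset.sum_comm
  funext s
  exact congrFun (eq_of_sum_smul_eq hw.li h) (Sum.inl s)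

end Fermat.Agent.FiniteFlat
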