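import Fermat.Agent.FiniteFlat.Pair
import Mathlib.RingTheory.HopfAlgebra.Basic
import Mathlib.RingTheory.Bialgebra.Convolution
import Mathlib.LinearAlgebra.Basis.VectorSpace

/-!
# Finite flat models from rings of functions

A finite `Γℚ`-module `T` has a finite flat commutative Hopf model over `ℤ_(ℓ)` as soon as there is
a finite separating `ℤ_(ℓ)`-algebra of equivariant functions `T → ℚ̄` stable under negation and
whose pullback by addition lies in the algebra generated by the two projections.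
-/

set_option autoImplicit false
set_option linter.unusedSectionVars false
set_option linter.style.haveILetI false

noncomputable section

open scoped TensorProduct

namespace Fermat.Agent.FiniteFlat

local notation "ℚ̄" => AlgebraicClosure ℚ
local notation "Γℚ" => (AlgebraicClosure ℚ ≃ₐ[ℚ] AlgebraicClosure ℚ)

section Defs

variable (ℓ : ℕ)

set_option quotPrecheck false in
local notation "Zℓ" => ↥(GaloisRep.ratLocalizedAt ℓ)

/-- `T` with the action `act` has a finite flat cocommutative Hopf model over `ℤ_(ℓ)`. -/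
def HasFlatModel (T : Type) [AddCommGroup T] (act : Γℚ → T → T) : Prop :=
  ∃ (H : Type) (_ : CommRing H) (_ : HopfAlgebra Zℓ H),
    Module.Finite Zℓ H ∧ Module.Flat Zℓ H ∧ Coalgebra.IsCocomm Zℓ H ∧
    ∃ e : WithConv (H →ₐ[Zℓ] ℚ̄) ≃ T,
      (∀ f g, e (f * g) = e f + e g) ∧
      ∀ (σ : Γℚ) (f g : WithConv (H →ₐ[Zℓ] ℚ̄)),
        (∀ h : H, g h = σ (f h)) → e g = act σ (e f)

/-- The algebra generated on `S₁ × S₂` by two algebras of functions. -/
def prodAlg {S₁ S₂ : Type} (H₁ : Subalgebra Zℓ (S₁ → ℚ̄)) (H₂ : Subalgebra Zℓ (S₂ → ℚ̄)) :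
    Subalgebra Zℓ (S₁ × S₂ → ℚ̄) :=
  H₁.map (pullback Zℓ Prod.fst) ⊔ H₂.map (pullback Zℓ Prod.snd)

variable {T : Type} [AddCommGroup T] [DistribMulAction Γℚ T]

/-- A ring of functions defining a finite flat model of `T`. -/
structure IsModelRing (H : Subalgebra Zℓ (T → ℚ̄)) : Prop where
  finite : Module.Finite Zℓ H
  equivariant : ∀ h ∈ H, IsEquivariant h
  separating : ∀ t t' : T, (∀ h ∈ H, h t = h t') → t = t'
  neg_mem : ∀ h ∈ H, (fun t => h (-t)) ∈ H
  add_mem : ∀ h ∈ H, (fun p : T × T => h (p.1 + p.2)) ∈ prodAlg ℓ H H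

end Defs

variable {ℓ : ℕ} [Fact ℓ.Prime] {T : Type} [AddCommGroup T] [DistribMulAction Γℚ T]

set_option quotPrecheck false in
local notation "Zℓ" => ↥(GaloisRep.ratLocalizedAt ℓ)

theorem prodAlg_eq_range {S₁ S₂ : Type} (H₁ : Subalgebra Zℓ (S₁ → ℚ̄))
    (H₂ : Subalgebra Zℓ (S₂ → ℚ̄)) : prodAlg ℓ H₁ H₂ = (pairHom H₁.val H₂.val).range := by
  have h := le_antisymm (le_pairHom_range H₁.val H₂.val) (pairHom_range_le H₁.val H₂.val)
  rwa [Subalgebra.range_val, Subalgebra.range_val] at h

theorem free_of_finite {T : Type} (H : Subalgebra Zℓ (T → ℚ̄)) [Module.Finite Zℓ H] : Module.Free Zℓ H := by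
  haveI : Module.IsTorsionFree Zℓ H := by
    constructor
    intro r hr x y hxy
    refine Subtype.ext (funext fun t => ?_)
    have h := congrFun (congrArg Subtype.val hxy) t
    simp only [SetLike.val_smul, Pi.smul_apply, Algebra.smul_def] at h
    exact mul_left_cancel₀ ((map_ne_zero_iff _ (FaithfulSMul.algebraMap_injective Zℓ ℚ̄)).mpr
      hr.ne_zero) h
  exact Module.free_of_finite_type_torsion_free'

theorem kInj_val {T : Type} [MulAction Γℚ T] (H : Subalgebra Zℓ (T → ℚ̄)) [Module.Free Zℓ H]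
    (hH : ∀ h ∈ H, IsEquivariant h) : KInj H.val := by
  refine ⟨_, Module.Free.chooseBasis Zℓ H, ?_⟩
  exact linearIndependent_qbar_of_ratLocalizedAt (fun i => hH _ (Subtype.coe_prop _))
    ((Module.Free.chooseBasis Zℓ H).linearIndependent.map' H.val.toLinearMap
      (LinearMap.ker_eq_bot.mpr Subtype.val_injective))

namespace IsModelRing

variable {H : Subalgebra (GaloisRep.ratLocalizedAt ℓ) (T → ℚ̄)} (hH : IsModelRing ℓ H)

include hH

theorem kInj : KInj H.val :=
  haveI := hH.finite
  haveI := free_of_finite H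
  kInj_val H hH.equivariant

theorem pair_injective : Function.Injective (pairHom H.val H.val) :=
  (hH.kInj.pairHom hH.kInj).injective

theorem add_mem_range (h : H) :
    pullback Zℓ (fun p : T × T => p.1 + p.2) (h : T → ℚ̄) ∈ (pairHom H.val H.val).range := by
  rw [← prodAlg_eq_range]
  exact hH.add_mem _ h.2

/-- Comultiplication. -/
def comul : H →ₐ[Zℓ] H ⊗[Zℓ] H :=
  (AlgEquiv.ofInjective _ hH.pair_injective).symm.toAlgHom.comp
    (((pullback Zℓ fun p : T × T => p.1 + p.2).comp H.val).codRestrict _ hH.add_mem_range)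

@[simp]
theorem pairHom_comul (h : H) (p : T × T) :
    pairHom H.val H.val (hH.comul h) p = (h : T → ℚ̄) (p.1 + p.2) := by
  have h1 := AlgEquiv.apply_symm_apply (AlgEquiv.ofInjective _ hH.pair_injective)
    (((pullback Zℓ fun p : T × T => p.1 + p.2).comp H.val).codRestrict _ hH.add_mem_range h)
  exact congrFun (congrArg Subtype.val h1) p

theorem exists_eval_zero (h : H) : ∃ r : Zℓ, algebraMap Zℓ ℚ̄ r = (h : T → ℚ̄) 0 := by
  obtain ⟨q, hq⟩ := mem_range_of_fixed (x := (h : T → ℚ̄) 0) fun σ => by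
    rw [← hH.equivariant _ h.2 σ 0, smul_zero]
  haveI := hH.finite
  have hint : IsIntegral Zℓ ((h : T → ℚ̄) 0) :=
    (Algebra.IsIntegral.isIntegral h).map ((Pi.evalAlgHom Zℓ (fun _ : T => ℚ̄) 0).comp H.val)
  rw [← hq, isIntegral_algebraMap_iff (algebraMap ℚ ℚ̄).injective] at hint
  obtain ⟨r, hr⟩ := IsIntegrallyClosed.algebraMap_eq_of_integral hint
  exact ⟨r, by rw [← hq, ← hr, ← IsScalarTower.algebraMap_apply]⟩

/-- Counit. -/
def counit : H →ₐ[Zℓ] Zℓ :=
  (AlgEquiv.ofInjective (Algebra.ofId Zℓ ℚ̄) (FaithfulSMul.algebraMap_injective Zℓ ℚ̄)).symm.toAlgHom.comp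
    (((Pi.evalAlgHom Zℓ (fun _ : T => ℚ̄) 0).comp H.val).codRestrict _ fun h => hH.exists_eval_zero h)

@[simp]
theorem algebraMap_counit (h : H) : algebraMap Zℓ ℚ̄ (hH.counit h) = (h : T → ℚ̄) 0 :=
  congrArg Subtype.val
    (AlgEquiv.apply_symm_apply
      (AlgEquiv.ofInjective (Algebra.ofId Zℓ ℚ̄) (FaithfulSMul.algebraMap_injective Zℓ ℚ̄))
      (((Pi.evalAlgHom Zℓ (fun _ : T => ℚ̄) 0).comp H.val).codRestrict _
        (fun h => hH.exists_eval_zero h) h))

/-- Antipode. -/
def antipode : H →ₐ[Zℓ] H :=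
  ((pullback Zℓ (Neg.neg : T → T)).comp H.val).codRestrict _ fun h => hH.neg_mem _ h.2

@[simp]
theorem coe_antipode (h : H) (t : T) : (hH.antipode h : T → ℚ̄) t = (h : T → ℚ̄) (-t) := rfl

theorem pair3_assoc (w : H ⊗[Zℓ] H) (b : H) (x y z : T) :
    pairHom H.val (pairHom H.val H.val)
      (Algebra.TensorProduct.assoc Zℓ Zℓ Zℓ H H H (w ⊗ₜ b)) (x, y, z) =
      pairHom H.val H.val w (x, y) * H.val b z := by
  induction w using TensorProduct.induction_on with
  | zero => simp
  | tmul c d => simp [mul_assoc]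
  | add c d hc hd =>
    rw [TensorProduct.add_tmul, map_add, map_add, Pi.add_apply, hc, hd, map_add, Pi.add_apply,
      add_mul]

theorem coassoc_left (u : H ⊗[Zℓ] H) (x y z : T) :
    pairHom H.val (pairHom H.val H.val) (Algebra.TensorProduct.assoc Zℓ Zℓ Zℓ H H H
      (Algebra.TensorProduct.map hH.comul (AlgHom.id Zℓ H) u)) (x, y, z) =
      pairHom H.val H.val u (x + y, z) := by
  induction u using TensorProduct.induction_on with
  | zero => simp
  | tmul a b =>
    rw [Algebra.TensorProduct.map_tmul, pairHom_tmul, AlgHom.id_apply, hH.pair3_assoc,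
      hH.pairHom_comul]
    rfl
  | add a b ha hb => rw [map_add, map_add, map_add, Pi.add_apply, ha, hb, map_add, Pi.add_apply]

theorem coassoc_right (u : H ⊗[Zℓ] H) (x y z : T) :
    pairHom H.val (pairHom H.val H.val)
      (Algebra.TensorProduct.map (AlgHom.id Zℓ H) hH.comul u) (x, y, z) =
      pairHom H.val H.val u (x, y + z) := by
  induction u using TensorProduct.induction_on with
  | zero => simp
  | tmul a b =>
    rw [Algebra.TensorProduct.map_tmul, pairHom_tmul, AlgHom.id_apply, pairHom_tmul,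
      hH.pairHom_comul]
    rfl
  | add a b ha hb => rw [map_add, map_add, Pi.add_apply, ha, hb, map_add, Pi.add_apply]

theorem coassoc : (Algebra.TensorProduct.assoc Zℓ Zℓ Zℓ H H H).toAlgHom.comp
      ((Algebra.TensorProduct.map hH.comul (.id Zℓ H)).comp hH.comul)
      = (Algebra.TensorProduct.map (.id Zℓ H) hH.comul).comp hH.comul := by
  refine AlgHom.ext fun h => (hH.kInj.pairHom (hH.kInj.pairHom hH.kInj)).injective ?_
  funext ⟨x, y, z⟩
  refine (hH.coassoc_left (hH.comul h) x y z).trans (Eq.trans ?_ (hH.coassoc_right _ x y z).symm)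
  refine (hH.pairHom_comul h (x + y, z)).trans
    (Eq.trans ?_ (hH.pairHom_comul h (x, y + z)).symm)
  show (h : T → ℚ̄) (x + y + z) = (h : T → ℚ̄) (x + (y + z))
  rw [add_assoc]

theorem lid_counit (u : H ⊗[Zℓ] H) (t : T) :
    (Algebra.TensorProduct.lid Zℓ H
      (Algebra.TensorProduct.map hH.counit (AlgHom.id Zℓ H) u) : T → ℚ̄) t =
      pairHom H.val H.val u (0, t) := by
  induction u using TensorProduct.induction_on with
  | zero => simp
  | tmul a b =>
    rw [Algebra.TensorProduct.map_tmul, Algebra.TensorProduct.lid_tmul, pairHom_tmul]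
    exact (Algebra.smul_def _ _).trans (congrArg (· * (b : T → ℚ̄) t) (hH.algebraMap_counit a))
  | add a b ha hb =>
    rw [map_add, map_add, AddMemClass.coe_add, Pi.add_apply, ha, hb, map_add, Pi.add_apply]

theorem rid_counit (u : H ⊗[Zℓ] H) (t : T) :
    (Algebra.TensorProduct.rid Zℓ Zℓ H
      (Algebra.TensorProduct.map (AlgHom.id Zℓ H) hH.counit u) : T → ℚ̄) t =
      pairHom H.val H.val u (t, 0) := by
  induction u using TensorProduct.induction_on with
  | zero => simp
  | tmul a b =>
    rw [Algebra.TensorProduct.map_tmul, Algebra.TensorProduct.rid_tmul, pairHom_tmul]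
    exact (Algebra.smul_def _ _).trans
      ((congrArg (· * (a : T → ℚ̄) t) (hH.algebraMap_counit b)).trans (mul_comm _ _))
  | add a b ha hb =>
    rw [map_add, map_add, AddMemClass.coe_add, Pi.add_apply, ha, hb, map_add, Pi.add_apply]

theorem rTensor_counit : (Algebra.TensorProduct.map hH.counit (.id Zℓ H)).comp hH.comul
      = (Algebra.TensorProduct.lid Zℓ H).symm := by
  refine AlgHom.ext fun h => (Algebra.TensorProduct.lid Zℓ H).injective ?_
  refine Subtype.ext (funext fun t => ?_)
  rw [AlgHom.comp_apply, hH.lid_counit, hH.pairHom_comul, zero_add]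
  exact (congrFun (congrArg Subtype.val
    ((Algebra.TensorProduct.lid Zℓ H).apply_symm_apply h)) t).symm

theorem lTensor_counit : (Algebra.TensorProduct.map (.id Zℓ H) hH.counit).comp hH.comul
      = (Algebra.TensorProduct.rid Zℓ Zℓ H).symm := by
  refine AlgHom.ext fun h => (Algebra.TensorProduct.rid Zℓ Zℓ H).injective ?_
  refine Subtype.ext (funext fun t => ?_)
  rw [AlgHom.comp_apply, hH.rid_counit, hH.pairHom_comul, add_zero]
  exact (congrFun (congrArg Subtype.val
    ((Algebra.TensorProduct.rid Zℓ Zℓ H).apply_symm_apply h)) t).symm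

theorem lift_apply (f g : H →ₐ[Zℓ] H) (a b : T → T)
    (hf : ∀ (x : H) t, (f x : T → ℚ̄) t = (x : T → ℚ̄) (a t))
    (hg : ∀ (x : H) t, (g x : T → ℚ̄) t = (x : T → ℚ̄) (b t)) (u : H ⊗[Zℓ] H) (t : T) :
    (Algebra.TensorProduct.lift f g (fun _ _ => Commute.all _ _) u : T → ℚ̄) t =
      pairHom H.val H.val u (a t, b t) := by
  induction u using TensorProduct.induction_on with
  | zero => simp
  | tmul x y =>
    rw [Algebra.TensorProduct.lift_tmul, pairHom_tmul, MulMemClass.coe_mul, Pi.mul_apply, hf, hg]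
    rfl
  | add x y hx hy =>
    rw [map_add, AddMemClass.coe_add, Pi.add_apply, hx, hy, map_add, Pi.add_apply]

theorem antipode_left :
    (Algebra.TensorProduct.lift hH.antipode (.id Zℓ H) fun _ _ => Commute.all _ _).comp hH.comul
      = (Algebra.ofId Zℓ H).comp hH.counit := by
  refine AlgHom.ext fun h => Subtype.ext (funext fun t => ?_)
  rw [AlgHom.comp_apply, hH.lift_apply _ _ (fun t => -t) id (fun x t => hH.coe_antipode x t)
    (fun _ _ => rfl), hH.pairHom_comul]
  show (h : T → ℚ̄) (-t + t) = algebraMap Zℓ ℚ̄ (hH.counit h)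
  rw [neg_add_cancel, hH.algebraMap_counit]

theorem antipode_right :
    (Algebra.TensorProduct.lift (.id Zℓ H) hH.antipode fun _ _ => Commute.all _ _).comp hH.comul
      = (Algebra.ofId Zℓ H).comp hH.counit := by
  refine AlgHom.ext fun h => Subtype.ext (funext fun t => ?_)
  rw [AlgHom.comp_apply, hH.lift_apply _ _ id (fun t => -t) (fun _ _ => rfl)
    (fun x t => hH.coe_antipode x t), hH.pairHom_comul]
  show (h : T → ℚ̄) (t + -t) = algebraMap Zℓ ℚ̄ (hH.counit h)
  rw [add_neg_cancel, hH.algebraMap_counit]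

/-- The bialgebra. -/
abbrev bialgebra : Bialgebra Zℓ H :=
  Bialgebra.ofAlgHom hH.comul hH.counit hH.coassoc hH.rTensor_counit hH.lTensor_counit

/-- The Hopf algebra. -/
abbrev hopfAlgebra : HopfAlgebra Zℓ H :=
  letI := hH.bialgebra
  HopfAlgebra.ofAlgHom hH.antipode hH.antipode_left hH.antipode_right

variable [Finite T]

theorem span_eq_top : Submodule.span ℚ̄ (H : Set (T → ℚ̄)) = ⊤ := by
  classical
  cases nonempty_fintype T
  set W := Submodule.span ℚ̄ (H : Set (T → ℚ̄)) with hW
  have hone : (1 : T → ℚ̄) ∈ W := Submodule.subset_span H.one_mem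
  have hmul : ∀ f ∈ W, ∀ g ∈ W, f * g ∈ W := by
    intro f hf g hg
    have : f * g ∈ W * W := Submodule.mul_mem_mul hf hg
    refine (?_ : W * W ≤ W) this
    rw [hW, Submodule.span_mul_span]
    refine Submodule.span_mono ?_
    rintro _ ⟨a, ha, b, hb, rfl⟩
    exact H.mul_mem ha hb
  have hsingle : ∀ t : T, Pi.single t (1 : ℚ̄) ∈ W := by
    intro t
    have hex : ∀ t' : T, t' ≠ t → ∃ f ∈ W, f t = 1 ∧ f t' = 0 := by
      intro t' ht'
      obtain ⟨h, hh, hne⟩ : ∃ h ∈ H, h t' ≠ h t := by
        by_contra hc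
        exact ht' (hH.separating t' t fun h hh => not_not.mp fun hne => hc ⟨h, hh, hne⟩)
      refine ⟨(h t - h t')⁻¹ • (h - h t' • (1 : T → ℚ̄)), W.smul_mem _
        (W.sub_mem (Submodule.subset_span hh) (W.smul_mem _ hone)), ?_, ?_⟩
      · simp [sub_ne_zero.mpr hne.symm]
      · simp
    choose! f hfW hf1 hf0 using hex
    have hprod : ∀ s : Finset T, t ∉ s → ∏ i ∈ s, f i ∈ W := fun s hs =>
      Finset.prod_induction _ (· ∈ W) (fun a b ha hb => hmul a ha b hb) hone
        fun i hi => hfW i fun h => hs (h ▸ hi)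
    convert hprod (Finset.univ.erase t) (by simp) using 1
    funext x
    rw [Finset.prod_apply]
    by_cases hx : x = t
    · subst hx
      rw [Pi.single_eq_same]
      exact (Finset.prod_eq_one fun i hi => hf1 i (Finset.ne_of_mem_erase hi)).symm
    · rw [Pi.single_eq_of_ne hx]
      exact (Finset.prod_eq_zero (f := fun c => f c x) (Finset.mem_erase.mpr ⟨hx, Finset.mem_univ x⟩)
        (hf0 x hx)).symm
  refine eq_top_iff.mpr fun g _ => ?_
  rw [pi_eq_sum_univ g]
  refine W.sum_mem fun t _ => W.smul_mem _ ?_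
  convert hsingle t using 1
  funext x
  simp [Pi.single_apply, eq_comm]

theorem exists_eval_eq (φ : H →ₐ[Zℓ] ℚ̄) :
    ∃ t : T, ∀ h : H, (h : T → ℚ̄) t = φ h := by
  classical
  cases nonempty_fintype T
  obtain ⟨ι, b, hb⟩ := hH.kInj
  have hsp : ⊤ ≤ Submodule.span ℚ̄ (Set.range (H.val ∘ b)) := by
    rw [← hH.span_eq_top, Submodule.span_le]
    intro h hh
    have h1 : (⟨h, hh⟩ : H) ∈ Submodule.span Zℓ (Set.range b) := by rw [b.span_eq]; trivial
    have h2 := Submodule.mem_map_of_mem (f := H.val.toLinearMap) h1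
    rw [Submodule.map_span, ← Set.range_comp] at h2
    exact Submodule.span_le_restrictScalars Zℓ ℚ̄ _ h2
  set B := Module.Basis.mk hb hsp with hB
  set ψ : (T → ℚ̄) →ₗ[ℚ̄] ℚ̄ := B.constr ℚ̄ (fun i => φ (b i)) with hψ
  have hψH : ∀ h : H, ψ (h : T → ℚ̄) = φ h := by
    have : (ψ.restrictScalars Zℓ).comp H.val.toLinearMap = φ.toLinearMap := b.ext fun i => by
      have hBi : B i = H.val (b i) := Module.Basis.mk_apply hb hsp i
      show ψ (H.val (b i)) = φ (b i)
      rw [← hBi, hψ, Module.Basis.constr_basis]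
    exact fun h => LinearMap.congr_fun this h
  have hψone : ψ 1 = 1 := by simpa using hψH 1
  have hψmul : ∀ f g, ψ (f * g) = ψ f * ψ g := by
    intro f g
    have hf : f ∈ Submodule.span ℚ̄ (H : Set (T → ℚ̄)) := by rw [hH.span_eq_top]; trivial
    have hg : g ∈ Submodule.span ℚ̄ (H : Set (T → ℚ̄)) := by rw [hH.span_eq_top]; trivial
    induction hf using Submodule.span_induction with
    | mem a ha =>
      induction hg using Submodule.span_induction with
      | mem c hc =>
        have h1 := hψH (⟨a, ha⟩ * ⟨c, hc⟩)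
        rw [map_mul, ← hψH ⟨a, ha⟩, ← hψH ⟨c, hc⟩] at h1
        exact h1
      | zero => simp
      | add x y _ _ hx hy => simp [mul_add, hx, hy]
      | smul r x _ hx => simp [hx, mul_left_comm]
    | zero => simp
    | add x y _ _ hx hy => simp [add_mul, hx, hy]
    | smul r x _ hx => simp [hx, mul_assoc]
  have hrecon : ∀ g : T → ℚ̄, ψ g = ∑ t, g t * ψ (Pi.single t 1) := fun g => by
    conv_lhs => rw [← Finset.univ_sum_single g]
    rw [map_sum]
    refine Finset.sum_congr rfl fun t _ => ?_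
    rw [← smul_eq_mul, ← map_smul, ← Pi.single_smul, smul_eq_mul, mul_one]
  obtain ⟨t, ht⟩ : ∃ t, ψ (Pi.single t 1) ≠ 0 := by
    by_contra hc
    push Not at hc
    exact one_ne_zero (hψone.symm.trans ((hrecon 1).trans (Finset.sum_eq_zero fun t _ => by simp [hc t])))
  refine ⟨t, fun h => ?_⟩
  have h1 := hψmul (h : T → ℚ̄) (Pi.single t 1)
  rw [show (h : T → ℚ̄) * Pi.single t 1 = (h : T → ℚ̄) t • Pi.single t (1 : ℚ̄) by
    funext x
    by_cases hx : x = t
    · subst hx; simp
    · simp [Pi.single_eq_of_ne hx], map_smul, smul_eq_mul, hψH] at h1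
  exact mul_right_cancel₀ ht h1

/-- The criterion. -/
theorem hasFlatModel (act : Γℚ → T → T) (hact : ∀ σ t, act σ t = σ • t) :
    HasFlatModel ℓ T act := by
  letI := hH.hopfAlgebra
  haveI := hH.finite
  haveI := free_of_finite H
  let ev : T → WithConv (H →ₐ[Zℓ] ℚ̄) := fun t =>
    WithConv.toConv ((Pi.evalAlgHom Zℓ (fun _ : T => ℚ̄) t).comp H.val)
  have hev : ∀ t (h : H), ev t h = (h : T → ℚ̄) t := fun _ _ => rfl
  have hbij : Function.Bijective ev := by
    refine ⟨fun t t' he => hH.separating t t' fun h hh => ?_, fun φ => ?_⟩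
    · exact ((hev t ⟨h, hh⟩).symm.trans (by rw [he])).trans (hev t' ⟨h, hh⟩)
    · obtain ⟨t, ht⟩ := hH.exists_eval_eq φ.ofConv
      exact ⟨t, WithConv.ext (AlgHom.ext ht)⟩
  have hadd : ∀ t t', ev (t + t') = ev t * ev t' := by
    intro t t'
    refine WithConv.ext (AlgHom.ext fun h => ?_)
    show (h : T → ℚ̄) (t + t') = (ev t * ev t') h
    rw [AlgHom.convMul_apply]
    have : ∀ u : H ⊗[Zℓ] H, Algebra.TensorProduct.lift (ev t).ofConv (ev t').ofConv
        (fun _ _ => Commute.all _ _) u = pairHom H.val H.val u (t, t') := by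
      intro u
      induction u using TensorProduct.induction_on with
      | zero => simp
      | tmul a b => simp; rfl
      | add a b ha hb => simp [ha, hb]
    show _ = Algebra.TensorProduct.lift _ _ _ (hH.comul h)
    rw [this, pairHom_comul]
  refine ⟨H, inferInstance, hH.hopfAlgebra, hH.finite, inferInstance, ⟨?_⟩,
    (Equiv.ofBijective ev hbij).symm, ?_, ?_⟩
  · refine LinearMap.ext fun h => hH.pair_injective (funext fun p => ?_)
    show pairHom H.val H.val (TensorProduct.comm Zℓ H H (hH.comul h)) p =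
      pairHom H.val H.val (hH.comul h) p
    have : ∀ u : H ⊗[Zℓ] H, pairHom H.val H.val (TensorProduct.comm Zℓ H H u) p =
        pairHom H.val H.val u (p.2, p.1) := by
      intro u
      induction u using TensorProduct.induction_on with
      | zero => simp
      | tmul a b => simp [mul_comm]
      | add a b ha hb => simp [ha, hb]
    rw [this]
    simp [add_comm]
  · intro f g
    apply (Equiv.ofBijective ev hbij).injective
    rw [Equiv.apply_symm_apply]
    show f * g = ev _
    rw [hadd]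
    exact congrArg₂ (· * ·) ((Equiv.ofBijective ev hbij).apply_symm_apply f).symm
      ((Equiv.ofBijective ev hbij).apply_symm_apply g).symm
  · intro σ f g hfg
    apply (Equiv.ofBijective ev hbij).injective
    rw [Equiv.apply_symm_apply]
    refine WithConv.ext (AlgHom.ext fun h => ?_)
    show g h = (h : T → ℚ̄) (act σ _)
    rw [hact, hH.equivariant _ h.2, hfg h]
    conv_lhs => rw [← (Equiv.ofBijective ev hbij).apply_symm_apply f]
    rfl

end IsModelRing

end Fermat.Agent.FiniteFlat
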