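import Fermat.Agent.FiniteFlat.LocalRep
import Fermat.Agent.FiniteFlat.Model
import Fermat.Agent.FiniteFlat.Add

/-!
# The model ring of a finite subgroup of the Jacobian

The `ℤ_(ℓ)`-algebra generated by the affine coordinates of the invariants of the multiplication
matrices is finite, Galois equivariant, separates the points and is closed under negation and
addition; hence the finite group has a finite flat Hopf model.
-/

set_option autoImplicit false
set_option linter.unusedSectionVars false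
set_option linter.style.haveILetI false

noncomputable section

open Matrix

namespace Fermat.Agent.FiniteFlat

open AlgebraicCurve Fermat.Agent.Reduction.Torsion
open scoped TensorProduct

local notation "ℚ̄" => AlgebraicClosure ℚ
local notation "Γℚ" => (AlgebraicClosure ℚ ≃ₐ[ℚ] AlgebraicClosure ℚ)

section General

variable {ℓ : ℕ} [Fact ℓ.Prime] {A : ValuationSubring ℚ̄}

local notation "Zℓ" => GaloisRep.ratLocalizedAt ℓ

/-- A number all of whose conjugates are integral at `A` is integral over `ℤ_(ℓ)`. -/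
theorem isIntegral_of_conj_mem
    (hA : ∀ q : ℚ, algebraMap ℚ ℚ̄ q ∈ A → q ∈ GaloisRep.ratLocalizedAt ℓ) {x : ℚ̄}
    (hx : ∀ σ : Γℚ, σ x ∈ A) : IsIntegral Zℓ x := by
  haveI : IsAlgClosure ℚ ℚ̄ := isAlgClosure_qbar
  haveI : Normal ℚ ℚ̄ := IsAlgClosure.normal ℚ ℚ̄
  have halg : IsAlgebraic ℚ x := (Algebra.IsAlgebraic.isAlgebraic x)
  set p := minpoly ℚ x with hp
  have hm : p.Monic := minpoly.monic halg.isIntegral
  have hs : (p.map (algebraMap ℚ ℚ̄)).Splits := IsAlgClosed.splits _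
  have hlift : p.map (algebraMap ℚ ℚ̄) ∈ Polynomial.lifts A.subtype := by
    rw [hs.eq_prod_roots_of_monic (hm.map _)]
    refine multiset_prod_mem _ fun q hq => ?_
    obtain ⟨a, ha, rfl⟩ := Multiset.mem_map.mp hq
    rw [Polynomial.mem_roots (hm.map _).ne_zero, Polynomial.IsRoot.def,
      Polynomial.eval_map_algebraMap] at ha
    obtain ⟨σ, rfl⟩ := minpoly.exists_algEquiv_of_root' halg ha
    exact (Polynomial.mem_lifts _).mpr ⟨Polynomial.X - Polynomial.C ⟨σ x, hx σ⟩, by simp⟩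
  have hco : ∀ i, p.coeff i ∈ GaloisRep.ratLocalizedAt ℓ := fun i => by
    obtain ⟨a, ha⟩ := (Polynomial.lifts_iff_coeff_lifts _).mp hlift i
    rw [Polynomial.coeff_map] at ha
    exact hA _ (ha ▸ a.2)
  have hl : p ∈ Polynomial.lifts (algebraMap Zℓ ℚ) :=
    (Polynomial.lifts_iff_coeff_lifts _).mpr fun i => ⟨⟨p.coeff i, hco i⟩, rfl⟩
  obtain ⟨q, hq, -, hqm⟩ := Polynomial.lifts_and_degree_eq_and_monic hl hm
  refine ⟨q, hqm, ?_⟩
  rw [← Polynomial.aeval_def, ← Polynomial.aeval_map_algebraMap ℚ, hq]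
  exact minpoly.aeval ℚ x

theorem isIntegral_fun {S : Type} [Fintype S] {f : S → ℚ̄} (hf : ∀ s, IsIntegral Zℓ (f s)) :
    IsIntegral Zℓ f := by
  refine ⟨∏ s, minpoly Zℓ (f s), Polynomial.monic_prod_of_monic _ _ fun s _ => minpoly.monic (hf s),
    funext fun t => ?_⟩
  rw [← Polynomial.aeval_def]
  have h := Polynomial.aeval_algHom_apply (Pi.evalAlgHom Zℓ (fun _ : S => ℚ̄) t) f
    (∏ s, minpoly Zℓ (f s))
  simp only [Pi.evalAlgHom_apply] at h
  rw [← h, map_prod]
  exact Finset.prod_eq_zero (Finset.mem_univ t) (minpoly.aeval _ _)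

/-- The equivariant functions form a subalgebra. -/
def equivariantAlg (S : Type) [MulAction Γℚ S] : Subalgebra Zℓ (S → ℚ̄) where
  carrier := {h | IsEquivariant h}
  mul_mem' hf hg σ s := by simp [hf σ s, hg σ s]
  add_mem' hf hg σ s := by simp [hf σ s, hg σ s]
  algebraMap_mem' a σ s := by
    show algebraMap Zℓ ℚ̄ a = σ (algebraMap Zℓ ℚ̄ a)
    rw [IsScalarTower.algebraMap_apply Zℓ ℚ ℚ̄, σ.commutes]

/-- Descent from `A` to `ℤ_(ℓ)`. -/
theorem mem_range_of_adjoin
    (hA : ∀ q : ℚ, algebraMap ℚ ℚ̄ q ∈ A ↔ q ∈ GaloisRep.ratLocalizedAt ℓ) {S : Type} [Finite S]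
    [MulAction Γℚ S] {X : Type} [CommRing X] [Algebra Zℓ X] {f : X →ₐ[Zℓ] (S → ℚ̄)}
    (hf : KInj f) (hfeq : ∀ x, IsEquivariant (f x)) {g : Set (S → ℚ̄)}
    (hg : g ⊆ (f.range : Set (S → ℚ̄))) {h : S → ℚ̄} (hh : IsEquivariant h)
    (hmem : h ∈ Algebra.adjoin A g) : h ∈ f.range := by
  obtain ⟨κ, β, hβ⟩ := hf
  haveI : Finite κ := hβ.finite
  have hspan : ∀ y ∈ f.range, y ∈ Submodule.span A.toSubring (Set.range (f ∘ β)) := by
    rintro _ ⟨x, rfl⟩
    have hx : x ∈ Submodule.span Zℓ (Set.range β) := β.mem_span x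
    induction hx using Submodule.span_induction with
    | mem y hy =>
      obtain ⟨i, rfl⟩ := hy
      exact Submodule.subset_span ⟨i, rfl⟩
    | zero => simp
    | add y z _ _ hy hz => simpa using add_mem hy hz
    | smul a y _ hy =>
      have e : f (a • y) = (⟨algebraMap ℚ ℚ̄ (a : ℚ), (hA _).mpr a.2⟩ : A.toSubring) • f y := by
        rw [map_smul]
        funext s
        simp only [Pi.smul_apply]
        rw [Algebra.smul_def]
        rfl
      show f.toRingHom (a • y) ∈ _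
      change f (a • y) ∈ _
      rw [e]
      exact Submodule.smul_mem _ _ hy
  have hle : h ∈ Submodule.span A.toSubring (Set.range (f ∘ β)) := by
    have h1 : h ∈ Subalgebra.toSubmodule (Algebra.adjoin A g) := hmem
    rw [Algebra.adjoin_eq_span] at h1
    have h2 : (Submonoid.closure g : Set (S → ℚ̄)) ⊆ (f.range : Set (S → ℚ̄)) :=
      Submonoid.closure_le (S := f.range.toSubmonoid).mpr hg
    exact Submodule.span_le.mpr (fun y hy => hspan y (h2 hy)) h1
  have := mem_span_of_isEquivariant (fun q hq => (hA q).mp hq) (fun i => hfeq (β i)) hβ hh hle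
  refine (Submodule.span_le (p := Subalgebra.toSubmodule f.range)).mpr ?_ this
  rintro _ ⟨i, rfl⟩
  exact ⟨β i, rfl⟩

end General

section Segre

variable {k : Type} [Field k] {F : Type} [Field F] [Algebra ℚ̄ F] {Fb : Type} [Field Fb]
  [Algebra k Fb] {A : ValuationSubring ℚ̄} {π : A →+* k} {r : Place ℚ̄ F → Place k Fb}
  {ℓ n m : ℕ} [Fact ℓ.Prime] {G : Divisor ℚ̄ F} {b : Fin m → F} {bb : Fin m → Fb} {c : ℕ} {χ : ℤ}
  {act : Γℚ →* SemilinearAut ℚ̄ F} {G₀ : GaussReduction π r}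
  {T : Type} [AddCommGroup T] [DistribMulAction Γℚ T] [Fintype T]
  {fam : Family G₀ n G b bb T} (h : CurveInput G₀ ℓ n m G b bb c χ act)
  (hι : ∀ (σ : Γℚ) (t : T), fam.ι (σ • t) = act σ • fam.ι t)

local notation "Zℓ" => GaloisRep.ratLocalizedAt ℓ

namespace Family

variable (fam) in
/-- The set of coordinate functions. -/
def gens : Set (T → ℚ̄) := Set.range fun IJ : fam.idx × fam.idx => fam.gen IJ.1 IJ.2

variable (ℓ fam) in
/-- The model algebra. -/
def modelAlg : Subalgebra Zℓ (T → ℚ̄) := Algebra.adjoin Zℓ fam.gens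

theorem gen_mem_modelAlg (I J : fam.idx) : fam.gen I J ∈ fam.modelAlg ℓ :=
  Algebra.subset_adjoin ⟨(I, J), rfl⟩

include h hι in
theorem isEquivariant_gen (I J : fam.idx) : IsEquivariant (fam.gen I J) := by
  intro σ t
  obtain ⟨D₀, hD₀, hD⟩ := (fam.cls t).cls
  have hL := (fam.cls t).gen.semilinear (act σ) (h.smul_G σ) (h.smul_b σ)
  have hp : Divisor.IsPrincipal (act σ • fam.D t - fam.D (σ • t)) := by
    have := fam.isPrincipal_sub_D (σ • t) (D₀ := SemilinearAut.degZeroSMulHom (act σ) D₀)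
      (by rw [← SemilinearAut.pic0_smul_mk, hD₀, hι])
    rw [SemilinearAut.coe_degZeroSMulHom] at this
    rwa [hD, smul_add, h.smul_G σ]
  obtain ⟨a, ha, he⟩ := exists_scalar h hL hp
  have hmap : mapV (SemilinearAut.baseAut (act σ)) (fam.M t) =
      mapV (σ.toRingEquiv.toRingHom : ℚ̄ →+* ℚ̄) (fam.M t) := by
    funext i j s
    simp [mapV, h.baseAut_act]
  rw [hmap, ← map_segrePoly] at he
  show genVal fam.idx fam.Φ fam.δ I J (fam.P (σ • t)) = σ (genVal fam.idx fam.Φ fam.δ I J (fam.P t))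
  rw [← genVal_smul fam.hom fam.δ_pos ha, ← he, genVal_map]
  rfl

include h hι in
theorem isEquivariant_modelAlg : ∀ f ∈ fam.modelAlg ℓ, IsEquivariant f := by
  intro f hf
  exact Algebra.adjoin_le (S := equivariantAlg T)
    (by rintro _ ⟨⟨I, J⟩, rfl⟩; exact isEquivariant_gen h hι I J) hf

include h hι in
theorem finite_modelAlg : Module.Finite Zℓ (fam.modelAlg ℓ) := by
  refine Module.Finite.iff_fg.mpr (fg_adjoin_of_finite (Set.finite_range _) ?_)
  rintro _ ⟨⟨I, J⟩, rfl⟩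
  refine isIntegral_fun fun t => isIntegral_of_conj_mem (fun q => (h.rat_mem q).mp) fun σ => ?_
  rw [← isEquivariant_gen h hι I J σ t]
  exact fam.gen_mem I J _

/-- The bounded algebra generated by pulled back coordinates. -/
def localAlg (fam : Family G₀ n G b bb T) {S : Type} (p : S → T) : Subalgebra A (S → ℚ̄) :=
  Algebra.adjoin A ((fun f : T → ℚ̄ => f ∘ p) '' fam.gens)

theorem bounded_adjoin {S : Type} {g : Set (S → ℚ̄)} (hg : ∀ f ∈ g, ∀ s, f s ∈ A) :
    Bounded (Algebra.adjoin A g) := by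
  intro f hf s
  induction hf using Algebra.adjoin_induction with
  | mem x hx => exact hg x hx s
  | algebraMap a => exact a.2
  | add x y _ _ hx hy => exact add_mem hx hy
  | mul x y _ _ hx hy => exact mul_mem hx hy

include h in
theorem separating (t t' : T) (he : ∀ f ∈ fam.modelAlg ℓ, f t = f t') : t = t' := by
  have hB : Bounded (Algebra.adjoin A fam.gens) :=
    bounded_adjoin (by rintro _ ⟨⟨I, J⟩, rfl⟩ s; exact fam.gen_mem I J s)
  obtain ⟨L, u, -, -, hu1, hrep, -, heq⟩ := exists_local_rep h (s₀ := t) hB id fun I J =>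
    RegAt.of_mem (Algebra.subset_adjoin ⟨(I, J), rfl⟩)
  obtain ⟨hLe, hue⟩ := heq t t' fun I J => he _ (gen_mem_modelAlg I J)
  have h1 := hrep t (ne_zero_of_valuation hu1)
  have h2 := hrep t' (hue ▸ ne_zero_of_valuation hu1)
  simp only [id] at h1 h2
  rw [← hLe] at h2
  have hle : (c : ℤ) + 1 ≤ Divisor.degree G := by have := h.le_deg; omega
  have hp := h1.isPrincipal_sub h.good.gen h.n_pos (by rw [(fam.cls t).degree]; exact hle)
    (by rw [(fam.cls t').degree]; exact hle) h2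
  obtain ⟨D₀, hD₀, hD⟩ := (fam.cls t).cls
  obtain ⟨D₁, hD₁, hD'⟩ := (fam.cls t').cls
  rw [hD, hD', add_sub_add_right_eq_sub] at hp
  exact fam.injective (by rw [← hD₀, ← hD₁, mk_eq_of_isPrincipal_sub hp])

include h in
theorem isPrincipal_neg_D (t : T) : Divisor.IsPrincipal (G + G - fam.D t - fam.D (-t)) := by
  obtain ⟨D₀, hD₀, hD⟩ := (fam.cls t).cls
  have := fam.isPrincipal_sub_D (-t) (D₀ := -D₀)
    (by rw [map_neg, ← hD₀]; rfl)
  rw [hD]
  convert this using 2
  simp only [AddSubgroup.coe_neg]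
  abel

include h in
theorem regAt_gen_neg (s₀ : T) (I J : fam.idx) :
    RegAt (Algebra.adjoin A fam.gens) s₀ fun t => fam.gen I J (-t) := by
  haveI := h.good.gen.principal
  have hB : Bounded (Algebra.adjoin A fam.gens) :=
    bounded_adjoin (by rintro _ ⟨⟨I, J⟩, rfl⟩ s; exact fam.gen_mem I J s)
  obtain ⟨L, u, hL, hu, hu1, hrep, hred, -⟩ := exists_local_rep h (s₀ := s₀) hB id fun I J =>
    RegAt.of_mem (Algebra.subset_adjoin ⟨(I, J), rfl⟩)
  simp only [id] at hrep hred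
  refine regAt_gen (L := fun s => transV (L s)) hB (fun i j q => hL j i q) hu hu1 (fun t => -t)
    (fun s hs => ?_) ?_ I J
  · obtain ⟨a, -, ha⟩ := exists_scalar h (hrep s hs).transV (isPrincipal_neg_D h s)
    exact ⟨a, ha⟩
  · refine exists_scalar_red h hred.transV ?_
    have h2 := h.good.isPrincipal_map (isPrincipal_neg_D (fam := fam) h s₀)
    rwa [Finsupp.mapDomain_sub, Finsupp.mapDomain_sub, Finsupp.mapDomain_add] at h2

theorem mapDomain_add_sub (D₁ D₂ : Divisor ℚ̄ F) (E : Divisor ℚ̄ F) :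
    Finsupp.mapDomain r (D₁ + D₂ - E) =
      Finsupp.mapDomain r D₁ + Finsupp.mapDomain r D₂ - Finsupp.mapDomain r E := by
  rw [Finsupp.mapDomain_sub, Finsupp.mapDomain_add]

include h in
theorem isPrincipal_add_D (t t' : T) :
    Divisor.IsPrincipal (fam.D (t + t') - (fam.D t + fam.D t' - G)) := by
  obtain ⟨D₀, hD₀, hD⟩ := (fam.cls t).cls
  obtain ⟨D₁, hD₁, hD'⟩ := (fam.cls t').cls
  have := fam.isPrincipal_sub_D (t + t') (D₀ := D₀ + D₁) (by rw [map_add, ← hD₀, ← hD₁]; rfl)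
  refine isPrincipal_sub_comm ?_
  rw [hD, hD']
  convert this using 2
  simp only [AddSubgroup.coe_add]
  abel

theorem regAt_lam {S : Type} {B : Subalgebra A (S → ℚ̄)} {s₀ : S} {m' m'' : ℕ}
    {μ : Fin m → Fin m → AddIdx m m' m'' → ℚ̄} (hμ : ∀ s t q, μ s t q ∈ A)
    {L₁ L₂ : S → VMat n m ℚ̄} (hL₁ : ∀ i j q, RegAt B s₀ fun s => L₁ s i j q)
    (hL₂ : ∀ i j q, RegAt B s₀ fun s => L₂ s i j q) (q : AddIdx m m' m'') (ik jl : Fin n × Fin n) :
    RegAt B s₀ fun s => prodCoord μ (L₁ s) (L₂ s) q ik jl := by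
  simp only [prodCoord]
  exact RegAt.sum _ fun a _ => RegAt.sum _ fun e _ =>
    ((hL₁ _ _ a).mul (hL₂ _ _ e)).mul (RegAt.const_of_mem (hμ _ _ _))

theorem res_prodCoord {m' m'' : ℕ} {μ : Fin m → Fin m → AddIdx m m' m'' → ℚ̄}
    (hμ : ∀ s t q, μ s t q ∈ A) {M₁ M₂ : VMat n m ℚ̄} (h₁ : ∀ i j q, M₁ i j q ∈ A)
    (h₂ : ∀ i j q, M₂ i j q ∈ A) (q : AddIdx m m' m'') (ik jl : Fin n × Fin n) :
    prodCoord μ M₁ M₂ q ik jl ∈ A ∧ res π (prodCoord μ M₁ M₂ q ik jl) =
      prodCoord (fun s t q => res π (μ s t q)) (mapV (res π) M₁) (mapV (res π) M₂) q ik jl := by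
  refine ⟨sum_mem fun a _ => sum_mem fun e _ => mul_mem (mul_mem (h₁ _ _ _) (h₂ _ _ _)) (hμ _ _ _),
    ?_⟩
  simp only [prodCoord]
  rw [res_sum _ fun a _ => sum_mem fun e _ => mul_mem (mul_mem (h₁ _ _ _) (h₂ _ _ _)) (hμ _ _ _)]
  refine Finset.sum_congr rfl fun a _ => ?_
  rw [res_sum _ fun e _ => mul_mem (mul_mem (h₁ _ _ _) (h₂ _ _ _)) (hμ _ _ _)]
  refine Finset.sum_congr rfl fun e _ => ?_
  rw [res_mul (mul_mem (h₁ _ _ _) (h₂ _ _ _)) (hμ _ _ _), res_mul (h₁ _ _ _) (h₂ _ _ _)]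
  rfl

variable (fam) in
/-- Coordinates pulled back by the two projections. -/
def gens₂ : Set (T × T → ℚ̄) :=
  (fun f : T → ℚ̄ => f ∘ Prod.fst) '' fam.gens ∪ (fun f : T → ℚ̄ => f ∘ Prod.snd) '' fam.gens

theorem bounded_gens₂ : Bounded (Algebra.adjoin A fam.gens₂) :=
  bounded_adjoin (by
    rintro _ (⟨_, ⟨⟨I, J⟩, rfl⟩, rfl⟩ | ⟨_, ⟨⟨I, J⟩, rfl⟩, rfl⟩) s <;> exact fam.gen_mem I J _)

include h in
theorem regAt_gen_add (s₀ : T × T) (I J : fam.idx) :
    RegAt (Algebra.adjoin A fam.gens₂) s₀ fun p => fam.gen I J (p.1 + p.2) := by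
  classical
  haveI := h.good.gen.principal
  have hB := bounded_gens₂ (fam := fam)
  obtain ⟨L₁, u₁, hL₁, hu₁, hu₁1, hrep₁, hred₁, -⟩ := exists_local_rep h (s₀ := s₀) hB Prod.fst
    fun I J => RegAt.of_mem (Algebra.subset_adjoin (Or.inl ⟨_, ⟨(I, J), rfl⟩, rfl⟩))
  obtain ⟨L₂, u₂, hL₂, hu₂, hu₂1, hrep₂, hred₂, -⟩ := exists_local_rep h (s₀ := s₀) hB Prod.snd
    fun I J => RegAt.of_mem (Algebra.subset_adjoin (Or.inr ⟨_, ⟨(I, J), rfl⟩, rfl⟩))
  obtain ⟨m', m'', w, wb, μ, hμ, hw, hwb⟩ :=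
    h.good.exists_addBasis h.b_graph h.bb_li h.b_span h.c_le h.nonneg
  set μb : Fin m → Fin m → AddIdx m m' m'' → k := fun s t q => res π (μ s t q) with hμb
  set Gb := Finsupp.mapDomain r G with hGb
  have hdD : ∀ t, Divisor.degree (fam.D t) = Divisor.degree G := fun t => (fam.cls t).degree
  have hdDb : ∀ t, Divisor.degree (Finsupp.mapDomain r (fam.D t)) = Divisor.degree Gb := fun t => by
    rw [h.good.degree_map, h.degree_mapG, hdD]
  have hdeg' : 2 * (c : ℤ) + 2 ≤ Divisor.degree Gb := by rw [h.degree_mapG]; exact h.le_deg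
  obtain ⟨κ, hκ⟩ : ∃ κ : ℕ, (κ : ℤ) = n * n - Divisor.degree G :=
    ⟨_, finrank_ker_lam h.good.gen (hdD _) (hdD _) h.le_deg h.nonneg hw (fam.cls s₀.1).gen
      (fam.cls s₀.2).gen⟩
  have hL₁A : ∀ i j q, L₁ s₀ i j q ∈ A := fun i j q => (hL₁ i j q).value_mem hB
  have hL₂A : ∀ i j q, L₂ s₀ i j q ∈ A := fun i j q => (hL₂ i j q).value_mem hB
  have hlamred : ∀ (N₁ N₂ : VMat n m ℚ̄), (∀ i j q, N₁ i j q ∈ A) → (∀ i j q, N₂ i j q ∈ A) →
      (Matrix.of fun r ik => res π (lam μ N₁ N₂ r ik)) =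
        lam μb (mapV (res π) N₁) (mapV (res π) N₂) := fun N₁ N₂ h₁ h₂ =>
    Matrix.ext fun r ik => (res_prodCoord hμ h₁ h₂ _ _ _).2
  -- the reduced sum
  set Db₁ := Finsupp.mapDomain r (fam.D s₀.1)
  set Db₂ := Finsupp.mapDomain r (fam.D s₀.2)
  have hprinc : Divisor.IsPrincipal
      (Finsupp.mapDomain r (fam.D (s₀.1 + s₀.2)) - (Db₁ + Db₂ - Gb)) := by
    have := h.good.isPrincipal_map (isPrincipal_add_D (fam := fam) h s₀.1 s₀.2)
    rwa [Finsupp.mapDomain_sub, mapDomain_add_sub] at this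
  have hMb := (fam.cls (s₀.1 + s₀.2)).spec.of_isPrincipal
    (D' := Db₁ + Db₂ - Gb) (isPrincipal_sub_comm hprinc)
  obtain ⟨xb, eb, hxb, heb, hadd⟩ := exists_addRep h.good.spec (hdDb _) (hdDb _) hdeg'
    h.nonneg_mapG hwb hred₁ hred₂ hMb
  -- lift the kernel vectors
  have hkx : Module.finrank k (LinearMap.ker
      (Matrix.of fun r ik => res π (lam μ (L₁ s₀) (L₂ s₀) r ik)).mulVecLin) = κ := by
    rw [hlamred _ _ hL₁A hL₂A]
    have := finrank_ker_lam h.good.spec (hdDb _) (hdDb _) hdeg' h.nonneg_mapG hwb hred₁ hred₂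
    rw [h.degree_mapG] at this
    exact_mod_cast this.trans hκ.symm
  obtain ⟨cx, ux, hux, hux1, hcx, hcxr, hcxk⟩ := exists_kernel (B := Algebra.adjoin A fam.gens₂)
    (isResidueMap G₀) hB (fun r ik s => lam μ (L₁ s) (L₂ s) r ik)
    (fun r ik => regAt_lam hμ hL₁ hL₂ _ _ _) (fun s => u₁ s ≠ 0 ∧ u₂ s ≠ 0)
    (fun s hs => by
      have := finrank_ker_lam h.good.gen (hdD _) (hdD _) h.le_deg h.nonneg hw (hrep₁ s hs.1)
        (hrep₂ s hs.2)
      exact_mod_cast this.trans hκ.symm)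
    hkx xb (fun α => by rw [hlamred _ _ hL₁A hL₂A]; exact hxb α)
  have hT₁ : ∀ i j q, transV (L₁ s₀) i j q ∈ A := fun i j q => hL₁A j i q
  have hT₂ : ∀ i j q, transV (L₂ s₀) i j q ∈ A := fun i j q => hL₂A j i q
  have hdneg : ∀ t, Divisor.degree (G + G - fam.D t) = Divisor.degree G := fun t => by
    rw [map_sub, map_add, hdD]; ring
  have hdnegb : ∀ t, Divisor.degree (Gb + Gb - Finsupp.mapDomain r (fam.D t)) =
      Divisor.degree Gb := fun t => by rw [map_sub, map_add, hdDb]; ring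
  have hke : Module.finrank k (LinearMap.ker (Matrix.of fun r ik =>
      res π (lam μ (transV (L₁ s₀)) (transV (L₂ s₀)) r ik)).mulVecLin) = κ := by
    rw [hlamred _ _ hT₁ hT₂]
    have := finrank_ker_lam h.good.spec (hdnegb _) (hdnegb _) hdeg' h.nonneg_mapG hwb
      hred₁.transV hred₂.transV
    rw [h.degree_mapG] at this
    exact_mod_cast this.trans hκ.symm
  obtain ⟨ce, ue, hue, hue1, hce, hcer, hcek⟩ := exists_kernel (B := Algebra.adjoin A fam.gens₂)
    (isResidueMap G₀) hB (fun r ik s => lam μ (transV (L₁ s)) (transV (L₂ s)) r ik)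
    (fun r ik => regAt_lam hμ (fun i j q => hL₁ j i q) (fun i j q => hL₂ j i q) _ _ _)
    (fun s => u₁ s ≠ 0 ∧ u₂ s ≠ 0)
    (fun s hs => by
      have := finrank_ker_lam h.good.gen (hdneg _) (hdneg _) h.le_deg h.nonneg hw
        (hrep₁ s hs.1).transV (hrep₂ s hs.2).transV
      exact_mod_cast this.trans hκ.symm)
    hke eb (fun β => by rw [hlamred _ _ hT₁ hT₂]; exact heb β)
  -- the sum
  set L : T × T → VMat n m ℚ̄ := fun s =>
    addRep μ (L₁ s) (L₂ s) (fun α ik => cx α ik s) (fun β jl => ce β jl s) with hL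
  have hLreg : ∀ i j q, RegAt (Algebra.adjoin A fam.gens₂) s₀ fun s => L s i j q := by
    intro i j q
    simp only [hL, addRep]
    exact RegAt.sum _ fun ik _ => RegAt.sum _ fun jl _ =>
      ((hcx i ik).mul (hce j jl)).mul (regAt_lam hμ hL₁ hL₂ _ _ _)
  refine regAt_gen hB hLreg (((hu₁.mul hu₂).mul hux).mul hue) (by simp [hu₁1, hu₂1, hux1, hue1])
    (fun p => p.1 + p.2) (fun s hs => ?_) ⟨1, one_ne_zero, ?_⟩ I J
  · simp only [Pi.mul_apply, mul_ne_zero_iff] at hs
    obtain ⟨⟨⟨hs1, hs2⟩, hs3⟩, hs4⟩ := hs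
    have hM := (fam.cls (s.1 + s.2)).gen.of_isPrincipal
      (D' := fam.D s.1 + fam.D s.2 - G) (isPrincipal_sub_comm (isPrincipal_add_D h s.1 s.2))
    obtain ⟨g, g', he⟩ := addRep_eq_twist h.good.gen (hdD _) (hdD _) h.le_deg h.nonneg hw
      (hrep₁ s hs1) (hrep₂ s hs2) hM (x := fun α ik => cx α ik s) (e := fun β jl => ce β jl s)
      (fun α => funext fun r => hcxk α s ⟨hs1, hs2⟩ hs3 r)
      (fun β => funext fun r => hcek β s ⟨hs1, hs2⟩ hs4 r)
    exact ⟨_, (congrArg segrePoly he).trans (segrePoly_twist g g' _)⟩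
  · have : mapV (res π) (L s₀) = mapV (res π) (fam.M (s₀.1 + s₀.2)) := by
      rw [← hadd]
      funext α β q
      have hp : ∀ ik jl, prodCoord μ (L₁ s₀) (L₂ s₀) (Sum.inl q) ik jl ∈ A :=
        fun ik jl => (res_prodCoord (π := π) hμ hL₁A hL₂A _ _ _).1
      have hA1 : ∀ ik jl, cx α ik s₀ * ce β jl s₀ * prodCoord μ (L₁ s₀) (L₂ s₀) (Sum.inl q) ik jl
          ∈ A := fun ik jl =>
        mul_mem (mul_mem ((hcx α ik).value_mem hB) ((hce β jl).value_mem hB)) (hp ik jl)
      show res π (∑ ik, ∑ jl, _) = ∑ ik, ∑ jl, _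
      rw [res_sum _ fun ik _ => sum_mem fun jl _ => hA1 ik jl]
      refine Finset.sum_congr rfl fun ik _ => ?_
      rw [res_sum _ fun jl _ => hA1 ik jl]
      refine Finset.sum_congr rfl fun jl _ => ?_
      rw [res_mul (mul_mem ((hcx α ik).value_mem hB) ((hce β jl).value_mem hB)) (hp ik jl),
        res_mul ((hcx α ik).value_mem hB) ((hce β jl).value_mem hB), hcxr, hcer,
        (res_prodCoord hμ hL₁A hL₂A _ _ _).2]
    rw [this, MvPolynomial.C_1, one_mul]

include h in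
theorem infinite_residue : Infinite k := h.good.spec.infinite

include h hι in
theorem gen_neg_mem_modelAlg (I J : fam.idx) :
    (fun t => fam.gen I J (-t)) ∈ fam.modelAlg ℓ := by
  classical
  haveI := finite_modelAlg h hι
  haveI := free_of_finite (fam.modelAlg ℓ)
  haveI := infinite_residue h
  have heq : IsEquivariant fun t => fam.gen I J (-t) := fun σ t => by
    show fam.gen I J (-(σ • t)) = σ (fam.gen I J (-t))
    rw [← smul_neg]; exact isEquivariant_gen h hι I J σ (-t)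
  have hB : Bounded (Algebra.adjoin A fam.gens) :=
    bounded_adjoin (by rintro _ ⟨⟨I, J⟩, rfl⟩ s; exact fam.gen_mem I J s)
  have hA : (fun t => fam.gen I J (-t)) ∈ Algebra.adjoin A fam.gens :=
    mem_of_forall_regAt hB (isResidueMap G₀).ne_zero_iff (isResidueMap G₀).surjective
      fun s => regAt_gen_neg h s I J
  have hmem := mem_range_of_adjoin h.rat_mem (f := (fam.modelAlg ℓ).val)
    (kInj_val _ (isEquivariant_modelAlg h hι)) (fun x => isEquivariant_modelAlg h hι _ x.2)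
    (g := fam.gens) (by rw [Subalgebra.range_val]; exact Algebra.subset_adjoin) heq hA
  rwa [Subalgebra.range_val] at hmem

include h hι in
theorem neg_mem_modelAlg : ∀ f ∈ fam.modelAlg ℓ, (fun t => f (-t)) ∈ fam.modelAlg ℓ := by
  intro f hf
  have hle : fam.modelAlg ℓ ≤ (fam.modelAlg ℓ).comap (pullback Zℓ fun t : T => -t) :=
    Algebra.adjoin_le (by
      rintro _ ⟨⟨I, J⟩, rfl⟩
      rw [SetLike.mem_coe, Subalgebra.mem_comap]
      have e : pullback Zℓ (fun t : T => -t) (fam.gen I J) = fun t => fam.gen I J (-t) :=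
        funext fun t => pullback_apply _ _ _
      rw [e]
      exact gen_neg_mem_modelAlg h hι I J)
  have := hle hf
  rw [Subalgebra.mem_comap] at this
  have e : pullback Zℓ (fun t : T => -t) f = fun t => f (-t) :=
    funext fun t => pullback_apply _ _ _
  rwa [e] at this

include h hι in
theorem add_mem_modelAlg : ∀ f ∈ fam.modelAlg ℓ,
    (fun p : T × T => f (p.1 + p.2)) ∈ prodAlg ℓ (fam.modelAlg ℓ) (fam.modelAlg ℓ) := by
  classical
  haveI := finite_modelAlg h hι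
  haveI := free_of_finite (fam.modelAlg ℓ)
  haveI := infinite_residue h
  set H := fam.modelAlg ℓ with hH
  have hHeq := isEquivariant_modelAlg h hι
  have heq : ∀ y ∈ prodAlg ℓ H H, IsEquivariant y := fun y hy =>
    (show prodAlg ℓ H H ≤ equivariantAlg (T × T) from
      sup_le (Subalgebra.map_le.mpr fun a ha => (hHeq a ha).comp fun σ p => rfl)
        (Subalgebra.map_le.mpr fun a ha => (hHeq a ha).comp fun σ p => rfl)) hy
  intro f hf
  refine Algebra.adjoin_le
    (S := (prodAlg ℓ H H).comap (pullback Zℓ fun p : T × T => p.1 + p.2)) ?_ hf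
  rintro _ ⟨⟨I, J⟩, rfl⟩
  show (fun p : T × T => fam.gen I J (p.1 + p.2)) ∈ prodAlg ℓ H H
  have hg : fam.gens₂ ⊆ (prodAlg ℓ H H : Set (T × T → ℚ̄)) := by
    rintro _ (⟨y, hy, rfl⟩ | ⟨y, hy, rfl⟩)
    · exact Algebra.mem_sup_left ⟨y, Algebra.subset_adjoin hy, rfl⟩
    · exact Algebra.mem_sup_right ⟨y, Algebra.subset_adjoin hy, rfl⟩
  rw [prodAlg_eq_range] at hg ⊢
  refine mem_range_of_adjoin h.rat_mem ((kInj_val H hHeq).pairHom (kInj_val H hHeq))
    (fun x => heq _ (by rw [prodAlg_eq_range]; exact ⟨x, rfl⟩)) hg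
    ((isEquivariant_gen h hι I J).comp (f := fun p : T × T => p.1 + p.2)
      fun σ p => (smul_add σ p.1 p.2).symm) ?_
  exact mem_of_forall_regAt bounded_gens₂ (isResidueMap G₀).ne_zero_iff
    (isResidueMap G₀).surjective fun s => regAt_gen_add h s I J

include h hι in
theorem isModelRing_modelAlg : IsModelRing ℓ (fam.modelAlg ℓ) where
  finite := finite_modelAlg h hι
  equivariant := isEquivariant_modelAlg h hι
  separating := separating h
  neg_mem := neg_mem_modelAlg h hι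
  add_mem := add_mem_modelAlg h hι

end Family

include h in
/-- Every finite Galois-stable subgroup of the Jacobian has a finite flat model. -/
theorem CurveInput.exists_isModelRing (ι : T →+ Pic0 ℚ̄ F) (hinj : Function.Injective ι)
    (hι' : ∀ (σ : Γℚ) (t : T), ι (σ • t) = act σ • ι t) :
    ∃ H : Subalgebra Zℓ (T → ℚ̄), IsModelRing ℓ H := by
  obtain ⟨fam', rfl⟩ := h.exists_family ι hinj
  exact ⟨_, Family.isModelRing_modelAlg h hι'⟩

end Segre

end Fermat.Agent.FiniteFlat
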