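import Fermat.Agent.FiniteFlat.AuxLevel
import Fermat.Agent.FiniteFlat.SegreModel

/-!
# Assembly of S19 from the inputs at levels where reduction is elementary
-/

set_option autoImplicit false

noncomputable section

namespace Fermat.Agent.FiniteFlat

open AlgebraicCurve ModularCurve Fermat.Agent.Reduction.Torsion

local notation "ℚ̄" => AlgebraicClosure ℚ

/-- `J₀(N)(ℚ̄)[n]` is finite. -/
theorem finite_torsionBy_jZero (N : ℕ) [NeZero N] {n : ℕ} (hn : n ≠ 0) :
    Finite ↥(Submodule.torsionBy ℤ (JZero N) (n : ℤ)) := by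
  let ι : ℚ̄ →ₐ[ℚ] ℂ := IsAlgClosed.lift
  let F' := laurentBaseChange ℂ (modularFunctionFieldFull N)
  have : Curve.IsFunctionField1 ℂ F' :=
    EichlerShimura.isFunctionField1_laurentBaseChange (modularFunctionFieldFull N) ι
  have hcard := Torsion.Analytic.natCard_torsion_complex F' n hn
  have : Finite (Pic0.torsion ℂ F' n) :=
    Nat.finite_of_card_ne_zero (by rw [hcard]; exact pow_ne_zero _ hn)
  have hfin := (MordellWeil.divisible_and_finite_laurentBaseChange (n := n)
    (modularFunctionFieldFull N) ι (Torsion.Analytic.exists_nsmul_eq_complex F' n hn)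
    ((Set.toFinite (Set.range fun t : Pic0.torsion ℂ F' n => (t : Pic0 ℂ F'))).subset
      fun z hz => ⟨⟨z, Pic0.mem_torsion.2 ((natCast_zsmul z n).trans hz)⟩, rfl⟩)).2
  refine (hfin.subset fun x hx => ?_).to_subtype
  exact (natCast_zsmul x n).symm.trans ((Submodule.mem_torsionBy_iff _ _).1 hx)

/-- Torsion models at one level, from the inputs of the construction there. -/
theorem hasTorsionModels_of_curveInput {N : ℕ} [NeZero N] {ℓ : ℕ} [Fact ℓ.Prime]
    {A : ValuationSubring ℚ̄} {k : Type} [Field k] {π : A →+* k} {Fb : Type} [Field Fb]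
    [Algebra k Fb] {r : Place ℚ̄ (modularFunctionFieldBar N) → Place k Fb}
    {G₀ : GaussReduction π r} {n m : ℕ} {G : Divisor ℚ̄ (modularFunctionFieldBar N)}
    {b : Fin m → modularFunctionFieldBar N} {bb : Fin m → Fb} {c : ℕ} {χ : ℤ}
    (h : CurveInput G₀ ℓ n m G b bb c χ (arithmeticGalois (modularFunctionFieldFull N))) :
    HasTorsionModels N ℓ := by
  refine hasTorsionModels_of_hasFlatModel fun j => ?_
  let instT := torsionByAction N ((ℓ : ℤ) ^ j)
  have : Finite ↥(Submodule.torsionBy ℤ (JZero N) ((ℓ : ℤ) ^ j)) := by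
    rw [← Nat.cast_pow]
    exact finite_torsionBy_jZero N (pow_ne_zero j (Fact.out : ℓ.Prime).ne_zero)
  have := Fintype.ofFinite ↥(Submodule.torsionBy ℤ (JZero N) ((ℓ : ℤ) ^ j))
  obtain ⟨H, hH⟩ := h.exists_isModelRing
    (Submodule.torsionBy ℤ (JZero N) ((ℓ : ℤ) ^ j)).subtype.toAddMonoidHom Subtype.val_injective
    fun σ t => galois_smul_pic0_def (modularFunctionFieldFull N) σ (t : JZero N)
  exact hH.hasFlatModel _ fun _ _ => rfl

end Fermat.Agent.FiniteFlat
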