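import Fermat.Agent.FiniteFlat.S32Of
import Fermat.Agent.FiniteFlat.PicTransfer
import Fermat.Agent.FiniteFlat.Model
import Fermat.Agent.Reduction.TorsionAux
import Fermat.Agent.EichlerShimura.Commute
import Fermat.Agent.MordellWeil.DivisibleDescent
import Fermat.Agent.Torsion.Analytic.Abel

/-!
# Torsion models descend from the auxiliary level

If the covering `X₀(N t) → X₀(N)` has degree `ℓ ^ e`, then `J₀(N)[ℓ^k]` is a Galois-stable
subquotient of `J₀(N t)[ℓ^(k+e)]`, since `J₀(N)` is divisible and push-pull is the degree.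
-/

set_option autoImplicit false

noncomputable section

namespace Fermat.Agent.FiniteFlat

open AlgebraicCurve ModularCurve

local notation "ℚ̄" => AlgebraicClosure ℚ
local notation "Γℚ" => (AlgebraicClosure ℚ ≃ₐ[ℚ] AlgebraicClosure ℚ)

/-- `J₀(N)(ℚ̄)` is divisible. -/
theorem exists_nsmul_eq_jZero (N : ℕ) [NeZero N] {n : ℕ} (hn : n ≠ 0) (x : JZero N) :
    ∃ y : JZero N, n • y = x := by
  let ι : ℚ̄ →ₐ[ℚ] ℂ := IsAlgClosed.lift
  let F' := laurentBaseChange ℂ (modularFunctionFieldFull N)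
  have : Curve.IsFunctionField1 ℂ F' :=
    EichlerShimura.isFunctionField1_laurentBaseChange (modularFunctionFieldFull N) ι
  have hcard := Torsion.Analytic.natCard_torsion_complex F' n hn
  have : Finite (Pic0.torsion ℂ F' n) :=
    Nat.finite_of_card_ne_zero (by rw [hcard]; exact pow_ne_zero _ hn)
  refine (MordellWeil.divisible_and_finite_laurentBaseChange (n := n) (modularFunctionFieldFull N) ι
    (Torsion.Analytic.exists_nsmul_eq_complex F' n hn) ?_).1 x
  refine (Set.toFinite (Set.range fun t : Pic0.torsion ℂ F' n => (t : Pic0 ℂ F'))).subset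
    fun z hz => ?_
  exact ⟨⟨z, Pic0.mem_torsion.2 ((natCast_zsmul z n).trans hz)⟩, rfl⟩

variable {N : ℕ} {p : ℕ}

/-- A torsion model as a model by functions. -/
theorem hasFunctionModel_of_hasTorsionModels (h : HasTorsionModels N p) (k : ℕ) :
    letI := torsionByAction N ((p : ℤ) ^ k)
    Finite ↥(Submodule.torsionBy ℤ (JZero N) ((p : ℤ) ^ k)) ∧
      HasFunctionModel (GaloisRep.ratLocalizedAt p) ℚ ℚ̄
        ↥(Submodule.torsionBy ℤ (JZero N) ((p : ℤ) ^ k)) := by
  letI := torsionByAction N ((p : ℤ) ^ k)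
  obtain ⟨H₀, _, _, hH₀, -, -, e₀, he₀add, he₀gal⟩ := h k
  have : Finite (H₀ →ₐ[GaloisRep.ratLocalizedAt p] ℚ̄) := finite_algHom_of_module_finite _ _ _
  have : Finite (WithConv (H₀ →ₐ[GaloisRep.ratLocalizedAt p] ℚ̄)) :=
    Finite.of_injective WithConv.ofConv fun _ _ h => WithConv.ext h
  exact ⟨Finite.of_equiv _ e₀,
    hasFunctionModel_of_hopfAlgebra H₀ e₀ he₀add fun σ f g h => Subtype.ext (he₀gal σ f g h)⟩

/-- Models by functions as torsion models. -/
theorem hasTorsionModels_of_hasFunctionModel [Fact p.Prime]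
    (h : ∀ k : ℕ, letI := torsionByAction N ((p : ℤ) ^ k)
      Finite ↥(Submodule.torsionBy ℤ (JZero N) ((p : ℤ) ^ k)) ∧
        HasFunctionModel (GaloisRep.ratLocalizedAt p) ℚ ℚ̄
          ↥(Submodule.torsionBy ℤ (JZero N) ((p : ℤ) ^ k))) :
    HasTorsionModels N p := by
  intro k
  letI := torsionByAction N ((p : ℤ) ^ k)
  obtain ⟨hfin, H', hHfin, hequiv, hsep, hadd, hneg⟩ := h k
  have := hfin
  have := hHfin
  obtain ⟨H'', i1, i2, h1, h2, h3, e, he1, he2⟩ :=
    exists_hopfAlgebra_of_functions H' hequiv hsep hadd hneg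
  exact ⟨H'', i1, i2, h1, h2, h3, e, he1, fun σ f g hfg => congrArg Subtype.val (he2 σ f g hfg)⟩

/-- Models in the sense of `HasFlatModel` are torsion models. -/
theorem hasTorsionModels_of_hasFlatModel
    (h : ∀ k : ℕ, HasFlatModel p ↥(Submodule.torsionBy ℤ (JZero N) ((p : ℤ) ^ k))
      fun σ x => ⟨σ • (x : JZero N), galois_smul_mem_torsionBy σ x.2⟩) :
    HasTorsionModels N p := by
  intro k
  obtain ⟨H'', i1, i2, h1, h2, h3, e, he1, he2⟩ := h k
  exact ⟨H'', i1, i2, h1, h2, h3, e, he1, fun σ f g hfg => congrArg Subtype.val (he2 σ f g hfg)⟩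

section Transfer

variable {R k L : Type} [CommRing R] [Field k] [Field L] [Algebra R k] [Algebra k L] [Algebra R L]
  [IsScalarTower R k L] [IsDomain R] [IsPrincipalIdealRing R] [IsFractionRing R k] [IsGalois k L]
  [CharZero k]

/-- A module whose image contains that of `T` gives a model of `T`. -/
theorem HasFunctionModel.of_image {A S T : Type} [AddCommGroup A] [DistribMulAction (L ≃ₐ[k] L) A]
    [AddCommGroup S] [DistribMulAction (L ≃ₐ[k] L) S] [Finite S]
    [AddCommGroup T] [DistribMulAction (L ≃ₐ[k] L) T]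
    (hS : HasFunctionModel R k L S) (f : S →+ A) (hf : ∀ (σ : L ≃ₐ[k] L) x, f (σ • x) = σ • f x)
    (i : T →+ A) (hi : Function.Injective i) (hiσ : ∀ (σ : L ≃ₐ[k] L) x, i (σ • x) = σ • i x)
    (hsurj : ∀ x : T, ∃ y : S, f y = i x) :
    Finite T ∧ HasFunctionModel R k L T := by
  let P : AddSubgroup S := i.range.comap f
  letI : DistribMulAction (L ≃ₐ[k] L) P :=
    { smul := fun σ x => ⟨σ • (x : S), by
        obtain ⟨z, hz⟩ := x.2
        exact ⟨σ • z, by rw [hiσ, hf, hz]⟩⟩
      one_smul := fun x => Subtype.ext (one_smul _ (x : S))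
      mul_smul := fun σ τ x => Subtype.ext (mul_smul σ τ (x : S))
      smul_zero := fun σ => Subtype.ext (smul_zero σ)
      smul_add := fun σ x y => Subtype.ext (smul_add σ (x : S) (y : S)) }
  have : Finite P := Finite.of_injective (fun x : P => (x : S)) Subtype.val_injective
  have hP : HasFunctionModel R k L P :=
    hS.of_injective P.subtype Subtype.val_injective fun _ _ => rfl
  choose g hg using fun x : P => AddMonoidHom.mem_range.1 x.2
  let q : P →+ T := AddMonoidHom.mk' g fun x y => hi (by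
    rw [map_add, hg, hg, hg]
    exact map_add f (x : S) (y : S))
  have hq : Function.Surjective q := by
    intro x
    obtain ⟨y, hy⟩ := hsurj x
    exact ⟨⟨y, ⟨x, hy.symm⟩⟩, hi ((hg _).trans hy)⟩
  have hqσ : ∀ (σ : L ≃ₐ[k] L) (x : P), q (σ • x) = σ • q x := fun σ x => hi (by
    show i (g (σ • x)) = i (σ • g x)
    rw [hiσ, hg, hg]
    exact hf σ (x : S))
  exact ⟨Finite.of_surjective q hq, hP.of_surjective q hq hqσ⟩

/-- The kernel of `n` on `A` is covered by the kernel of `n * d` on `B`. -/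
theorem exists_preimage_of_divisible {A B : Type} [AddCommGroup A] [AddCommGroup B] (f : B →+ A)
    (g : A →+ B) {d : ℕ} (hfg : ∀ a, f (g a) = d • a) (hdiv : ∀ a : A, ∃ c, d • c = a) {n : ℤ}
    {a : A} (ha : n • a = 0) : ∃ b : B, (n * (d : ℤ)) • b = 0 ∧ f b = a := by
  obtain ⟨c, rfl⟩ := hdiv a
  refine ⟨g c, ?_, hfg c⟩
  rw [← map_zsmul g, mul_smul, natCast_zsmul, ha, map_zero]

end Transfer

theorem isFunctionField1_bar (N : ℕ) [NeZero N] :
    Curve.IsFunctionField1 ℚ̄ (modularFunctionFieldBar N) :=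
  EichlerShimura.isFunctionField1_level (complexEmbedding : ℚ̄ →+* ℂ) N

/-- Push and pull along `X₀(N t) → X₀(N)`. -/
theorem exists_push_pull (N t : ℕ) [NeZero N] [NeZero t] :
    ∃ (push : JZero (N * t) →+ JZero N) (pull : JZero N →+ JZero (N * t)),
      (∀ (σ : Γℚ) (x : JZero (N * t)), push (σ • x) = σ • push x) ∧
      ∀ x, push (pull x) = finrankAlong ℚ̄ (heckeAlphaBar ℚ̄ N t) • x := by
  haveI : NeZero (N * t) := ⟨Nat.mul_ne_zero (NeZero.ne N) (NeZero.ne t)⟩
  haveI := isFunctionField1_bar N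
  haveI := isFunctionField1_bar (N * t)
  exact ⟨pushPic (heckeAlphaBar ℚ̄ N t) (Curve.isIntegralAlong _),
    pullPic (heckeAlphaBar ℚ̄ N t) (Curve.isIntegralAlong _),
    fun σ x => pushPic_semilinear_smul _ _ (EichlerShimura.heckeAlphaBar_intertwines N t σ) x,
    pushPic_pullPic _ _⟩

/-- Torsion models descend along a covering of `ℓ`-power degree. -/
theorem hasTorsionModels_of_mul [Fact p.Prime] [NeZero N] (t : ℕ) [NeZero t] {e : ℕ}
    (hdeg : finrankAlong ℚ̄ (heckeAlphaBar ℚ̄ N t) = p ^ e)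
    (h : HasTorsionModels (N * t) p) : HasTorsionModels N p := by
  refine hasTorsionModels_of_hasFunctionModel fun k => ?_
  obtain ⟨push, pull, hpush, hpp⟩ := exists_push_pull N t
  let instS := torsionByAction (N * t) ((p : ℤ) ^ (k + e))
  let instT := torsionByAction N ((p : ℤ) ^ k)
  obtain ⟨hfinS, hS⟩ := hasFunctionModel_of_hasTorsionModels h (k + e)
  have := hfinS
  refine hS.of_image (push.comp (Submodule.subtype _).toAddMonoidHom) (fun σ x => hpush σ x.1)
    (Submodule.subtype _).toAddMonoidHom Subtype.val_injective (fun _ _ => rfl) fun x => ?_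
  obtain ⟨b, hb, hfb⟩ := exists_preimage_of_divisible push pull (fun a => hpp a)
    (fun a => hdeg.symm ▸ exists_nsmul_eq_jZero N (pow_ne_zero e (Fact.out : p.Prime).ne_zero) a)
    ((Submodule.mem_torsionBy_iff _ _).1 x.2)
  refine ⟨⟨b, (Submodule.mem_torsionBy_iff _ _).2 ?_⟩, hfb⟩
  rw [hdeg, Nat.cast_pow, ← pow_add] at hb
  exact hb

/-- It is enough to construct torsion models at the auxiliary level. -/
theorem hasTorsionModels_of_auxLevel [Fact p.Prime] [NeZero N]
    (h : HasTorsionModels (N * Reduction.auxFactor N p) p) : HasTorsionModels N p := by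
  obtain ⟨e, he⟩ := Reduction.index_mul_auxFactor N (ℓ := p)
  refine hasTorsionModels_of_mul (Reduction.auxFactor N p) (e := e) ?_ h
  have h' := Reduction.finrankAlong_heckeAlphaBar_mul N (Reduction.auxFactor N p)
  rw [he, mul_comm (p ^ e)] at h'
  exact Nat.eq_of_mul_eq_mul_left
    (Nat.pos_of_ne_zero Subgroup.FiniteIndex.index_ne_zero) h'

end Fermat.Agent.FiniteFlat
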