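import Mathlib.RingTheory.Valuation.ValuationSubring
import Mathlib.LinearAlgebra.Matrix.NonsingularInverse
import Mathlib.LinearAlgebra.Matrix.ToLin
import Mathlib.RingTheory.MvPolynomial.Homogeneous

/-!
# Residues of elements of a field lying in a valuation ring
-/

set_option autoImplicit false
set_option linter.unusedSectionVars false

noncomputable section

namespace Fermat.Agent.FiniteFlat

variable {K : Type*} [Field K] {A : ValuationSubring K} {k : Type*} [Field k]

/-- The residue map is the reduction modulo the maximal ideal. -/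
structure IsResidueMap (π : A →+* k) : Prop where
  surjective : Function.Surjective π
  ne_zero_iff : ∀ a : A, π a ≠ 0 ↔ A.valuation (a : K) = 1

open Classical in
/-- The residue, extended by zero outside `A`. -/
def res (π : A →+* k) (x : K) : k := if h : x ∈ A then π ⟨x, h⟩ else 0

variable {π : A →+* k}

theorem res_eq {x : K} (h : x ∈ A) : res π x = π ⟨x, h⟩ := dif_pos h

@[simp] theorem res_coe (a : A) : res π (a : K) = π a := res_eq a.2

theorem res_zero : res π (0 : K) = 0 := (res_eq A.zero_mem).trans (map_zero π)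

theorem res_one : res π (1 : K) = 1 := (res_eq A.one_mem).trans (map_one π)

theorem res_add {x y : K} (hx : x ∈ A) (hy : y ∈ A) : res π (x + y) = res π x + res π y := by
  rw [res_eq hx, res_eq hy, res_eq (add_mem hx hy), ← map_add]; rfl

theorem res_neg {x : K} (hx : x ∈ A) : res π (-x) = -res π x := by
  rw [res_eq hx, res_eq (neg_mem hx), ← map_neg]; rfl

theorem res_mul {x y : K} (hx : x ∈ A) (hy : y ∈ A) : res π (x * y) = res π x * res π y := by
  rw [res_eq hx, res_eq hy, res_eq (mul_mem hx hy), ← map_mul]; rfl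

theorem res_sum {ι : Type*} (s : Finset ι) {f : ι → K} (hf : ∀ i ∈ s, f i ∈ A) :
    res π (∑ i ∈ s, f i) = ∑ i ∈ s, res π (f i) := by
  classical
  induction s using Finset.induction with
  | empty => simpa using res_zero (π := π)
  | @insert a s ha ih =>
    rw [Finset.sum_insert ha, Finset.sum_insert ha,
      res_add (hf a (Finset.mem_insert_self a s))
        (sum_mem fun i hi => hf i (Finset.mem_insert_of_mem hi)),
      ih fun i hi => hf i (Finset.mem_insert_of_mem hi)]

theorem IsResidueMap.valuation_eq_one (hπ : IsResidueMap π) {x : K} (hx : x ∈ A)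
    (h : res π x ≠ 0) : A.valuation x = 1 :=
  (hπ.ne_zero_iff ⟨x, hx⟩).mp (by rwa [← res_eq hx])

theorem IsResidueMap.res_ne_zero (hπ : IsResidueMap π) {x : K} (h : A.valuation x = 1) :
    res π x ≠ 0 := by
  have hx : x ∈ A := (A.valuation_le_one_iff x).mp h.le
  rw [res_eq hx]
  exact (hπ.ne_zero_iff ⟨x, hx⟩).mpr h

theorem ne_zero_of_valuation {x : K} (h : A.valuation x = 1) : x ≠ 0 := fun h0 => by
  simp [h0] at h

/-- Residues of determinants. -/
theorem res_det {ι : Type*} [Fintype ι] [DecidableEq ι] {M : Matrix ι ι K} (hM : ∀ i j, M i j ∈ A) :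
    M.det ∈ A ∧ res π M.det = (M.map (res π)).det := by
  set M' : Matrix ι ι A := fun i j => ⟨M i j, hM i j⟩ with hM'
  have h : M = A.subtype.mapMatrix M' := rfl
  rw [h, ← RingHom.map_det]
  refine ⟨M'.det.2, (res_coe (π := π) M'.det).trans ?_⟩
  rw [RingHom.map_det]
  exact congrArg Matrix.det (Matrix.ext fun i j => (res_coe (π := π) (M' i j)).symm)

/-- Residues of values of integral polynomials. -/
theorem res_eval {σ : Type*} {P : MvPolynomial σ K} (hP : ∀ d, P.coeff d ∈ A) {v : σ → K}
    (hv : ∀ i, v i ∈ A) :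
    MvPolynomial.eval v P ∈ A ∧ res π (MvPolynomial.eval v P) =
      ∑ d ∈ P.support, res π (P.coeff d) * ∏ i ∈ d.support, res π (v i) ^ d i := by
  set w : σ → A := fun i => ⟨v i, hv i⟩ with hw
  have h : MvPolynomial.eval v P =
      ((∑ d ∈ P.support, (⟨P.coeff d, hP d⟩ : A) * ∏ i ∈ d.support, w i ^ d i : A) : K) := by
    rw [MvPolynomial.eval_eq]
    simp [hw]
  rw [h]
  refine ⟨SetLike.coe_mem _, ?_⟩
  rw [res_coe, map_sum]
  refine Finset.sum_congr rfl fun d _ => ?_
  rw [map_mul, map_prod, ← res_eq (hP d)]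
  refine congrArg _ (Finset.prod_congr rfl fun i _ => ?_)
  rw [map_pow, hw, ← res_eq (hv i)]

end Fermat.Agent.FiniteFlat
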