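import Fermat.Agent.FiniteFlat.Regular
import Fermat.Agent.FiniteFlat.Residue
import Mathlib.LinearAlgebra.Matrix.Rank

/-!
# Kernels of constant rank, locally

If a matrix of regular functions has kernel of constant dimension `κ`, also after reduction at
`s₀`, a reduced kernel vector is the reduction of a regular family of kernel vectors.
-/

set_option autoImplicit false
set_option linter.unusedSectionVars false

noncomputable section

open Matrix

namespace Fermat.Agent.FiniteFlat

variable {K : Type*} [Field K] {A : ValuationSubring K} {k : Type*} [Field k] {π : A →+* k}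
  {S : Type*} {B : Subalgebra A (S → K)} {s₀ : S}

theorem RegAt.sum {ι : Type*} (t : Finset ι) {f : ι → S → K} (h : ∀ i ∈ t, RegAt B s₀ (f i)) :
    RegAt B s₀ (fun x => ∑ i ∈ t, f i x) := by
  have : (fun x => ∑ i ∈ t, f i x) = ∑ i ∈ t, f i := funext fun x => (Finset.sum_apply x t f).symm
  rw [this]
  exact (regRing B s₀).toSubmodule.sum_mem h

theorem RegAt.det {ι : Type*} [Fintype ι] [DecidableEq ι] {M : ι → ι → S → K}
    (hM : ∀ i j, RegAt B s₀ (M i j)) :
    RegAt B s₀ (fun x => (Matrix.of fun i j => M i j x).det) := by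
  set N : Matrix ι ι (regRing B s₀) := Matrix.of fun i j => ⟨M i j, hM i j⟩ with hN
  have h : (fun x => (Matrix.of fun i j => M i j x).det) = (N.det : S → K) := by
    funext x
    have hx := ((Pi.evalRingHom (fun _ : S => K) x).comp
      (regRing B s₀).val.toRingHom).map_det N
    exact Eq.trans rfl hx.symm
  rw [h]
  exact N.det.2

theorem exists_completion {R C : Type*} [Fintype R] [Fintype C] [DecidableEq C]
    (L : Matrix R C k) {κ : ℕ} (hκ : Module.finrank k (LinearMap.ker L.mulVecLin) = κ) :
    ∃ (ρ : ℕ) (e : C ≃ Fin ρ ⊕ Fin κ) (I : Fin ρ → R) (W : Fin κ → C → k),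
      (Matrix.of fun i => Sum.elim (fun a => L (I a)) W (e i)).det ≠ 0 := by
  classical
  obtain ⟨κ', a, _, ha_span, ha_li⟩ := exists_linearIndependent' k (fun r => L r)
  haveI := ha_li.finite
  haveI := Fintype.ofFinite κ'
  set Rsp : Submodule k (C → k) := Submodule.span k (Set.range fun r => L r) with hR
  obtain ⟨Q, hQ⟩ := Rsp.exists_isCompl
  have hrank : L.rank = Module.finrank k Rsp := Matrix.rank_eq_finrank_span_row L
  have hsum : L.rank + κ = Fintype.card C := by
    rw [← hκ, Matrix.rank, LinearMap.finrank_range_add_finrank_ker, Module.finrank_pi]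
  have hQdim : Module.finrank k Q = κ := by
    have := Submodule.finrank_add_eq_of_isCompl hQ
    rw [Module.finrank_pi, ← hrank] at this
    omega
  set bQ := Module.finBasisOfFinrankEq k Q hQdim with hbQ
  have hW : LinearIndependent k fun i => (bQ i : C → k) :=
    bQ.linearIndependent.map' Q.subtype Q.ker_subtype
  have hcardρ : Fintype.card κ' = Module.finrank k Rsp := by
    rw [← finrank_span_eq_card ha_li, ha_span]
  set g := Fintype.equivFin κ' with hg
  have hI : LinearIndependent k fun i => L (a (g.symm i)) := ha_li.comp _ g.symm.injective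
  have hall : LinearIndependent k
      (Sum.elim (fun i => L (a (g.symm i))) fun i => (bQ i : C → k)) := by
    refine hI.sum_type hW (Disjoint.mono ?_ ?_ hQ.disjoint)
    · exact Submodule.span_le.mpr (Set.range_subset_iff.mpr fun i =>
        Submodule.subset_span ⟨_, rfl⟩)
    · exact Submodule.span_le.mpr (Set.range_subset_iff.mpr fun i => (bQ i).2)
  have hcard : Fintype.card C = Fintype.card (Fin (Fintype.card κ') ⊕ Fin κ) := by
    simp only [Fintype.card_sum, Fintype.card_fin, hcardρ, ← hrank]
    omega
  refine ⟨_, Fintype.equivOfCardEq hcard, fun i => a (g.symm i), fun i => (bQ i : C → k), ?_⟩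
  refine IsUnit.ne_zero ?_
  rw [← Matrix.isUnit_iff_isUnit_det, ← Matrix.linearIndependent_rows_iff_isUnit]
  exact hall.comp _ (Fintype.equivOfCardEq hcard).injective

variable (hπ : IsResidueMap π) (hB : Bounded B)

include hπ hB in
/-- Regular families of kernel vectors. -/
theorem exists_kernel {R C : Type*} [Fintype R] [Fintype C] [DecidableEq C]
    (L : R → C → S → K) (hL : ∀ r c, RegAt B s₀ (L r c)) {κ : ℕ} (ok : S → Prop)
    (hker : ∀ x, ok x →
      Module.finrank K (LinearMap.ker (Matrix.of fun r c => L r c x).mulVecLin) = κ)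
    (hker₀ : Module.finrank k
      (LinearMap.ker (Matrix.of fun r c => res π (L r c s₀)).mulVecLin) = κ)
    {ι : Type*} (cb : ι → C → k)
    (hcb : ∀ i, (Matrix.of fun r c => res π (L r c s₀)) *ᵥ cb i = 0) :
    ∃ (c : ι → C → S → K) (u : S → K), RegAt B s₀ u ∧ A.valuation (u s₀) = 1 ∧
      (∀ i j, RegAt B s₀ (c i j)) ∧ (∀ i j, res π (c i j s₀) = cb i j) ∧
      ∀ i x, ok x → u x ≠ 0 → ∀ r, ∑ j, L r j x * c i j x = 0 := by
  classical
  obtain ⟨ρ, e, I, W, hdet⟩ := exists_completion _ hker₀
  choose W' hW' using fun p : Fin κ × C => hπ.surjective (W p.1 p.2)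
  -- the square matrix of functions
  set N : C → C → S → K := fun i j => Sum.elim (fun a => L (I a) j)
    (fun b => fun _ => (W' (b, j) : K)) (e i) with hN
  have hNreg : ∀ i j, RegAt B s₀ (N i j) := by
    intro i j
    simp only [hN]
    rcases e i with a | b
    · exact hL _ _
    · exact RegAt.const _
  set Nx : S → Matrix C C K := fun x => Matrix.of fun i j => N i j x with hNx
  have hN0 : (Nx s₀).map (res π) = Matrix.of fun i => Sum.elim
      (fun a => (Matrix.of fun r c => res π (L r c s₀)) (I a)) W (e i) := by
    ext i j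
    simp only [hNx, hN, Matrix.map_apply, Matrix.of_apply]
    rcases e i with a | b
    · rfl
    · simp [hW']
  have hNmem : ∀ i j, Nx s₀ i j ∈ A := fun i j => (hNreg i j).value_mem hB
  set u : S → K := fun x => (Nx x).det with hu
  have hureg : RegAt B s₀ u := RegAt.det hNreg
  have hu1 : A.valuation (u s₀) = 1 := hπ.valuation_eq_one (res_det (π := π) hNmem).1
    (by rw [(res_det (π := π) hNmem).2, hN0]; exact hdet)
  -- right hand side
  choose rhs hrhs using fun p : ι × Fin κ => hπ.surjective (∑ j, W p.2 j * cb p.1 j)
  set b : ι → C → K := fun i q => Sum.elim (fun _ => 0) (fun t => (rhs (i, t) : K)) (e q) with hb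
  have hbA : ∀ i q, b i q ∈ A := by
    intro i q
    simp only [hb]
    rcases e q with a | t
    · exact A.zero_mem
    · exact SetLike.coe_mem _
  set c : ι → C → S → K := fun i j x => ((Nx x).adjugate *ᵥ b i) j * (u x)⁻¹ with hc
  have hcreg : ∀ i j, RegAt B s₀ (c i j) := by
    intro i j
    have h1 : RegAt B s₀ (fun x => ((Nx x).adjugate *ᵥ b i) j) := by
      simp only [Matrix.mulVec, dotProduct]
      refine RegAt.sum _ fun q _ => RegAt.mul ?_ (RegAt.const_of_mem (hbA i q))
      have : (fun x => (Nx x).adjugate j q) =
          fun x => (Matrix.of fun a b => (Function.update N q (fun r _ =>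
            (Pi.single j (1 : K) : C → K) r)) a b x).det := by
        funext x
        rw [Matrix.adjugate_apply]
        congr 1
        ext a b
        rcases eq_or_ne a q with rfl | h
        · simp [hNx]
        · simp [hNx, h]
      rw [this]
      refine RegAt.det fun a b => ?_
      rcases eq_or_ne a q with rfl | h
      · simp only [Function.update_self]
        rcases eq_or_ne b j with rfl | h'
        · exact RegAt.const_of_mem (by simp)
        · exact RegAt.const_of_mem (by simp [h'])
      · simpa [h] using hNreg a b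
    exact h1.mul (RegAt.inv hureg hu1)
  have hsolve : ∀ i x, u x ≠ 0 → Nx x *ᵥ (fun j => c i j x) = b i := by
    intro i x hx
    have hv : (fun j => c i j x) = (u x)⁻¹ • ((Nx x).adjugate *ᵥ b i) :=
      funext fun j => by simp [hc, mul_comm]
    rw [hv, Matrix.mulVec_smul, Matrix.mulVec_mulVec, Matrix.mul_adjugate, Matrix.smul_mulVec,
      Matrix.one_mulVec, smul_smul, inv_mul_cancel₀ hx, one_smul]
  refine ⟨c, u, hureg, hu1, hcreg, ?_, ?_⟩
  · intro i
    have hx := hsolve i s₀ (ne_zero_of_valuation hu1)
    have hinj : Function.Injective ((Nx s₀).map (res π)).mulVec := by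
      rw [Matrix.mulVec_injective_iff_isUnit, Matrix.isUnit_iff_isUnit_det, hN0]
      exact Ne.isUnit hdet
    refine congrFun (hinj (funext fun q => ?_))
    have hq := congrArg (res π) (congrFun hx q)
    simp only [Matrix.mulVec, dotProduct] at hq ⊢
    rw [res_sum _ fun j _ => mul_mem (hNmem q j) ((hcreg i j).value_mem hB)] at hq
    simp only [Matrix.map_apply]
    rw [Finset.sum_congr rfl fun j _ => (res_mul (π := π) (hNmem q j)
      ((hcreg i j).value_mem hB)).symm, hq]
    have hN0' : ∀ j, res π (Nx s₀ q j) = Sum.elim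
        (fun a => (Matrix.of fun r c => res π (L r c s₀)) (I a)) W (e q) j :=
      fun j => congrFun (congrFun hN0 q) j
    simp only [hN0', hb]
    rcases hq' : e q with a | t
    · simp only [Sum.elim_inl, res_zero]
      exact (congrFun (hcb i) (I a)).symm
    · simp only [Sum.elim_inr, res_coe, hrhs]
  · intro i x hok hx r
    set Lx : Matrix R C K := Matrix.of fun r c => L r c x with hLx
    set L' : Matrix (Fin ρ) C K := Matrix.of fun a j => L (I a) j x with hL'
    set Wl : (C → K) →ₗ[K] (Fin κ → K) :=
      (Matrix.of fun t j => (W' (t, j) : K) : Matrix (Fin κ) C K).mulVecLin with hWl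
    have hle : LinearMap.ker Lx.mulVecLin ≤ LinearMap.ker L'.mulVecLin := fun v hv =>
      funext fun a => congrFun hv (I a)
    have hinj : Function.Injective (Wl.domRestrict (LinearMap.ker L'.mulVecLin)) := by
      rw [← LinearMap.ker_eq_bot, LinearMap.ker_eq_bot']
      rintro ⟨v, hv⟩ hv0
      refine Subtype.ext ?_
      have hunit : IsUnit (Nx x) := (Matrix.isUnit_iff_isUnit_det _).mpr (Ne.isUnit hx)
      refine (Matrix.mulVec_injective_iff_isUnit.mpr hunit) ?_
      rw [show (0 : LinearMap.ker L'.mulVecLin).1 = 0 from rfl, Matrix.mulVec_zero]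
      funext q
      simp only [Matrix.mulVec, dotProduct, hNx, hN, Matrix.of_apply]
      rcases e q with a | t
      · exact congrFun hv a
      · exact congrFun hv0 t
    have hdim : Module.finrank K (LinearMap.ker L'.mulVecLin) ≤ κ := by
      simpa using LinearMap.finrank_le_finrank_of_injective hinj
    have heq := Submodule.eq_of_le_of_finrank_le hle (hdim.trans (hker x hok).ge)
    have hmem : (fun j => c i j x) ∈ LinearMap.ker L'.mulVecLin := by
      refine funext fun a => ?_
      have h1 := congrFun (hsolve i x hx) (e.symm (Sum.inl a))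
      simp only [Matrix.mulVec, dotProduct, hNx, hN, hb, Matrix.of_apply, Equiv.apply_symm_apply,
        Sum.elim_inl] at h1
      exact h1
    rw [← heq] at hmem
    exact congrFun hmem r

end Fermat.Agent.FiniteFlat
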