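import Fermat.Agent.FiniteFlat.Add
import Fermat.Agent.FiniteFlat.Residue

/-!
# Integral lifts through a Gauss reduction

Integrality of coordinates in a lifted basis, lifting of bases of Riemann–Roch spaces, values of
integral sections, and integral multiplication matrices with good reduction.
-/

set_option autoImplicit false
set_option linter.unusedSectionVars false
set_option linter.style.haveILetI false

noncomputable section

open Matrix WithZero

namespace Fermat.Agent.FiniteFlat

open AlgebraicCurve Fermat.Agent.Reduction.Torsion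

variable {K : Type*} [Field K] {k : Type*} [Field k] {F : Type*} [Field F] [Algebra K F]
  {Fb : Type*} [Field Fb] [Algebra k Fb] {A : ValuationSubring K} {π : A →+* k}
  {r : Place K F → Place k Fb} (G₀ : GaussReduction π r)

include G₀

theorem isResidueMap : IsResidueMap π where
  surjective := G₀.residue_surjective
  ne_zero_iff a := by
    constructor
    · intro h
      have hinv : (a : K)⁻¹ ∈ A := G₀.residue_unit h
      have ha0 : (a : K) ≠ 0 := fun h0 => h (by rw [show a = 0 from Subtype.ext h0, map_zero])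
      refine (A.valuation_eq_one_iff a).mp (isUnit_iff_exists_inv.mpr ⟨⟨_, hinv⟩, Subtype.ext ?_⟩)
      exact mul_inv_cancel₀ ha0
    · intro h
      exact ((A.valuation_eq_one_iff a).mpr h).map π |>.ne_zero

theorem graph_sum {ι : Type*} (s : Finset ι) {f : ι → F} {g : ι → Fb}
    (h : ∀ i ∈ s, (f i, g i) ∈ G₀.graph) : (∑ i ∈ s, f i, ∑ i ∈ s, g i) ∈ G₀.graph := by
  have := G₀.graph.sum_mem h
  rwa [show ∑ i ∈ s, ((f i, g i) : F × Fb) = (∑ i ∈ s, f i, ∑ i ∈ s, g i) from
    Prod.ext (Prod.fst_sum ..) (Prod.snd_sum ..)] at this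

variable {ι : Type*} [Fintype ι] {w : ι → F} {wb : ι → Fb}
  (hw : ∀ i, (w i, wb i) ∈ G₀.graph) (hwb : LinearIndependent k wb)

include hw

theorem graph_combination {x : ι → K} (hx : ∀ i, x i ∈ A) :
    (∑ i, x i • w i, ∑ i, res π (x i) • wb i) ∈ G₀.graph :=
  graph_sum G₀ _ fun i _ => by
    have h := G₀.smul_mem ⟨x i, hx i⟩ (hw i)
    rwa [← res_eq (hx i)] at h

include hwb

theorem coeff_mem {x : ι → K} {f : F} {g : Fb} (hf : (f, g) ∈ G₀.graph)
    (hx : ∑ i, x i • w i = f) : (∀ i, x i ∈ A) ∧ g = ∑ i, res π (x i) • wb i := by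
  have hA : ∀ i, x i ∈ A := by
    by_contra hc
    push Not at hc
    obtain ⟨i₀, hi₀⟩ := hc
    obtain ⟨j, -, hj⟩ := Finset.exists_max_image Finset.univ (fun i => A.valuation (x i))
      ⟨i₀, Finset.mem_univ i₀⟩
    have hj1 : 1 < A.valuation (x j) := by
      refine lt_of_lt_of_le ?_ (hj i₀ (Finset.mem_univ i₀))
      exact not_le.mp fun h => hi₀ ((A.valuation_le_one_iff _).mp h)
    have hxj : x j ≠ 0 := fun h => by simp [h] at hj1
    have hinv : (x j)⁻¹ ∈ A := (A.valuation_le_one_iff _).mp (by
      rw [map_inv₀]; exact (inv_lt_one_of_one_lt₀ hj1).le)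
    have hres : res π (x j)⁻¹ = 0 := by
      by_contra hne
      have h1 := (isResidueMap G₀).valuation_eq_one hinv hne
      rw [map_inv₀] at h1
      rw [inv_eq_one.mp h1] at hj1
      exact lt_irrefl _ hj1
    set y : ι → K := fun i => (x j)⁻¹ * x i with hy
    have hyA : ∀ i, y i ∈ A := fun i => (A.valuation_le_one_iff _).mp (by
      rw [hy, map_mul, map_inv₀]
      exact inv_mul_le_one_of_le₀ (hj i (Finset.mem_univ i)) zero_le')
    have h1 := graph_combination G₀ hw hyA
    have h2 : ((x j)⁻¹ • f, res π (x j)⁻¹ • g) ∈ G₀.graph := by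
      have := G₀.smul_mem ⟨_, hinv⟩ hf
      rwa [← res_eq hinv] at this
    rw [hres, zero_smul] at h2
    have hsum : ∑ i, y i • w i = (x j)⁻¹ • f := by
      simp only [← hx, hy, Finset.smul_sum, smul_smul]
    rw [hsum] at h1
    have h3 := Fintype.linearIndependent_iff.mp hwb _ (G₀.eq_of_mem h1 h2) j
    rw [hy] at h3
    simp only [inv_mul_cancel₀ hxj, res_one] at h3
    exact one_ne_zero h3
  refine ⟨hA, G₀.eq_of_mem hf ?_⟩
  rw [← hx]
  exact graph_combination G₀ hw hA

theorem linearIndependent_of_reduced : LinearIndependent K w := by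
  rw [Fintype.linearIndependent_iff]
  intro x hx
  by_contra hne
  push Not at hne
  obtain ⟨i₀, hi₀⟩ := hne
  set y : ι → K := fun i => (x i₀)⁻¹ * x i with hy
  have hsum : ∑ i, y i • w i = 0 := by
    simp only [hy, ← smul_smul, ← Finset.smul_sum, hx, smul_zero]
  obtain ⟨hA, h0⟩ := coeff_mem G₀ hw hwb G₀.graph.zero_mem hsum
  have h1 := Fintype.linearIndependent_iff.mp hwb _ h0.symm i₀
  rw [hy] at h1
  simp only [inv_mul_cancel₀ hi₀, res_one] at h1
  exact one_ne_zero h1

omit hw hwb

/-- `r`-images. -/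
theorem mapDomain_apply_pos {E : Divisor K F} (hE : 0 ≤ E) {P : Place K F} :
    E P ≤ Finsupp.mapDomain r E (r P) := by
  classical
  rw [Finsupp.mapDomain, Finsupp.sum, Finsupp.finsetSum_apply]
  by_cases hP : P ∈ E.support
  · refine le_trans (le_of_eq ?_) (Finset.single_le_sum (f := fun a => Finsupp.single (r a) (E a) (r P))
      (fun a _ => Finsupp.single_nonneg.mpr (hE a) _) hP)
    simp
  · rw [Finsupp.notMem_support_iff.mp hP]
    exact Finset.sum_nonneg fun a _ => Finsupp.single_nonneg.mpr (hE a) _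

variable [HasPrincipalDivisors K F]

/-- Values of integral sections of an effective divisor. -/
theorem val_mem {D : Divisor K F} (hD : 0 ≤ D) {P : Place K F} (hP : P.deg = 1)
    (hP' : (r P).deg = 1) (hrD : Finsupp.mapDomain r D (r P) = 0) {f : F} {g : Fb}
    (hf : f ∈ riemannRochSpace D) (hfg : (f, g) ∈ G₀.graph) :
    val P f ∈ A ∧ res π (val P f) = val (r P) g := by
  classical
  have hDP : D P = 0 := le_antisymm (hrD ▸ mapDomain_apply_pos G₀ hD) (hD P)
  have hval := hasValue_val hP hDP hf
  set c := val P f with hc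
  -- a nonvanishing reduction of a function vanishing at `P` vanishes at `r P`
  have key : ∀ (h : F) (h' : Fb), (h, h') ∈ G₀.graph → h' ≠ 0 → P.adicValuation h < 1 →
      h ∈ riemannRochSpace D → (r P).adicValuation h' < 1 := by
    intro h h' hh hh' hlt hmem
    have hh0 := G₀.ne_zero_of_mem hh hh'
    obtain ⟨E, hE, -⟩ := HasPrincipalDivisors.exists_divisor (K := K) h hh0
    rw [P.adicValuation_eq_exp_neg_ord hh0, ← exp_zero, exp_lt_exp, ← hE P] at hlt
    have hpos : 0 ≤ E + D := fun Q => by
      have h1 := (mem_riemannRochSpace_iff.mp hmem Q).resolve_left hh0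
      simp only [Finsupp.coe_zero, Pi.zero_apply, Finsupp.add_apply, hE Q]
      omega
    have h2 := mapDomain_apply_pos G₀ (P := P) hpos
    rw [Finsupp.mapDomain_add, Finsupp.add_apply, Finsupp.add_apply, hrD, hDP,
      G₀.ord_eq h h' hh hh' E hE] at h2
    rw [(r P).adicValuation_eq_exp_neg_ord hh', ← exp_zero, exp_lt_exp]
    omega
  have hconst : ∀ a : K, algebraMap K F a ∈ riemannRochSpace D := fun a =>
    rr_mono hD (by rw [Algebra.algebraMap_eq_smul_one]; exact Submodule.smul_mem _ _ rr_one)
  have hcA : c ∈ A := by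
    by_contra hcn
    have hinv : c⁻¹ ∈ A := (A.mem_or_inv_mem c).resolve_left hcn
    have hres : res π c⁻¹ = 0 := by
      rw [res_eq hinv]
      exact G₀.residue_eq_zero ⟨c⁻¹, hinv⟩ (by simpa using hcn)
    have hc0 : c ≠ 0 := fun h0 => hcn (h0 ▸ A.zero_mem)
    have hgr : (c⁻¹ • f - 1, (-1 : Fb)) ∈ G₀.graph := by
      have h1 := G₀.graph.sub_mem (G₀.smul_mem ⟨_, hinv⟩ hfg) G₀.graph.one_mem
      rw [← res_eq hinv, hres, zero_smul] at h1
      rwa [show (((c⁻¹ • f, (0 : Fb)) - 1) : F × Fb) = (c⁻¹ • f - 1, -1) from Prod.ext rfl (zero_sub 1)] at h1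
    have h1 := key _ _ hgr (by simp) (by
      rw [show c⁻¹ • f - 1 = algebraMap K F c⁻¹ * (f - algebraMap K F c) by
        rw [mul_sub, ← map_mul, inv_mul_cancel₀ hc0, map_one, Algebra.smul_def], map_mul,
        adicValuation_algebraMap P (inv_ne_zero hc0), one_mul]
      exact hval)
      (Submodule.sub_mem _ (Submodule.smul_mem _ _ hf) (map_one (algebraMap K F) ▸ hconst 1))
    simp at h1
  refine ⟨hcA, ?_⟩
  have hgr : (f - algebraMap K F c, g - algebraMap k Fb (res π c)) ∈ G₀.graph := by
    have := G₀.graph.sub_mem hfg (G₀.algebraMap_mem ⟨c, hcA⟩)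
    rwa [← res_eq hcA] at this
  refine (HasValue.val_eq (?_ : HasValue (r P) g (res π c))).symm
  by_cases h0 : g - algebraMap k Fb (res π c) = 0
  · simp [HasValue, h0]
  · exact key _ _ hgr h0 hval (Submodule.sub_mem _ hf (hconst c))

/-- Data of good reduction in large degree. -/
structure GoodReduction (c : ℕ) (χ : ℤ) : Prop where
  gen : LargeRR K F c χ
  spec : LargeRR k Fb c χ
  finrank_red : ∀ W : Submodule K F, FiniteDimensional K W →
    Module.finrank k (G₀.redSpace W) = Module.finrank K W

omit [HasPrincipalDivisors K F]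

variable {G₀} {c : ℕ} {χ : ℤ} (H : GoodReduction G₀ c χ)

include H

theorem GoodReduction.degree_map (D : Divisor K F) :
    Divisor.degree (Finsupp.mapDomain r D) = Divisor.degree D := by
  induction D using Finsupp.induction with
  | zero => simp
  | single_add P n D _ _ ih =>
    rw [Finsupp.mapDomain_add, map_add, map_add, ih, Finsupp.mapDomain_single,
      Divisor.degree_single, Divisor.degree_single, H.gen.deg_eq, H.spec.deg_eq]

theorem GoodReduction.redSpace_eq (D : Divisor K F) (hD : (c : ℤ) ≤ Divisor.degree D) :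
    G₀.redSpace (riemannRochSpace D) = riemannRochSpace (Finsupp.mapDomain r D) := by
  haveI := H.gen.principal
  haveI := H.spec.finite (Finsupp.mapDomain r D)
  refine Submodule.eq_of_le_of_finrank_eq (G₀.redSpace_rr_le D) ?_
  rw [H.finrank_red _ (H.gen.finite D)]
  have h1 := H.gen.ell_eq D hD
  have h2 := H.spec.ell_eq (Finsupp.mapDomain r D) (by rw [H.degree_map]; exact hD)
  rw [H.degree_map] at h2
  omega

/-- Lift a basis of a reduced Riemann–Roch space. -/
theorem GoodReduction.exists_lift (D : Divisor K F) (hD : (c : ℤ) ≤ Divisor.degree D)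
    {κ : Type*} [Fintype κ] {gb : κ → Fb} (hgb : LinearIndependent k gb)
    (hspan : Submodule.span k (Set.range gb) = riemannRochSpace (Finsupp.mapDomain r D)) :
    ∃ f : κ → F, (∀ i, (f i, gb i) ∈ G₀.graph) ∧ LinearIndependent K f ∧
      Submodule.span K (Set.range f) = riemannRochSpace D := by
  have hmem : ∀ i, gb i ∈ G₀.redSpace (riemannRochSpace D) := fun i => by
    rw [H.redSpace_eq D hD]; exact mem_of_span_eq hspan i
  choose f hf hfg using hmem
  have hli := linearIndependent_of_reduced G₀ hfg hgb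
  refine ⟨f, hfg, hli, ?_⟩
  haveI := H.gen.finite D
  refine Submodule.eq_of_le_of_finrank_le (Submodule.span_le.mpr (Set.range_subset_iff.mpr hf)) ?_
  have h1 := H.gen.ell_eq D hD
  have h2 := H.spec.ell_eq (Finsupp.mapDomain r D) (by rw [H.degree_map]; exact hD)
  rw [H.degree_map, ← hspan, finrank_span_eq_card hgb] at h2
  rw [finrank_span_eq_card hli]
  omega

theorem GoodReduction.isPrincipal_map {D : Divisor K F} (hD : Divisor.IsPrincipal D) :
    Divisor.IsPrincipal (Finsupp.mapDomain r D) := by
  obtain ⟨f, hf, hfD⟩ := hD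
  obtain ⟨a, ha, g, hg, hgr⟩ := G₀.exists_smul f hf
  exact ⟨g, hg, G₀.ord_eq _ _ hgr hg D fun P => by rw [hfD P, ord_smul_const ha]⟩

variable {n m : ℕ} {G : Divisor K F} {b : Fin m → F} {bb : Fin m → Fb}
  (hb : ∀ s, (b s, bb s) ∈ G₀.graph) (hbb : LinearIndependent k bb)
  (hbspan : Submodule.span K (Set.range b) = riemannRochSpace (G + G))

include hb hbb hbspan

/-- An integral multiplication matrix with good reduction. -/
theorem GoodReduction.exists_integral_rep (D : Divisor K F)
    (hdeg : Divisor.degree D = Divisor.degree G) (hG : (c : ℤ) ≤ Divisor.degree G)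
    (hn : (n : ℤ) = Divisor.degree G + χ) :
    ∃ M : VMat n m K, (∀ i j s, M i j s ∈ A) ∧ IsRep b G D M ∧
      IsRep bb (Finsupp.mapDomain r G) (Finsupp.mapDomain r D) (mapV (res π) M) := by
  have hsub : Finsupp.mapDomain r (G + G - D) =
      Finsupp.mapDomain r G + Finsupp.mapDomain r G - Finsupp.mapDomain r D := by
    rw [Finsupp.mapDomain_sub, Finsupp.mapDomain_add]
  have key : ∀ E : Divisor K F, Divisor.degree E = Divisor.degree G → ∃ (f : Fin n → F)
      (g : Fin n → Fb), (∀ i, (f i, g i) ∈ G₀.graph) ∧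
      (LinearIndependent K f ∧ Submodule.span K (Set.range f) = riemannRochSpace E) ∧
      (LinearIndependent k g ∧
        Submodule.span k (Set.range g) = riemannRochSpace (Finsupp.mapDomain r E)) := by
    intro E hE
    haveI := H.spec.finite (Finsupp.mapDomain r E)
    have hr := H.spec.ell_eq (Finsupp.mapDomain r E) (by rw [H.degree_map]; omega)
    rw [H.degree_map] at hr
    set bas := Module.finBasisOfFinrankEq k (riemannRochSpace (Finsupp.mapDomain r E))
      (show _ = n by omega)
    have hli : LinearIndependent k fun i => (bas i : Fb) :=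
      bas.linearIndependent.map' (Submodule.subtype _) (Submodule.ker_subtype _)
    have hsp : Submodule.span k (Set.range fun i => (bas i : Fb)) =
        riemannRochSpace (Finsupp.mapDomain r E) := by
      rw [show (fun i => (bas i : Fb)) = (Submodule.subtype _) ∘ bas from rfl, Set.range_comp,
        ← Submodule.map_span, bas.span_eq, Submodule.map_top, Submodule.range_subtype]
    obtain ⟨f, hf, hfl, hfs⟩ := H.exists_lift E (by omega) hli hsp
    exact ⟨f, _, hf, ⟨hfl, hfs⟩, hli, hsp⟩
  obtain ⟨u, ub, hu, hu1, hu2⟩ := key D hdeg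
  obtain ⟨v, vb, hv, hv1, hv2⟩ := key (G + G - D) (by rw [map_sub, map_add]; omega)
  rw [hsub] at hv2
  have hmem : ∀ p : Fin n × Fin n, u p.1 * v p.2 ∈ Submodule.span K (Set.range b) := fun p => by
    rw [hbspan]
    simpa using rr_mul (mem_of_span_eq hu1.2 p.1) (mem_of_span_eq hv1.2 p.2)
  choose M hM using fun p => (Submodule.mem_span_range_iff_exists_fun K).mp (hmem p)
  have hred := fun p : Fin n × Fin n =>
    coeff_mem G₀ hb hbb (G₀.graph.mul_mem (hu p.1) (hv p.2)) (hM p)
  exact ⟨fun i j => M (i, j), fun i j => (hred (i, j)).1,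
    ⟨u, v, hu1, hv1, fun i j => (hM (i, j)).symm⟩, ub, vb, hu2, hv2, fun i j => (hred (i, j)).2⟩

/-- An integral adapted basis of `L(4G)`. -/
theorem GoodReduction.exists_addBasis (hG : (c : ℤ) ≤ Divisor.degree G) (hG0 : 0 ≤ G) :
    ∃ (m' m'' : ℕ) (w : AddIdx m m' m'' → F) (wb : AddIdx m m' m'' → Fb)
      (μ : Fin m → Fin m → AddIdx m m' m'' → K), (∀ s t q, μ s t q ∈ A) ∧ AddBasis G b w μ ∧
      AddBasis (Finsupp.mapDomain r G) bb wb (fun s t q => res π (μ s t q)) := by
  classical
  set Gb := Finsupp.mapDomain r G with hGb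
  have hGb0 : 0 ≤ Gb := fun Q => by
    simp only [hGb, Finsupp.mapDomain, Finsupp.sum, Finsupp.finsetSum_apply]
    exact Finset.sum_nonneg fun P _ => Finsupp.single_nonneg.mpr (hG0 P) Q
  have hmap2 : Finsupp.mapDomain r (G + G) = Gb + Gb := Finsupp.mapDomain_add
  have hmap3 : Finsupp.mapDomain r (G + G + G) = Gb + Gb + Gb := by
    rw [Finsupp.mapDomain_add, hmap2]
  have hmap4 : Finsupp.mapDomain r (G + G + G + G) = Gb + Gb + Gb + Gb := by
    rw [Finsupp.mapDomain_add, hmap3]
  have hbb2 : Submodule.span k (Set.range bb) = riemannRochSpace (Gb + Gb) := by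
    haveI := H.gen.principal
    haveI := H.spec.finite (Gb + Gb)
    refine Submodule.eq_of_le_of_finrank_le (Submodule.span_le.mpr (Set.range_subset_iff.mpr
      fun s => ?_)) ?_
    · rw [← hmap2]
      exact G₀.mem_rr (hb s) (mem_of_span_eq hbspan s)
    · have h1 := H.spec.ell_eq (Gb + Gb) (by rw [map_add, H.degree_map]; omega)
      have h2 := H.gen.ell_eq (G + G) (by rw [map_add]; omega)
      rw [map_add, H.degree_map] at h1
      rw [← hbspan, finrank_span_eq_card (linearIndependent_of_reduced G₀ hb hbb), map_add] at h2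
      rw [finrank_span_eq_card hbb]
      omega
  -- completing a basis inside a bigger space
  have ext : ∀ (ι : Type) [Fintype ι] (e : ι → Fb) (W : Submodule k Fb), FiniteDimensional k W →
      LinearIndependent k e → Submodule.span k (Set.range e) ≤ W →
      ∃ (q : ℕ) (x : Fin q → Fb), LinearIndependent k (Sum.elim e x) ∧
        Submodule.span k (Set.range (Sum.elim e x)) = W := by
    intro ι _ e W hW he hle
    obtain ⟨Q, hQ⟩ := (Submodule.span k (Set.range e)).exists_isCompl
    haveI : FiniteDimensional k (Q ⊓ W : Submodule k Fb) :=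
      Submodule.finiteDimensional_of_le inf_le_right
    set bs := Module.finBasis k (Q ⊓ W : Submodule k Fb) with hbs
    have hxs : Submodule.span k (Set.range fun i => (bs i : Fb)) = Q ⊓ W := by
      rw [show (fun i => (bs i : Fb)) = (Submodule.subtype _) ∘ bs from rfl, Set.range_comp,
        ← Submodule.map_span, bs.span_eq, Submodule.map_top, Submodule.range_subtype]
    refine ⟨_, fun i => (bs i : Fb), he.sum_type
      (bs.linearIndependent.map' _ (Submodule.ker_subtype _)) ?_, ?_⟩
    · rw [hxs]; exact hQ.disjoint.mono_right inf_le_left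
    · rw [Set.Sum.elim_range, Submodule.span_union, hxs, ← sup_inf_assoc_of_le Q hle,
        hQ.sup_eq_top, top_inf_eq]
  haveI := H.spec.finite (Gb + Gb + Gb)
  haveI := H.spec.finite (Gb + Gb + Gb + Gb)
  obtain ⟨m', x, hx, hxs⟩ := ext (Fin m) bb (riemannRochSpace (Gb + Gb + Gb)) inferInstance hbb
    (hbb2 ▸ fun f hf => rr_mono (le_add_of_nonneg_right hGb0) hf)
  obtain ⟨m'', y, hy, hys⟩ := ext (Fin m ⊕ Fin m') (Sum.elim bb x)
    (riemannRochSpace (Gb + Gb + Gb + Gb)) inferInstance hx
    (hxs ▸ fun f hf => rr_mono (le_add_of_nonneg_right hGb0) hf)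
  set wb : AddIdx m m' m'' → Fb := Sum.elim bb (Sum.elim x y) with hwb
  have hwb_li : LinearIndependent k wb := by
    have h : wb = (Sum.elim (Sum.elim bb x) y) ∘ (Equiv.sumAssoc _ _ _).symm := by
      funext q; rcases q with a | a | a <;> rfl
    rw [h]; exact hy.comp _ (Equiv.injective _)
  have hwb4 : Submodule.span k (Set.range wb) = riemannRochSpace (Gb + Gb + Gb + Gb) := by
    rw [← hys]
    congr 1
    simp only [hwb, Set.Sum.elim_range, Set.union_assoc]
  -- lifts
  haveI := H.gen.principal
  have hxm : ∀ i, x i ∈ G₀.redSpace (riemannRochSpace (G + G + G)) := fun i => by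
    rw [H.redSpace_eq _ (by simp only [map_add]; omega), hmap3, ← hxs]
    exact Submodule.subset_span ⟨Sum.inr i, rfl⟩
  have hym : ∀ i, y i ∈ G₀.redSpace (riemannRochSpace (G + G + G + G)) := fun i => by
    rw [H.redSpace_eq _ (by simp only [map_add]; omega), hmap4, ← hys]
    exact Submodule.subset_span ⟨Sum.inr i, rfl⟩
  choose x' hx'm hx'g using hxm
  choose y' hy'm hy'g using hym
  set w : AddIdx m m' m'' → F := Sum.elim b (Sum.elim x' y') with hw
  have hwg : ∀ q, (w q, wb q) ∈ G₀.graph := by
    rintro (a | a | a)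
    · exact hb a
    · exact hx'g a
    · exact hy'g a
  have hwli := linearIndependent_of_reduced G₀ hwg hwb_li
  have hfr : ∀ (ι : Type) [Fintype ι] (E : Divisor K F) (e : ι → F) (eb : ι → Fb),
      (c : ℤ) ≤ Divisor.degree E → (∀ i, e i ∈ riemannRochSpace E) → LinearIndependent K e →
      LinearIndependent k eb →
      Submodule.span k (Set.range eb) = riemannRochSpace (Finsupp.mapDomain r E) →
      Submodule.span K (Set.range e) = riemannRochSpace E := by
    intro ι _ E e eb hE he hel hebl hebs
    haveI := H.gen.finite E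
    refine Submodule.eq_of_le_of_finrank_le (Submodule.span_le.mpr (Set.range_subset_iff.mpr he)) ?_
    have h1 := H.gen.ell_eq E hE
    have h2 := H.spec.ell_eq (Finsupp.mapDomain r E) (by rw [H.degree_map]; exact hE)
    rw [H.degree_map, ← hebs, finrank_span_eq_card hebl] at h2
    rw [finrank_span_eq_card hel]
    omega
  have h23 : G + G ≤ G + G + G := le_add_of_nonneg_right hG0
  have h34 : G + G + G ≤ G + G + G + G := le_add_of_nonneg_right hG0
  have hw3 : Submodule.span K (Set.range fun q : Fin m ⊕ Fin m' => w (Sum.map id Sum.inl q)) =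
      riemannRochSpace (G + G + G) := by
    refine hfr _ _ _ (fun q => wb (Sum.map id Sum.inl q)) (by simp only [map_add]; omega) ?_
      (hwli.comp _ ?_) (hwb_li.comp _ ?_) ?_
    · rintro (a | a)
      · exact rr_mono h23 (mem_of_span_eq hbspan a)
      · exact hx'm a
    · exact Function.Injective.sumMap Function.injective_id Sum.inl_injective
    · exact Function.Injective.sumMap Function.injective_id Sum.inl_injective
    · rw [hmap3, ← hxs]
      congr 2
      funext q; rcases q with a | a <;> rfl
  have hw4 : Submodule.span K (Set.range w) = riemannRochSpace (G + G + G + G) := by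
    refine hfr _ _ _ wb (by simp only [map_add]; omega) ?_ hwli hwb_li (by rw [hmap4, hwb4])
    rintro (a | a | a)
    · exact rr_mono (h23.trans h34) (mem_of_span_eq hbspan a)
    · exact rr_mono h34 (hx'm a)
    · exact hy'm a
  have hmem : ∀ p : Fin m × Fin m, b p.1 * b p.2 ∈ Submodule.span K (Set.range w) := fun p => by
    rw [hw4, add_assoc (G + G)]
    exact rr_mul (mem_of_span_eq hbspan p.1) (mem_of_span_eq hbspan p.2)
  choose μ hμ using fun p => (Submodule.mem_span_range_iff_exists_fun K).mp (hmem p)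
  have hred := fun p : Fin m × Fin m =>
    coeff_mem G₀ hwg hwb_li (G₀.graph.mul_mem (hb p.1) (hb p.2)) (hμ p)
  refine ⟨m', m'', w, wb, fun s t => μ (s, t), fun s t => (hred (s, t)).1,
    ⟨fun _ => rfl, hwli, hbspan, hw3, hw4, fun s t => (hμ (s, t)).symm⟩,
    ⟨fun _ => rfl, hwb_li, hbb2, ?_, hwb4, fun s t => (hred (s, t)).2⟩⟩
  rw [← hxs]
  congr 2
  funext q; rcases q with a | a <;> rfl

end Fermat.Agent.FiniteFlat
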