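import Fermat.Agent.FiniteFlat.Setting

/-!
# Regular multiplication matrices from regular coordinates

For a finite family of classes with chosen integral multiplication matrices, the functions
`gen I J` are the affine coordinates of their invariants. Where these coordinates are regular on a
base `S` so is a multiplication matrix, and conversely.
-/

set_option autoImplicit false
set_option linter.unusedSectionVars false
set_option linter.style.haveILetI false

noncomputable section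

open Matrix MvPolynomial

namespace Fermat.Agent.FiniteFlat

open AlgebraicCurve Fermat.Agent.Reduction.Torsion

local notation "ℚ̄" => AlgebraicClosure ℚ
local notation "Γℚ" => (AlgebraicClosure ℚ ≃ₐ[ℚ] AlgebraicClosure ℚ)

variable {k : Type} [Field k] {F : Type} [Field F] [Algebra ℚ̄ F] {Fb : Type} [Field Fb]
  [Algebra k Fb] {A : ValuationSubring ℚ̄} {π : A →+* k} {r : Place ℚ̄ F → Place k Fb}
  {ℓ n m : ℕ} {G : Divisor ℚ̄ F} {b : Fin m → F} {bb : Fin m → Fb} {c : ℕ} {χ : ℤ}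
  {act : Γℚ →* SemilinearAut ℚ̄ F}

set_option maxHeartbeats 1000000 in
/-- Chosen matrices for a finite family of classes, with a denominator form. -/
structure Family (G₀ : GaussReduction π r) (n : ℕ) (G : Divisor ℚ̄ F) (b : Fin m → F)
    (bb : Fin m → Fb) (T : Type) [AddCommGroup T] [Fintype T] where
  ι : T →+ Pic0 ℚ̄ F
  injective : Function.Injective ι
  D : T → Divisor ℚ̄ F
  M : T → VMat n m ℚ̄
  cls : ∀ t, ClassRep G₀ G b bb (ι t) (D t) (M t)
  δ : ℕ
  δ_pos : 0 < δ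
  Φ : MvPolynomial (monomials M) ℤ
  hom : Φ.IsHomogeneous δ
  nonvanishing : ∀ t,
    MvPolynomial.aeval (fun I => res π (coordVec (monomials M) (segrePoly (M t)) I)) Φ ≠ 0

variable {G₀ : GaussReduction π r} {T : Type} [AddCommGroup T] [Fintype T]

theorem CurveInput.exists_family (h : CurveInput G₀ ℓ n m G b bb c χ act) (ι : T →+ Pic0 ℚ̄ F)
    (hι : Function.Injective ι) : ∃ fam : Family G₀ n G b bb T, fam.ι = ι := by
  choose D M hM using fun t => h.exists_classRep (ι t)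
  obtain ⟨δ, hδ, Φ, hΦ, hne⟩ := h.exists_denom_form hM
  exact ⟨⟨ι, hι, D, M, hM, δ, hδ, Φ, hΦ, hne⟩, rfl⟩

namespace Family

variable (fam : Family G₀ n G b bb T)

/-- The monomials used. -/
abbrev idx : Finset (Fin 4 × Fin m →₀ ℕ) := monomials fam.M

/-- The invariant of a class. -/
def P (t : T) : MvPolynomial (Fin 4 × Fin m) ℚ̄ := segrePoly (fam.M t)

/-- The affine coordinates. -/
def gen (I J : fam.idx) (t : T) : ℚ̄ := genVal fam.idx fam.Φ fam.δ I J (fam.P t)

theorem coeff_P_mem (t : T) (d : Fin 4 × Fin m →₀ ℕ) : (fam.P t).coeff d ∈ A :=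
  (res_coeff_segrePoly (π := π) (fam.cls t).integral d).1

theorem coeff_P_eq_zero {d : Fin 4 × Fin m →₀ ℕ} (hd : d ∉ fam.idx) (t : T) :
    (fam.P t).coeff d = 0 := coeff_eq_zero_of_notMem hd t

theorem denom_unit (t : T) : A.valuation (denom fam.idx fam.Φ (fam.P t)) = 1 := by
  obtain ⟨hm, hr⟩ := res_aeval (π := π)
    (fun I => fam.coeff_P_mem t _ : ∀ I : fam.idx, coordVec fam.idx (fam.P t) I ∈ A) fam.Φ
  exact (isResidueMap G₀).valuation_eq_one hm fun h0 => fam.nonvanishing t (hr.symm.trans h0)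

theorem denom_ne_zero (t : T) : denom fam.idx fam.Φ (fam.P t) ≠ 0 :=
  ne_zero_of_valuation (fam.denom_unit t)

theorem gen_mem (I J : fam.idx) (t : T) : fam.gen I J t ∈ A :=
  (genVal_mem (isResidueMap G₀) I J (fam.coeff_P_mem t) (fam.nonvanishing t)).2

theorem exists_res_ne_zero (t : T) : ∃ J : fam.idx, res π ((fam.P t).coeff J) ≠ 0 := by
  by_contra hc
  push Not at hc
  refine fam.nonvanishing t ?_
  have : (fun I => res π (coordVec fam.idx (segrePoly (fam.M t)) I)) = fun _ => (0 : k) :=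
    funext fun I => hc I
  rw [this]
  have h0 := aeval_mul_of_isHomogeneous fam.hom (0 : k) (fun _ : fam.idx => (0 : k))
  simp only [zero_mul, zero_pow fam.δ_pos.ne'] at h0
  exact h0

theorem gen_self_unit {t : T} {J : fam.idx} (hJ : res π ((fam.P t).coeff J) ≠ 0) :
    A.valuation (fam.gen J J t) = 1 := by
  have h1 : A.valuation ((fam.P t).coeff J) = 1 :=
    (isResidueMap G₀).valuation_eq_one (fam.coeff_P_mem t _) hJ
  simp [gen, genVal, coordVec, h1, fam.denom_unit t]

theorem gen_self_ne_zero {t : T} {J : fam.idx} (h : fam.gen J J t ≠ 0) :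
    (fam.P t).coeff J ≠ 0 := by
  intro h0
  exact h (by simp [gen, genVal, coordVec, h0])

theorem gen_div (I J : fam.idx) (t : T) :
    fam.gen I J t * (fam.gen J J t)⁻¹ = (fam.P t).coeff I / (fam.P t).coeff J :=
  genVal_div fam.δ_pos I J _ (fam.denom_ne_zero t)

variable {fam} (h : CurveInput G₀ ℓ n m G b bb c χ act)

theorem isPrincipal_sub_D (t : T) {D₀ : Divisor.degZero (K := ℚ̄) (F := F)}
    (hD₀ : Pic0.mk D₀ = fam.ι t) :
    Divisor.IsPrincipal ((D₀ : Divisor ℚ̄ F) + G - fam.D t) := by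
  obtain ⟨D₁, hD₁, he⟩ := (fam.cls t).cls
  rw [he, add_sub_add_right_eq_sub]
  exact isPrincipal_sub_of_mk_eq (hD₀.trans hD₁.symm)

include h in
theorem exists_scalar {t : T} {D' : Divisor ℚ̄ F} {L : VMat n m ℚ̄} (hL : IsRep b G D' L)
    (hp : Divisor.IsPrincipal (D' - fam.D t)) :
    ∃ a : ℚ̄, a ≠ 0 ∧ segrePoly L = C a * fam.P t := by
  obtain ⟨g, g', hg, hg', he⟩ := (fam.cls t).gen.exists_twist h.li_b hL
    (isPrincipal_sub_comm hp)
  exact ⟨_, pow_ne_zero 2 (mul_ne_zero hg hg'), he ▸ segrePoly_twist g g' (fam.M t)⟩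

include h in
theorem exists_scalar_red {t : T} {D' : Divisor k Fb} {L : VMat n m k}
    (hL : IsRep bb (Finsupp.mapDomain r G) D' L)
    (hp : Divisor.IsPrincipal (D' - Finsupp.mapDomain r (fam.D t))) :
    ∃ a : k, a ≠ 0 ∧ segrePoly L = C a * segrePoly (mapV (res π) (fam.M t)) := by
  obtain ⟨g, g', hg, hg', he⟩ := (fam.cls t).spec.exists_twist h.bb_li hL
    (isPrincipal_sub_comm hp)
  exact ⟨_, pow_ne_zero 2 (mul_ne_zero hg hg'), he ▸ segrePoly_twist g g' _⟩

variable {S : Type} {B : Subalgebra A (S → ℚ̄)} {s₀ : S}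

set_option maxHeartbeats 2000000 in
include h in
/-- Regular coordinates give a regular multiplication matrix. -/
theorem exists_local_rep (hB : Bounded B) (p : S → T)
    (hgen : ∀ I J, RegAt B s₀ fun s => fam.gen I J (p s)) :
    ∃ (L : S → VMat n m ℚ̄) (u : S → ℚ̄), (∀ i j q, RegAt B s₀ fun s => L s i j q) ∧
      RegAt B s₀ u ∧ A.valuation (u s₀) = 1 ∧
      (∀ s, u s ≠ 0 → IsRep b G (fam.D (p s)) (L s)) ∧
      IsRep bb (Finsupp.mapDomain r G) (Finsupp.mapDomain r (fam.D (p s₀)))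
        (mapV (res π) (L s₀)) ∧
      ∀ s s', (∀ I J, fam.gen I J (p s) = fam.gen I J (p s')) → L s = L s' ∧ u s = u s' := by
  classical
  set t₀ := p s₀ with ht₀
  have hπ := isResidueMap G₀
  obtain ⟨J₀, hJ₀⟩ := fam.exists_res_ne_zero t₀
  set bad : Finset (Place ℚ̄ F) :=
    (Finset.univ.biUnion fun t => (fam.D t).support) ∪ G.support with hbad
  obtain ⟨P, P₀, hPbad, hP₀bad, hPA, hP₀A, htest, g, g', hg, hg', hchart⟩ :=
    h.exists_frame_data (fam.cls t₀) bad
  set φ : Fin n → Fin m → ℚ̄ := fun j => valFun b (P j) with hφ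
  set φ₀ : Fin m → ℚ̄ := valFun b P₀ with hφ₀
  set R : fam.idx → S → ℚ̄ := fun I s => fam.gen I J₀ (p s) * (fam.gen J₀ J₀ (p s))⁻¹ with hR
  have hJ₀u : A.valuation (fam.gen J₀ J₀ (p s₀)) = 1 := fam.gen_self_unit hJ₀
  have hRreg : ∀ I, RegAt B s₀ (R I) := fun I =>
    (hgen I J₀).mul (RegAt.inv (hgen J₀ J₀) hJ₀u)
  set ev : S → (Fin 4 → Fin m → ℚ̄) → ℚ̄ := fun s a =>
    ∑ I : fam.idx, R I s * ∏ q : Fin 4 × Fin m, a q.1 q.2 ^ (I : Fin 4 × Fin m →₀ ℕ) q with hev
  have hev_eq : ∀ s a, ev s a =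
      ((fam.P (p s)).coeff J₀)⁻¹ * segreDet (fam.M (p s)) a := by
    intro s a
    have h1 : segreDet (fam.M (p s)) a = ∑ d ∈ fam.idx,
        (fam.P (p s)).coeff d * ∏ q : Fin 4 × Fin m, a q.1 q.2 ^ d q := by
      rw [← show eval (fun q => a q.1 q.2) (fam.P (p s)) = segreDet (fam.M (p s)) a from
        eval_segrePoly (fam.M (p s)) fun q => a q.1 q.2, eval_eq']
      refine Finset.sum_subset (fun d hd => ?_) fun d _ hd => by
        rw [MvPolynomial.notMem_support_iff.mp hd, zero_mul]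
      by_contra hn
      exact MvPolynomial.mem_support_iff.mp hd (fam.coeff_P_eq_zero hn _)
    rw [h1, Finset.mul_sum, ← Finset.sum_coe_sort fam.idx, hev]
    refine Finset.sum_congr rfl fun I _ => ?_
    simp only [hR, fam.gen_div]
    ring
  have hevreg : ∀ a : Fin 4 → Fin m → ℚ̄, (∀ i q, a i q ∈ A) → RegAt B s₀ fun s => ev s a :=
    fun a ha => RegAt.sum _ fun I _ => (hRreg I).mul
      (RegAt.const_of_mem (prod_mem fun q _ => pow_mem (ha _ _) _))
  set L : S → VMat n m ℚ̄ := fun s i j q => ev s (chartArg φ φ₀ i j q) with hL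
  have hLeq : ∀ s, L s = twist (((fam.P (p s)).coeff J₀)⁻¹ • (1 : Matrix (Fin n) (Fin n) ℚ̄)) 1
      (chart φ φ₀ (fam.M (p s))) := by
    intro s
    funext i j q
    simp [hL, hev_eq, twist, chart, slice]
  have hLreg : ∀ i j q, RegAt B s₀ fun s => L s i j q := fun i j q =>
    hevreg _ (res_chart (π := π) (fam.cls t₀).integral hPA hP₀A i j q).1
  have htA : ∀ i q, testArg φ i q ∈ A := by
    intro i q
    fin_cases i <;> simp [testArg, Finset.sum_apply, sum_mem, hPA, hφ, A.zero_mem]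
  set u : S → ℚ̄ := (fun s => fam.gen J₀ J₀ (p s)) * (fun s => ev s (testArg φ)) *
    (fun s => (segrePoly (L s)).coeff J₀) with hu
  have hureg : RegAt B s₀ u :=
    ((hgen J₀ J₀).mul (hevreg _ htA)).mul (RegAt.coeff_segrePoly hLreg _)
  -- the residue at the base point
  set a₀ : ℚ̄ := (fam.P t₀).coeff J₀ with ha₀
  have ha₀u : A.valuation a₀ = 1 := hπ.valuation_eq_one (fam.coeff_P_mem t₀ _) hJ₀
  have ha₀iA : a₀⁻¹ ∈ A := by rw [← A.valuation_le_one_iff, map_inv₀, ha₀u, inv_one]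
  have hresL : mapV (res π) (L s₀) =
      twist ((res π a₀⁻¹) • g) g' (mapV (res π) (fam.M t₀)) := by
    funext i j q
    obtain ⟨-, hcA, hc⟩ := res_chart (π := π) (fam.cls t₀).integral hPA hP₀A i j q
    have e1 : L s₀ i j q = a₀⁻¹ * chart φ φ₀ (fam.M t₀) i j q := by
      simp [hL, hev_eq, chart, ha₀, ht₀]
    show res π (L s₀ i j q) = _
    rw [e1, res_mul ha₀iA hcA, hc, hchart]
    simp [twist, Matrix.smul_mul]
  have hri : res π a₀⁻¹ ≠ 0 := hπ.res_ne_zero (by rw [map_inv₀, ha₀u, inv_one])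
  have hsg : ((res π a₀⁻¹) • g).det ≠ 0 := by
    rw [Matrix.det_smul]; exact mul_ne_zero (pow_ne_zero _ hri) hg
  have hu1 : A.valuation (u s₀) = 1 := by
    have h2 : A.valuation (ev s₀ (testArg φ)) = 1 := by
      obtain ⟨hm, hr⟩ := res_segreDet (π := π) (fam.cls t₀).integral htA
      rw [hev_eq, map_mul, map_inv₀, ha₀u, inv_one, one_mul]
      refine hπ.valuation_eq_one hm ?_
      rw [hr]
      convert htest using 2
      funext i q
      fin_cases i <;> simp [testArg, Finset.sum_apply, res_zero, res_sum, hPA, hφ]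
    have h3 : A.valuation ((segrePoly (L s₀)).coeff J₀) = 1 := by
      have hLA : ∀ i j q, L s₀ i j q ∈ A := fun i j q => (hLreg i j q).value_mem hB
      obtain ⟨hm, hr⟩ := res_coeff_segrePoly (π := π) hLA (J₀ : Fin 4 × Fin m →₀ ℕ)
      refine hπ.valuation_eq_one hm ?_
      rw [hr, hresL, segrePoly_twist, coeff_C_mul,
        ← (res_coeff_segrePoly (π := π) (fam.cls t₀).integral _).2]
      exact mul_ne_zero (pow_ne_zero _ (mul_ne_zero hsg hg')) hJ₀
    simp [hu, hJ₀u, h2, h3]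
  refine ⟨L, u, hLreg, hureg, hu1, ?_, ?_, ?_⟩
  · intro s hs
    simp only [hu, Pi.mul_apply, mul_ne_zero_iff] at hs
    obtain ⟨⟨hs1, hs2⟩, hs3⟩ := hs
    rw [hev_eq] at hs2
    obtain ⟨uu, vv, hu', hv', huv⟩ := (fam.cls (p s)).gen
    haveI := h.good.gen.principal
    have hoff : ∀ Q : Place ℚ̄ F, Q ∉ bad → G Q = 0 ∧ fam.D (p s) Q = 0 := by
      intro Q hQ
      simp only [hbad, Finset.mem_union, Finset.mem_biUnion, Finset.mem_univ, true_and,
        Finsupp.mem_support_iff, not_or, not_exists, not_not] at hQ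
      exact ⟨hQ.2, hQ.1 _⟩
    have hE : ∀ Q : Place ℚ̄ F, Q ∉ bad → evMat (fam.M (p s)) (valFun b Q) =
        vecMulVec (fun i => val Q (uu i)) (fun j => val Q (vv j)) := fun Q hQ =>
      evMat_valFun (h.good.gen.deg_eq Q) (by simp [(hoff Q hQ).1]) (hoff Q hQ).2
        (mem_of_span_eq h.b_span) (mem_of_span_eq hu'.2) (mem_of_span_eq hv'.2) huv
    set U : Matrix (Fin n) (Fin n) ℚ̄ := Matrix.of fun i j => val (P j) (uu i) with hU
    set V : Matrix (Fin n) (Fin n) ℚ̄ := Matrix.of fun i j => val (P j) (vv i) with hV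
    have htd : (U.det * V.det) ^ 2 ≠ 0 := by
      rw [← segreDet_testArg (fam.M (p s)) φ U V fun j => hE (P j) (hPbad j)]
      exact (mul_ne_zero_iff.mp hs2).2
    obtain ⟨hUd, hVd⟩ := mul_ne_zero_iff.mp (pow_ne_zero_iff two_ne_zero |>.mp htd)
    obtain ⟨γ, γ', hγ, -⟩ := chart_eq_twist (fam.M (p s)) φ U V (fun j => hE (P j) (hPbad j))
      φ₀ (fun i => val P₀ (uu i)) (fun i => val P₀ (vv i)) (hE P₀ hP₀bad) hUd hVd
    have e : L s = twist (((fam.P (p s)).coeff J₀)⁻¹ • γ) γ' (fam.M (p s)) := by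
      rw [hLeq, hγ, twist_twist, Matrix.smul_mul, Matrix.one_mul, Matrix.mul_one]
    have hdet : (((fam.P (p s)).coeff J₀)⁻¹ • γ).det * γ'.det ≠ 0 := by
      intro h0
      apply hs3
      rw [e, segrePoly_twist, h0]
      simp
    rw [e]
    exact (fam.cls (p s)).gen.twist (mul_ne_zero_iff.mp hdet).1 (mul_ne_zero_iff.mp hdet).2
  · rw [hresL]
    exact (fam.cls t₀).spec.twist hsg hg'
  · intro s s' he
    have hevs : ∀ a, ev s a = ev s' a := fun a => by simp [hev, hR, he]
    have hLs : L s = L s' := by funext i j q; exact hevs _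
    exact ⟨hLs, by simp [hu, he, hevs, hLs]⟩

/-- Regular multiplication matrices give regular coordinates. -/
theorem regAt_gen {L : S → VMat n m ℚ̄} (hB : Bounded B)
    (hL : ∀ i j q, RegAt B s₀ fun s => L s i j q) {u : S → ℚ̄} (hu : RegAt B s₀ u)
    (hu1 : A.valuation (u s₀) = 1) (q : S → T)
    (hrel : ∀ s, u s ≠ 0 → ∃ a : ℚ̄, segrePoly (L s) = C a * fam.P (q s))
    (hres : ∃ a : k, a ≠ 0 ∧ segrePoly (mapV (res π) (L s₀)) =
      C a * segrePoly (mapV (res π) (fam.M (q s₀)))) (I J : fam.idx) :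
    RegAt B s₀ fun s => fam.gen I J (q s) := by
  have hπ := isResidueMap G₀
  have hcoord : ∀ I : fam.idx, RegAt B s₀ fun s => coordVec fam.idx (segrePoly (L s)) I :=
    fun I => RegAt.coeff_segrePoly hL _
  set dn : S → ℚ̄ := fun s => denom fam.idx fam.Φ (segrePoly (L s)) with hdn
  have hdnreg : RegAt B s₀ dn := RegAt.aeval hcoord fam.Φ
  have hdn1 : A.valuation (dn s₀) = 1 := by
    obtain ⟨a, ha, hea⟩ := hres
    obtain ⟨hm, hr⟩ := res_aeval (π := π) (fun I => (hcoord I).value_mem hB) fam.Φ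
    refine hπ.valuation_eq_one hm ?_
    have hLA : ∀ i j q, L s₀ i j q ∈ A := fun i j q => (hL i j q).value_mem hB
    have e : (fun I : fam.idx => res π (coordVec fam.idx (segrePoly (L s₀)) I)) =
        fun I => a * res π (coordVec fam.idx (fam.P (q s₀)) I) := by
      funext I
      rw [coordVec, coordVec, (res_coeff_segrePoly (π := π) hLA _).2, hea, coeff_C_mul,
        ← (res_coeff_segrePoly (π := π) (fam.cls (q s₀)).integral _).2]
      rfl
    show res π (denom fam.idx fam.Φ (segrePoly (L s₀))) ≠ 0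
    rw [denom, hr, e, aeval_mul_of_isHomogeneous fam.hom]
    exact mul_ne_zero (pow_ne_zero _ ha) (fam.nonvanishing (q s₀))
  have hf : RegAt B s₀ ((fun s => coordVec fam.idx (segrePoly (L s)) I) *
      (fun s => coordVec fam.idx (segrePoly (L s)) J) ^ (fam.δ - 1) * dn⁻¹) :=
    ((hcoord I).mul (pow_mem (mem_regRing.mpr (hcoord J)) _)).mul (hdnreg.inv hdn1)
  refine hf.congr (hu.mul hdnreg) (by simp [hu1, hdn1]) fun s hs => ?_
  obtain ⟨hus, hds⟩ := mul_ne_zero_iff.mp hs
  obtain ⟨a, ha⟩ := hrel s hus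
  have ha0 : a ≠ 0 := fun h0 => hds (by
    show denom fam.idx fam.Φ (segrePoly (L s)) = 0
    rw [ha, denom_smul fam.hom, h0, zero_pow fam.δ_pos.ne', zero_mul])
  show fam.gen I J (q s) = _
  rw [Family.gen, ← genVal_smul fam.hom fam.δ_pos ha0, ← ha]
  simp [genVal, hdn, div_eq_mul_inv]

end Family

end Fermat.Agent.FiniteFlat
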