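import Fermat.Agent.FiniteFlat.Galois
import Mathlib.RingTheory.TensorProduct.Maps
import Mathlib.LinearAlgebra.TensorProduct.Basis

/-!
# Products of algebras of functions

For algebras mapping to functions `S₁ → ℚ̄`, `S₂ → ℚ̄`, the map from their tensor product to
functions on `S₁ × S₂` is injective when bases are sent to `ℚ̄`-independent families.
-/

set_option autoImplicit false
set_option linter.unusedSectionVars false
set_option linter.style.haveILetI false

noncomputable section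

open scoped TensorProduct

namespace Fermat.Agent.FiniteFlat

local notation "ℚ̄" => AlgebraicClosure ℚ

/-- Precomposition of `ℚ̄`-valued functions. -/
def pullback (R : Type*) [CommSemiring R] [Algebra R ℚ̄] {S T : Type*} (f : S → T) :
    (T → ℚ̄) →ₐ[R] (S → ℚ̄) :=
  AlgHom.pi fun s => Pi.evalAlgHom R (fun _ => ℚ̄) (f s)

@[simp]
theorem pullback_apply {R : Type*} [CommSemiring R] [Algebra R ℚ̄] {S T : Type*} (f : S → T)
    (h : T → ℚ̄) (s : S) : pullback R f h s = h (f s) :=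
  rfl

theorem linearIndependent_prod {S₁ S₂ ι κ : Type*} {v : ι → S₁ → ℚ̄} {w : κ → S₂ → ℚ̄}
    (hv : LinearIndependent ℚ̄ v) (hw : LinearIndependent ℚ̄ w) :
    LinearIndependent ℚ̄ (fun (q : ι × κ) (p : S₁ × S₂) => v q.1 p.1 * w q.2 p.2) := by
  classical
  rw [linearIndependent_iff']
  intro s g hg q hq
  set gg : ι × κ → ℚ̄ := fun r => if r ∈ s then g r else 0 with hgg
  have hsum : ∀ x y, ∑ i ∈ s.image Prod.fst,
      (∑ j ∈ s.image Prod.snd, gg (i, j) * w j y) * v i x = 0 := by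
    intro x y
    have h1 : ∑ r ∈ s.image Prod.fst ×ˢ s.image Prod.snd, gg r * (v r.1 x * w r.2 y) = 0 := by
      rw [← Finset.sum_subset (s₁ := s) (fun r hr => Finset.mem_product.mpr
        ⟨Finset.mem_image_of_mem _ hr, Finset.mem_image_of_mem _ hr⟩)
        (fun r _ hr => by simp [hgg, hr])]
      have := congrFun hg (x, y)
      simp only [Finset.sum_apply, Pi.smul_apply, smul_eq_mul, Pi.zero_apply] at this
      rw [← this]
      exact Finset.sum_congr rfl fun r hr => by simp [hgg, hr]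
    rw [Finset.sum_product] at h1
    rw [← h1]
    refine Finset.sum_congr rfl fun i _ => ?_
    rw [Finset.sum_mul]
    exact Finset.sum_congr rfl fun j _ => by ring
  obtain ⟨i, j⟩ := q
  have hcol : ∀ y, ∑ k ∈ s.image Prod.snd, gg (i, k) * w k y = 0 := fun y =>
    linearIndependent_iff'.mp hv _ (fun i => ∑ j ∈ s.image Prod.snd, gg (i, j) * w j y)
      (funext fun x => by simpa [Finset.sum_apply] using hsum x y) i
      (Finset.mem_image_of_mem Prod.fst hq)
  have := linearIndependent_iff'.mp hw _ (fun k => gg (i, k))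
    (funext fun y => by simpa [Finset.sum_apply] using hcol y) j
    (Finset.mem_image_of_mem Prod.snd hq)
  simpa [hgg, hq] using this

variable {R : Type*} [CommRing R] [Algebra R ℚ̄] [FaithfulSMul R ℚ̄]

/-- An algebra mapping to functions so that some basis has `ℚ̄`-independent image. -/
def KInj {X : Type} [CommRing X] [Algebra R X] {S : Type*} (f : X →ₐ[R] (S → ℚ̄)) : Prop :=
  ∃ (ι : Type) (b : Module.Basis ι R X), LinearIndependent ℚ̄ (f ∘ b)

variable {X Y : Type} [CommRing X] [Algebra R X] [CommRing Y] [Algebra R Y] {S₁ S₂ : Type*}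

theorem KInj.injective {f : X →ₐ[R] (S₁ → ℚ̄)} (hf : KInj f) : Function.Injective f := by
  obtain ⟨ι, b, hb⟩ := hf
  have hR : LinearIndependent R (f ∘ b) := hb.restrict_scalars' R
  have : f.toLinearMap = (Finsupp.linearCombination R (f ∘ b)) ∘ₗ b.repr.toLinearMap :=
    b.ext fun i => by simp
  intro x y hxy
  apply b.repr.injective
  apply hR.finsuppLinearCombination_injective
  simpa [this] using (show f.toLinearMap x = f.toLinearMap y from hxy)

/-- The product map `X ⊗ Y → (S₁ × S₂ → ℚ̄)`. -/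
def pairHom (f : X →ₐ[R] (S₁ → ℚ̄)) (g : Y →ₐ[R] (S₂ → ℚ̄)) :
    X ⊗[R] Y →ₐ[R] (S₁ × S₂ → ℚ̄) :=
  Algebra.TensorProduct.lift ((pullback R Prod.fst).comp f) ((pullback R Prod.snd).comp g)
    fun _ _ => Commute.all _ _

omit [FaithfulSMul R ℚ̄] in
@[simp]
theorem pairHom_tmul (f : X →ₐ[R] (S₁ → ℚ̄)) (g : Y →ₐ[R] (S₂ → ℚ̄)) (x : X) (y : Y)
    (p : S₁ × S₂) : pairHom f g (x ⊗ₜ y) p = f x p.1 * g y p.2 := by
  simp [pairHom]

omit [FaithfulSMul R ℚ̄] in
theorem KInj.pairHom {f : X →ₐ[R] (S₁ → ℚ̄)} {g : Y →ₐ[R] (S₂ → ℚ̄)} (hf : KInj f)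
    (hg : KInj g) : KInj (FiniteFlat.pairHom f g) := by
  obtain ⟨ι, b, hb⟩ := hf
  obtain ⟨κ, c, hc⟩ := hg
  refine ⟨ι × κ, b.tensorProduct c, ?_⟩
  have h : (FiniteFlat.pairHom f g) ∘ (b.tensorProduct c) =
      fun (q : ι × κ) (p : S₁ × S₂) => (f ∘ b) q.1 p.1 * (g ∘ c) q.2 p.2 := by
    funext q p
    simp [Module.Basis.tensorProduct_apply']
  rw [h]
  exact linearIndependent_prod hb hc

omit [FaithfulSMul R ℚ̄] in
theorem pairHom_range_le (f : X →ₐ[R] (S₁ → ℚ̄)) (g : Y →ₐ[R] (S₂ → ℚ̄)) :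
    (pairHom f g).range ≤ f.range.map (pullback R Prod.fst) ⊔ g.range.map (pullback R Prod.snd) := by
  rintro _ ⟨z, rfl⟩
  simp only [AlgHom.toRingHom_eq_coe, RingHom.coe_coe]
  induction z using TensorProduct.induction_on with
  | zero => rw [map_zero]; exact zero_mem _
  | tmul x y =>
    rw [pairHom, Algebra.TensorProduct.lift_tmul]
    exact mul_mem ((le_sup_left : _ ≤ _ ⊔ g.range.map (pullback R (Prod.snd : S₁ × S₂ → S₂)))
        ⟨f x, ⟨x, rfl⟩, rfl⟩)
      ((le_sup_right : _ ≤ f.range.map (pullback R (Prod.fst : S₁ × S₂ → S₁)) ⊔ _)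
        ⟨g y, ⟨y, rfl⟩, rfl⟩)
  | add a b ha hb => rw [map_add]; exact add_mem ha hb

omit [FaithfulSMul R ℚ̄] in
theorem le_pairHom_range (f : X →ₐ[R] (S₁ → ℚ̄)) (g : Y →ₐ[R] (S₂ → ℚ̄)) :
    f.range.map (pullback R Prod.fst) ⊔ g.range.map (pullback R Prod.snd) ≤ (pairHom f g).range := by
  refine sup_le ?_ ?_
  · rintro _ ⟨_, ⟨x, rfl⟩, rfl⟩
    exact ⟨x ⊗ₜ 1, funext fun p => by simp⟩
  · rintro _ ⟨_, ⟨y, rfl⟩, rfl⟩
    exact ⟨1 ⊗ₜ y, funext fun p => by simp⟩

end Fermat.Agent.FiniteFlat
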