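import Fermat.Agent.Reduction.TorsionCore
import Mathlib.LinearAlgebra.FiniteDimensional.Basic
import Mathlib.LinearAlgebra.Dimension.Finrank
import Mathlib.Algebra.Algebra.Operations

/-!
# Riemann–Roch in large degree and its consequences

`LargeRR K F c χ`: all places have degree one and `ℓ(D) = deg D + χ` for `deg D ≥ c`. Consequences:
sections exact at given places, surjectivity of multiplication of Riemann–Roch spaces, recovery of
a divisor class from its space of sections.
-/

set_option autoImplicit false
set_option linter.unusedSectionVars false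

noncomputable section

open WithZero

namespace Fermat.Agent.FiniteFlat

open AlgebraicCurve Fermat.Agent.Reduction.Torsion

variable (K F : Type*) [Field K] [Field F] [Algebra K F]

/-- Riemann–Roch in degree at least `c`, all places rational, infinite constants. -/
structure LargeRR (c : ℕ) (χ : ℤ) : Prop where
  deg_eq : ∀ P : Place K F, P.deg = 1
  finite : ∀ D : Divisor K F, FiniteDimensional K (riemannRochSpace D)
  ell_eq : ∀ D : Divisor K F, (c : ℤ) ≤ Divisor.degree D →
    (Module.finrank K (riemannRochSpace D) : ℤ) = Divisor.degree D + χ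
  principal : HasPrincipalDivisors K F
  infinite : Infinite K

variable {K F}

/-- `f` has exactly the order allowed by `D` at `v`. -/
def Exact (D : Divisor K F) (f : F) (v : Place K F) : Prop := f ≠ 0 ∧ v.ord f = -D v

theorem Exact.not_mem {D : Divisor K F} {f : F} {v : Place K F} (h : Exact D f v) :
    f ∉ riemannRochSpace (D - Finsupp.single v 1) := fun hm => by
  have h1 := (mem_riemannRochSpace_iff.mp hm v).resolve_left h.1
  rw [h.2, Finsupp.sub_apply, Finsupp.single_eq_same] at h1
  omega

theorem exact_of_not_mem {D : Divisor K F} {f : F} {v : Place K F} (hf : f ∈ riemannRochSpace D)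
    (hn : f ∉ riemannRochSpace (D - Finsupp.single v 1)) : Exact D f v := by
  have hf0 : f ≠ 0 := fun h => hn (h ▸ zero_mem _)
  refine ⟨hf0, le_antisymm ?_ ((mem_riemannRochSpace_iff.mp hf v).resolve_left hf0)⟩
  by_contra hc
  refine hn (mem_riemannRochSpace_iff.mpr fun w => Or.inr ?_)
  have hw := (mem_riemannRochSpace_iff.mp hf w).resolve_left hf0
  rw [Finsupp.sub_apply]
  rcases eq_or_ne w v with rfl | h
  · rw [Finsupp.single_eq_same]; omega
  · rw [Finsupp.single_eq_of_ne h]; omega

theorem degree_sub_single (D : Divisor K F) {v : Place K F} (hv : v.deg = 1) :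
    Divisor.degree (D - Finsupp.single v 1) = Divisor.degree D - 1 := by
  rw [map_sub, Divisor.degree_single, hv]
  simp

variable {c : ℕ} {χ : ℤ} (h : LargeRR K F c χ)

include h

theorem LargeRR.sub_single_lt (D : Divisor K F) (hD : (c : ℤ) + 1 ≤ Divisor.degree D)
    (v : Place K F) : riemannRochSpace (D - Finsupp.single v 1) < riemannRochSpace D := by
  haveI := h.finite D
  have hle : riemannRochSpace (D - Finsupp.single v 1) ≤ riemannRochSpace D := fun f hf =>
    rr_mono (sub_le_self D (Finsupp.single_nonneg.mpr zero_le_one)) hf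
  refine lt_of_le_of_ne hle fun he => ?_
  have h1 := h.ell_eq D (by omega)
  have hdeg := degree_sub_single D (h.deg_eq v)
  have h2 := h.ell_eq (D - Finsupp.single v 1) (by omega)
  rw [he] at h2
  omega

/-- Some section is exact at all of finitely many given places. -/
theorem LargeRR.exists_exact (D : Divisor K F) (hD : (c : ℤ) + 1 ≤ Divisor.degree D)
    (s : Finset (Place K F)) :
    ∃ f ∈ riemannRochSpace D, f ≠ 0 ∧ ∀ v ∈ s, Exact D f v := by
  classical
  haveI := h.infinite
  haveI := h.finite D
  suffices ∃ f ∈ riemannRochSpace D, ∀ v ∈ s, f ∉ riemannRochSpace (D - Finsupp.single v 1) by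
    obtain ⟨f, hf, hn⟩ := this
    rcases s.eq_empty_or_nonempty with rfl | ⟨v, hv⟩
    · obtain ⟨g, hg, hg0⟩ : ∃ g ∈ riemannRochSpace D, g ≠ 0 := by
        obtain ⟨g, hg, hgn⟩ : ∃ g ∈ riemannRochSpace D, g ∉ (⊥ : Submodule K F) := by
          refine SetLike.not_le_iff_exists.mp fun hle => ?_
          have h1 := h.ell_eq D (by omega)
          rw [le_bot_iff.mp hle, finrank_bot] at h1
          by_cases hp : ∃ v : Place K F, True
          · obtain ⟨v, -⟩ := hp
            have := h.sub_single_lt D hD v
            rw [le_bot_iff.mp hle] at this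
            exact not_lt_bot this
          · have : Divisor.degree D = 0 := by
              have hD0 : D = 0 := Finsupp.ext fun v => absurd ⟨v, trivial⟩ hp
              rw [hD0, map_zero]
            omega
        exact ⟨g, hg, fun h0 => hgn (h0 ▸ zero_mem _)⟩
      exact ⟨g, hg, hg0, fun v hv => absurd hv (Finset.notMem_empty v)⟩
    · exact ⟨f, hf, (exact_of_not_mem hf (hn v hv)).1, fun w hw => exact_of_not_mem hf (hn w hw)⟩
  induction s using Finset.induction with
  | empty => exact ⟨0, zero_mem _, by simp⟩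
  | @insert a s ha ih =>
    obtain ⟨f, hf, hfs⟩ := ih
    obtain ⟨g, hg, hga⟩ := SetLike.exists_of_lt (h.sub_single_lt D hD a)
    by_cases hfa : f ∈ riemannRochSpace (D - Finsupp.single a 1)
    · -- some `g + t • f` works
      have hbad : ∀ v ∈ s, {t : K | g + t • f ∈ riemannRochSpace
          (D - Finsupp.single v 1)}.Subsingleton := by
        intro v hv t ht t' ht'
        by_contra hne
        have hsub : g + t • f - (g + t' • f) ∈ riemannRochSpace (D - Finsupp.single v 1) :=
          Submodule.sub_mem _ ht ht'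
        rw [add_sub_add_left_eq_sub, ← sub_smul] at hsub
        exact hfs v hv ((Submodule.smul_mem_iff _ (sub_ne_zero.mpr hne)).mp hsub)
      obtain ⟨t, ht⟩ := (s.finite_toSet.biUnion fun v hv => (hbad v hv).finite).exists_notMem
      refine ⟨g + t • f, add_mem hg (Submodule.smul_mem _ t hf), fun v hv => ?_⟩
      rcases Finset.mem_insert.mp hv with rfl | hv'
      · exact fun hm => hga (by simpa using Submodule.sub_mem _ hm (Submodule.smul_mem _ t hfa))
      · exact fun hm => ht (Set.mem_biUnion hv' hm)
    · exact ⟨f, hf, fun v hv => by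
        rcases Finset.mem_insert.mp hv with rfl | hv'
        · exact hfa
        · exact hfs v hv'⟩

theorem LargeRR.exists_exact_one (D : Divisor K F) (hD : (c : ℤ) + 1 ≤ Divisor.degree D)
    (v : Place K F) : ∃ f ∈ riemannRochSpace D, Exact D f v := by
  obtain ⟨f, hf, -, he⟩ := h.exists_exact D hD {v}
  exact ⟨f, hf, he v (Finset.mem_singleton_self v)⟩

omit h in
/-- Multiplication by a function, on `F`. -/
def mulL (a : F) : F →ₗ[K] F := LinearMap.mulLeft K a

omit h in
theorem mulL_injective {a : F} (ha : a ≠ 0) : Function.Injective (mulL (K := K) a) :=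
  fun _ _ e => mul_left_cancel₀ ha e

/-- The base point free pencil trick. -/
theorem LargeRR.mul_eq_of_sub_ge (A D : Divisor K F) (hA : (c : ℤ) + 1 ≤ Divisor.degree A)
    (hDA : (c : ℤ) ≤ Divisor.degree D - Divisor.degree A) :
    riemannRochSpace A * riemannRochSpace D = riemannRochSpace (A + D) := by
  classical
  haveI := h.principal
  haveI := h.finite D
  haveI := h.finite A
  haveI := h.finite (A + D)
  have hle : riemannRochSpace A * riemannRochSpace D ≤ riemannRochSpace (A + D) :=
    Submodule.mul_le.mpr fun x hx y hy => rr_mul hx hy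
  obtain ⟨s, hs, hs0, -⟩ := h.exists_exact A hA ∅
  obtain ⟨Ds, hDs, -⟩ := HasPrincipalDivisors.exists_divisor (K := K) s hs0
  obtain ⟨t, ht, ht0, htex⟩ := h.exists_exact A hA (Ds.support ∪ A.support)
  have hor : ∀ v, Exact A s v ∨ Exact A t v := by
    intro v
    by_cases hv : v ∈ Ds.support ∪ A.support
    · exact Or.inr (htex v hv)
    · simp only [Finset.mem_union, Finsupp.mem_support_iff, not_or, not_not] at hv
      exact Or.inl ⟨hs0, by rw [← hDs v, hv.1, hv.2, neg_zero]⟩
  set P := (riemannRochSpace D).map (mulL (K := K) s) with hP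
  set Q := (riemannRochSpace D).map (mulL (K := K) t) with hQ
  have hinf : P ⊓ Q ≤ (riemannRochSpace (D - A)).map (mulL (K := K) (s * t)) := by
    rintro f ⟨⟨x, hx, rfl⟩, ⟨y, hy, hxy⟩⟩
    have hxy' : t * y = s * x := hxy
    refine ⟨x * t⁻¹, ?_, by simp only [mulL, LinearMap.mulLeft_apply]; field_simp⟩
    refine mem_riemannRochSpace_iff.mpr fun v => ?_
    rcases eq_or_ne x 0 with rfl | hx0
    · simp
    right
    have hy0 : y ≠ 0 := by
      rintro rfl
      rw [mul_zero] at hxy'
      exact mul_ne_zero hs0 hx0 hxy'.symm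
    rw [Finsupp.sub_apply]
    rcases hor v with he | he
    · have hyv := (mem_riemannRochSpace_iff.mp hy v).resolve_left hy0
      rw [show x * t⁻¹ = y * s⁻¹ by field_simp; rw [mul_comm, ← hxy', mul_comm],
        v.ord_mul hy0 (inv_ne_zero hs0), v.ord_inv, he.2]
      omega
    · have hxv := (mem_riemannRochSpace_iff.mp hx v).resolve_left hx0
      rw [v.ord_mul hx0 (inv_ne_zero ht0), v.ord_inv, he.2]
      omega
  have hsup : P ⊔ Q ≤ riemannRochSpace A * riemannRochSpace D := by
    refine sup_le ?_ ?_ <;> rintro _ ⟨x, hx, rfl⟩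
    · exact Submodule.mul_mem_mul hs hx
    · exact Submodule.mul_mem_mul ht hx
  haveI := h.finite (D - A)
  have e1 : Module.finrank K P = Module.finrank K (riemannRochSpace D) :=
    (Submodule.equivMapOfInjective _ (mulL_injective hs0) _).finrank_eq.symm
  have e2 : Module.finrank K Q = Module.finrank K (riemannRochSpace D) :=
    (Submodule.equivMapOfInjective _ (mulL_injective ht0) _).finrank_eq.symm
  have e3 := (Submodule.finrank_mono hinf).trans
    (Submodule.finrank_map_le (mulL (K := K) (s * t)) (riemannRochSpace (D - A)))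
  have e4 := Submodule.finrank_sup_add_finrank_inf_eq P Q
  have r1 := h.ell_eq D (by omega)
  have r2 := h.ell_eq (D - A) (by rw [map_sub]; omega)
  have r3 := h.ell_eq (A + D) (by rw [map_add]; omega)
  rw [map_sub] at r2
  rw [map_add] at r3
  have htot : P ⊔ Q = riemannRochSpace (A + D) :=
    Submodule.eq_of_le_of_finrank_le (hsup.trans hle) (by omega)
  exact le_antisymm hle (htot ▸ hsup)

/-- Surjectivity of multiplication. -/
theorem LargeRR.mul_eq (D₁ D₂ : Divisor K F) (h₁ : 2 * (c : ℤ) + 2 ≤ Divisor.degree D₁)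
    (h₂ : 2 * (c : ℤ) + 1 ≤ Divisor.degree D₂) :
    riemannRochSpace D₁ * riemannRochSpace D₂ = riemannRochSpace (D₁ + D₂) := by
  by_cases hp : ∃ v : Place K F, True
  swap
  · have h0 : D₁ = 0 := Finsupp.ext fun v => absurd ⟨v, trivial⟩ hp
    rw [h0, map_zero] at h₁
    omega
  obtain ⟨P, -⟩ := hp
  set A : Divisor K F := Finsupp.single P ((c : ℤ) + 1) with hA
  have hdA : Divisor.degree A = (c : ℤ) + 1 := by rw [hA, Divisor.degree_single, h.deg_eq]; simp
  refine le_antisymm (Submodule.mul_le.mpr fun x hx y hy => rr_mul hx hy) ?_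
  have h2 := h.mul_eq_of_sub_ge A D₂ (by omega) (by omega)
  rcases le_or_gt (Divisor.degree (D₁ - A)) (Divisor.degree (A + D₂) - c) with hle | hgt
  · have h3 := h.mul_eq_of_sub_ge (D₁ - A) (A + D₂) (by rw [map_sub]; omega) (by omega)
    have hsplit : D₁ - A + (A + D₂) = D₁ + D₂ := by abel
    rw [← hsplit, ← h3, ← h2, ← mul_assoc]
    refine mul_le_mul' (Submodule.mul_le.mpr fun x hx y hy => ?_) le_rfl
    simpa using rr_mul hx hy
  · have h3 := h.mul_eq_of_sub_ge D₂ D₁ (by omega) (by rw [map_sub, map_add] at hgt; omega)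
    rw [add_comm D₁, ← h3, mul_comm]

/-- A function times all sections of a base point free divisor determines a bound. -/
theorem LargeRR.mem_of_mul_mem (D' G : Divisor K F) (hD' : (c : ℤ) + 1 ≤ Divisor.degree D') (y : F)
    (hy : ∀ v ∈ riemannRochSpace D', y * v ∈ riemannRochSpace G) :
    y ∈ riemannRochSpace (G - D') := by
  refine mem_riemannRochSpace_iff.mpr fun w => ?_
  rcases eq_or_ne y 0 with rfl | hy0
  · exact Or.inl rfl
  obtain ⟨v, hv, hex⟩ := h.exists_exact_one D' hD' w
  have h1 := (mem_riemannRochSpace_iff.mp (hy v hv) w).resolve_left (mul_ne_zero hy0 hex.1)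
  rw [w.ord_mul hy0 hex.1, hex.2] at h1
  exact Or.inr (by rw [Finsupp.sub_apply]; omega)

/-- A divisor is determined up to linear equivalence by its sections. -/
theorem LargeRR.isPrincipal_of_map_eq (D D' : Divisor K F) (hD : (c : ℤ) + 1 ≤ Divisor.degree D)
    (hD' : (c : ℤ) + 1 ≤ Divisor.degree D') {f : F} (hf : f ≠ 0)
    (he : (riemannRochSpace D).map (mulL (K := K) f) = riemannRochSpace D') :
    Divisor.IsPrincipal (D - D') := by
  refine ⟨f, hf, fun w => ?_⟩
  rw [Finsupp.sub_apply]
  obtain ⟨u, hu, hex⟩ := h.exists_exact_one D hD w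
  obtain ⟨u', hu', hex'⟩ := h.exists_exact_one D' hD' w
  have h1 : f * u ∈ riemannRochSpace D' := he ▸ ⟨u, hu, rfl⟩
  obtain ⟨x, hx, rfl⟩ : u' ∈ (riemannRochSpace D).map (mulL (K := K) f) := he ▸ hu'
  have hx0 : x ≠ 0 := fun hx0 => hex'.1 (by simp [mulL, hx0])
  have h2 := (mem_riemannRochSpace_iff.mp h1 w).resolve_left (mul_ne_zero hf hex.1)
  have h3 := (mem_riemannRochSpace_iff.mp hx w).resolve_left hx0
  have h4 : w.ord (f * x) = -D' w := hex'.2
  rw [w.ord_mul hf hex.1, hex.2] at h2
  rw [w.ord_mul hf hx0] at h4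
  omega

end Fermat.Agent.FiniteFlat
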