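import Fermat.Agent.Reduction.Inputs
import Fermat.Agent.FiniteFlat.Lift
import Fermat.Agent.FiniteFlat.Galois
import Fermat.Agent.MordellWeil.Descent

/-!
# Saturated rational bases of spaces of functions on `X₀(N)`

A rational function of `X₀(N)` becomes integral with non-zero reduction after multiplication by a
power of `ℓ`; a Galois stable space of functions has a rational basis, integral at the place above
`ℓ`, whose reductions are linearly independent.
-/

set_option autoImplicit false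
set_option linter.unusedSectionVars false

noncomputable section

namespace Fermat.Agent.FiniteFlat

open AlgebraicCurve ModularCurve HahnSeries
open Fermat.Agent.Reduction Fermat.Agent.Reduction.Torsion Fermat.Agent.EichlerShimura

local notation "ℚ̄" => AlgebraicClosure ℚ
local notation "Γℚ" => (AlgebraicClosure ℚ ≃ₐ[ℚ] AlgebraicClosure ℚ)
local notation "ιℤ" => Int.castRingHom ℚ

/-- A non-zero integral series is a power of `ℓ` times a series not divisible by `ℓ`. -/
theorem satz_exists_primitive (ℓ : ℕ) [Fact ℓ.Prime] (a : LaurentSeries ℤ) (ha : a ≠ 0) :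
    ∃ (i : ℕ) (a' : LaurentSeries ℤ), a = HahnSeries.C ((ℓ : ℤ) ^ i) * a' ∧
      ∃ n, ¬ (ℓ : ℤ) ∣ a'.coeff n := by
  classical
  obtain ⟨n₀, hn₀⟩ : ∃ n, a.coeff n ≠ 0 := by
    by_contra h
    push Not at h
    exact ha (HahnSeries.ext (funext h))
  have hex : ∃ i, ¬ ∀ n, (ℓ : ℤ) ^ i ∣ a.coeff n := by
    refine ⟨(a.coeff n₀).natAbs, fun h => ?_⟩
    have h1 := Int.le_of_dvd (Int.natAbs_pos.mpr hn₀ |> Int.natCast_pos.mpr)
      (Int.dvd_natAbs.mpr (h n₀))
    have h2 : (a.coeff n₀).natAbs < ℓ ^ (a.coeff n₀).natAbs :=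
      Nat.lt_pow_self (Fact.out : ℓ.Prime).one_lt
    exact absurd h1 (not_le.mpr (by exact_mod_cast h2))
  have hpos : Nat.find hex ≠ 0 := fun h => Nat.find_spec hex fun n => by rw [h, pow_zero]; exact one_dvd _
  obtain ⟨i, hi⟩ := Nat.exists_eq_succ_of_ne_zero hpos
  have hd : ∀ n, (ℓ : ℤ) ^ i ∣ a.coeff n := not_not.mp (Nat.find_min hex (by omega))
  let a' : LaurentSeries ℤ :=
    { coeff := fun n => a.coeff n / (ℓ : ℤ) ^ i
      isPWO_support' := a.isPWO_support.mono fun n hn h0 => hn (by simp [h0]) }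
  refine ⟨i, a', HahnSeries.ext (funext fun n => ?_), ?_⟩
  · rw [HahnSeries.C_mul_eq_smul, HahnSeries.coeff_smul]
    exact (Int.mul_ediv_cancel' (hd n)).symm
  · by_contra h
    push Not at h
    refine Nat.find_spec hex fun n => ?_
    rw [hi, pow_succ, ← Int.mul_ediv_cancel' (hd n)]
    exact mul_dvd_mul_left _ (h n)

/-- A rational function of `X₀(N)` is a quotient of integral series in the function field. -/
theorem satz_exists_int_fraction (N : ℕ) [NeZero N] {x : LaurentSeries ℚ}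
    (hx : x ∈ modularFunctionFieldFull N) :
    ∃ a b : LaurentSeries ℤ, coeffMap ιℤ a ∈ modularFunctionFieldFull N ∧
      coeffMap ιℤ b ∈ modularFunctionFieldFull N ∧ b ≠ 0 ∧
      x * coeffMap ιℤ b = coeffMap ιℤ a := by
  have hinj : Function.Injective (coeffMap ιℤ) :=
    Igusa.coeffMap_injective (f := ιℤ) Int.cast_injective
  rw [← modularFunctionFieldFullC_rat] at hx
  induction hx using IntermediateField.adjoin_induction with
  | mem v hv =>
    obtain ⟨d, hne, hd, rfl⟩ := hv
    haveI := hne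
    refine ⟨qExpand ℤ d (jqModC ℤ), 1, ?_, by simp, one_ne_zero, by
      rw [map_one, mul_one, coeffMap_qExpand, coeffMap_jqModC]⟩
    rw [coeffMap_qExpand, coeffMap_jqModC, ← modularFunctionFieldFullC_rat]
    exact jqModCd_mem_full _ N hd
  | algebraMap c =>
    refine ⟨HahnSeries.single 0 c.num, HahnSeries.single 0 (c.den : ℤ), ?_, ?_, ?_, ?_⟩
    · rw [coeffMap_single, ← algebraMap_laurentSeries_eq_single]
      exact (modularFunctionFieldFull N).algebraMap_mem _
    · rw [coeffMap_single, ← algebraMap_laurentSeries_eq_single]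
      exact (modularFunctionFieldFull N).algebraMap_mem _
    · exact HahnSeries.single_ne_zero (by simp [c.den_nz])
    · rw [coeffMap_single, coeffMap_single, algebraMap_laurentSeries_eq_single,
        HahnSeries.single_mul_single, zero_add]
      simp [Rat.mul_den_eq_num]
  | add x y _ _ hx hy =>
    obtain ⟨a, b, ha, hb, hb0, h⟩ := hx
    obtain ⟨a', b', ha', hb', hb0', h'⟩ := hy
    exact ⟨a * b' + a' * b, b * b', by simpa using add_mem (mul_mem ha hb') (mul_mem ha' hb),
      by simpa using mul_mem hb hb', mul_ne_zero hb0 hb0',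
      by simp only [map_add, map_mul, ← h, ← h']; ring⟩
  | inv x _ hx =>
    obtain ⟨a, b, ha, hb, hb0, h⟩ := hx
    rcases eq_or_ne x 0 with rfl | hx0
    · exact ⟨0, 1, by simp, by simp, one_ne_zero, by simp⟩
    refine ⟨b, a, hb, ha, fun h0 => ?_, by rw [← h, ← mul_assoc, inv_mul_cancel₀ hx0, one_mul]⟩
    rw [h0, map_zero] at h
    exact hb0 (hinj (by rw [map_zero]; exact (mul_eq_zero.mp h).resolve_left hx0))
  | mul x y _ _ hx hy =>
    obtain ⟨a, b, ha, hb, hb0, h⟩ := hx
    obtain ⟨a', b', ha', hb', hb0', h'⟩ := hy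
    exact ⟨a * a', b * b', by simpa using mul_mem ha ha', by simpa using mul_mem hb hb',
      mul_ne_zero hb0 hb0', by simp only [map_mul, ← h, ← h']; ring⟩

/-- A fixed function has a rational `q`-expansion. -/
theorem satz_exists_rat_of_fixed {N : ℕ} {f : modularFunctionFieldBar N}
    (hf : ∀ σ : Γℚ, arithmeticGalois (modularFunctionFieldFull N) σ • f = f) :
    ∃ x ∈ modularFunctionFieldFull N, coeffEmb ℚ̄ x = (f : LaurentSeries ℚ̄) := by
  have hcoef : ∀ n, ∃ q : ℚ, algebraMap ℚ ℚ̄ q = (f : LaurentSeries ℚ̄).coeff n := fun n =>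
    mem_range_of_fixed fun σ => by
      have := congrArg (fun z : modularFunctionFieldBar N => (z : LaurentSeries ℚ̄).coeff n) (hf σ)
      simpa [coe_arithmeticGalois_smul] using this
  choose q hq using hcoef
  let x : LaurentSeries ℚ :=
    { coeff := q
      isPWO_support' := (f : LaurentSeries ℚ̄).isPWO_support.mono fun n hn h0 => hn
        ((algebraMap ℚ ℚ̄).injective ((hq n).trans (h0.trans (map_zero _).symm))) }
  have hx : coeffEmb ℚ̄ x = (f : LaurentSeries ℚ̄) := HahnSeries.ext (funext hq)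
  refine ⟨x, ?_, hx⟩
  have hle : laurentBaseChange ℚ (modularFunctionFieldFull N) ≤ modularFunctionFieldFull N := by
    rw [laurentBaseChange, IntermediateField.adjoin_le_iff]
    rintro _ ⟨z, hz, rfl⟩
    have : coeffEmb ℚ z = z := HahnSeries.ext (funext fun n => by simp)
    rwa [this]
  exact hle (mem_of_coeffMap_mem _ (Algebra.ofId ℚ ℚ̄) (show coeffEmb ℚ̄ x ∈ _ from hx ▸ f.2))

/-- Galois acts on scalar multiples semilinearly. -/
theorem satz_galois_smul_smul {N : ℕ} (σ : Γℚ) (c : ℚ̄) (f : modularFunctionFieldBar N) :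
    arithmeticGalois (modularFunctionFieldFull N) σ • (c • f) =
      σ c • (arithmeticGalois (modularFunctionFieldFull N) σ • f) := by
  simp only [SemilinearAut.smul_def, toRingAut_arithmeticGalois, Algebra.smul_def, map_mul,
    arithmeticRingAut_algebraMap]

section Place

variable {ℓ : ℕ} [Fact ℓ.Prime] {A : ValuationSubring ℚ̄} (hA : A.LiesOverPrime ℓ)

include hA

theorem satz_natCast_isUnit {n : ℕ} (hn : ¬ ℓ ∣ n) : IsUnit (n : A) := by
  by_contra hu
  refine EC.natCast_residue_ne_zero A (Fact.out : ℓ.Prime) hA hn ?_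
  rw [← map_natCast (IsLocalRing.residue A), IsLocalRing.residue_eq_zero_iff]
  exact hu

theorem satz_rat_mem (q : ℚ) : algebraMap ℚ ℚ̄ q ∈ A ↔ q ∈ GaloisRep.ratLocalizedAt ℓ := by
  have hp : ℓ.Prime := Fact.out
  show _ ↔ q.den.Coprime ℓ
  rw [Nat.coprime_comm, hp.coprime_iff_not_dvd]
  constructor
  · intro h hd
    have hnum : ¬ (ℓ : ℤ) ∣ q.num := fun hn => by
      have h1 : ℓ ∣ Nat.gcd q.num.natAbs q.den := Nat.dvd_gcd (Int.natCast_dvd.mp hn) hd
      rw [q.reduced] at h1
      exact hp.not_dvd_one h1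
    refine hnum ((EC.intCast_residue_eq_zero_iff A hp hA q.num).mp ?_)
    have he : (q.num : A) = ⟨_, h⟩ * (q.den : A) := Subtype.ext (by
      show A.subtype (q.num : A) = A.subtype (⟨_, h⟩ * (q.den : A))
      rw [map_mul, map_intCast, map_natCast]
      show (q.num : ℚ̄) = algebraMap ℚ ℚ̄ q * (q.den : ℚ̄)
      rw [← map_natCast (algebraMap ℚ ℚ̄) q.den, ← map_intCast (algebraMap ℚ ℚ̄) q.num,
        ← map_mul, Rat.mul_den_eq_num])
    rw [← map_intCast (IsLocalRing.residue A), he, map_mul, map_natCast,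
      show ((q.den : ℕ) : IsLocalRing.ResidueField A) = 0 from by
        obtain ⟨e, he⟩ := hd
        rw [he, Nat.cast_mul, EC.natCast_residue_eq_zero A hA, zero_mul], mul_zero]
  · intro h
    obtain ⟨u, hu⟩ := satz_natCast_isUnit hA h
    have : algebraMap ℚ ℚ̄ q = (((q.num : A) * ((u⁻¹ : Aˣ) : A) : A) : ℚ̄) := by
      have h1 : ((u : A) : ℚ̄) * (((u⁻¹ : Aˣ) : A) : ℚ̄) = 1 := congrArg Subtype.val u.mul_inv
      rw [hu] at h1
      have hden : (q.den : ℚ̄) ≠ 0 := by exact_mod_cast q.den_nz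
      conv_lhs => rw [← Rat.num_div_den q]
      simp only [map_div₀, map_intCast, map_natCast, MulMemClass.coe_mul]
      rw [div_eq_iff hden]
      have h2 : (((q.num : A)) : ℚ̄) = (q.num : ℚ̄) := map_intCast A.subtype q.num
      rw [h2]
      have h3 : (((q.den : A)) : ℚ̄) = (q.den : ℚ̄) := map_natCast A.subtype q.den
      rw [h3] at h1
      linear_combination (-(q.num : ℚ̄)) * h1
    rw [this]
    exact SetLike.coe_mem _

/-- A non-zero element is not infinitely divisible by `ℓ` in `A`. -/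
theorem satz_eq_zero_of_divisible {t : ℚ̄} (h : ∀ n : ℕ, t / (ℓ : ℚ̄) ^ n ∈ A) : t = 0 := by
  by_contra ht
  have hp : ℓ.Prime := Fact.out
  have halg : IsAlgebraic ℤ t⁻¹ :=
    (IsFractionRing.isAlgebraic_iff ℤ ℚ ℚ̄).2 ((AlgebraicClosure.isAlgebraic ℚ).isAlgebraic _)
  obtain ⟨y, hy, p, hpm, hz⟩ := halg.exists_integral_multiple
  have hmem : (y : ℚ̄) * t⁻¹ ∈ A := by
    rw [zsmul_eq_mul] at hz
    refine EC.mem_of_root_monic A (hpm.map (Int.castRingHom A)) ?_
    rw [Polynomial.aeval_def, Polynomial.eval₂_map,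
      RingHom.ext_int ((algebraMap A ℚ̄).comp (Int.castRingHom A)) (algebraMap ℤ ℚ̄)]
    exact hz
  set n := y.natAbs
  have h1 : algebraMap ℚ ℚ̄ ((y : ℚ) / (ℓ : ℚ) ^ n) ∈ A := by
    have h2 := mul_mem hmem (h n)
    convert h2 using 1
    rw [map_div₀, map_intCast, map_pow, map_natCast]
    field_simp
  have h2 := (satz_rat_mem hA _).mp h1
  change ((y : ℚ) / (ℓ : ℚ) ^ n).den.Coprime ℓ at h2
  set q := (y : ℚ) / (ℓ : ℚ) ^ n with hq
  have h3 : y * (q.den : ℤ) = q.num * (ℓ : ℤ) ^ n := by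
    have h4 : q * (ℓ : ℚ) ^ n = y := by
      rw [hq, div_mul_cancel₀ _ (pow_ne_zero _ (by exact_mod_cast hp.ne_zero))]
    have h5 : (q.num : ℚ) = q * q.den := (Rat.mul_den_eq_num q).symm
    exact_mod_cast (by rw [h5, ← h4]; ring : (y : ℚ) * q.den = q.num * (ℓ : ℚ) ^ n)
  have h4 : ℓ ^ n ∣ y.natAbs * q.den := by
    have := congrArg Int.natAbs h3
    simp only [Int.natAbs_mul, Int.natAbs_natCast, Int.natAbs_pow] at this
    exact ⟨q.num.natAbs, by rw [this]; ring⟩
  exact absurd (Nat.le_of_dvd (Int.natAbs_pos.mpr hy)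
    ((Nat.Coprime.pow_left n h2.symm).dvd_of_dvd_mul_right h4))
    (not_le.mpr (Nat.lt_pow_self hp.one_lt))

end Place

section Modular

variable {N : ℕ} [NeZero N] {ℓ : ℕ} [Fact ℓ.Prime] (hℓN : ¬ ℓ ∣ N)
  {A : ValuationSubring ℚ̄} (hA : A.LiesOverPrime ℓ)
  [CharP (IsLocalRing.ResidueField A) ℓ]

local notation "FBar" => modularFunctionFieldBar N
local notation "kA" => IsLocalRing.ResidueField A
local notation "Fk" => modularFunctionFieldFullC (IsLocalRing.ResidueField A) N

variable (ℓ) in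
/-- The series has coefficients in the prime field. -/
def satzPrimeCoeff (g : Fk) : Prop :=
  ∀ n : ℤ, ∃ c : ZMod ℓ, ZMod.castHom (dvd_refl ℓ) kA c = (g : LaurentSeries kA).coeff n

include hℓN hA

/-- Scaling of a rational function by a power of `ℓ`. -/
theorem satz_exists_zpow_smul {f : FBar} (hf : f ≠ 0)
    (hfix : ∀ σ : Γℚ, arithmeticGalois (modularFunctionFieldFull N) σ • f = f) :
    ∃ (e : ℤ) (g : Fk), g ≠ 0 ∧ satzPrimeCoeff ℓ g ∧
      ((ℓ : ℚ̄) ^ e • f, g) ∈ modGraph (IsLocalRing.residue A) N := by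
  have hp : ℓ.Prime := Fact.out
  obtain ⟨x, hx, hxf⟩ := satz_exists_rat_of_fixed hfix
  obtain ⟨a, b, ha, hb, hb0, hab⟩ := satz_exists_int_fraction N hx
  have ha0 : a ≠ 0 := by
    rintro rfl
    rw [map_zero, mul_eq_zero] at hab
    rcases hab with h | h
    · refine hf (Subtype.ext ?_)
      rw [← hxf, h, map_zero]
      rfl
    · exact hb0 (Igusa.coeffMap_injective (f := ιℤ) Int.cast_injective (by rw [h, map_zero]))
  obtain ⟨i, a', rfl, na, hna⟩ := satz_exists_primitive ℓ a ha0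
  obtain ⟨j, b', rfl, nb, hnb⟩ := satz_exists_primitive ℓ b hb0
  have hℓ0 : (ℓ : ℚ) ≠ 0 := by exact_mod_cast hp.ne_zero
  have hscale : ∀ (e : ℕ) (c : LaurentSeries ℤ),
      coeffMap ιℤ (HahnSeries.C ((ℓ : ℤ) ^ e) * c) ∈ modularFunctionFieldFull N →
        coeffMap ιℤ c ∈ modularFunctionFieldFull N := by
    intro e c hc
    have h1 := mul_mem ((modularFunctionFieldFull N).algebraMap_mem ((ℓ : ℚ) ^ e)⁻¹) hc
    rw [map_mul, Igusa.coeffMap_C, algebraMap_laurentSeries_eq_single, ← mul_assoc,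
      show (HahnSeries.single (0 : ℤ) ((ℓ : ℚ) ^ e)⁻¹) = HahnSeries.C ((ℓ : ℚ) ^ e)⁻¹ from rfl,
      ← map_mul, eq_intCast, Int.cast_pow, Int.cast_natCast,
      inv_mul_cancel₀ (pow_ne_zero _ hℓ0), map_one, one_mul] at h1
    exact h1
  set ia : LaurentSeries A := coeffMap (Int.castRingHom A) a' with hia
  set ib : LaurentSeries A := coeffMap (Int.castRingHom A) b' with hib
  have hemb : ∀ c : LaurentSeries ℤ,
      coeffMap A.subtype (coeffMap (Int.castRingHom A) c) = coeffEmb ℚ̄ (coeffMap ιℤ c) := by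
    intro c
    rw [coeffEmb, coeffMap_coeffMap, coeffMap_coeffMap]
    exact coeffMap_congr (RingHom.ext_int _ _) _
  have hmemA : coeffMap A.subtype ia ∈ FBar := by
    rw [hia, hemb]; exact coeffEmb_mem_laurentBaseChange _ (hscale i a' ha)
  have hmemB : coeffMap A.subtype ib ∈ FBar := by
    rw [hib, hemb]; exact coeffEmb_mem_laurentBaseChange _ (hscale j b' hb)
  set π := IsLocalRing.residue A with hπ
  have hred : ∀ c : LaurentSeries ℤ, coeffMap π (coeffMap (Int.castRingHom A) c) =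
      coeffMap (ZMod.castHom (dvd_refl ℓ) kA) (coeffMap (Int.castRingHom (ZMod ℓ)) c) := by
    intro c
    rw [coeffMap_coeffMap, coeffMap_coeffMap]
    exact coeffMap_congr (RingHom.ext_int _ _) _
  have hne : ∀ c : LaurentSeries ℤ, (∃ n, ¬ (ℓ : ℤ) ∣ c.coeff n) →
      coeffMap π (coeffMap (Int.castRingHom A) c) ≠ 0 := by
    rintro c ⟨n, hn⟩ h
    refine hn ((EC.intCast_residue_eq_zero_iff A hp hA _).mp ?_)
    have := congrArg (fun z : LaurentSeries kA => z.coeff n) h
    simpa using this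
  have hu0 := hne a' ⟨na, hna⟩
  have hv0 := hne b' ⟨nb, hnb⟩
  let ga : Fk := ⟨coeffMap π ia, coeffMap_residue_mem_fullC N hℓN A hA ia hmemA⟩
  let gb : Fk := ⟨coeffMap π ib, coeffMap_residue_mem_fullC N hℓN A hA ib hmemB⟩
  refine ⟨(j : ℤ) - i, ga / gb, div_ne_zero (fun h => hu0 (congrArg Subtype.val h))
    (fun h => hv0 (congrArg Subtype.val h)), ?_, ?_⟩
  · intro n
    set φ := coeffMap (ZMod.castHom (dvd_refl ℓ) kA) with hφ
    refine ⟨(coeffMap (Int.castRingHom (ZMod ℓ)) a' / coeffMap (Int.castRingHom (ZMod ℓ)) b').coeff n,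
      ?_⟩
    show _ = (coeffMap π ia / coeffMap π ib).coeff n
    rw [hia, hib, hred, hred, ← map_div₀ φ, hφ, coeffMap_coeff]
  · refine mem_modGraph.mpr ⟨ia, ib, hv0, ?_, ?_⟩
    · have he : (((ℓ : ℚ̄) ^ ((j : ℤ) - i) • f : FBar) : LaurentSeries ℚ̄) =
          HahnSeries.C ((ℓ : ℚ̄) ^ ((j : ℤ) - i)) * coeffEmb ℚ̄ x := by
        rw [hxf, IntermediateField.coe_smul, HahnSeries.C_mul_eq_smul]
        exact Algebra.smul_def _ _ |>.trans (by
          rw [algebraMap_laurentSeries_eq_single]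
          exact HahnSeries.C_mul_eq_smul)
      have h1 := congrArg (coeffEmb ℚ̄) hab
      simp only [map_mul, coeffEmb, Igusa.coeffMap_C] at h1
      simp only [eq_intCast, Int.cast_pow, Int.cast_natCast, map_natCast, map_pow] at h1
      rw [he, hia, hib, hemb, hemb, coeffEmb]
      have hℓ' : (ℓ : ℚ̄) ≠ 0 := by exact_mod_cast hp.ne_zero
      have hC : (HahnSeries.C ((ℓ : ℚ̄) ^ i) : LaurentSeries ℚ̄) ≠ 0 :=
        fun h => pow_ne_zero i hℓ' (HahnSeries.C_injective (h.trans (map_zero _).symm))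
      refine mul_left_cancel₀ hC ?_
      simp only [zpow_sub₀ hℓ', zpow_natCast, map_div₀, map_pow, map_natCast] at hC ⊢
      rw [← h1]
      field_simp
    · show (coeffMap π ia / coeffMap π ib) * coeffMap π ib = coeffMap π ia
      exact div_mul_cancel₀ _ hv0

/-- An integral rational function: prime field coefficients, and divisibility by `ℓ` when it
reduces to zero. -/
theorem satz_of_fixed_graph {f : FBar} {g : Fk}
    (hfix : ∀ σ : Γℚ, arithmeticGalois (modularFunctionFieldFull N) σ • f = f)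
    (hfg : (f, g) ∈ modGraph (IsLocalRing.residue A) N) :
    satzPrimeCoeff ℓ g ∧
      (g = 0 → ∃ g', ((ℓ : ℚ̄)⁻¹ • f, g') ∈ modGraph (IsLocalRing.residue A) N) := by
  set G := gaussDataX0 N hℓN A hA with hG
  have hℓ' : (ℓ : ℚ̄) ≠ 0 := by exact_mod_cast (Fact.out : ℓ.Prime).ne_zero
  rcases eq_or_ne f 0 with rfl | hf
  · obtain rfl : g = 0 := G.unique g hfg
    exact ⟨fun n => ⟨0, by simp⟩, fun _ => ⟨0, by rw [smul_zero]; exact G.graph.zero_mem⟩⟩
  have hnat : ∀ (d : ℕ) {h : FBar} {h' : Fk}, (h, h') ∈ G.graph →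
      ((ℓ : ℚ̄) ^ d • h, (ℓ : kA) ^ d • h') ∈ G.graph := by
    intro d h h' hh
    have := G.smul_mem ((ℓ : A) ^ d) hh
    rw [map_pow, map_natCast] at this
    convert this using 2
    simp
  obtain ⟨e, g₀, hg₀, hP, he⟩ := satz_exists_zpow_smul hℓN hA hf hfix
  rcases lt_trichotomy e 0 with h | rfl | h
  · obtain ⟨d, rfl⟩ : ∃ d : ℕ, e = -((d : ℤ) + 1) := ⟨(-e - 1).toNat, by omega⟩
    have h1 := hnat (d + 1) he
    rw [EC.natCast_residue_eq_zero A hA, zero_pow d.succ_ne_zero, zero_smul, smul_smul,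
      show (ℓ : ℚ̄) ^ (d + 1) * (ℓ : ℚ̄) ^ (-((d : ℤ) + 1)) = 1 by
        rw [← zpow_natCast, ← zpow_add₀ hℓ']; simp, one_smul] at h1
    obtain rfl : g = 0 := G.eq_of_mem hfg h1
    refine ⟨fun n => ⟨0, by simp⟩, fun _ => ⟨(ℓ : kA) ^ d • g₀, ?_⟩⟩
    have h2 := hnat d he
    rwa [smul_smul, show (ℓ : ℚ̄) ^ d * (ℓ : ℚ̄) ^ (-((d : ℤ) + 1)) = (ℓ : ℚ̄)⁻¹ by
      rw [← zpow_natCast, ← zpow_add₀ hℓ']; simp] at h2
  · rw [zpow_zero, one_smul] at he
    obtain rfl : g = g₀ := G.eq_of_mem hfg he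
    exact ⟨hP, fun h => absurd h hg₀⟩
  · obtain ⟨d, rfl⟩ : ∃ d : ℕ, e = ((d + 1 : ℕ) : ℤ) := ⟨(e - 1).toNat, by omega⟩
    have h1 := hnat (d + 1) hfg
    rw [EC.natCast_residue_eq_zero A hA, zero_pow d.succ_ne_zero, zero_smul] at h1
    rw [zpow_natCast] at he
    exact absurd (G.eq_of_mem he h1) hg₀

/-- A combination of prime field series with prime field value has natural coefficients. -/
theorem satz_exists_nat_combination {r : ℕ} {g : Fin r → Fk} {g' : Fk}
    (hg : ∀ i, satzPrimeCoeff ℓ (g i)) (hg' : satzPrimeCoeff ℓ g')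
    (hmem : g' ∈ Submodule.span kA (Set.range g)) :
    ∃ a : Fin r → ℕ, g' = ∑ i, (a i : kA) • g i := by
  letI := ZMod.algebra kA ℓ
  obtain ⟨c, hc⟩ := (Submodule.mem_span_range_iff_exists_fun kA).mp hmem
  obtain ⟨φ, hφ⟩ := (Algebra.linearMap (ZMod ℓ) kA).exists_leftInverse_of_injective
    (LinearMap.ker_eq_bot.mpr (algebraMap (ZMod ℓ) kA).injective)
  have hφ1 : ∀ z : ZMod ℓ, φ (algebraMap (ZMod ℓ) kA z) = z := fun z => LinearMap.congr_fun hφ z
  refine ⟨fun i => (φ (c i)).val, Subtype.ext (HahnSeries.ext (funext fun n => ?_))⟩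
  have hcoe : ∀ d : Fin r → kA, ((∑ i, d i • g i : Fk) : LaurentSeries kA).coeff n =
      ∑ i, d i * (g i : LaurentSeries kA).coeff n := by
    intro d
    rw [AddSubmonoidClass.coe_finsetSum, HahnSeries.coeff_sum]
    refine Finset.sum_congr rfl fun i _ => ?_
    rw [coeff_algebra_smul, HahnSeries.C_mul_eq_smul, HahnSeries.coeff_smul, smul_eq_mul]
  choose z hz using fun i => hg i n
  obtain ⟨z', hz'⟩ := hg' n
  have hz2 : ∀ i, algebraMap (ZMod ℓ) kA (z i) = (g i : LaurentSeries kA).coeff n := hz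
  have hz2' : algebraMap (ZMod ℓ) kA z' = (g' : LaurentSeries kA).coeff n := hz'
  have h1 : (g' : LaurentSeries kA).coeff n = ∑ i, z i • c i := by
    rw [← hc, hcoe]
    refine Finset.sum_congr rfl fun i _ => ?_
    rw [Algebra.smul_def, hz2, mul_comm]
  have h2 : z' = ∑ i, z i • φ (c i) := by
    have := congrArg φ (hz2'.trans h1)
    rwa [hφ1, map_sum, Finset.sum_congr rfl fun i _ => map_smul φ (z i) (c i)] at this
  rw [hcoe, ← hz2', h2, map_sum]
  refine Finset.sum_congr rfl fun i _ => ?_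
  rw [← hz2, smul_eq_mul, map_mul, ← map_natCast (algebraMap (ZMod ℓ) kA),
    ZMod.natCast_zmod_val, mul_comm]

/-- **Saturation**: rational functions with independent reductions fill a stable space. -/
theorem satz_exists_saturated
    {r₀ : Place ℚ̄ FBar → Place (IsLocalRing.ResidueField A)
      (modularFunctionFieldFullC (IsLocalRing.ResidueField A) N)} (hr : (gaussDataX0 N hℓN A hA).PlaceCompat r₀)
    (V : Submodule ℚ̄ FBar) [FiniteDimensional ℚ̄ V]
    (hV : ∀ σ : Γℚ, ∀ f ∈ V, arithmeticGalois (modularFunctionFieldFull N) σ • f ∈ V) :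
    ∀ r, r ≤ Module.finrank ℚ̄ V → ∃ (w : Fin r → FBar) (g : Fin r → Fk),
      (∀ i, w i ∈ V) ∧
      (∀ i (σ : Γℚ), arithmeticGalois (modularFunctionFieldFull N) σ • w i = w i) ∧
      (∀ i, (w i, g i) ∈ modGraph (IsLocalRing.residue A) N) ∧
      LinearIndependent kA g := by
  classical
  intro r
  induction r with
  | zero =>
    exact fun _ => ⟨Fin.elim0, Fin.elim0, fun i => i.elim0, fun i => i.elim0, fun i => i.elim0,
      linearIndependent_empty_type⟩
  | succ r ih =>
    intro hle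
    obtain ⟨w, g, hwV, hwfix, hwg, hli⟩ := ih (Nat.le_of_succ_le hle)
    by_contra hcon
    push Not at hcon
    set G := gaussDataX0 N hℓN A hA with hG
    set G₀ := G.toGaussReduction hr with hG₀
    have hℓ' : (ℓ : ℚ̄) ≠ 0 := by exact_mod_cast (Fact.out : ℓ.Prime).ne_zero
    have hno : ∀ f ∈ V, (∀ σ : Γℚ, arithmeticGalois (modularFunctionFieldFull N) σ • f = f) →
        ∀ g', (f, g') ∈ modGraph (IsLocalRing.residue A) N →
          g' ∈ Submodule.span kA (Set.range g) := by
      intro f hf hfix g' hg'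
      by_contra hns
      refine hcon (Fin.snoc w f) (Fin.snoc g g') ?_ ?_ ?_ (hli.finSnoc hns)
      · exact fun i => Fin.lastCases (by simpa using hf) (fun i => by simpa using hwV i) i
      · exact fun i σ => Fin.lastCases (by simpa using hfix σ) (fun i => by simpa using hwfix i σ) i
      · exact fun i => Fin.lastCases (by simpa using hg') (fun i => by simpa using hwg i) i
    obtain ⟨b, hb⟩ := MordellWeil.exists_fixed_basis V hV
    obtain ⟨i₀, hi₀⟩ : ∃ i, ((b i : V) : FBar) ∉ Submodule.span ℚ̄ (Set.range w) := by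
      by_contra h
      push Not at h
      have hVle : V ≤ Submodule.span ℚ̄ (Set.range w) := by
        intro f hf
        rw [show f = ((∑ i, b.repr ⟨f, hf⟩ i • b i : V) : FBar) by rw [b.sum_repr],
          Submodule.coe_sum]
        exact sum_mem fun i _ => Submodule.smul_mem _ _ (h i)
      haveI : FiniteDimensional ℚ̄ (Submodule.span ℚ̄ (Set.range w)) :=
        FiniteDimensional.span_of_finite ℚ̄ (Set.finite_range _)
      have h1 := Submodule.finrank_mono hVle
      have h2 := finrank_range_le_card (R := ℚ̄) w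
      rw [Set.finrank, Fintype.card_fin] at h2
      omega
    have hb0 : ((b i₀ : V) : FBar) ≠ 0 := fun h => hi₀ (h ▸ zero_mem _)
    obtain ⟨e, g₀, -, -, he⟩ := satz_exists_zpow_smul hℓN hA hb0 (hb i₀)
    set f₀ : FBar := (ℓ : ℚ̄) ^ e • ((b i₀ : V) : FBar) with hf₀
    have hf₀V : f₀ ∈ V := V.smul_mem _ (b i₀).2
    have hf₀fix : ∀ σ : Γℚ, arithmeticGalois (modularFunctionFieldFull N) σ • f₀ = f₀ := fun σ => by
      rw [hf₀, satz_galois_smul_smul, hb, map_zpow₀, map_natCast]
    have hf₀n : f₀ ∉ Submodule.span ℚ̄ (Set.range w) := fun h => hi₀ (by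
      have := Submodule.smul_mem (Submodule.span ℚ̄ (Set.range w)) ((ℓ : ℚ̄) ^ e)⁻¹ h
      rwa [hf₀, smul_smul, inv_mul_cancel₀ (zpow_ne_zero _ hℓ'), one_smul] at this)
    have hliw : LinearIndependent ℚ̄ w := linearIndependent_of_reduced G₀ hwg hli
    have hliF : LinearIndependent ℚ̄ (Fin.snoc w f₀ : Fin (r + 1) → FBar) := hliw.finSnoc hf₀n
    set U := Submodule.span ℚ̄ (Set.range (Fin.snoc w f₀ : Fin (r + 1) → FBar)) with hU
    have hwU : ∀ i, w i ∈ U := fun i => Submodule.subset_span ⟨i.castSucc, by simp⟩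
    have hfU : f₀ ∈ U := Submodule.subset_span ⟨Fin.last r, by simp⟩
    haveI : FiniteDimensional ℚ̄ U := FiniteDimensional.span_of_finite ℚ̄ (Set.finite_range _)
    have hdimU : Module.finrank ℚ̄ U = r + 1 := by
      rw [hU, finrank_span_eq_card hliF, Fintype.card_fin]
    obtain ⟨gv, ⟨v, hvU, hvg⟩, hgv⟩ : ∃ gv ∈ G.redSpace U,
        gv ∉ Submodule.span kA (Set.range g) := by
      refine SetLike.not_le_iff_exists.mp fun hle' => ?_
      haveI : FiniteDimensional kA (Submodule.span kA (Set.range g)) :=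
        FiniteDimensional.span_of_finite kA (Set.finite_range _)
      have h1 := Submodule.finrank_mono hle'
      rw [G.finrank_redSpace U inferInstance, hdimU, finrank_span_eq_card hli,
        Fintype.card_fin] at h1
      omega
    set W : Fin (r + 1) → FBar := Fin.snoc w v with hW
    set Wb : Fin (r + 1) → Fk := Fin.snoc g gv with hWb
    have hWg : ∀ i, (W i, Wb i) ∈ G₀.graph :=
      Fin.lastCases (by rw [hW, hWb, Fin.snoc_last, Fin.snoc_last]; exact hvg)
        (fun i => by rw [hW, hWb, Fin.snoc_castSucc, Fin.snoc_castSucc]; exact hwg i)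
    have hWb' : LinearIndependent kA Wb := hli.finSnoc hgv
    have hWli : LinearIndependent ℚ̄ W := linearIndependent_of_reduced G₀ hWg hWb'
    have hWU : U ≤ Submodule.span ℚ̄ (Set.range W) := by
      have hle : Submodule.span ℚ̄ (Set.range W) ≤ U := Submodule.span_le.mpr (by
        rintro _ ⟨i, rfl⟩
        exact Fin.lastCases (by simpa [hW] using hvU) (fun i => by simpa [hW] using hwU i) i)
      refine (Submodule.eq_of_le_of_finrank_eq hle ?_).ge
      rw [finrank_span_eq_card hWli, Fintype.card_fin, hdimU]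
    have hcoord : ∀ f ∈ U, ∀ g', (f, g') ∈ modGraph (IsLocalRing.residue A) N →
        ∃ y : Fin (r + 1) → ℚ̄, (∀ i, y i ∈ A) ∧ ∑ i, y i • W i = f := by
      intro f hf g' hg'
      obtain ⟨y, hy⟩ := (Submodule.mem_span_range_iff_exists_fun ℚ̄).mp (hWU hf)
      exact ⟨y, (coeff_mem G₀ hWg hWb' hg' hy).1, hy⟩
    have hstep : ∀ n : ℕ, ∃ (f : FBar) (a : Fin r → ℚ̄), f ∈ U ∧ f ∈ V ∧
        (∀ σ : Γℚ, arithmeticGalois (modularFunctionFieldFull N) σ • f = f) ∧
        (∃ g', (f, g') ∈ modGraph (IsLocalRing.residue A) N) ∧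
        f₀ = (ℓ : ℚ̄) ^ n • f + ∑ i, a i • w i := by
      intro n
      induction n with
      | zero => exact ⟨f₀, 0, hfU, hf₀V, hf₀fix, ⟨g₀, he⟩, by simp⟩
      | succ n ih =>
        obtain ⟨f, a, hf, hfV, hfix, ⟨g', hg'⟩, heq⟩ := ih
        obtain ⟨c, hc⟩ := satz_exists_nat_combination hℓN hA
          (fun i => (satz_of_fixed_graph hℓN hA (hwfix i) (hwg i)).1)
          (satz_of_fixed_graph hℓN hA hfix hg').1 (hno f hfV hfix g' hg')
        set h : FBar := f - ∑ i, (c i : ℚ̄) • w i with hh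
        have hhfix : ∀ σ : Γℚ, arithmeticGalois (modularFunctionFieldFull N) σ • h = h := fun σ => by
          rw [hh, smul_sub, hfix, Finset.smul_sum]
          congr 1
          exact Finset.sum_congr rfl fun i _ => by
            rw [satz_galois_smul_smul, hwfix, map_natCast]
        have hres : ∀ i, res (IsLocalRing.residue A) (c i : ℚ̄) = (c i : kA) := fun i => by
          rw [res_eq (natCast_mem A (c i))]
          exact map_natCast (IsLocalRing.residue A) (c i)
        have hh0 : (h, (0 : Fk)) ∈ modGraph (IsLocalRing.residue A) N := by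
          have h1 := graph_combination G₀ hwg (x := fun i => (c i : ℚ̄)) fun i => natCast_mem A _
          simp only [hres, ← hc] at h1
          have h2 := (modGraph (IsLocalRing.residue A) N).sub_mem hg' h1
          rwa [Prod.mk_sub_mk, sub_self] at h2
        obtain ⟨g'', hg''⟩ := (satz_of_fixed_graph hℓN hA hhfix hh0).2 rfl
        have hhU : h ∈ U := sub_mem hf (sum_mem fun i _ => U.smul_mem _ (hwU i))
        refine ⟨(ℓ : ℚ̄)⁻¹ • h, fun i => a i + (ℓ : ℚ̄) ^ n * c i, U.smul_mem _ hhU,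
          V.smul_mem _ (sub_mem hfV (sum_mem fun i _ => V.smul_mem _ (hwV i))),
          fun σ => by rw [satz_galois_smul_smul, hhfix, map_inv₀, map_natCast], ⟨g'', hg''⟩, ?_⟩
        rw [heq, hh, smul_smul, show (ℓ : ℚ̄) ^ (n + 1) * (ℓ : ℚ̄)⁻¹ = (ℓ : ℚ̄) ^ n by
          rw [pow_succ, mul_assoc, mul_inv_cancel₀ hℓ', mul_one], smul_sub, Finset.smul_sum]
        simp only [add_smul, Finset.sum_add_distrib, smul_smul]
        abel
    obtain ⟨x, hxA, hx⟩ := hcoord f₀ hfU g₀ he
    have hlast : x (Fin.last r) = 0 := by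
      refine satz_eq_zero_of_divisible hA fun n => ?_
      obtain ⟨f, a, hf, -, -, ⟨g', hg'⟩, heq⟩ := hstep n
      obtain ⟨y, hyA, hy⟩ := hcoord f hf g' hg'
      have key : x = Fin.snoc (fun i : Fin r => (ℓ : ℚ̄) ^ n * y i.castSucc + a i)
          ((ℓ : ℚ̄) ^ n * y (Fin.last r)) := by
        refine sub_eq_zero.mp (funext (Fintype.linearIndependent_iff.mp hWli _ ?_))
        simp only [Pi.sub_apply, sub_smul, Finset.sum_sub_distrib, hx]
        rw [heq, ← hy, Fin.sum_univ_castSucc, Fin.sum_univ_castSucc]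
        simp only [Fin.snoc_castSucc, Fin.snoc_last, hW, add_smul, mul_smul,
          Finset.sum_add_distrib, smul_add, Finset.smul_sum]
        abel
      rw [key, Fin.snoc_last, mul_div_assoc, mul_comm, div_mul_cancel₀ _ (pow_ne_zero _ hℓ')]
      exact hyA _
    refine hf₀n ?_
    rw [← hx, Fin.sum_univ_castSucc, hlast, zero_smul, add_zero]
    exact sum_mem fun i _ => Submodule.smul_mem _ _ (Submodule.subset_span ⟨i, by simp [hW]⟩)

end Modular

end Fermat.Agent.FiniteFlat
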