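import Mathlib.RingTheory.Valuation.ValuationSubring
import Mathlib.Algebra.Polynomial.Roots
import Mathlib.RingTheory.Adjoin.Basic

/-!
# Functions regular near a reduction

`S` is finite, `B` an algebra of `A`-valued functions on `S`. A function is regular at `s₀` if some
element of `B` which is a unit at `s₀` multiplies it into `B`. A function regular everywhere lies
in `B`.
-/

set_option autoImplicit false
set_option linter.unusedSectionVars false

noncomputable section

open Polynomial

namespace Fermat.Agent.FiniteFlat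

variable {K : Type*} [Field K] {A : ValuationSubring K} {S : Type*}

/-- All values of the algebra lie in the valuation ring. -/
def Bounded (B : Subalgebra A (S → K)) : Prop := ∀ b ∈ B, ∀ s, b s ∈ A

/-- Regular at `s₀`. -/
def RegAt (B : Subalgebra A (S → K)) (s₀ : S) (h : S → K) : Prop :=
  ∃ s ∈ B, A.valuation (s s₀) = 1 ∧ s * h ∈ B

variable {B : Subalgebra A (S → K)} {s₀ : S}

theorem RegAt.of_mem {h : S → K} (hh : h ∈ B) : RegAt B s₀ h :=
  ⟨1, one_mem _, by simp, by simpa using hh⟩

theorem RegAt.const (a : A) : RegAt B s₀ (fun _ => (a : K)) :=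
  .of_mem (B.algebraMap_mem a)

theorem RegAt.const_of_mem {c : K} (hc : c ∈ A) : RegAt B s₀ (fun _ => c) :=
  .const ⟨c, hc⟩

theorem RegAt.add {f g : S → K} (hf : RegAt B s₀ f) (hg : RegAt B s₀ g) :
    RegAt B s₀ (f + g) := by
  obtain ⟨s, hs, hs1, hsf⟩ := hf
  obtain ⟨t, ht, ht1, htg⟩ := hg
  refine ⟨s * t, mul_mem hs ht, by simp [hs1, ht1], ?_⟩
  have : s * t * (f + g) = t * (s * f) + s * (t * g) := by ring
  rw [this]
  exact add_mem (mul_mem ht hsf) (mul_mem hs htg)

theorem RegAt.mul {f g : S → K} (hf : RegAt B s₀ f) (hg : RegAt B s₀ g) :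
    RegAt B s₀ (f * g) := by
  obtain ⟨s, hs, hs1, hsf⟩ := hf
  obtain ⟨t, ht, ht1, htg⟩ := hg
  refine ⟨s * t, mul_mem hs ht, by simp [hs1, ht1], ?_⟩
  have : s * t * (f * g) = (s * f) * (t * g) := by ring
  rw [this]
  exact mul_mem hsf htg

theorem RegAt.neg {f : S → K} (hf : RegAt B s₀ f) : RegAt B s₀ (-f) := by
  obtain ⟨s, hs, hs1, hsf⟩ := hf
  exact ⟨s, hs, hs1, by simpa using neg_mem hsf⟩

variable (B s₀) in
/-- Functions regular at `s₀`. -/
def regRing : Subalgebra A (S → K) where
  carrier := {h | RegAt B s₀ h}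
  mul_mem' := fun hf hg => RegAt.mul hf hg
  add_mem' := fun hf hg => RegAt.add hf hg
  algebraMap_mem' a := RegAt.of_mem (B.algebraMap_mem a)

theorem mem_regRing {h : S → K} : h ∈ regRing B s₀ ↔ RegAt B s₀ h := Iff.rfl

theorem le_regRing : B ≤ regRing B s₀ := fun _ hh => RegAt.of_mem hh

theorem RegAt.value_mem (hB : Bounded B) {f : S → K} (hf : RegAt B s₀ f) : f s₀ ∈ A := by
  obtain ⟨s, hs, hs1, hsf⟩ := hf
  have h1 := hB _ hsf s₀
  rw [Pi.mul_apply, ← A.valuation_le_one_iff, map_mul, hs1, one_mul] at h1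
  exact (A.valuation_le_one_iff _).mp h1

/-- The pointwise inverse of a function which is a unit at `s₀`. -/
theorem RegAt.inv {f : S → K} (hf : RegAt B s₀ f) (hu : A.valuation (f s₀) = 1) :
    RegAt B s₀ f⁻¹ := by
  obtain ⟨s, hs, hs1, hsf⟩ := hf
  refine ⟨(s * f) * (s * f), mul_mem hsf hsf, by simp [hs1, hu], ?_⟩
  have : (s * f) * (s * f) * f⁻¹ = (s * f) * s := by
    funext x
    simp only [Pi.mul_apply, Pi.inv_apply]
    rcases eq_or_ne (f x) 0 with h | h <;> [simp [h]; field_simp]
  rw [this]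
  exact mul_mem hsf hs

/-- Changing a function where a regular unit vanishes keeps it regular. -/
theorem RegAt.congr {f g u : S → K} (hf : RegAt B s₀ f) (hu : RegAt B s₀ u)
    (hu1 : A.valuation (u s₀) = 1) (hfg : ∀ x, u x ≠ 0 → g x = f x) : RegAt B s₀ g := by
  obtain ⟨s, hs, hs1, hsf⟩ := hf
  obtain ⟨t, ht, ht1, htu⟩ := hu
  refine ⟨s * (t * u), mul_mem hs htu, by simp [hs1, ht1, hu1], ?_⟩
  have : s * (t * u) * g = (s * f) * (t * u) := by
    funext x
    simp only [Pi.mul_apply]
    rcases eq_or_ne (u x) 0 with h | h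
    · simp [h]
    · rw [hfg x h]; ring
  rw [this]
  exact mul_mem hsf htu

/-- An element of `B` which is everywhere a unit has its inverse in `B`. -/
theorem inv_mem_of_forall_unit [Finite S] (hB : Bounded B) {b : S → K} (hb : b ∈ B)
    (hu : ∀ s, A.valuation (b s) = 1) : b⁻¹ ∈ B := by
  classical
  cases nonempty_fintype S
  have hne : ∀ s, b s ≠ 0 := fun s h => by simpa [h] using hu s
  set P : A[X] := ∏ s : S, (X - C (⟨b s, hB b hb s⟩ : A)) with hP
  have hroot : ∀ s, P.eval₂ A.subtype (b s) = 0 := by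
    intro s
    rw [hP, eval₂_finsetProd]
    exact Finset.prod_eq_zero (Finset.mem_univ s) (by rw [eval₂_sub, eval₂_X, eval₂_C]; exact sub_self _)
  have hc0 : IsUnit (P.coeff 0) := by
    rw [coeff_zero_eq_eval_zero, hP, eval_prod]
    simp only [eval_sub, eval_X, eval_C, zero_sub]
    exact IsUnit.prod_univ_iff.mpr fun s =>
      ((A.valuation_eq_one_iff _).mpr (hu s)).neg
  obtain ⟨c, hc⟩ := hc0.exists_left_inv
  have hval : ∀ s, (P.divX).eval₂ A.subtype (b s) * b s = -(P.coeff 0 : K) := by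
    intro s
    have h1 := hroot s
    conv at h1 => lhs; rw [← P.divX_mul_X_add]
    rw [eval₂_add, eval₂_mul, eval₂_X, eval₂_C] at h1
    exact eq_neg_of_add_eq_zero_left h1
  have hinv : b⁻¹ = (-c) • Polynomial.aeval b P.divX := by
    funext s
    have he : Polynomial.aeval b P.divX s = P.divX.eval₂ A.subtype (b s) := by
      simp only [Polynomial.aeval_def, Polynomial.eval₂_eq_sum, Polynomial.sum, Finset.sum_apply,
        Pi.mul_apply, Pi.pow_apply]
      rfl
    rw [Pi.smul_apply, he, Pi.inv_apply, Algebra.smul_def]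
    refine inv_eq_of_mul_eq_one_right ?_
    have hc' : (c : K) * (P.coeff 0 : K) = 1 := by exact_mod_cast congrArg Subtype.val hc
    calc b s * (algebraMap A K (-c) * P.divX.eval₂ A.subtype (b s))
        = -(c : K) * (P.divX.eval₂ A.subtype (b s) * b s) := by
          change b s * ((-(c : K)) * _) = _; ring
      _ = 1 := by rw [hval, neg_mul_neg, hc']
  rw [hinv]
  exact B.smul_mem (Algebra.adjoin_le (Set.singleton_subset_iff.mpr hb)
    (Polynomial.aeval_mem_adjoin_singleton _ _)) _

/-- A function regular at every point lies in `B`. -/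
theorem mem_of_forall_regAt [Finite S] (hB : Bounded B) {k : Type*} [Field k] [Infinite k]
    {π : A →+* k} (hπ : ∀ a : A, π a ≠ 0 ↔ A.valuation (a : K) = 1)
    (hsurj : Function.Surjective π) {h : S → K} (hreg : ∀ s, RegAt B s h) : h ∈ B := by
  classical
  cases nonempty_fintype S
  choose s hsB hs1 hsh using hreg
  set e := Fintype.equivFin S with he
  let p : S → k[X] := fun x => ∑ y : S, C (π ⟨s y x, hB _ (hsB y) x⟩) * X ^ (e y : ℕ)
  have hp : ∀ x, p x ≠ 0 := by
    intro x h0
    have h1 := congrArg (fun q : k[X] => q.coeff (e x : ℕ)) h0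
    simp only [p, finset_sum_coeff, coeff_C_mul_X_pow, coeff_zero] at h1
    rw [Finset.sum_eq_single x (fun y _ hy => if_neg fun hxy => hy (e.injective (Fin.ext hxy)).symm)
      (by simp), if_pos rfl] at h1
    exact (hπ _).mpr (hs1 x) h1
  obtain ⟨τ, hτ⟩ : ∃ τ : k, ∀ x, (p x).eval τ ≠ 0 := by
    have hfin : (⋃ x : S, {τ | (p x).IsRoot τ}).Finite :=
      Set.finite_iUnion fun x => Polynomial.finite_setOf_isRoot (hp x)
    obtain ⟨τ, hτ⟩ := hfin.exists_notMem
    exact ⟨τ, fun x hx => hτ (Set.mem_iUnion.mpr ⟨x, hx⟩)⟩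
  obtain ⟨t, ht⟩ := hsurj τ
  set b : S → K := ∑ y : S, (t ^ (e y : ℕ)) • s y with hb
  have hbB : b ∈ B := B.toSubmodule.sum_mem fun y _ => B.smul_mem (hsB y) _
  have hbu : ∀ x, A.valuation (b x) = 1 := by
    intro x
    rw [show b x = ((∑ y : S, t ^ (e y : ℕ) * ⟨s y x, hB _ (hsB y) x⟩ : A) : K) by
      simp [hb, Finset.sum_apply, Algebra.smul_def]]
    refine (hπ _).mp ?_
    rw [map_sum]
    have := hτ x
    simp only [p, eval_finsetSum, eval_mul, eval_C, eval_pow, eval_X] at this
    simpa [map_mul, map_pow, ht, mul_comm] using this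
  have hbh : b * h ∈ B := by
    rw [hb, Finset.sum_mul]
    refine B.toSubmodule.sum_mem fun y _ => ?_
    rw [smul_mul_assoc]
    exact B.smul_mem (hsh y) _
  have hne : ∀ x, b x ≠ 0 := fun x h0 => by simpa [h0] using hbu x
  have : b⁻¹ * (b * h) = h := funext fun x => by simp [hne x]
  rw [← this]
  exact mul_mem (inv_mem_of_forall_unit hB hbB hbu) hbh

end Fermat.Agent.FiniteFlat
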