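import Fermat.Agent.FiniteFlat.Pencil
import Mathlib.LinearAlgebra.Matrix.NonsingularInverse

/-!
# Values at rational places, and frames

`val P f` is the value of `f` at a place `P` of degree one. For two independent families there are
points of a given infinite set at which both evaluation matrices are invertible.
-/

set_option autoImplicit false
set_option linter.unusedSectionVars false

noncomputable section

open WithZero Matrix

namespace Fermat.Agent.FiniteFlat

open AlgebraicCurve Fermat.Agent.Reduction.Torsion

variable {K F : Type*} [Field K] [Field F] [Algebra K F]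

/-- `f` has value `c` at `P`. -/
def HasValue (P : Place K F) (f : F) (c : K) : Prop := P.adicValuation (f - algebraMap K F c) < 1

open Classical in
/-- The value at a place. -/
def val (P : Place K F) (f : F) : K := if h : ∃ c, HasValue P f c then h.choose else 0

theorem adicValuation_algebraMap (P : Place K F) {c : K} (hc : c ≠ 0) :
    P.adicValuation (algebraMap K F c) = 1 := by
  rw [P.adicValuation_eq_exp_neg_ord ((map_ne_zero (algebraMap K F)).mpr hc), ord_algebraMap]
  simp

theorem HasValue.unique {P : Place K F} {f : F} {c c' : K} (h : HasValue P f c)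
    (h' : HasValue P f c') : c = c' := by
  by_contra hne
  have h2 : P.adicValuation ((f - algebraMap K F c') - (f - algebraMap K F c)) < 1 :=
    Valuation.map_sub_lt _ h' h
  rw [sub_sub_sub_cancel_left, ← map_sub, adicValuation_algebraMap P (sub_ne_zero.mpr hne)] at h2
  exact lt_irrefl _ h2

theorem HasValue.val_eq {P : Place K F} {f : F} {c : K} (h : HasValue P f c) : val P f = c := by
  classical
  have hex : ∃ c, HasValue P f c := ⟨c, h⟩
  rw [val, dif_pos hex]
  exact hex.choose_spec.unique h

theorem HasValue.adicValuation_le {P : Place K F} {f : F} {c : K} (h : HasValue P f c) :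
    P.adicValuation f ≤ 1 := by
  have := Valuation.map_add P.adicValuation (f - algebraMap K F c) (algebraMap K F c)
  rw [sub_add_cancel] at this
  exact this.trans (max_le h.le (P.adicValuation_algebraMap_le_one c))

theorem HasValue.add {P : Place K F} {f g : F} {c d : K} (hf : HasValue P f c)
    (hg : HasValue P g d) : HasValue P (f + g) (c + d) := by
  have : f + g - algebraMap K F (c + d) = (f - algebraMap K F c) + (g - algebraMap K F d) := by
    rw [map_add]; ring
  rw [HasValue, this]
  exact Valuation.map_add_lt _ hf hg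

theorem HasValue.mul {P : Place K F} {f g : F} {c d : K} (hf : HasValue P f c)
    (hg : HasValue P g d) : HasValue P (f * g) (c * d) := by
  have : f * g - algebraMap K F (c * d) =
      f * (g - algebraMap K F d) + algebraMap K F d * (f - algebraMap K F c) := by
    rw [map_mul]; ring
  rw [HasValue, this]
  refine Valuation.map_add_lt _ ?_ ?_ <;> rw [map_mul]
  · exact (mul_le_of_le_one_left' hf.adicValuation_le).trans_lt hg
  · exact (mul_le_of_le_one_left' (P.adicValuation_algebraMap_le_one d)).trans_lt hf

theorem hasValue_algebraMap (P : Place K F) (c : K) : HasValue P (algebraMap K F c) c := by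
  simp [HasValue]

theorem hasValue_sum {P : Place K F} {ι : Type*} (s : Finset ι) {f : ι → F} {c : ι → K}
    (h : ∀ i ∈ s, HasValue P (f i) (c i)) : HasValue P (∑ i ∈ s, f i) (∑ i ∈ s, c i) := by
  classical
  induction s using Finset.induction with
  | empty => simp [HasValue]
  | @insert a s ha ih =>
    rw [Finset.sum_insert ha, Finset.sum_insert ha]
    exact (h a (Finset.mem_insert_self a s)).add
      (ih fun i hi => h i (Finset.mem_insert_of_mem hi))

theorem exists_hasValue {P : Place K F} (hP : P.deg = 1) {f : F} (hf : P.adicValuation f ≤ 1) :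
    ∃ c, HasValue P f c := by
  have hmem : f ∈ P.toValuationSubring := by
    by_contra hn
    have hinv := (P.toValuationSubring.mem_or_inv_mem f).resolve_left hn
    have hf0 : f ≠ 0 := fun h => hn (h ▸ zero_mem _)
    have hu : ¬ IsUnit (⟨f⁻¹, hinv⟩ : P.toValuationSubring) := by
      rintro ⟨u, hu⟩
      refine hn ?_
      have h1 := congrArg Subtype.val u.mul_inv
      rw [hu] at h1
      simp only [MulMemClass.coe_mul, OneMemClass.coe_one] at h1
      have : ((↑u⁻¹ : P.toValuationSubring) : F) = f := by
        rw [← mul_one f, ← h1, ← mul_assoc, mul_inv_cancel₀ hf0, one_mul]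
      exact this ▸ SetLike.coe_mem _
    have h1 : P.adicValuation f⁻¹ < 1 := lt_of_le_of_ne (P.adicValuation_le_one_of_mem hinv)
      fun he => hu ((P.adicValuation_coe_eq_one_iff ⟨_, hinv⟩).mp he)
    rw [map_inv₀, inv_lt_one₀ (zero_lt_iff.mpr (P.adicValuation_ne_zero hf0))] at h1
    exact not_lt.mpr hf h1
  have hsurj : Function.Surjective (algebraMap K P.ResidueField) := by
    have hbot : (⊥ : Subalgebra K P.ResidueField) = ⊤ :=
      Subalgebra.bot_eq_top_of_finrank_eq_one hP
    intro x
    have hx : x ∈ (⊥ : Subalgebra K P.ResidueField) := hbot ▸ Algebra.mem_top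
    exact Algebra.mem_bot.mp hx
  obtain ⟨c, hc⟩ := hsurj (IsLocalRing.residue _ ⟨f, hmem⟩)
  refine ⟨c, ?_⟩
  have hmax : (⟨f, hmem⟩ - algebraMap K P.toValuationSubring c) ∈
      IsLocalRing.maximalIdeal P.toValuationSubring := by
    rw [← IsLocalRing.residue_eq_zero_iff, map_sub, sub_eq_zero, ← hc]
    rfl
  rw [IsLocalRing.mem_maximalIdeal, mem_nonunits_iff, ← P.adicValuation_coe_eq_one_iff] at hmax
  refine lt_of_le_of_ne (P.adicValuation_le_one_of_mem ?_) hmax
  exact sub_mem hmem (P.algebraMap_mem' c)

/-- The places where every element of `L(D)` is regular. -/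
theorem hasValue_val {P : Place K F} (hP : P.deg = 1) {D : Divisor K F} (hD : D P = 0) {f : F}
    (hf : f ∈ riemannRochSpace D) : HasValue P f (val P f) := by
  obtain ⟨c, hc⟩ := exists_hasValue hP (f := f) (by simpa [hD] using hf P)
  exact hc.val_eq ▸ hc

theorem val_sum_smul {P : Place K F} {ι : Type*} [Fintype ι] {u : ι → F} {c : ι → K}
    {a : ι → K} (h : ∀ i, HasValue P (u i) (a i)) :
    HasValue P (∑ i, c i • u i) (∑ i, c i * a i) :=
  hasValue_sum _ fun i _ => by rw [Algebra.smul_def]; exact (hasValue_algebraMap P _).mul (h i)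

/-- A nonzero section vanishes at finitely many places outside the divisor. -/
theorem finite_val_eq_zero [HasPrincipalDivisors K F] (hdeg : ∀ P : Place K F, P.deg = 1)
    {D : Divisor K F} {f : F} (hf : f ∈ riemannRochSpace D) (hf0 : f ≠ 0) :
    {P : Place K F | D P = 0 ∧ val P f = 0}.Finite := by
  obtain ⟨Df, hDf, -⟩ := HasPrincipalDivisors.exists_divisor (K := K) f hf0
  refine Df.support.finite_toSet.subset fun P hP => ?_
  have h := hasValue_val (hdeg P) hP.1 hf
  rw [hP.2, HasValue, map_zero, sub_zero, P.adicValuation_eq_exp_neg_ord hf0, ← exp_zero,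
    exp_lt_exp] at h
  rw [Finset.mem_coe, Finsupp.mem_support_iff, hDf]
  omega

variable [HasPrincipalDivisors K F] (hdeg : ∀ P : Place K F, P.deg = 1)

include hdeg

/-- Invertible evaluation matrices for two families at common points of an infinite set. -/
theorem exists_frame {n : ℕ} {D D' : Divisor K F} {u v : Fin n → F}
    (hu : LinearIndependent K u) (huD : ∀ i, u i ∈ riemannRochSpace D)
    (hv : LinearIndependent K v) (hvD : ∀ i, v i ∈ riemannRochSpace D')
    {Q : Set (Place K F)} (hQ : Q.Infinite) (hQD : ∀ P ∈ Q, D P = 0 ∧ D' P = 0) :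
    ∃ P : Fin n → Place K F, (∀ j, P j ∈ Q) ∧
      (Matrix.of fun i j => val (P j) (u i)).det ≠ 0 ∧
      (Matrix.of fun i j => val (P j) (v i)).det ≠ 0 := by
  classical
  suffices ∀ r ≤ n, ∀ (u v : Fin r → F), LinearIndependent K u →
      (∀ i, u i ∈ riemannRochSpace D) → LinearIndependent K v →
      (∀ i, v i ∈ riemannRochSpace D') →
      ∃ P : Fin r → Place K F, (∀ j, P j ∈ Q) ∧
        (Matrix.of fun i j => val (P j) (u i)).det ≠ 0 ∧
        (Matrix.of fun i j => val (P j) (v i)).det ≠ 0 from this n le_rfl u v hu huD hv hvD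
  intro r hr
  induction r with
  | zero => exact fun u v _ _ _ _ => ⟨Fin.elim0, fun j => j.elim0, by simp, by simp⟩
  | succ r ih =>
    intro u v hu huD hv hvD
    obtain ⟨P, hPQ, hU, hV⟩ := ih (by omega) (fun i => u i.castSucc) (fun i => v i.castSucc)
      (hu.comp _ (Fin.castSucc_injective r)) (fun i => huD _)
      (hv.comp _ (Fin.castSucc_injective r)) (fun i => hvD _)
    have key : ∀ (D : Divisor K F) (u : Fin (r + 1) → F), LinearIndependent K u →
        (∀ i, u i ∈ riemannRochSpace D) →
        (Matrix.of fun i j => val (P j) (u (Fin.castSucc i))).det ≠ 0 →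
        {R | D R = 0 ∧
          (Matrix.of fun i j => val ((Fin.snoc P R : Fin (r + 1) → Place K F) j) (u i)).det = 0}.Finite := by
      intro D u hu huD hU
      set cf : Fin (r + 1) → K := fun i => (-1) ^ (i + r : ℕ) *
        (Matrix.of fun a j => val (P j) (u (i.succAbove a))).det with hcf
      set f : F := ∑ i, cf i • u i with hf
      have hf0 : f ≠ 0 := fun h0 => hU (by
        have h1 := Fintype.linearIndependent_iff.mp hu cf h0 (Fin.last r)
        simpa [hcf, Fin.succAbove_last, ← two_mul, pow_mul] using h1)
      refine (finite_val_eq_zero hdeg (Submodule.sum_mem _ fun i _ =>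
        Submodule.smul_mem _ _ (huD i)) hf0).subset fun R hR => ⟨hR.1, ?_⟩
      have h1 := hR.2
      rw [Matrix.det_succ_column _ (Fin.last r)] at h1
      rw [← h1, (val_sum_smul fun i => hasValue_val (hdeg R) hR.1 (huD i)).val_eq]
      refine Finset.sum_congr rfl fun i _ => ?_
      simp only [hcf, Fin.val_last, Matrix.of_apply, Fin.snoc_last]
      rw [show Matrix.submatrix (Matrix.of fun i j =>
          val ((Fin.snoc P R : Fin (r + 1) → Place K F) j) (u i)) i.succAbove (Fin.last r).succAbove =
          Matrix.of fun a j => val (P j) (u (i.succAbove a)) by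
        ext a j; simp [Fin.succAbove_last]]
      ring
    obtain ⟨R, hRQ, hR⟩ := (hQ.diff ((key D u hu huD hU).union (key D' v hv hvD hV))).nonempty
    simp only [Set.mem_union, Set.mem_setOf_eq, not_or] at hR
    refine ⟨Fin.snoc P R, ?_, fun h0 => hR.1 ⟨(hQD R hRQ).1, h0⟩,
      fun h0 => hR.2 ⟨(hQD R hRQ).2, h0⟩⟩
    intro j
    refine Fin.lastCases ?_ (fun i => ?_) j <;> simp [hPQ, hRQ]

/-- A point of an infinite set where finitely many nonzero sections are all nonzero. -/
theorem exists_point {ι : Type*} [Finite ι] {D : ι → Divisor K F} {f : ι → F}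
    (hf : ∀ i, f i ∈ riemannRochSpace (D i)) (hf0 : ∀ i, f i ≠ 0) {Q : Set (Place K F)}
    (hQ : Q.Infinite) (hQD : ∀ i, ∀ P ∈ Q, D i P = 0) :
    ∃ P ∈ Q, ∀ i, val P (f i) ≠ 0 := by
  obtain ⟨P, hP, hPn⟩ := (hQ.diff (Set.finite_iUnion fun i =>
    finite_val_eq_zero hdeg (hf i) (hf0 i))).nonempty
  exact ⟨P, hP, fun i h0 => hPn (Set.mem_iUnion.mpr ⟨i, hQD i P hP, h0⟩)⟩

end Fermat.Agent.FiniteFlat
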