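import Fermat.Agent.FiniteFlat.Pencil
import Fermat.Agent.FiniteFlat.BlockDet
import Fermat.Agent.FiniteFlat.Value
import Fermat.Agent.FiniteFlat.Chart

/-!
# Multiplication matrices of divisor classes

For a divisor `D` of degree `d = deg G`, `IsRep b G D M` says that `M` gives the coordinates in the
basis `b` of `L(2G)` of the products `u_i v_j`, with `u`, `v` bases of `L(D)`, `L(2G - D)`.
-/

set_option autoImplicit false
set_option linter.unusedSectionVars false

noncomputable section

open Matrix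

namespace Fermat.Agent.FiniteFlat

open AlgebraicCurve Fermat.Agent.Reduction.Torsion

variable {K F : Type*} [Field K] [Field F] [Algebra K F] {n m : ℕ}

/-- `M` represents `D`. -/
def IsRep (b : Fin m → F) (G D : Divisor K F) (M : VMat n m K) : Prop :=
  ∃ u v : Fin n → F,
    (LinearIndependent K u ∧ Submodule.span K (Set.range u) = riemannRochSpace D) ∧
    (LinearIndependent K v ∧ Submodule.span K (Set.range v) = riemannRochSpace (G + G - D)) ∧
    ∀ i j, u i * v j = ∑ s, M i j s • b s

variable {b : Fin m → F} {G D D' : Divisor K F} {M M' : VMat n m K}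

theorem mem_of_span_eq {ι : Type*} {u : ι → F} {W : Submodule K F}
    (h : Submodule.span K (Set.range u) = W) (i : ι) : u i ∈ W :=
  h ▸ Submodule.subset_span ⟨i, rfl⟩

theorem li_span_twist {u : Fin n → F} {W : Submodule K F} (hu : LinearIndependent K u)
    (hspan : Submodule.span K (Set.range u) = W) (g : Matrix (Fin n) (Fin n) K) (hg : g.det ≠ 0) :
    LinearIndependent K (fun i => ∑ a, g i a • u a) ∧
      Submodule.span K (Set.range fun i => ∑ a, g i a • u a) = W := by
  have hli : LinearIndependent K (fun i => ∑ a, g i a • u a) := by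
    rw [Fintype.linearIndependent_iff]
    intro c hc
    have h1 : Matrix.vecMul c g = 0 := by
      funext a
      refine Fintype.linearIndependent_iff.mp hu _ ?_ a
      simp only [Matrix.vecMul, dotProduct, Finset.sum_smul, mul_smul]
      rw [Finset.sum_comm]
      simpa [Finset.smul_sum] using hc
    exact congrFun ((Matrix.vecMul_injective_iff_isUnit.mpr
      ((Matrix.isUnit_iff_isUnit_det g).mpr (Ne.isUnit hg))) (h1.trans (Matrix.zero_vecMul g).symm))
  refine ⟨hli, ?_⟩
  have hle : Submodule.span K (Set.range fun i => ∑ a, g i a • u a) ≤ W :=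
    Submodule.span_le.mpr (Set.range_subset_iff.mpr fun i =>
      Submodule.sum_mem _ fun a _ => Submodule.smul_mem _ _ (mem_of_span_eq hspan a))
  haveI : FiniteDimensional K W := hspan ▸ FiniteDimensional.span_of_finite K (Set.finite_range u)
  refine Submodule.eq_of_le_of_finrank_le hle ?_
  rw [← hspan, finrank_span_eq_card hli, finrank_span_eq_card hu]

theorem sum_smul_mul_sum {u v : Fin n → F} (huv : ∀ i j, u i * v j = ∑ s, M i j s • b s)
    (g g' : Matrix (Fin n) (Fin n) K) (i j : Fin n) :
    (∑ a, g i a • u a) * (∑ c, g' c j • v c) = ∑ s, FiniteFlat.twist g g' M i j s • b s := by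
  rw [Finset.sum_mul_sum]
  simp only [smul_mul_smul_comm, huv, Finset.smul_sum, smul_smul]
  have hR : ∀ s, FiniteFlat.twist g g' M i j s • b s =
      ∑ a, ∑ c, (g i a * g' c j * M a c s) • b s := fun s => by
    simp only [FiniteFlat.twist, Matrix.mul_apply, slice_apply, Finset.sum_mul, Finset.sum_smul]
    rw [Finset.sum_comm]
    exact Finset.sum_congr rfl fun a _ => Finset.sum_congr rfl fun c _ => by
      congr 1; ring
  simp only [hR]
  rw [Finset.sum_comm (s := (Finset.univ : Finset (Fin m)))]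
  exact Finset.sum_congr rfl fun a _ => Finset.sum_comm

theorem IsRep.twist (h : IsRep b G D M) {g g' : Matrix (Fin n) (Fin n) K} (hg : g.det ≠ 0)
    (hg' : g'.det ≠ 0) : IsRep b G D (FiniteFlat.twist g g' M) := by
  obtain ⟨u, v, hu, hv, huv⟩ := h
  refine ⟨fun i => ∑ a, g i a • u a, fun j => ∑ c, g'ᵀ j c • v c, li_span_twist hu.1 hu.2 g hg,
    li_span_twist hv.1 hv.2 g'ᵀ (by rwa [Matrix.det_transpose]), fun i j => ?_⟩
  simp only [Matrix.transpose_apply]
  exact sum_smul_mul_sum huv g g' i j

theorem IsRep.transV (h : IsRep b G D M) : IsRep b G (G + G - D) (FiniteFlat.transV M) := by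
  obtain ⟨u, v, hu, hv, huv⟩ := h
  refine ⟨v, u, hv, ⟨hu.1, by rw [hu.2, sub_sub_cancel]⟩, fun i j => ?_⟩
  rw [mul_comm, huv]
  rfl

theorem IsRep.of_isPrincipal (h : IsRep b G D M) (hp : Divisor.IsPrincipal (D' - D)) :
    IsRep b G D' M := by
  obtain ⟨u, v, hu, hv, huv⟩ := h
  obtain ⟨f, hf, hfD⟩ := hp
  have key : ∀ (E E' : Divisor K F) (a : F), a ≠ 0 → (∀ w, E' w = E w - w.ord a) →
      (riemannRochSpace E).map (mulL (K := K) a) = riemannRochSpace E' := by
    intro E E' a ha hE
    refine le_antisymm ?_ fun y hy => ?_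
    · rintro _ ⟨x, hx, rfl⟩
      refine mem_riemannRochSpace_iff.mpr fun w => ?_
      rcases eq_or_ne x 0 with rfl | hx0
      · exact Or.inl (mul_zero a)
      · right
        have := (mem_riemannRochSpace_iff.mp hx w).resolve_left hx0
        show -E' w ≤ w.ord (a * x)
        rw [w.ord_mul ha hx0, hE]
        omega
    · refine ⟨a⁻¹ * y, mem_riemannRochSpace_iff.mpr fun w => ?_, mul_inv_cancel_left₀ ha y⟩
      rcases eq_or_ne y 0 with rfl | hy0
      · exact Or.inl (mul_zero _)
      · right
        have := (mem_riemannRochSpace_iff.mp hy w).resolve_left hy0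
        rw [hE] at this
        rw [w.ord_mul (inv_ne_zero ha) hy0, w.ord_inv]
        omega
  have hmap : ∀ (W W' : Submodule K F) (a : F) (x : Fin n → F), a ≠ 0 → LinearIndependent K x →
      Submodule.span K (Set.range x) = W → W.map (mulL (K := K) a) = W' →
      LinearIndependent K (fun i => a * x i) ∧
        Submodule.span K (Set.range fun i => a * x i) = W' := by
    intro W W' a x ha hx hs hW
    refine ⟨hx.map' (mulL (K := K) a) (LinearMap.ker_eq_bot.mpr (mulL_injective ha)), ?_⟩
    rw [← hW, ← hs, Submodule.map_span, ← Set.range_comp]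
    rfl
  refine ⟨fun i => f⁻¹ * u i, fun j => f * v j,
    hmap _ _ _ _ (inv_ne_zero hf) hu.1 hu.2 (key _ _ _ (inv_ne_zero hf) fun w => ?_),
    hmap _ _ _ _ hf hv.1 hv.2 (key _ _ _ hf fun w => ?_), fun i j => ?_⟩
  · have := hfD w
    rw [Finsupp.sub_apply] at this
    rw [w.ord_inv]; omega
  · have := hfD w
    simp only [Finsupp.sub_apply, Finsupp.add_apply] at this ⊢
    omega
  · rw [← huv]; field_simp

theorem eq_of_sum_smul_eq {ι : Type*} [Fintype ι] {b : ι → F} (hb : LinearIndependent K b)
    {x y : ι → K} (h : ∑ s, x s • b s = ∑ s, y s • b s) : x = y :=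
  funext fun s => sub_eq_zero.mp (Fintype.linearIndependent_iff.mp hb (fun s => x s - y s)
    (by simp [sub_smul, h]) s)

theorem exists_coeff {u : Fin n → F} {W : Submodule K F}
    (hspan : Submodule.span K (Set.range u) = W) {ι : Type*} {y : ι → F} (hy : ∀ i, y i ∈ W) :
    ∃ g : ι → Fin n → K, ∀ i, y i = ∑ a, g i a • u a := by
  choose g hg using fun i => (Submodule.mem_span_range_iff_exists_fun K).mp (hspan ▸ hy i)
  exact ⟨g, fun i => (hg i).symm⟩

/-- Products of sections of `L(D)` and `L(2G - D)` have coordinates `g M h`. -/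
theorem IsRep.exists_twist_of_mem (hb : LinearIndependent K b) (h : IsRep b G D M)
    {u' v' : Fin n → F} (hu' : ∀ i, u' i ∈ riemannRochSpace D)
    (hv' : ∀ j, v' j ∈ riemannRochSpace (G + G - D)) (huv : ∀ i j, u' i * v' j = ∑ s, M' i j s • b s) :
    ∃ g g' : Matrix (Fin n) (Fin n) K, M' = FiniteFlat.twist g g' M ∧
      (LinearIndependent K u' → g.det ≠ 0) ∧ (LinearIndependent K v' → g'.det ≠ 0) := by
  obtain ⟨u, v, hu, hv, huv₀⟩ := h
  obtain ⟨g, hg⟩ := exists_coeff hu.2 hu'
  obtain ⟨g', hg'⟩ := exists_coeff hv.2 hv'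
  have hdet : ∀ (x x' : Fin n → F) (a : Fin n → Fin n → K), (∀ i, x' i = ∑ c, a i c • x c) →
      LinearIndependent K x' → (Matrix.of a).det ≠ 0 := by
    intro x x' a ha hx' hd
    obtain ⟨c, hc0, hc⟩ := Matrix.exists_vecMul_eq_zero_iff.mpr hd
    refine hc0 (funext fun i => Fintype.linearIndependent_iff.mp hx' c ?_ i)
    simp only [ha, Finset.smul_sum, smul_smul]
    rw [Finset.sum_comm]
    refine Finset.sum_eq_zero fun k _ => ?_
    rw [← Finset.sum_smul, show ∑ i, c i * a i k = (Matrix.vecMul c (Matrix.of a)) k from rfl, hc]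
    simp
  refine ⟨Matrix.of g, (Matrix.of g')ᵀ, ?_, hdet u u' g hg,
    fun hv'' => by rw [Matrix.det_transpose]; exact hdet v v' g' hg' hv''⟩
  funext i j
  refine eq_of_sum_smul_eq hb ?_
  rw [← huv, hg, hg']
  exact sum_smul_mul_sum huv₀ (Matrix.of g) (Matrix.of g')ᵀ i j

theorem IsRep.exists_twist (hb : LinearIndependent K b) (h : IsRep b G D M)
    (h' : IsRep b G D' M') (hp : Divisor.IsPrincipal (D - D')) :
    ∃ g g' : Matrix (Fin n) (Fin n) K, g.det ≠ 0 ∧ g'.det ≠ 0 ∧ M' = FiniteFlat.twist g g' M := by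
  obtain ⟨u', v', hu', hv', huv⟩ := h'.of_isPrincipal hp
  obtain ⟨g, g', hM, hg, hg'⟩ := h.exists_twist_of_mem hb (mem_of_span_eq hu'.2)
    (mem_of_span_eq hv'.2) huv
  exact ⟨g, g', hg hu'.1, hg' hv'.1, hM⟩

/-- The matrix determines the class. -/
theorem IsRep.isPrincipal_sub {c : ℕ} {χ : ℤ} (hRR : LargeRR K F c χ) (hn : 0 < n)
    (hD : (c : ℤ) + 1 ≤ Divisor.degree D) (hD' : (c : ℤ) + 1 ≤ Divisor.degree D')
    (h : IsRep b G D M) (h' : IsRep b G D' M) : Divisor.IsPrincipal (D - D') := by
  obtain ⟨u, v, hu, hv, huv⟩ := h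
  obtain ⟨u', v', hu', hv', huv'⟩ := h'
  have i₀ : Fin n := ⟨0, hn⟩
  have hu0 := hu.1.ne_zero i₀
  have hv0 := hv.1.ne_zero i₀
  have hu0' := hu'.1.ne_zero i₀
  have hv0' := hv'.1.ne_zero i₀
  set f := u' i₀ / u i₀ with hf
  have heq : ∀ i j, u i * v j = u' i * v' j := fun i j => by rw [huv, huv']
  have hfu : ∀ i, f * u i = u' i := by
    intro i
    have h1 := heq i i₀
    have h2 := heq i₀ i₀
    have : u' i₀ * u i * v i₀ = u i₀ * u' i * v i₀ := by
      calc u' i₀ * u i * v i₀ = u' i₀ * (u i * v i₀) := by ring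
        _ = u' i * (u' i₀ * v' i₀) := by rw [h1]; ring
        _ = _ := by rw [← h2]; ring
    rw [hf, div_mul_eq_mul_div, div_eq_iff hu0, mul_right_cancel₀ hv0 this, mul_comm]
  refine hRR.isPrincipal_of_map_eq D D' hD hD' (div_ne_zero hu0' hu0) ?_
  rw [← hu.2, ← hu'.2, Submodule.map_span, ← Set.range_comp]
  exact congrArg (fun x => Submodule.span K (Set.range x)) (funext hfu)

theorem exists_isRep (hbspan : Submodule.span K (Set.range b) = riemannRochSpace (G + G))
    (hfin : ∀ D : Divisor K F, FiniteDimensional K (riemannRochSpace D))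
    (hn : Module.finrank K (riemannRochSpace D) = n)
    (hn' : Module.finrank K (riemannRochSpace (G + G - D)) = n) :
    ∃ M : VMat n m K, IsRep b G D M := by
  haveI := hfin D
  haveI := hfin (G + G - D)
  set u := Module.finBasisOfFinrankEq K _ hn
  set v := Module.finBasisOfFinrankEq K _ hn'
  have hmem : ∀ p : Fin n × Fin n, (u p.1 : F) * (v p.2 : F) ∈ riemannRochSpace (G + G) := fun p => by
    simpa using rr_mul (u p.1).2 (v p.2).2
  choose M hM using fun p => (Submodule.mem_span_range_iff_exists_fun K).mp (hbspan ▸ hmem p)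
  have key : ∀ (W : Submodule K F) (w : Module.Basis (Fin n) K W),
      LinearIndependent K (fun i => (w i : F)) ∧
        Submodule.span K (Set.range fun i => (w i : F)) = W := fun W w =>
    ⟨w.linearIndependent.map' W.subtype W.ker_subtype, by
      rw [show (fun i => (w i : F)) = W.subtype ∘ w from rfl, Set.range_comp, ← Submodule.map_span,
        w.span_eq, Submodule.map_top, Submodule.range_subtype]⟩
  exact ⟨fun i j => M (i, j), _, _, key _ u, key _ v, fun i j => (hM (i, j)).symm⟩

/-- The functional "value at `P`". -/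
def valFun (b : Fin m → F) (P : Place K F) : Fin m → K := fun s => val P (b s)

theorem evMat_valFun {P : Place K F} (hP : P.deg = 1) (hG : (G + G) P = 0) (hD : D P = 0)
    (hbmem : ∀ s, b s ∈ riemannRochSpace (G + G)) {u v : Fin n → F}
    (hu : ∀ i, u i ∈ riemannRochSpace D) (hv : ∀ j, v j ∈ riemannRochSpace (G + G - D))
    (huv : ∀ i j, u i * v j = ∑ s, M i j s • b s) :
    evMat M (valFun b P) = vecMulVec (fun i => val P (u i)) (fun j => val P (v j)) := by
  ext i j
  have hE : (G + G - D) P = 0 := by rw [Finsupp.sub_apply, hG, hD, sub_zero]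
  have h1 := (hasValue_val hP hD (hu i)).mul (hasValue_val hP hE (hv j))
  have h2 : HasValue P (∑ s, M i j s • b s) (∑ s, M i j s * val P (b s)) :=
    val_sum_smul fun s => hasValue_val hP hG (hbmem s)
  rw [huv] at h1
  rw [vecMulVec_apply, h1.unique h2, evMat, Matrix.sum_apply]
  simp [valFun, mul_comm]

end Fermat.Agent.FiniteFlat
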