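import Fermat.Agent.FiniteFlat.Lift
import Fermat.Prelude.Def_AlgebraicCurve_BaseChangeGalois

/-!
# Semilinear automorphisms and divisor classes of multiplication matrices
-/

set_option autoImplicit false
set_option linter.unusedSectionVars false
set_option linter.style.haveILetI false

noncomputable section

namespace Fermat.Agent.FiniteFlat

open AlgebraicCurve Fermat.Agent.Reduction.Torsion

variable {K F : Type*} [Field K] [Field F] [Algebra K F]

theorem isPrincipal_neg {D : Divisor K F} (h : Divisor.IsPrincipal D) :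
    Divisor.IsPrincipal (-D) :=
  (Divisor.principal (K := K) (F := F)).neg_mem h

theorem isPrincipal_sub_comm {D E : Divisor K F} (h : Divisor.IsPrincipal (D - E)) :
    Divisor.IsPrincipal (E - D) := by
  simpa using isPrincipal_neg h

theorem isPrincipal_sub_of_mk_eq {D E : Divisor.degZero (K := K) (F := F)}
    (h : Pic0.mk D = Pic0.mk E) : Divisor.IsPrincipal ((D : Divisor K F) - (E : Divisor K F)) := by
  have := (QuotientAddGroup.eq_iff_sub_mem).mp h
  rwa [AddSubgroup.mem_addSubgroupOf, AddSubgroupClass.coe_sub] at this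

theorem mk_eq_of_isPrincipal_sub {D E : Divisor.degZero (K := K) (F := F)}
    (h : Divisor.IsPrincipal ((D : Divisor K F) - (E : Divisor K F))) : Pic0.mk D = Pic0.mk E := by
  refine (QuotientAddGroup.eq_iff_sub_mem).mpr ?_
  rwa [AddSubgroup.mem_addSubgroupOf, AddSubgroupClass.coe_sub]

variable (g : SemilinearAut K F)

theorem mem_rr_smul {D : Divisor K F} {f : F} (hf : f ∈ riemannRochSpace D) :
    g • f ∈ riemannRochSpace (g • D) := by
  refine mem_riemannRochSpace_iff.mpr fun w => ?_
  rcases eq_or_ne f 0 with rfl | hf0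
  · exact Or.inl (smul_zero g)
  right
  have h1 := (mem_riemannRochSpace_iff.mp hf (g⁻¹ • w)).resolve_left hf0
  have h2 := SemilinearAut.ord_smul g (g⁻¹ • w) f
  rw [smul_inv_smul] at h2
  rw [SemilinearAut.divisor_smul_apply, h2]
  exact h1

theorem smul_smul_const (a : K) (f : F) :
    g • (a • f) = SemilinearAut.baseAut g a • (g • f) := by
  rw [Algebra.smul_def, smul_mul', SemilinearAut.smul_algebraMap, ← Algebra.smul_def]

theorem smul_sum_smul {ι : Type*} [Fintype ι] (x : ι → K) (u : ι → F) :
    g • (∑ i, x i • u i) = ∑ i, SemilinearAut.baseAut g (x i) • (g • u i) := by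
  rw [Finset.smul_sum]
  exact Finset.sum_congr rfl fun i _ => smul_smul_const g _ _

theorem li_span_smul {ι : Type*} [Fintype ι] {u : ι → F} {D : Divisor K F}
    (hu : LinearIndependent K u) (hs : Submodule.span K (Set.range u) = riemannRochSpace D) :
    LinearIndependent K (fun i => g • u i) ∧
      Submodule.span K (Set.range fun i => g • u i) = riemannRochSpace (g • D) := by
  constructor
  · rw [Fintype.linearIndependent_iff]
    intro x hx i
    have h1 : g • (∑ i, (SemilinearAut.baseAut g).symm (x i) • u i) = 0 := by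
      rw [smul_sum_smul]; simpa using hx
    have h2 := Fintype.linearIndependent_iff.mp hu _ ((smul_eq_zero_iff_eq g).mp h1) i
    simpa using h2
  · refine le_antisymm (Submodule.span_le.mpr (Set.range_subset_iff.mpr fun i =>
      mem_rr_smul g (mem_of_span_eq hs i))) fun f hf => ?_
    have h1 := mem_rr_smul g⁻¹ hf
    rw [inv_smul_smul, ← hs, Submodule.mem_span_range_iff_exists_fun] at h1
    obtain ⟨x, hx⟩ := h1
    rw [Submodule.mem_span_range_iff_exists_fun]
    exact ⟨fun i => SemilinearAut.baseAut g (x i), by rw [← smul_sum_smul, hx, smul_inv_smul]⟩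

variable {n m : ℕ} {b : Fin m → F} {G D : Divisor K F} {M : VMat n m K}

theorem IsRep.semilinear (h : IsRep b G D M) (hG : g • G = G) (hb : ∀ s, g • b s = b s) :
    IsRep b G (g • D) (mapV (SemilinearAut.baseAut g) M) := by
  obtain ⟨u, v, hu, hv, huv⟩ := h
  refine ⟨fun i => g • u i, fun j => g • v j, li_span_smul g hu.1 hu.2, ?_, fun i j => ?_⟩
  · have := li_span_smul g hv.1 hv.2
    rwa [smul_sub, smul_add, hG] at this
  · rw [← smul_mul', huv, smul_sum_smul]
    simp only [hb, mapV]

end Fermat.Agent.FiniteFlat
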